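import Mathlib

/-!
# Reciprocity over `ℚ`: the arithmetic core (REC-CORE)

For a prime `ℓ`, a homomorphism `ψ : (ℤ/ℓ)ˣ → ℤ/p` (`p` odd) and `b ∈ ℚˣ`:

  `∑_{q ≠ ℓ} v_q(b) ψ(q mod ℓ) = ψ(u mod ℓ)`,   `u = b / ℓ^{v_ℓ(b)}`.

* `psi0 ψ : ZMod ℓ → ZMod p` : `ψ` extended by `0` to `0` (additive notation);
* `Psi ψ b` : the left-hand side, a `finsum` over all primes;
* `Psi_mul`, `Psi_natCast`, `Psi_self`, `Psi_eq_of_padicValRat_eq_zero`, `Psi_eq`.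
-/

set_option autoImplicit false

namespace Fermat.Agent.CFT.Rec.Core

variable (ℓ : ℕ) [Fact ℓ.Prime] {p : ℕ}

/-- `ψ` extended by zero, in additive notation. -/
noncomputable def psi0 (ψ : (ZMod ℓ)ˣ →* Multiplicative (ZMod p)) (a : ZMod ℓ) : ZMod p :=
  open Classical in if h : a = 0 then 0 else Multiplicative.toAdd (ψ (Units.mk0 a h))

variable {ℓ} (ψ : (ZMod ℓ)ˣ →* Multiplicative (ZMod p))

lemma psi0_of_ne {a : ZMod ℓ} (h : a ≠ 0) :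
    psi0 ℓ ψ a = Multiplicative.toAdd (ψ (Units.mk0 a h)) := by
  simp [psi0, h]

lemma psi0_mul {a b : ZMod ℓ} (ha : a ≠ 0) (hb : b ≠ 0) :
    psi0 ℓ ψ (a * b) = psi0 ℓ ψ a + psi0 ℓ ψ b := by
  rw [psi0_of_ne ψ (mul_ne_zero ha hb), psi0_of_ne ψ ha, psi0_of_ne ψ hb, ← toAdd_mul, ← map_mul]
  congr 2
  ext
  simp

lemma psi0_one : psi0 ℓ ψ 1 = 0 := by
  rw [psi0_of_ne ψ one_ne_zero]
  have : Units.mk0 (1 : ZMod ℓ) one_ne_zero = 1 := by ext; simp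
  rw [this, map_one]; rfl

lemma psi0_inv {a : ZMod ℓ} (ha : a ≠ 0) : psi0 ℓ ψ a⁻¹ = - psi0 ℓ ψ a := by
  have h := psi0_mul ψ ha (inv_ne_zero ha)
  rw [mul_inv_cancel₀ ha, psi0_one] at h
  exact eq_neg_of_add_eq_zero_right h.symm

lemma psi0_div {a b : ZMod ℓ} (ha : a ≠ 0) (hb : b ≠ 0) :
    psi0 ℓ ψ (a / b) = psi0 ℓ ψ a - psi0 ℓ ψ b := by
  rw [div_eq_mul_inv, psi0_mul ψ ha (inv_ne_zero hb), psi0_inv ψ hb, sub_eq_add_neg]

lemma psi0_pow {a : ZMod ℓ} (ha : a ≠ 0) (n : ℕ) : psi0 ℓ ψ (a ^ n) = n • psi0 ℓ ψ a := by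
  induction n with
  | zero => simp [psi0_one]
  | succ n ih => rw [pow_succ, psi0_mul ψ (pow_ne_zero _ ha) ha, ih, succ_nsmul]

lemma psi0_neg_one [Fact p.Prime] (hp2 : p ≠ 2) : psi0 ℓ ψ (-1) = 0 := by
  have h1 : (-1 : ZMod ℓ) ≠ 0 := neg_ne_zero.2 one_ne_zero
  have h := psi0_mul ψ h1 h1
  rw [neg_one_mul, neg_neg, psi0_one] at h
  have h2 : (2 : ZMod p) * psi0 ℓ ψ (-1) = 0 := by rw [two_mul]; exact h.symm
  have h3 : (2 : ZMod p) ≠ 0 := by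
    intro h4
    have h5 : ((2 : ℕ) : ZMod p) = 0 := by exact_mod_cast h4
    rw [ZMod.natCast_eq_zero_iff] at h5
    exact hp2 ((Nat.prime_dvd_prime_iff_eq Fact.out Nat.prime_two).1 h5)
  exact (mul_eq_zero.1 h2).resolve_left h3

variable (ℓ) in
/-- `Ψ(b) = ∑_{q ≠ ℓ} v_q(b) ψ(q mod ℓ)`. -/
noncomputable def Psi (ψ : (ZMod ℓ)ˣ →* Multiplicative (ZMod p)) (b : ℚ) : ZMod p :=
  ∑ᶠ q : Nat.Primes,
    (if (q : ℕ) = ℓ then 0 else (padicValRat (q : ℕ) b : ZMod p) * psi0 ℓ ψ ((q : ℕ) : ZMod ℓ))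

/-- The primes at which a non-zero rational number has non-zero valuation are finite in number. -/
lemma finite_padicValRat_ne_zero {b : ℚ} (hb : b ≠ 0) :
    {q : Nat.Primes | padicValRat (q : ℕ) b ≠ 0}.Finite := by
  have hfin : {n : ℕ | n ∣ b.num.natAbs * b.den}.Finite := by
    refine Set.Finite.subset (Finset.finite_toSet (Finset.range (b.num.natAbs * b.den + 1))) ?_
    intro n hn
    have hpos : 0 < b.num.natAbs * b.den :=
      Nat.mul_pos (Int.natAbs_pos.2 (Rat.num_ne_zero.2 hb)) b.den_pos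
    exact Finset.mem_coe.2 (Finset.mem_range.2 (Nat.lt_succ_of_le (Nat.le_of_dvd hpos hn)))
  refine Set.Finite.subset (hfin.preimage (f := fun q : Nat.Primes => (q : ℕ))
    (fun a _ b _ h => Subtype.ext h)) ?_
  intro q hq
  simp only [Set.mem_preimage, Set.mem_ofPred_eq] at hq ⊢
  by_contra hnd
  apply hq
  have h1 : ¬ (q : ℕ) ∣ b.num.natAbs := fun h => hnd (Dvd.dvd.mul_right h _)
  have h2 : ¬ (q : ℕ) ∣ b.den := fun h => hnd (Dvd.dvd.mul_left h _)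
  rw [padicValRat, padicValInt, padicValNat.eq_zero_of_not_dvd h1,
    padicValNat.eq_zero_of_not_dvd h2]
  simp

lemma Psi_mul {b b' : ℚ} (hb : b ≠ 0) (hb' : b' ≠ 0) :
    Psi ℓ ψ (b * b') = Psi ℓ ψ b + Psi ℓ ψ b' := by
  unfold Psi
  rw [← finsum_add_distrib]
  · refine finsum_congr fun q => ?_
    have : Fact (q : ℕ).Prime := ⟨q.2⟩
    by_cases hq : (q : ℕ) = ℓ
    · simp [hq]
    · simp only [if_neg hq]
      rw [padicValRat.mul hb hb']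
      push_cast
      ring
  · refine (finite_padicValRat_ne_zero hb).subset fun q hq => ?_
    simp only [Function.mem_support, ne_eq] at hq
    intro h
    apply hq
    simp [h]
  · refine (finite_padicValRat_ne_zero hb').subset fun q hq => ?_
    simp only [Function.mem_support, ne_eq] at hq
    intro h
    apply hq
    simp [h]

lemma Psi_one : Psi ℓ ψ 1 = 0 := by
  unfold Psi
  simp

lemma Psi_prime (q : Nat.Primes) (hq : (q : ℕ) ≠ ℓ) :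
    Psi ℓ ψ ((q : ℕ) : ℚ) = psi0 ℓ ψ ((q : ℕ) : ZMod ℓ) := by
  unfold Psi
  rw [finsum_eq_single _ q]
  · have : Fact (q : ℕ).Prime := ⟨q.2⟩
    rw [if_neg hq, padicValRat.of_nat, padicValNat_self]
    simp
  · intro r hr
    by_cases hrl : (r : ℕ) = ℓ
    · simp [hrl]
    · rw [if_neg hrl, padicValRat.of_nat]
      have h1 : ¬ (r : ℕ) ∣ (q : ℕ) := fun h =>
        hr (Subtype.ext ((Nat.prime_dvd_prime_iff_eq r.2 q.2).1 h))
      rw [padicValNat.eq_zero_of_not_dvd h1]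
      simp

lemma Psi_self : Psi ℓ ψ ((ℓ : ℕ) : ℚ) = 0 := by
  unfold Psi
  refine finsum_eq_zero_of_forall_eq_zero fun r => ?_
  by_cases hrl : (r : ℕ) = ℓ
  · simp [hrl]
  · rw [if_neg hrl, padicValRat.of_nat]
    have h1 : ¬ (r : ℕ) ∣ (ℓ : ℕ) := fun h =>
      hrl ((Nat.prime_dvd_prime_iff_eq r.2 Fact.out).1 h)
    rw [padicValNat.eq_zero_of_not_dvd h1]
    simp

lemma Psi_neg_one : Psi ℓ ψ (-1) = 0 := by
  unfold Psi
  refine finsum_eq_zero_of_forall_eq_zero fun r => ?_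
  have : Fact (r : ℕ).Prime := ⟨r.2⟩
  simp [padicValRat.neg]

/-- On natural numbers prime to `ℓ`, `Ψ` is `ψ` of the residue class. -/
lemma Psi_natCast (n : ℕ) (hn : n ≠ 0) (hℓ : ¬ (ℓ : ℕ) ∣ n) :
    Psi ℓ ψ (n : ℚ) = psi0 ℓ ψ (n : ZMod ℓ) := by
  induction n using Nat.recOnMul with
  | zero => exact absurd rfl hn
  | one => simp [Psi_one, psi0_one]
  | prime q hq =>
    have hqℓ : q ≠ ℓ := fun h => hℓ (by rw [← h])
    exact Psi_prime ψ ⟨q, hq⟩ hqℓ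
  | mul a b iha ihb =>
    have ha : a ≠ 0 := fun h => hn (by simp [h])
    have hb : b ≠ 0 := fun h => hn (by simp [h])
    have haℓ : ¬ (ℓ : ℕ) ∣ a := fun h => hℓ (Dvd.dvd.mul_right h _)
    have hbℓ : ¬ (ℓ : ℕ) ∣ b := fun h => hℓ (Dvd.dvd.mul_left h _)
    have ha' : ((a : ℕ) : ZMod ℓ) ≠ 0 := fun h => haℓ ((ZMod.natCast_eq_zero_iff _ _).1 h)
    have hb' : ((b : ℕ) : ZMod ℓ) ≠ 0 := fun h => hbℓ ((ZMod.natCast_eq_zero_iff _ _).1 h)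
    rw [Nat.cast_mul, Psi_mul ψ (by exact_mod_cast ha) (by exact_mod_cast hb), iha ha haℓ,
      ihb hb hbℓ, Nat.cast_mul, psi0_mul ψ ha' hb']

/-- On `ℓ`-adic units of `ℚ`, `Ψ` is `ψ` of the residue class `num / den`. -/
theorem Psi_eq_natAbs_of_padicValRat_eq_zero {u : ℚ} (hu : u ≠ 0)
    (hv : padicValRat (ℓ : ℕ) u = 0) :
    ((u.num.natAbs : ℕ) : ZMod ℓ) ≠ 0 ∧ ((u.den : ℕ) : ZMod ℓ) ≠ 0 ∧
    Psi ℓ ψ u = psi0 ℓ ψ ((u.num.natAbs : ZMod ℓ) / (u.den : ZMod ℓ)) := by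
  have hnum : u.num.natAbs ≠ 0 := Int.natAbs_ne_zero.2 (Rat.num_ne_zero.2 hu)
  have hden : u.den ≠ 0 := u.den_nz
  -- `ℓ` divides neither numerator nor denominator
  have hcop : Nat.Coprime u.num.natAbs u.den := u.reduced
  have hval : (padicValNat (ℓ : ℕ) u.num.natAbs : ℤ) = padicValNat (ℓ : ℕ) u.den := by
    have h := hv
    rw [padicValRat, padicValInt] at h
    exact sub_eq_zero.1 h
  have hℓnum : ¬ (ℓ : ℕ) ∣ u.num.natAbs := by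
    intro h
    have h1 : 1 ≤ padicValNat (ℓ : ℕ) u.num.natAbs :=
      one_le_padicValNat_of_dvd hnum h
    have h2 : 1 ≤ padicValNat (ℓ : ℕ) u.den := by
      have : (padicValNat (ℓ : ℕ) u.num.natAbs) = padicValNat (ℓ : ℕ) u.den := by exact_mod_cast hval
      omega
    have h3 : (ℓ : ℕ) ∣ u.den := dvd_of_one_le_padicValNat h2
    exact (Fact.out : ℓ.Prime).one_lt.ne' (Nat.eq_one_of_dvd_coprimes hcop h h3)
  have hℓden : ¬ (ℓ : ℕ) ∣ u.den := by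
    intro h
    have h2 : 1 ≤ padicValNat (ℓ : ℕ) u.den := one_le_padicValNat_of_dvd hden h
    have h1 : 1 ≤ padicValNat (ℓ : ℕ) u.num.natAbs := by
      have : (padicValNat (ℓ : ℕ) u.num.natAbs) = padicValNat (ℓ : ℕ) u.den := by exact_mod_cast hval
      omega
    exact hℓnum (dvd_of_one_le_padicValNat h1)
  have hn' : ((u.num.natAbs : ℕ) : ZMod ℓ) ≠ 0 := fun h => hℓnum ((ZMod.natCast_eq_zero_iff _ _).1 h)
  have hd' : ((u.den : ℕ) : ZMod ℓ) ≠ 0 := fun h => hℓden ((ZMod.natCast_eq_zero_iff _ _).1 h)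
  -- `u = ± num / den`
  have hdq : ((u.den : ℕ) : ℚ) ≠ 0 := by exact_mod_cast hden
  have hnq : ((u.num.natAbs : ℕ) : ℚ) ≠ 0 := by exact_mod_cast hnum
  have key : Psi ℓ ψ u + Psi ℓ ψ (u.den : ℚ) = Psi ℓ ψ (u.num.natAbs : ℚ) := by
    rw [← Psi_mul ψ hu hdq]
    have h1 : u * (u.den : ℚ) = (u.num : ℚ) := Rat.mul_den_eq_num u
    rw [h1]
    rcases Int.natAbs_eq u.num with h | h
    · rw [h]; simp
    · have gen : ∀ (z : ℤ) (n : ℕ), z = -(n : ℤ) → ((z : ℤ) : ℚ) = (-1 : ℚ) * (n : ℚ) := by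
        intro z n hz; rw [hz]; push_cast; ring
      rw [gen u.num u.num.natAbs h, Psi_mul ψ (by norm_num) hnq, Psi_neg_one, zero_add]
  refine ⟨hn', hd', ?_⟩
  rw [psi0_div ψ hn' hd', ← Psi_natCast ψ _ hnum hℓnum, ← Psi_natCast ψ _ hden hℓden, ← key]
  ring

/-- On `ℓ`-adic units of `ℚ`, `Ψ` is `ψ` of the residue class `num / den` (`p` odd). -/
theorem Psi_eq_of_padicValRat_eq_zero [Fact p.Prime] (hp2 : p ≠ 2) {u : ℚ} (hu : u ≠ 0)
    (hv : padicValRat (ℓ : ℕ) u = 0) :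
    Psi ℓ ψ u = psi0 ℓ ψ (((u.num : ℤ) : ZMod ℓ) / (u.den : ZMod ℓ)) := by
  obtain ⟨hn', hd', h⟩ := Psi_eq_natAbs_of_padicValRat_eq_zero ψ hu hv
  rw [h]
  rcases Int.natAbs_eq u.num with h1 | h1
  · have gen : ∀ (z : ℤ) (n : ℕ), z = (n : ℤ) → ((z : ℤ) : ZMod ℓ) = ((n : ℕ) : ZMod ℓ) := by
      intro z n hz; rw [hz]; push_cast; rfl
    rw [gen u.num u.num.natAbs h1]
  · have gen : ∀ (z : ℤ) (n : ℕ), z = -(n : ℤ) →
        ((z : ℤ) : ZMod ℓ) = (-1) * ((n : ℕ) : ZMod ℓ) := by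
      intro z n hz; rw [hz]; push_cast; ring
    have h3 : (-1 : ZMod ℓ) ≠ 0 := neg_ne_zero.2 one_ne_zero
    rw [gen u.num u.num.natAbs h1, mul_div_assoc, psi0_mul ψ h3 (div_ne_zero hn' hd'),
      psi0_neg_one ψ hp2, zero_add]

/-- **REC-CORE.**  `∑_{q ≠ ℓ} v_q(b) ψ(q) = ψ(u mod ℓ)` for `u = b / ℓ^{v_ℓ(b)}`. -/
theorem Psi_eq {b : ℚ} (hb : b ≠ 0) :
    Psi ℓ ψ b = Psi ℓ ψ (b * ((ℓ : ℕ) : ℚ) ^ (-(padicValRat (ℓ : ℕ) b))) := by
  have hℓ0 : (((ℓ : ℕ) : ℚ)) ≠ 0 := by exact_mod_cast (Fact.out : ℓ.Prime).ne_zero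
  have hz : ∀ z : ℤ, Psi ℓ ψ (((ℓ : ℕ) : ℚ) ^ z) = 0 := by
    have hn : ∀ n : ℕ, Psi ℓ ψ (((ℓ : ℕ) : ℚ) ^ n) = 0 := by
      intro n
      induction n with
      | zero => simp [Psi_one]
      | succ n ih => rw [pow_succ, Psi_mul ψ (pow_ne_zero _ hℓ0) hℓ0, ih, Psi_self, add_zero]
    intro z
    rcases Int.eq_nat_or_neg z with ⟨n, rfl | rfl⟩
    · rw [zpow_natCast]; exact hn n
    · have h1 := Psi_mul ψ (zpow_ne_zero (-(n : ℤ)) hℓ0) (pow_ne_zero n hℓ0)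
      rw [zpow_neg, zpow_natCast, inv_mul_cancel₀ (pow_ne_zero n hℓ0), Psi_one, hn n, add_zero] at h1
      rw [zpow_neg, zpow_natCast]
      exact h1.symm
  rw [Psi_mul ψ hb (zpow_ne_zero _ hℓ0), hz, add_zero]

end Fermat.Agent.CFT.Rec.Core
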