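import Mathlib
import Fermat.Agent.Lib.CycloChar
import Fermat.Prelude.Def_GroupCohomology_ContinuousUnramified

/-!
# CFT / Rec / Cyclo (brick REC-CYC): the mod-`ℓ` cyclotomic character of `G_ℚ`

`Qb := AlgebraicClosure ℚ`, `GQ := Qb ≃ₐ[ℚ] Qb`, `ℓ` a prime.

* `cycMod ℓ : GQ →* (ZMod ℓ)ˣ`, with `cycMod_spec` (action on `ℓ`-th roots of unity),
  `cycMod_frobenius` (value `q` at a Frobenius element over `q ≠ ℓ`), `cycMod_inertia`
  (trivial on inertia over `q ≠ ℓ`), `cycMod_surjective`;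
* `cycloField ℓ = ℚ(ζ_ℓ)`: `cycMod_eq_one_iff`, finite-dimensional, unramified outside `ℓ`;
* `exists_surjective_hom`: a surjection `(ZMod ℓ)ˣ → ZMod p` when `p ∣ ℓ - 1`;
* `exists_cyclic_norm_eq`: `ℓ` is a norm from the fixed field of the kernel of `ψ ∘ cycMod ℓ`.
-/

set_option autoImplicit false

namespace Fermat.Agent.CFT.Rec.Cyclo

open Fermat.Agent.Lib.CycloChar

local notation "Qb" => AlgebraicClosure ℚ
local notation "GQ" => (AlgebraicClosure ℚ ≃ₐ[ℚ] AlgebraicClosure ℚ)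

private theorem isAlgClosure_rat_aux : IsAlgClosure ℚ (AlgebraicClosure ℚ) := by
  have h : (DivisionRing.toRatAlgebra : Algebra ℚ (AlgebraicClosure ℚ)) =
      AlgebraicClosure.instAlgebra ℚ := Subsingleton.elim _ _
  rw [h]; infer_instance

attribute [local instance] isAlgClosure_rat_aux

variable (ℓ : ℕ) [hℓ : Fact ℓ.Prime]

theorem exists_zeta : ∃ ζ : Qb, IsPrimitiveRoot ζ ℓ := by
  have : NeZero ((ℓ : ℕ) : Qb) := ⟨by exact_mod_cast hℓ.out.ne_zero⟩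
  exact HasEnoughRootsOfUnity.exists_primitiveRoot Qb ℓ

/-- A chosen primitive `ℓ`-th root of unity. -/
noncomputable def zeta : Qb := (exists_zeta ℓ).choose

theorem zeta_spec : IsPrimitiveRoot (zeta ℓ) ℓ := (exists_zeta ℓ).choose_spec

theorem zeta_pow : zeta ℓ ^ ℓ = 1 := (zeta_spec ℓ).pow_eq_one

instance : NeZero ℓ := ⟨hℓ.out.ne_zero⟩

/-- The mod-`ℓ` cyclotomic character of `G_ℚ`. -/
noncomputable def cycMod : GQ →* (ZMod ℓ)ˣ := (zeta_spec ℓ).autToPow ℚ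

theorem cycMod_zeta (σ : GQ) : σ (zeta ℓ) = zeta ℓ ^ ((cycMod ℓ σ : (ZMod ℓ)ˣ) : ZMod ℓ).val :=
  ((zeta_spec ℓ).autToPow_spec ℚ σ).symm

/-- The defining property: the action on `ℓ`-th roots of unity. -/
theorem cycMod_spec (σ : GQ) {t : Qb} (ht : t ^ ℓ = 1) :
    σ t = t ^ ((cycMod ℓ σ : (ZMod ℓ)ˣ) : ZMod ℓ).val := by
  obtain ⟨i, -, rfl⟩ := (zeta_spec ℓ).eq_pow_of_pow_eq_one ht
  rw [map_pow, cycMod_zeta, ← pow_mul, ← pow_mul, mul_comm]

theorem zeta_pow_eq_iff (a b : ℕ) :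
    zeta ℓ ^ a = zeta ℓ ^ b ↔ (a : ZMod ℓ) = (b : ZMod ℓ) := by
  rw [((zeta_spec ℓ).isOfFinOrder hℓ.out.ne_zero).pow_eq_pow_iff_modEq,
    ← (zeta_spec ℓ).eq_orderOf, ZMod.natCast_eq_natCast_iff]

/-- `cycMod ℓ σ` is the exponent of the action of `σ` on `zeta ℓ`. -/
theorem cycMod_eq_of_pow (σ : GQ) (a : ℕ) (h : σ (zeta ℓ) = zeta ℓ ^ a) :
    ((cycMod ℓ σ : (ZMod ℓ)ˣ) : ZMod ℓ) = a := by
  have h1 := cycMod_zeta ℓ σ
  rw [h] at h1
  have h2 := (zeta_pow_eq_iff ℓ _ _).mp h1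
  rw [ZMod.natCast_zmod_val] at h2
  exact h2.symm

/-- `cycMod ℓ` takes the value `q` at every Frobenius element over a prime `q ≠ ℓ`. -/
theorem cycMod_frobenius {q : ℕ} (hq : q.Prime) (hqℓ : q ≠ ℓ) (A : ValuationSubring Qb)
    (hA : A.LiesOverPrime q) (σ : GQ) (hσ : A.IsFrobeniusAt σ q) :
    ((cycMod ℓ σ : (ZMod ℓ)ˣ) : ZMod ℓ) = q := by
  apply cycMod_eq_of_pow
  exact frob_root A hA σ hσ ((Nat.coprime_primes hℓ.out hq).mpr (Ne.symm hqℓ)) (zeta_pow ℓ)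

/-- `cycMod ℓ` is trivial on the inertia groups over primes `q ≠ ℓ`. -/
theorem cycMod_inertia {q : ℕ} (hq : q.Prime) (hqℓ : q ≠ ℓ) (A : ValuationSubring Qb)
    (hA : A.LiesOverPrime q) (σ : GQ) (hσ : σ ∈ A.inertiaSubgroupIn ℚ) : cycMod ℓ σ = 1 := by
  apply Units.ext
  rw [Units.val_one]
  have h := cycMod_eq_of_pow ℓ σ 1 (by
    rw [pow_one]
    exact inertia_root A hA σ hσ ((Nat.coprime_primes hℓ.out hq).mpr (Ne.symm hqℓ)) (zeta_pow ℓ))
  rw [h, Nat.cast_one]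

/-! ### The field `ℚ(ζ_ℓ)` -/

/-- The field `ℚ(ζ_ℓ)` inside `AlgebraicClosure ℚ`. -/
noncomputable def cycloField : IntermediateField ℚ Qb :=
  IntermediateField.adjoin ℚ {zeta ℓ}

theorem zeta_mem_cycloField : zeta ℓ ∈ cycloField ℓ :=
  IntermediateField.mem_adjoin_simple_self ℚ (zeta ℓ)

theorem finiteDimensional_cycloField : FiniteDimensional ℚ (cycloField ℓ) := by
  apply IntermediateField.adjoin.finiteDimensional
  exact ((zeta_spec ℓ).isIntegral hℓ.out.pos).tower_top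

omit hℓ in
/-- An automorphism fixes `ℚ(z)` pointwise iff it fixes `z`. -/
theorem mem_fixingSubgroup_adjoin_singleton (σ : GQ) (z : Qb) :
    σ ∈ (IntermediateField.adjoin ℚ {z}).fixingSubgroup ↔ σ z = z := by
  rw [IntermediateField.mem_fixingSubgroup_iff]
  constructor
  · intro h
    exact h z (IntermediateField.mem_adjoin_simple_self ℚ z)
  · intro h x hx
    induction hx using IntermediateField.adjoin_induction with
    | mem x hx =>
      rw [Set.mem_singleton_iff] at hx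
      rw [hx]; exact h
    | algebraMap x => exact σ.commutes x
    | add x y _ _ hx hy =>
      show σ (x + y) = x + y
      rw [map_add]
      exact congrArg₂ (· + ·) hx hy
    | inv x _ hx =>
      show σ x⁻¹ = x⁻¹
      rw [map_inv₀]
      exact congrArg (·⁻¹) hx
    | mul x y _ _ hx hy =>
      show σ (x * y) = x * y
      rw [map_mul]
      exact congrArg₂ (· * ·) hx hy

/-- `cycMod ℓ σ = 1` iff `σ` fixes `ℚ(ζ_ℓ)`. -/
theorem cycMod_eq_one_iff (σ : GQ) : cycMod ℓ σ = 1 ↔ σ ∈ (cycloField ℓ).fixingSubgroup := by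
  rw [cycloField, mem_fixingSubgroup_adjoin_singleton]
  constructor
  · intro h
    have h1 := cycMod_zeta ℓ σ
    rw [h, Units.val_one, ZMod.val_one, pow_one] at h1
    exact h1
  · intro h
    apply Units.ext
    rw [Units.val_one]
    have h1 := cycMod_eq_of_pow ℓ σ 1 (by rw [pow_one, h])
    rw [h1, Nat.cast_one]

/-- `ℚ(ζ_ℓ)` is unramified outside `ℓ`, in the sense of the prelude. -/
theorem cycloField_isUnramifiedOutside :
    (cycloField ℓ).IsUnramifiedOutside {(⟨ℓ, hℓ.out⟩ : Nat.Primes)} := by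
  refine ⟨finiteDimensional_cycloField ℓ, fun q hq A hA σ hσ => ?_⟩
  rw [← cycMod_eq_one_iff]
  refine cycMod_inertia ℓ q.2 ?_ A hA σ hσ
  intro h
  exact hq (Finset.mem_singleton.mpr (Subtype.ext h))

/-! ### Surjectivity -/

/-- `cycMod ℓ` is surjective (irreducibility of the cyclotomic polynomial). -/
theorem cycMod_surjective : Function.Surjective (cycMod ℓ) := by
  intro a
  have hcop : Nat.Coprime ((a : ZMod ℓ).val) ℓ := ZMod.val_coe_unit_coprime a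
  have hprim : IsPrimitiveRoot (zeta ℓ ^ (a : ZMod ℓ).val) ℓ := (zeta_spec ℓ).pow_of_coprime _ hcop
  have hmin : minpoly ℚ (zeta ℓ) = minpoly ℚ (zeta ℓ ^ (a : ZMod ℓ).val) := by
    rw [← Polynomial.cyclotomic_eq_minpoly_rat (zeta_spec ℓ) hℓ.out.pos,
      ← Polynomial.cyclotomic_eq_minpoly_rat hprim hℓ.out.pos]
  have hconj : IsConjRoot ℚ (zeta ℓ) (zeta ℓ ^ (a : ZMod ℓ).val) := hmin
  obtain ⟨σ, hσ⟩ := IsConjRoot.exists_algEquiv hconj.symm
  refine ⟨σ, ?_⟩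
  apply Units.ext
  have h1 := cycMod_eq_of_pow ℓ σ _ hσ
  rw [h1, ZMod.natCast_zmod_val]

/-! ### Characters of order `p` and the norm of `1 - ζ` -/

/-- If `p ∣ ℓ - 1` there is a surjective homomorphism `(ZMod ℓ)ˣ → ZMod p`. -/
theorem exists_surjective_hom (p : ℕ) [NeZero p] (h : p ∣ ℓ - 1) :
    ∃ ψ : (ZMod ℓ)ˣ →* Multiplicative (ZMod p), Function.Surjective ψ := by
  obtain ⟨g, hg⟩ := IsCyclic.exists_generator (α := (ZMod ℓ)ˣ)
  have hord : orderOf g = ℓ - 1 := by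
    rw [orderOf_eq_card_of_forall_mem_zpowers hg, Nat.card_eq_fintype_card,
      ZMod.card_units_eq_totient, Nat.totient_prime hℓ.out]
  have hg' : orderOf (Multiplicative.ofAdd (1 : ZMod p)) ∣ orderOf g := by
    rw [hord, orderOf_ofAdd_eq_addOrderOf, ZMod.addOrderOf_one]
    exact h
  refine ⟨monoidHomOfForallMemZpowers hg hg', fun x => ⟨g ^ (Multiplicative.toAdd x).val, ?_⟩⟩
  rw [map_pow, monoidHomOfForallMemZpowers_apply_gen, ← ofAdd_nsmul, nsmul_eq_mul, mul_one,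
    ZMod.natCast_zmod_val]
  rfl

/-- The factor `1 - ζ ^ a`. -/
noncomputable def oneSub (a : (ZMod ℓ)ˣ) : Qb := 1 - zeta ℓ ^ ((a : ZMod ℓ)).val

theorem oneSub_ne_zero (a : (ZMod ℓ)ˣ) : oneSub ℓ a ≠ 0 := by
  intro h
  have h1 : zeta ℓ ^ ((a : ZMod ℓ)).val = zeta ℓ ^ 0 := by
    rw [pow_zero]
    exact (sub_eq_zero.mp h).symm
  have h2 := (zeta_pow_eq_iff ℓ _ _).mp h1
  rw [ZMod.natCast_zmod_val, Nat.cast_zero] at h2
  exact a.ne_zero h2

theorem apply_oneSub (g : GQ) (a : (ZMod ℓ)ˣ) : g (oneSub ℓ a) = oneSub ℓ (cycMod ℓ g * a) := by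
  unfold oneSub
  rw [map_sub, map_one, map_pow, cycMod_zeta, ← pow_mul]
  congr 1
  rw [zeta_pow_eq_iff]
  push_cast
  rw [ZMod.natCast_zmod_val, ZMod.natCast_zmod_val, ZMod.natCast_zmod_val]

/-- `∏_{a ∈ (ℤ/ℓ)ˣ} (1 - ζ^a) = ℓ`. -/
theorem prod_oneSub : ∏ a : (ZMod ℓ)ˣ, oneSub ℓ a = (ℓ : Qb) := by
  have hℓ1 : ℓ - 1 + 1 = ℓ := Nat.sub_add_cancel hℓ.out.pos
  have hprim : IsPrimitiveRoot (zeta ℓ) (ℓ - 1 + 1) := by rw [hℓ1]; exact zeta_spec ℓ
  have key := hprim.prod_one_sub_pow_eq_order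
  have hcast : ((ℓ - 1 : ℕ) : Qb) + 1 = (ℓ : Qb) := by
    rw [← Nat.cast_add_one, hℓ1]
  rw [hcast] at key
  rw [← key]
  have hcop : ∀ k ∈ Finset.range (ℓ - 1), Nat.Coprime (k + 1) ℓ := by
    intro k hk
    have hk' : k + 1 < ℓ := by have := Finset.mem_range.mp hk; omega
    exact ((Nat.Prime.coprime_iff_not_dvd hℓ.out).mpr
      (Nat.not_dvd_of_pos_of_lt (Nat.succ_pos k) hk')).symm
  refine Finset.prod_nbij' (fun a => ((a : ZMod ℓ)).val - 1)
    (fun k => if h : Nat.Coprime (k + 1) ℓ then ZMod.unitOfCoprime (k + 1) h else 1) ?_ ?_ ?_ ?_ ?_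
  · intro a _
    have h1 : ((a : ZMod ℓ)).val < ℓ := ZMod.val_lt _
    have h2 : 0 < ((a : ZMod ℓ)).val := by
      rw [Nat.pos_iff_ne_zero, Ne, ZMod.val_eq_zero]
      exact a.ne_zero
    exact Finset.mem_range.mpr (by omega)
  · intro k _
    exact Finset.mem_univ _
  · intro a _
    have h2 : 0 < ((a : ZMod ℓ)).val := by
      rw [Nat.pos_iff_ne_zero, Ne, ZMod.val_eq_zero]
      exact a.ne_zero
    have h3 : ((a : ZMod ℓ)).val - 1 + 1 = ((a : ZMod ℓ)).val := by omega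
    have hc : Nat.Coprime (((a : ZMod ℓ)).val - 1 + 1) ℓ := by
      rw [h3]; exact ZMod.val_coe_unit_coprime a
    rw [dif_pos hc]
    apply Units.ext
    rw [ZMod.coe_unitOfCoprime, h3, ZMod.natCast_zmod_val]
  · intro k hk
    have hk' : k + 1 < ℓ := by have := Finset.mem_range.mp hk; omega
    rw [dif_pos (hcop k hk), ZMod.coe_unitOfCoprime, ZMod.val_cast_of_lt hk']
    rfl
  · intro a _
    have h2 : 0 < ((a : ZMod ℓ)).val := by
      rw [Nat.pos_iff_ne_zero, Ne, ZMod.val_eq_zero]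
      exact a.ne_zero
    have h3 : ((a : ZMod ℓ)).val - 1 + 1 = ((a : ZMod ℓ)).val := by omega
    show oneSub ℓ a = 1 - zeta ℓ ^ (((a : ZMod ℓ)).val - 1 + 1)
    rw [h3]
    rfl

open Classical in
/-- The element `N_{ℚ(ζ)/E}(1 - ζ) = ∏_{a ∈ ker ψ} (1 - ζ^a)`, where `E` is the fixed field of the
kernel of `ψ ∘ cycMod ℓ`. -/
noncomputable def normElt {M : Type*} [Monoid M] (ψ : (ZMod ℓ)ˣ →* M) : Qb :=
  ∏ a ∈ (Finset.univ : Finset (ZMod ℓ)ˣ).filter (fun a => ψ a = 1), oneSub ℓ a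

theorem normElt_ne_zero {M : Type*} [Monoid M] (ψ : (ZMod ℓ)ˣ →* M) : normElt ℓ ψ ≠ 0 := by
  classical
  exact Finset.prod_ne_zero_iff.mpr fun a _ => oneSub_ne_zero ℓ a

open Classical in
/-- The action of `G_ℚ` on `normElt`: a product over a coset of `ker ψ`. -/
theorem apply_normElt {M : Type*} [Group M] (ψ : (ZMod ℓ)ˣ →* M) (g : GQ) :
    g (normElt ℓ ψ) = ∏ b ∈ (Finset.univ : Finset (ZMod ℓ)ˣ).filter
      (fun b => ψ b = ψ (cycMod ℓ g)), oneSub ℓ b := by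
  unfold normElt
  rw [map_prod]
  refine Finset.prod_equiv (Equiv.mulLeft (cycMod ℓ g)) (fun a => ?_) (fun a _ => apply_oneSub ℓ g a)
  simp only [Finset.mem_filter, Finset.mem_univ, true_and, Equiv.coe_mulLeft, map_mul]
  constructor
  · intro h; rw [h, mul_one]
  · intro h; exact mul_eq_left.mp h

/-- `normElt` is fixed by the kernel of `ψ ∘ cycMod ℓ`. -/
theorem apply_normElt_of_mem_ker {M : Type*} [Group M] (ψ : (ZMod ℓ)ˣ →* M) (g : GQ)
    (hg : ψ (cycMod ℓ g) = 1) : g (normElt ℓ ψ) = normElt ℓ ψ := by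
  rw [apply_normElt, hg]
  rfl

/-- **`ℓ` is a norm** from the fixed field `E` of the kernel of `χ = ψ ∘ cycMod ℓ`: there is
`y ∈ E` with `∏_{k < p} σ^k y = ℓ` for every `σ` with `χ σ = 1 ∈ ZMod p`. -/
theorem exists_cyclic_norm_eq (p : ℕ) [NeZero p] (ψ : (ZMod ℓ)ˣ →* Multiplicative (ZMod p)) :
    ∃ y : Qb, y ≠ 0 ∧ (∀ g : GQ, ψ (cycMod ℓ g) = 1 → g y = y) ∧
      ∀ σ : GQ, ψ (cycMod ℓ σ) = Multiplicative.ofAdd 1 →
        ∏ k ∈ Finset.range p, (σ ^ k) y = (ℓ : Qb) := by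
  classical
  refine ⟨normElt ℓ ψ, normElt_ne_zero ℓ ψ, apply_normElt_of_mem_ker ℓ ψ, fun σ hσ => ?_⟩
  rw [← prod_oneSub ℓ]
  have hmaps : ∀ b ∈ (Finset.univ : Finset (ZMod ℓ)ˣ),
      (Multiplicative.toAdd (ψ b)).val ∈ Finset.range p :=
    fun b _ => Finset.mem_range.mpr (ZMod.val_lt _)
  rw [← Finset.prod_fiberwise_of_maps_to hmaps]
  refine Finset.prod_congr rfl fun k hk => ?_
  have hk' : k < p := Finset.mem_range.mp hk
  rw [apply_normElt, map_pow, map_pow, hσ]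
  refine Finset.prod_congr ?_ fun _ _ => rfl
  ext b
  simp only [Finset.mem_filter, Finset.mem_univ, true_and]
  have h1 : (Multiplicative.ofAdd (1 : ZMod p)) ^ k = Multiplicative.ofAdd (k : ZMod p) := by
    rw [← ofAdd_nsmul, nsmul_eq_mul, mul_one]
  rw [h1]
  constructor
  · intro h
    rw [h, toAdd_ofAdd, ZMod.val_cast_of_lt hk']
  · intro h
    rw [← h, ZMod.natCast_zmod_val]
    rfl

/-! ### The character `χ = ψ ∘ cycMod ℓ` -/

section chi

variable {M : Type*} [Group M] (ψ : (ZMod ℓ)ˣ →* M)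

/-- The character `χ = ψ ∘ cycMod ℓ` of `G_ℚ`. -/
noncomputable def chi : GQ →* M := ψ.comp (cycMod ℓ)

theorem chi_apply (σ : GQ) : chi ℓ ψ σ = ψ (cycMod ℓ σ) := rfl

theorem chi_surjective (hψ : Function.Surjective ψ) : Function.Surjective (chi ℓ ψ) :=
  hψ.comp (cycMod_surjective ℓ)

/-- `cycMod ℓ` at a Frobenius element over `q ≠ ℓ`, as a unit. -/
theorem cycMod_frobenius_unit {q : ℕ} (hq : q.Prime) (hqℓ : q ≠ ℓ) (A : ValuationSubring Qb)
    (hA : A.LiesOverPrime q) (σ : GQ) (hσ : A.IsFrobeniusAt σ q) :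
    cycMod ℓ σ = ZMod.unitOfCoprime q ((Nat.coprime_primes hq hℓ.out).mpr hqℓ) := by
  apply Units.ext
  rw [ZMod.coe_unitOfCoprime]
  exact cycMod_frobenius ℓ hq hqℓ A hA σ hσ

/-- `χ(Frob_q) = ψ(q mod ℓ)` for `q ≠ ℓ`. -/
theorem chi_frobenius {q : ℕ} (hq : q.Prime) (hqℓ : q ≠ ℓ) (A : ValuationSubring Qb)
    (hA : A.LiesOverPrime q) (σ : GQ) (hσ : A.IsFrobeniusAt σ q) :
    chi ℓ ψ σ = ψ (ZMod.unitOfCoprime q ((Nat.coprime_primes hq hℓ.out).mpr hqℓ)) := by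
  rw [chi_apply, cycMod_frobenius_unit ℓ hq hqℓ A hA σ hσ]

/-- `χ` is unramified at every `q ≠ ℓ`. -/
theorem chi_inertia {q : ℕ} (hq : q.Prime) (hqℓ : q ≠ ℓ) (A : ValuationSubring Qb)
    (hA : A.LiesOverPrime q) (σ : GQ) (hσ : σ ∈ A.inertiaSubgroupIn ℚ) : chi ℓ ψ σ = 1 := by
  rw [chi_apply, cycMod_inertia ℓ hq hqℓ A hA σ hσ, map_one]

/-- `χ` is trivial on the absolute Galois group of `ℚ(ζ_ℓ)`. -/
theorem chi_eq_one_of_mem_fixingSubgroup {σ : GQ} (hσ : σ ∈ (cycloField ℓ).fixingSubgroup) :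
    chi ℓ ψ σ = 1 := by
  rw [chi_apply, (cycMod_eq_one_iff ℓ σ).mpr hσ, map_one]

/-- `χ` is level-constant of level `ℚ(ζ_ℓ)`, which is unramified outside `ℓ`. -/
theorem chi_isLevelConstant :
    groupCohomology.IsLevelConstantS₁ {(⟨ℓ, hℓ.out⟩ : Nat.Primes)} (fun g : GQ => chi ℓ ψ g) :=
  ⟨cycloField ℓ, cycloField_isUnramifiedOutside ℓ, fun g s hs => by
    show chi ℓ ψ (g * s) = chi ℓ ψ g
    rw [map_mul, chi_eq_one_of_mem_fixingSubgroup ℓ ψ hs, mul_one]⟩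

end chi

end Fermat.Agent.CFT.Rec.Cyclo
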