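/-
PROGRAM CFT, reciprocity over `ℚ`: the auxiliary character (hypothesis `hAUX` of
`Rec/Formal.exists_inv`).

* `psi_eq_one_iff_exists_pow` : the kernel of a surjection `ψ : (ℤ/ℓ)ˣ → ℤ/p` is the group of
  `p`-th powers;
* `psi0_ne_zero_of_forall_pow_ne` : `ψ` is non-trivial on non-`p`-th powers;
* `exists_aux_char` : for every finite set `T` of primes there are a prime `ℓ ∉ T`, `ℓ ≠ p`, and a
  surjective `ψ : (ℤ/ℓ)ˣ → ℤ/p` which is non-trivial at every `q ∈ T`.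
-/
import Mathlib
import Fermat.Agent.Lib.AuxPrime
import Fermat.Agent.CFT.Rec.Cyclo
import Fermat.Agent.CFT.Rec.Core

set_option autoImplicit false

namespace Fermat.Agent.CFT.Rec.AuxChar

open Fermat.Agent.CFT.Rec

variable {ℓ : ℕ} [hℓ : Fact ℓ.Prime] {p : ℕ} [hp : Fact p.Prime]
  (ψ : (ZMod ℓ)ˣ →* Multiplicative (ZMod p))

theorem psi_pow (a : (ZMod ℓ)ˣ) : ψ (a ^ p) = 1 := by
  rw [map_pow]
  apply Multiplicative.toAdd.injective
  rw [toAdd_pow, toAdd_one, nsmul_eq_mul, ZMod.natCast_self, zero_mul]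

/-- The kernel of a surjective character `(ℤ/ℓ)ˣ → ℤ/p` is the group of `p`-th powers. -/
theorem psi_eq_one_iff_exists_pow (hψ : Function.Surjective ψ) (a : (ZMod ℓ)ˣ) :
    ψ a = 1 ↔ ∃ y : (ZMod ℓ)ˣ, a = y ^ p := by
  constructor
  · intro ha
    obtain ⟨g, hg⟩ := IsCyclic.exists_generator (α := (ZMod ℓ)ˣ)
    have hg1 : ψ g ≠ 1 := by
      intro h1
      obtain ⟨b, hb⟩ := hψ (Multiplicative.ofAdd 1)
      obtain ⟨k, rfl⟩ := Subgroup.mem_zpowers_iff.mp (hg b)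
      rw [map_zpow, h1, one_zpow] at hb
      have h2 := congrArg Multiplicative.toAdd hb
      rw [toAdd_one, toAdd_ofAdd] at h2
      have : Nontrivial (ZMod p) := ZMod.nontrivial_iff.mpr hp.out.ne_one
      exact zero_ne_one h2
    obtain ⟨k, rfl⟩ := Subgroup.mem_zpowers_iff.mp (hg a)
    rw [map_zpow] at ha
    have h3 := congrArg Multiplicative.toAdd ha
    rw [toAdd_zpow, toAdd_one, zsmul_eq_mul] at h3
    have h4 : Multiplicative.toAdd (ψ g) ≠ 0 := fun h => hg1 (Multiplicative.toAdd.injective h)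
    have h5 : ((k : ℤ) : ZMod p) = 0 := (mul_eq_zero.mp h3).resolve_right h4
    obtain ⟨m, rfl⟩ := (ZMod.intCast_zmod_eq_zero_iff_dvd k p).mp h5
    exact ⟨g ^ m, by rw [← zpow_natCast, ← zpow_mul, mul_comm]⟩
  · rintro ⟨y, rfl⟩
    exact psi_pow ψ y

/-- A surjective character `(ℤ/ℓ)ˣ → ℤ/p` is non-trivial on every non-`p`-th power. -/
theorem psi0_ne_zero_of_forall_pow_ne (hψ : Function.Surjective ψ) {a : ZMod ℓ}
    (h : ∀ y : ZMod ℓ, y ^ p ≠ a) : Core.psi0 ℓ ψ a ≠ 0 := by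
  have ha : a ≠ 0 := by
    rintro rfl
    exact h 0 (zero_pow hp.out.ne_zero)
  rw [Core.psi0_of_ne ψ ha]
  intro h0
  have h1 : ψ (Units.mk0 a ha) = 1 := Multiplicative.toAdd.injective h0
  obtain ⟨y, hy⟩ := (psi_eq_one_iff_exists_pow ψ hψ _).mp h1
  apply h (y : ZMod ℓ)
  have h2 := congrArg (fun u : (ZMod ℓ)ˣ => (u : ZMod ℓ)) hy
  simp only [Units.val_mk0, Units.val_pow_eq_pow_val] at h2
  exact h2.symm

/-- Conversely the character vanishes on `p`-th powers. -/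
theorem psi0_pow_eq_zero {y : ZMod ℓ} (hy : y ≠ 0) : Core.psi0 ℓ ψ (y ^ p) = 0 := by
  rw [Core.psi0_pow ψ hy, nsmul_eq_mul, ZMod.natCast_self, zero_mul]

/-- **hAUX.** For every finite set `T` of primes there are a prime `ℓ ∉ T`, `ℓ ≠ p`, and a
surjective character `ψ : (ℤ/ℓ)ˣ → ℤ/p` with `ψ(q) ≠ 0` for every `q ∈ T`. -/
theorem exists_aux_char (p : ℕ) [hp : Fact p.Prime] (T : Finset Nat.Primes) :
    ∃ (ℓ : ℕ) (_ : Fact ℓ.Prime) (ψ : (ZMod ℓ)ˣ →* Multiplicative (ZMod p)),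
      Function.Surjective ψ ∧ ℓ ≠ p ∧ p ∣ ℓ - 1 ∧ (∀ q ∈ T, (q : ℕ) ≠ ℓ) ∧
      ∀ q ∈ T, Core.psi0 ℓ ψ ((q : ℕ) : ZMod ℓ) ≠ 0 := by
  classical
  obtain ⟨ℓ, hℓ, hℓT, -, hℓp, hdvd, hnot⟩ :=
    Fermat.Agent.Lib.AuxPrime.exists_prime_one_mod_forall_not_pow hp.out
      (T.image (fun q : Nat.Primes => (q : ℕ))) (T.image (fun q : Nat.Primes => (q : ℕ)))
      (fun q hq => by
        obtain ⟨q', -, rfl⟩ := Finset.mem_image.mp hq
        exact q'.2)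
  have hℓ' : Fact ℓ.Prime := ⟨hℓ⟩
  have : NeZero p := ⟨hp.out.ne_zero⟩
  obtain ⟨ψ, hψ⟩ := Cyclo.exists_surjective_hom ℓ p hdvd
  refine ⟨ℓ, hℓ', ψ, hψ, hℓp, hdvd, fun q hq h => hℓT (Finset.mem_image.mpr ⟨q, hq, h⟩),
    fun q hq => ?_⟩
  exact psi0_ne_zero_of_forall_pow_ne ψ hψ (hnot _ (Finset.mem_image.mpr ⟨q, hq, rfl⟩))

end Fermat.Agent.CFT.Rec.AuxChar
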