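import Fermat.Agent.CFT.Rec.Defs
import Fermat.Agent.S55.Glue.LocalRange
import Fermat.Agent.S55.Glue.DualTwist
import Fermat.Agent.S55.Arith.UnramLocal

/-!
# REC: bridge between the local group `primeLocalGaloisGroup q` and decomposition subgroups

* `resAt_mem_levelCocycles₂`, `resAt_mem_levelCoboundaries₂` : restriction preserves level-constant
  cocycles / coboundaries.
* `isTrivOn_decomp_inf_of_resAt` : a local primitive on the preimage of a subgroup `N ≤ G_ℚ`
  descends to `D_q ⊓ N`.
* `resAt_mem_levelCoboundaries₂_iff` : `res_q f` is a level-constant coboundary iff `f` is trivial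
  on the decomposition group of the distinguished place above `q`.
* `resAt_mem_levelCoboundaries₂_of_notMem` (UR): a level-`T` global cocycle is locally trivial at
  every `q ∉ T` (`T ∋ p`); from `S55/Arith/UnramLocal`.
-/

set_option autoImplicit false

open CategoryTheory groupCohomology ExtCitation

namespace Fermat.Agent.CFT.Rec

local notation "Qb" => AlgebraicClosure ℚ
local notation "GQ" => (AlgebraicClosure ℚ ≃ₐ[ℚ] AlgebraicClosure ℚ)

variable (p : ℕ) [Fact p.Prime]

theorem resAt_mem_cocycles₂ (q : Nat.Primes) {f : GQ × GQ → mu p} (hf : f ∈ cocycles₂ (mu p)) :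
    resAt p q f ∈ cocycles₂ (muAt p q) :=
  cochainsPullPush₂_mem_cocycles₂ (A := mu p) (B := muAt p q) (primeLocalToGlobal q)
    (LinearMap.id : mu p →ₗ[ZMod p] muAt p q) (fun _ _ => rfl) hf

theorem resAt_mem_levelCocycles₂ (q : Nat.Primes) {f : GQ × GQ → mu p}
    (hf : f ∈ levelCocycles₂ (MonoidHom.id GQ) (mu p)) :
    resAt p q f ∈ levelCocycles₂ (primeLocalToGlobal q) (muAt p q) :=
  cochainsPullPush₂_mem_levelCocycles₂ (A := mu p) (B := muAt p q)
    (rH := MonoidHom.id GQ) (rG := primeLocalToGlobal q)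
    (primeLocalToGlobal q) (fun _ => rfl)
    (LinearMap.id : mu p →ₗ[ZMod p] muAt p q) (fun _ _ => rfl) hf

theorem resAt_mem_levelCoboundaries₂ (q : Nat.Primes) {f : GQ × GQ → mu p}
    (hf : f ∈ levelCoboundaries₂ (MonoidHom.id GQ) (mu p)) :
    resAt p q f ∈ levelCoboundaries₂ (primeLocalToGlobal q) (muAt p q) :=
  cochainsPullPush₂_mem_levelCoboundaries₂ (A := mu p) (B := muAt p q)
    (rH := MonoidHom.id GQ) (rG := primeLocalToGlobal q)
    (primeLocalToGlobal q) (fun _ => rfl)
    (LinearMap.id : mu p →ₗ[ZMod p] muAt p q) (fun _ _ => rfl) hf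

/-- A local primitive of `res_q f` on the preimage of a subgroup `N` of `G_ℚ` descends to a
primitive of `f` on `D_q ⊓ N`. -/
theorem isTrivOn_decomp_inf_of_resAt (q : Nat.Primes) (f : GQ × GQ → mu p) (N : Subgroup GQ)
    (y : primeLocalGaloisGroup q → muAt p q) (hy : IsLevelConstant₁ (primeLocalToGlobal q) y)
    (h : ∀ s t : primeLocalGaloisGroup q, primeLocalToGlobal q s ∈ N → primeLocalToGlobal q t ∈ N →
      resAt p q f (s, t) = (d₁₂ (muAt p q)).hom y (s, t)) :
    IsTrivOn p (mu p) (decomp q ⊓ N) f := by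
  have hrange : ∀ d : ↥(decomp q ⊓ N), ∃ s : primeLocalGaloisGroup q,
      primeLocalToGlobal q s = (d : GQ) := by
    intro d
    have h1 : (d : GQ) ∈ (primeLocalToGlobal q).range := by
      rw [Fermat.Agent.S55.Glue.LocalRange.range_primeLocalToGlobal]
      exact d.2.1
    exact h1
  choose sec hsec using hrange
  have hfib : ∀ {s s' : primeLocalGaloisGroup q},
      primeLocalToGlobal q s = primeLocalToGlobal q s' → y s = y s' := fun hss =>
    Fermat.Agent.S55.Glue.LocalRange.isLevelConstant₁_eq_of_map_eq (primeLocalToGlobal q) hy hss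
  refine ⟨fun d => y (sec d), ?_, fun g h' => ?_⟩
  · obtain ⟨F, hF, hc⟩ := id hy
    refine ⟨F, hF, fun d s hs => ?_⟩
    have h1 : y (sec (d * s)) = y (sec d * sec s) := by
      apply hfib
      rw [map_mul, hsec, hsec, hsec]
      rfl
    show y (sec (d * s)) = y (sec d)
    rw [h1]
    refine hc _ _ ?_
    rw [hsec]
    exact hs
  · have h1 := h (sec g) (sec h') (by rw [hsec]; exact g.2.2) (by rw [hsec]; exact h'.2.2)
    rw [resAt_apply, d₁₂_hom_apply] at h1
    simp only [hsec] at h1
    have h2 : y (sec (g * h')) = y (sec g * sec h') := by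
      apply hfib
      rw [map_mul, hsec, hsec, hsec]
      rfl
    show f ((g : GQ), (h' : GQ)) = (mu p).ρ (g : GQ) (y (sec h')) - y (sec (g * h')) + y (sec g)
    rw [h2, h1]
    show (muAt p q).ρ (sec g) (y (sec h')) - y (sec g * sec h') + y (sec g) = _
    show (mu p).ρ (primeLocalToGlobal q (sec g)) (y (sec h')) - y (sec g * sec h') + y (sec g) = _
    rw [hsec]

/-- `res_q f` is a level-constant coboundary iff `f` is trivial on the decomposition group of
the distinguished place above `q`. -/
theorem resAt_mem_levelCoboundaries₂_iff (q : Nat.Primes) (f : GQ × GQ → mu p) :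
    resAt p q f ∈ levelCoboundaries₂ (primeLocalToGlobal q) (muAt p q) ↔
      IsTrivOn p (mu p) (decomp q) f := by
  constructor
  · intro h
    obtain ⟨y, hy, hd⟩ := (mem_levelCoboundaries₂_iff _ _ _).1 h
    have h1 := isTrivOn_decomp_inf_of_resAt p q f ⊤ y hy (fun s t _ _ => by rw [hd])
    exact h1.mono (le_inf le_rfl le_top)
  · rintro ⟨y, hy, hd⟩
    have hmem : ∀ s : primeLocalGaloisGroup q, primeLocalToGlobal q s ∈ decomp q := by
      intro s
      have h1 : primeLocalToGlobal q s ∈ (primeLocalToGlobal q).range := ⟨s, rfl⟩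
      rw [Fermat.Agent.S55.Glue.LocalRange.range_primeLocalToGlobal] at h1
      exact h1
    refine (mem_levelCoboundaries₂_iff _ _ _).2
      ⟨fun s => y ⟨primeLocalToGlobal q s, hmem s⟩, ?_, ?_⟩
    · obtain ⟨F, hF, hc⟩ := hy
      refine ⟨F, hF, fun g s hs => ?_⟩
      have h1 : (⟨primeLocalToGlobal q (g * s), hmem (g * s)⟩ : ↥(decomp q)) =
          ⟨primeLocalToGlobal q g, hmem g⟩ * ⟨primeLocalToGlobal q s, hmem s⟩ := by
        apply Subtype.ext
        exact map_mul _ _ _
      show y _ = y _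
      rw [h1]
      exact hc _ _ hs
    · funext ⟨s, t⟩
      rw [d₁₂_hom_apply, resAt_apply]
      have h1 := hd ⟨primeLocalToGlobal q s, hmem s⟩ ⟨primeLocalToGlobal q t, hmem t⟩
      have h2 : (⟨primeLocalToGlobal q (s * t), hmem (s * t)⟩ : ↥(decomp q)) =
          ⟨primeLocalToGlobal q s, hmem s⟩ * ⟨primeLocalToGlobal q t, hmem t⟩ := by
        apply Subtype.ext
        exact map_mul _ _ _
      show _ = f (primeLocalToGlobal q s, primeLocalToGlobal q t)
      rw [h1, h2]
      rfl

/-- **(UR)** A level-`T` global `2`-cocycle with values in `μ_p` (`T ∋ p`) is locally a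
level-constant coboundary at every prime `q ∉ T`. -/
theorem resAt_mem_levelCoboundaries₂_of_notMem (T : Finset Nat.Primes) (hpT : pPrime p ∈ T)
    (q : Nat.Primes) (hq : q ∉ T) {z : GQ × GQ → mu p} (hz : z ∈ cocycles₂ (mu p))
    (hzT : IsLevelConstantS₂ T z) :
    resAt p q z ∈ levelCoboundaries₂ (primeLocalToGlobal q) (muAt p q) := by
  classical
  have hqp : (q : ℕ) ≠ p := by
    intro h
    apply hq
    have : q = pPrime p := Subtype.ext h
    rw [this]
    exact hpT
  have hqS : q ∉ ({pPrime p} : Finset Nat.Primes) := by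
    rw [Finset.mem_singleton]
    intro h
    exact hqp (by rw [h]; rfl)
  refine Fermat.Agent.S55.Arith.Unram.mem_levelCoboundaries₂_of_isUnram₂ p q hqp
    (ZMod.natCast_self p) (mu p)
    ⟨{pPrime p}, hqS, Fermat.Agent.S55.Glue.cycloField p,
      Fermat.Agent.S55.Glue.isUnramifiedOutside_cycloField p (Finset.mem_singleton_self _),
      fun s hs => ?_⟩ (resAt p q z) (resAt_mem_cocycles₂ p q hz)
    (Fermat.Agent.S55.Arith.Unram.isUnram₂_comp_of_isLevelConstantS₂ hq hzT)
  refine LinearMap.ext fun m => ?_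
  show ((cycloChar p s : (ZMod p)ˣ) : ZMod p) * m = m
  rw [Fermat.Agent.S55.Glue.cycloChar_eq_one_of_mem_fixingSubgroup p hs, Units.val_one, one_mul]

end Fermat.Agent.CFT.Rec
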