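/-
PROGRAM CFT (reciprocity): the fixed field of the kernel of a character of a Galois group
with finite image, and the norm from that field as a product over representatives.  Mathlib only.
-/
import Mathlib

set_option autoImplicit false

namespace Fermat.Agent.CFT.Rec.CharField

open IntermediateField

variable {K Ω : Type*} [Field K] [Field Ω] [Algebra K Ω] [IsGalois K Ω]
variable {X : Type*} [Group X] (χ : (Ω ≃ₐ[K] Ω) →* X)
variable (L₀ : IntermediateField K Ω) [FiniteDimensional K L₀]

/-- If the kernel of `χ` contains the fixing subgroup of a finite subextension, then it is the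
fixing subgroup of its fixed field. -/
theorem fixingSubgroup_fixedField_ker (hL₀ : L₀.fixingSubgroup ≤ χ.ker) :
    (fixedField χ.ker).fixingSubgroup = χ.ker := by
  have hopen : IsOpen (χ.ker : Set (Ω ≃ₐ[K] Ω)) :=
    Subgroup.isOpen_mono hL₀ L₀.fixingSubgroup_isOpen
  have hclosed : IsClosed (χ.ker : Set (Ω ≃ₐ[K] Ω)) := Subgroup.isClosed_of_isOpen _ hopen
  exact InfiniteGalois.fixingSubgroup_fixedField ⟨χ.ker, hclosed⟩

omit [FiniteDimensional K L₀] in
theorem fixedField_ker_le (hL₀ : L₀.fixingSubgroup ≤ χ.ker) : fixedField χ.ker ≤ L₀ := by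
  rw [← InfiniteGalois.fixedField_fixingSubgroup L₀]
  intro x hx
  rw [mem_fixedField_iff] at hx ⊢
  exact fun σ hσ => hx σ (hL₀ hσ)

theorem finiteDimensional_fixedField_ker (hL₀ : L₀.fixingSubgroup ≤ χ.ker) :
    FiniteDimensional K (fixedField χ.ker) := by
  have hle := fixedField_ker_le χ L₀ hL₀
  exact Module.Finite.of_injective (IntermediateField.inclusion hle).toLinearMap
    (IntermediateField.inclusion hle).injective

theorem finrank_fixedField_ker (hL₀ : L₀.fixingSubgroup ≤ χ.ker) :
    Module.finrank K (fixedField χ.ker) = χ.ker.index := by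
  rw [IntermediateField.finrank_eq_fixingSubgroup_index, fixingSubgroup_fixedField_ker χ L₀ hL₀]

theorem finrank_fixedField_ker_of_surjective (hL₀ : L₀.fixingSubgroup ≤ χ.ker)
    (hχ : Function.Surjective χ) : Module.finrank K (fixedField χ.ker) = Nat.card X := by
  rw [finrank_fixedField_ker χ L₀ hL₀, Subgroup.index_ker, MonoidHom.range_eq_top.mpr hχ,
    Nat.card_congr Subgroup.topEquiv.toEquiv]

theorem finrank_fixedField_ker_le [Finite X] (hL₀ : L₀.fixingSubgroup ≤ χ.ker) :
    Module.finrank K (fixedField χ.ker) ≤ Nat.card X := by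
  rw [finrank_fixedField_ker χ L₀ hL₀, Subgroup.index_ker]
  exact Nat.card_le_card_of_injective _ Subtype.val_injective

/-- The norm from the fixed field of `ker χ` is the product over representatives of the values
of `χ`. -/
theorem norm_eq_prod [IsAlgClosed Ω] [Fintype X] (hL₀ : L₀.fixingSubgroup ≤ χ.ker)
    (σ : X → (Ω ≃ₐ[K] Ω)) (hσ : ∀ c, χ (σ c) = c) (x : fixedField χ.ker) :
    algebraMap K Ω (Algebra.norm K x) = ∏ c : X, σ c (x : Ω) := by
  have hfd := finiteDimensional_fixedField_ker χ L₀ hL₀
  have hχ : Function.Surjective χ := fun c => ⟨σ c, hσ c⟩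
  rw [Algebra.norm_eq_prod_embeddings K Ω x]
  let Φ : X → ((fixedField χ.ker) →ₐ[K] Ω) := fun c =>
    ((σ c : Ω ≃ₐ[K] Ω) : Ω →ₐ[K] Ω).comp (fixedField χ.ker).val
  have hinj : Function.Injective Φ := by
    intro c c' h
    have hmem : (σ c')⁻¹ * σ c ∈ (fixedField χ.ker).fixingSubgroup := by
      rw [IntermediateField.mem_fixingSubgroup_iff]
      intro y hy
      have h1 : σ c y = σ c' y := DFunLike.congr_fun h ⟨y, hy⟩
      rw [AlgEquiv.mul_apply, h1]
      exact (σ c').symm_apply_apply y
    rw [fixingSubgroup_fixedField_ker χ L₀ hL₀, MonoidHom.mem_ker, map_mul, map_inv, hσ, hσ,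
      inv_mul_eq_one] at hmem
    exact hmem.symm
  have hcard : Fintype.card X = Fintype.card ((fixedField χ.ker) →ₐ[K] Ω) := by
    rw [AlgHom.card, finrank_fixedField_ker_of_surjective χ L₀ hL₀ hχ, Nat.card_eq_fintype_card]
  have hbij : Function.Bijective Φ :=
    (Fintype.bijective_iff_injective_and_card Φ).mpr ⟨hinj, hcard⟩
  exact (Fintype.prod_bijective Φ hbij _ _ (fun c => rfl)).symm

end Fermat.Agent.CFT.Rec.CharField
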