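import Fermat.Agent.CFT.Rec.Bridge
import Fermat.Agent.S55.Glue.PlacesAbove

/-!
# REC-CONJ: local triviality is invariant under conjugation

* `IsTrivOn.conj` (REC-CONJ, frozen statement): if a global level-constant `2`-cocycle `f` is the
  coboundary of a level-constant cochain on a subgroup `U ≤ G_ℚ`, the same holds on `g U g⁻¹`
  (explicit homotopy: `f (s, t) - g • f (g⁻¹ s g, g⁻¹ t g) = d u (s, t)` with
  `u s = f (s, g) - f (g, g⁻¹ s g)`, a level-constant cochain of `G_ℚ`).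
* `isTrivOn_decomp_inf_of_place` : from the distinguished place above `q` to every place above `q`.
-/

set_option autoImplicit false

open CategoryTheory groupCohomology ExtCitation

namespace Fermat.Agent.CFT.Rec

local notation "Qb" => AlgebraicClosure ℚ
local notation "GQ" => (AlgebraicClosure ℚ ≃ₐ[ℚ] AlgebraicClosure ℚ)

variable (p : ℕ) [Fact p.Prime]

/-- The primitive of the conjugation homotopy in degree 2. -/
private noncomputable def conjPrimAux {k G : Type} [CommRing k] [Group G] (M : Rep.{0} k G)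
    (a : G × G → M) (g : G) : G → M :=
  fun x => M.ρ g (a (g⁻¹, x) - a (g⁻¹ * x * g, g⁻¹))

/-- Conjugation homotopy in degree 2: a 2-cocycle differs from its conjugate by an explicit
coboundary. -/
private theorem conj_homotopy_aux {k G : Type} [CommRing k] [Group G] (M : Rep.{0} k G)
    {a : G × G → M} (ha : a ∈ cocycles₂ M) (g x y : G) :
    a (x, y) = M.ρ g (a (g⁻¹ * x * g, g⁻¹ * y * g)) +
      (M.ρ x (conjPrimAux M a g y) - conjPrimAux M a g (x * y) + conjPrimAux M a g x) := by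
  have hcoc := (mem_cocycles₂_iff a).1 ha
  have e1 := hcoc g⁻¹ x y
  have e2 := hcoc (g⁻¹ * x * g) g⁻¹ y
  have e3 := hcoc (g⁻¹ * x * g) (g⁻¹ * y * g) g⁻¹
  have r1 : g⁻¹ * x * g * g⁻¹ = g⁻¹ * x := by group
  have r2 : g⁻¹ * y * g * g⁻¹ = g⁻¹ * y := by group
  have r3 : g⁻¹ * x * g * (g⁻¹ * y * g) = g⁻¹ * (x * y) * g := by group
  rw [r1] at e2
  rw [r3, r2] at e3
  have hgg : ∀ m : M, M.ρ g (M.ρ g⁻¹ m) = m := fun m => by
    rw [← Module.End.mul_apply, ← map_mul, mul_inv_cancel, map_one, Module.End.one_apply]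
  have hxg : ∀ m : M, M.ρ x (M.ρ g m) = M.ρ g (M.ρ (g⁻¹ * x * g) m) := fun m => by
    rw [← Module.End.mul_apply, ← map_mul, ← Module.End.mul_apply, ← map_mul]
    congr 2
    group
  have f1 := congrArg (M.ρ g) e1
  have f2 := congrArg (M.ρ g) e2
  have f3 := congrArg (M.ρ g) e3
  simp only [map_add, hgg] at f1 f2 f3
  simp only [conjPrimAux, map_sub, hxg]
  linear_combination (norm := abel) -f1 + f2 - f3

variable {p} in
/-- **(REC-CONJ)** Triviality of a global level-constant `2`-cocycle on a subgroup `U` implies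
triviality on every conjugate of `U` (conjugation acts trivially on cohomology; explicit
homotopy). -/
theorem IsTrivOn.conj {f : GQ × GQ → mu p} (hf : f ∈ levelCocycles₂ (MonoidHom.id GQ) (mu p))
    {U : Subgroup GQ} (h : IsTrivOn p (mu p) U f) (g : GQ) :
    IsTrivOn p (mu p) (U.map (MulAut.conj g).toMonoidHom) f := by
  obtain ⟨ha, ⟨Fa, hFa, hla⟩⟩ := (mem_levelCocycles₂_iff _ _ f).1 hf
  obtain ⟨y, ⟨Fy, hFy, hy⟩, hd⟩ := h
  have := hFy; have := hFa
  -- the common level: `Fa` together with the image of `Fa ⊔ Fy` under `g`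
  let E : IntermediateField ℚ Qb := Fa ⊔ Fy
  let F : IntermediateField ℚ Qb := Fa ⊔ E.map (g : Qb →ₐ[ℚ] Qb)
  have : FiniteDimensional ℚ (E.map (g : Qb →ₐ[ℚ] Qb)) :=
    Module.Finite.equiv (IntermediateField.equivMap E (g : Qb →ₐ[ℚ] Qb)).toLinearEquiv
  have hF1 : ∀ n : GQ, n ∈ F.fixingSubgroup → n ∈ Fa.fixingSubgroup := fun n hn =>
    IntermediateField.fixingSubgroup_antitone (le_sup_left : Fa ≤ F) hn
  have hF2 : ∀ n : GQ, n ∈ F.fixingSubgroup →
      g⁻¹ * n * g ∈ Fa.fixingSubgroup ∧ g⁻¹ * n * g ∈ Fy.fixingSubgroup := by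
    intro n hn
    have h1 : n ∈ (E.map (g : Qb →ₐ[ℚ] Qb)).fixingSubgroup :=
      IntermediateField.fixingSubgroup_antitone (le_sup_right : E.map (g : Qb →ₐ[ℚ] Qb) ≤ F) hn
    have h2 : ∀ x : Qb, x ∈ E → (g⁻¹ * n * g) x = x := by
      intro x hx
      have h3 : n (g x) = g x := by
        have h4 : g x ∈ E.map (g : Qb →ₐ[ℚ] Qb) := ⟨x, hx, rfl⟩
        exact (IntermediateField.mem_fixingSubgroup_iff _ _).1 h1 _ h4
      show g⁻¹ (n (g x)) = x
      rw [h3]
      show g.symm (g x) = x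
      exact g.symm_apply_apply x
    constructor
    · exact (IntermediateField.mem_fixingSubgroup_iff _ _).2 fun x hx =>
        h2 x ((le_sup_left : Fa ≤ E) hx)
    · exact (IntermediateField.mem_fixingSubgroup_iff _ _).2 fun x hx =>
        h2 x ((le_sup_right : Fy ≤ E) hx)
  -- conjugation back into `U`
  have hcjmem : ∀ σ : ↥(U.map (MulAut.conj g).toMonoidHom), g⁻¹ * (σ : GQ) * g ∈ U := by
    rintro ⟨σ, u, hu, rfl⟩
    have : g⁻¹ * ((MulAut.conj g).toMonoidHom u) * g = u := by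
      show g⁻¹ * (g * u * g⁻¹) * g = u
      group
    rw [this]
    exact hu
  let cj : ↥(U.map (MulAut.conj g).toMonoidHom) → ↥U := fun σ => ⟨g⁻¹ * (σ : GQ) * g, hcjmem σ⟩
  have hcj_mul : ∀ σ τ, cj (σ * τ) = cj σ * cj τ := by
    intro σ τ
    apply Subtype.ext
    show g⁻¹ * ((σ : GQ) * (τ : GQ)) * g = (g⁻¹ * (σ : GQ) * g) * (g⁻¹ * (τ : GQ) * g)
    group
  have hgρ : ∀ (σ : GQ) (m : mu p), (mu p).ρ g ((mu p).ρ (g⁻¹ * σ * g) m) =
      (mu p).ρ σ ((mu p).ρ g m) := by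
    intro σ m
    rw [← Module.End.mul_apply, ← map_mul, ← Module.End.mul_apply, ← map_mul]
    congr 2
    group
  refine ⟨fun σ => (mu p).ρ g (y (cj σ)) + conjPrimAux (mu p) f g (σ : GQ),
    ⟨F, inferInstance, ?_⟩, ?_⟩
  · intro σ n hn
    have hn' : (n : GQ) ∈ F.fixingSubgroup := hn
    have hn1 := (hF2 _ hn').1
    have hn2 := (hF2 _ hn').2
    have hnA := hF1 _ hn'
    have e1 : y (cj (σ * n)) = y (cj σ) := by
      rw [hcj_mul]
      exact hy (cj σ) (cj n) hn2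
    have e2 : f (g⁻¹, (σ : GQ) * (n : GQ)) = f (g⁻¹, (σ : GQ)) := by
      have := hla g⁻¹ (σ : GQ) 1 (n : GQ) (one_mem _) hnA
      rwa [mul_one] at this
    have e3 : f (g⁻¹ * ((σ : GQ) * (n : GQ)) * g, g⁻¹) = f (g⁻¹ * (σ : GQ) * g, g⁻¹) := by
      have := hla (g⁻¹ * (σ : GQ) * g) g⁻¹ (g⁻¹ * (n : GQ) * g) 1 hn1 (one_mem _)
      rw [mul_one] at this
      rw [← this]
      congr 2
      group
    show (mu p).ρ g (y (cj (σ * n))) + conjPrimAux (mu p) f g ((σ : GQ) * (n : GQ)) =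
      (mu p).ρ g (y (cj σ)) + conjPrimAux (mu p) f g (σ : GQ)
    rw [e1]
    simp only [conjPrimAux]
    rw [e2, e3]
  · intro σ τ
    have h1 := conj_homotopy_aux (mu p) ha g (σ : GQ) (τ : GQ)
    have h2 := hd (cj σ) (cj τ)
    have h3 : f (g⁻¹ * (σ : GQ) * g, g⁻¹ * (τ : GQ) * g) =
        (mu p).ρ (g⁻¹ * (σ : GQ) * g) (y (cj τ)) - y (cj (σ * τ)) + y (cj σ) := by
      rw [hcj_mul]; exact h2
    rw [h1, h3]
    simp only [map_add, map_sub, hgρ]
    rw [Subgroup.coe_mul]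
    abel

/-- Local triviality on `D ∩ N` (`N` normal) at the distinguished place above `q` gives local
triviality on `D_A ∩ N` for every place `A` above `q`. -/
theorem isTrivOn_decomp_inf_of_place (q : Nat.Primes) {f : GQ × GQ → mu p}
    (hf : f ∈ levelCocycles₂ (MonoidHom.id GQ) (mu p)) (N : Subgroup GQ) [N.Normal]
    (h : IsTrivOn p (mu p) (decomp q ⊓ N) f) (A : ValuationSubring Qb)
    (hA : A.LiesOverPrime (q : ℕ)) :
    IsTrivOn p (mu p) (A.decompositionSubgroup ℚ ⊓ N) f := by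
  obtain ⟨σ, hσ⟩ := Fermat.Agent.S55.Glue.PlacesAbove.exists_smul_eq q.2
    (Fermat.Agent.S55.Arith.Unram.liesOverPrime_primeLocalPlace q) hA
  have h1 := h.conj hf σ
  refine h1.mono ?_
  rintro τ ⟨hτA, hτN⟩
  refine ⟨σ⁻¹ * τ * σ, ⟨?_, ?_⟩, ?_⟩
  · rw [← hσ] at hτA
    exact (Fermat.Agent.S55.Glue.PlacesAbove.mem_decompositionSubgroup_smul_iff _ σ τ).1 hτA
  · have := ‹N.Normal›.conj_mem τ hτN σ⁻¹
    simpa using this
  · show σ * (σ⁻¹ * τ * σ) * σ⁻¹ = τ
    group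

end Fermat.Agent.CFT.Rec
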