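import Mathlib
import Fermat.Prelude.Def_GroupCohomology_ContinuousUnramified
import Fermat.Prelude.Def_GroupCohomology_ContinuousH2Map
import Fermat.Agent.CFT.LocalBr.MuEmb
import Fermat.Agent.CFT.Rec.Cyclo
import Fermat.Agent.CFT.Rec.Core

/-!
# Reciprocity over `ℚ` (REC): vocabulary

Q-side language = the Prelude's level-constant cochains on `G_ℚ = Gal(ℚ̄/ℚ)`.

* `mu p`               : `μ_p = 𝔽_p(1)` as a `G_ℚ`-module (Prelude shape `ofChar (cycloChar p)`).
* `cupG p χ c`         : the cup product cochain `(s, t) ↦ χ s • (s • c t)`.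
* `IsKummerCocycle p b c` : `c : G_ℚ → μ_p` is a Kummer cocycle of `b ∈ ℚ`: `σ β = ζ ^ c σ · β`
  for some `β` with `β ^ p = b` (`ζ = LocalBr.zetaQb p`).
* `IsTrivOn p M U f`   : the 2-cochain `f` of `G_ℚ`, restricted to the subgroup `U`, is the
  coboundary of a level-constant 1-cochain of `U` ("locally trivial" when `U` is a decomposition
  group).
* `decomp q`           : the decomposition group of the Prelude's distinguished place above `q`.
* `chiAdd p ℓ ψ`       : the character `χ_{ℓ,ψ} = ψ ∘ (mod ℓ cyclotomic character)`, additively.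
* `H2glob p`, `H2at p q`, `locAt p q` : global / local `H²(-, μ_p)` (any ramification) and the
  localisation map; `locRes₂S` of the Prelude factors through `locAt` (`locRes₂S_eq_locAt`).
* `HasseRes p`         : the Hasse principle in the shape consumed by REC.
-/

set_option autoImplicit false

open CategoryTheory groupCohomology ExtCitation

namespace Fermat.Agent.CFT.Rec

local notation "Qb" => AlgebraicClosure ℚ
local notation "GQ" => (AlgebraicClosure ℚ ≃ₐ[ℚ] AlgebraicClosure ℚ)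

variable (p : ℕ) [Fact p.Prime]

/-- `μ_p = 𝔽_p(1)` as a representation of `G_ℚ` (Prelude shape). -/
noncomputable abbrev mu : Rep (ZMod p) GQ := ofChar (k := ZMod p) (cycloChar p)

theorem mu_ρ_apply (g : GQ) (x : mu p) :
    (mu p).ρ g x = ((cycloChar p g : (ZMod p)ˣ) : ZMod p) • x := rfl

/-- The cup product cochain `(s, t) ↦ χ s • (s • c t)` of `χ : G_ℚ → 𝔽_p` and `c : G_ℚ → μ_p`. -/
noncomputable def cupG (χ : GQ → ZMod p) (c : GQ → mu p) : GQ × GQ → mu p :=
  fun st => χ st.1 • (mu p).ρ st.1 (c st.2)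

theorem cupG_apply (χ : GQ → ZMod p) (c : GQ → mu p) (s t : GQ) :
    cupG p χ c (s, t) = χ s • (mu p).ρ s (c t) := rfl

theorem cupG_add_right (χ : GQ → ZMod p) (c c' : GQ → mu p) :
    cupG p χ (c + c') = cupG p χ c + cupG p χ c' := by
  funext ⟨s, t⟩
  show χ s • (mu p).ρ s (c t + c' t) = χ s • (mu p).ρ s (c t) + χ s • (mu p).ρ s (c' t)
  rw [map_add, smul_add]

theorem cupG_sub_right (χ : GQ → ZMod p) (c c' : GQ → mu p) :
    cupG p χ (c - c') = cupG p χ c - cupG p χ c' := by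
  funext ⟨s, t⟩
  show χ s • (mu p).ρ s (c t - c' t) = χ s • (mu p).ρ s (c t) - χ s • (mu p).ρ s (c' t)
  rw [map_sub, smul_sub]

theorem cupG_add_left (χ χ' : GQ → ZMod p) (c : GQ → mu p) :
    cupG p (χ + χ') c = cupG p χ c + cupG p χ' c := by
  funext ⟨s, t⟩
  show (χ s + χ' s) • (mu p).ρ s (c t) = χ s • (mu p).ρ s (c t) + χ' s • (mu p).ρ s (c t)
  rw [add_smul]

theorem cupG_smul_left (a : ZMod p) (χ : GQ → ZMod p) (c : GQ → mu p) :
    cupG p (a • χ) c = a • cupG p χ c := by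
  funext ⟨s, t⟩
  show (a • χ s) • (mu p).ρ s (c t) = a • (χ s • (mu p).ρ s (c t))
  rw [smul_assoc]

/-- `c` is a Kummer cocycle of `b`: `σ β = ζ ^ c σ · β` for some `p`-th root `β` of `b`. -/
def IsKummerCocycle (b : ℚ) (c : GQ → mu p) : Prop :=
  ∃ β : Qb, β ^ p = algebraMap ℚ Qb b ∧
    ∀ σ : GQ, σ β = LocalBr.zetaQb p ^ (ZMod.val (c σ : ZMod p)) * β

/-- The 2-cochain `f` of `G_ℚ`, restricted to the subgroup `U`, is the coboundary of a
level-constant 1-cochain of `U`. -/
def IsTrivOn (M : Rep (ZMod p) GQ) (U : Subgroup GQ) (f : GQ × GQ → M) : Prop :=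
  ∃ y : ↥U → M, IsLevelConstant₁ U.subtype y ∧
    ∀ g h : ↥U, f ((g : GQ), (h : GQ)) = M.ρ (g : GQ) (y h) - y (g * h) + y g

variable {p} in
theorem IsTrivOn.mono {M : Rep (ZMod p) GQ} {U U' : Subgroup GQ} {f : GQ × GQ → M}
    (h : IsTrivOn p M U f) (hle : U' ≤ U) : IsTrivOn p M U' f := by
  obtain ⟨y, hy, hd⟩ := h
  refine ⟨fun g => y (Subgroup.inclusion hle g), ?_, fun g h => ?_⟩
  · exact IsLevelConstant₁.precomp (rH := U.subtype) (rG := U'.subtype) (Subgroup.inclusion hle)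
      (fun _ => rfl) hy
  · exact hd (Subgroup.inclusion hle g) (Subgroup.inclusion hle h)

/-- The decomposition group of the Prelude's distinguished place above `q`. -/
noncomputable abbrev decomp (q : Nat.Primes) : Subgroup GQ :=
  (primeLocalPlace q).decompositionSubgroup ℚ

/-- The character `χ_{ℓ,ψ} = ψ ∘ (mod ℓ cyclotomic character)` of `G_ℚ`, in additive notation. -/
noncomputable def chiAdd (ℓ : ℕ) [Fact ℓ.Prime] (ψ : (ZMod ℓ)ˣ →* Multiplicative (ZMod p)) :
    GQ → ZMod p :=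
  fun σ => Multiplicative.toAdd (Cyclo.chi ℓ ψ σ)

theorem chiAdd_mul (ℓ : ℕ) [Fact ℓ.Prime] (ψ : (ZMod ℓ)ˣ →* Multiplicative (ZMod p)) (s t : GQ) :
    chiAdd p ℓ ψ (s * t) = chiAdd p ℓ ψ s + chiAdd p ℓ ψ t := by
  simp [chiAdd, map_mul]

theorem chiAdd_isLevelConstant (ℓ : ℕ) [Fact ℓ.Prime]
    (ψ : (ZMod ℓ)ˣ →* Multiplicative (ZMod p)) :
    IsLevelConstant₁ (MonoidHom.id GQ) (chiAdd p ℓ ψ) := by
  have h := (Cyclo.chi_isLevelConstant ℓ ψ).isLevelConstant₁
  exact h.comp Multiplicative.toAdd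

/-- Global `H²(G_ℚ, μ_p)` (level-constant cochains, any ramification). -/
abbrev H2glob : Type := continuousH2 (MonoidHom.id GQ) (mu p)

/-- Local `H²(G_{ℚ_q}, μ_p)` (Prelude shape). -/
abbrev H2at (q : Nat.Primes) : Type :=
  continuousH2 (primeLocalToGlobal q) (Rep.res (primeLocalToGlobal q) (mu p))

/-- Localisation `H²(G_ℚ, μ_p) → H²(G_{ℚ_q}, μ_p)`. -/
noncomputable def locAt (q : Nat.Primes) : H2glob p →ₗ[ZMod p] H2at p q :=
  continuousH2Map (rH := MonoidHom.id _) (rG := primeLocalToGlobal q) (primeLocalToGlobal q)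
    (fun _ => rfl) (LinearMap.id : mu p →ₗ[ZMod p] Rep.res (primeLocalToGlobal q) (mu p))
    (fun _ _ => rfl)

/-- The Prelude's `locRes₂S` factors through `locAt`. -/
theorem locRes₂S_eq_locAt (S : Finset Nat.Primes) (q : Nat.Primes) (x : continuousH2S S (mu p)) :
    locRes₂S S (mu p) (primeLocalToGlobal q) x =
      locAt p q (continuousH2SToContinuousH2 S (mu p) x) := rfl

/-- **Hasse principle, in the shape consumed by REC**: a global level-constant `2`-cocycle with
values in `μ_p` which is locally trivial at every finite place of a finite extension `K/ℚ` is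
trivial on `G_K`. -/
def HasseRes : Prop :=
  ∀ K : IntermediateField ℚ Qb, FiniteDimensional ℚ K →
    ∀ f ∈ levelCocycles₂ (MonoidHom.id GQ) (mu p),
      (∀ (q : ℕ) (A : ValuationSubring Qb), q.Prime → A.LiesOverPrime q →
        IsTrivOn p (mu p) (A.decompositionSubgroup ℚ ⊓ K.fixingSubgroup) f) →
      IsTrivOn p (mu p) K.fixingSubgroup f

/-! ### Local restriction and the three external inputs of REC (Prop-valued) -/

/-- `μ_p` as a representation of the Prelude's local group at `q`. -/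
noncomputable abbrev muAt (q : Nat.Primes) : Rep (ZMod p) (primeLocalGaloisGroup q) :=
  Rep.res (primeLocalToGlobal q) (mu p)

/-- Restriction of a global `2`-cochain to the local group at `q`
(`resAt p q z (s, t) = z (loc s, loc t)`; this is `Base.EvalCup.res₂`). -/
noncomputable def resAt (q : Nat.Primes) :
    (GQ × GQ → mu p) →ₗ[ZMod p]
      (primeLocalGaloisGroup q × primeLocalGaloisGroup q → muAt p q) :=
  cochainsPullPush₂ (primeLocalToGlobal q) (LinearMap.id : mu p →ₗ[ZMod p] muAt p q)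

theorem resAt_apply (q : Nat.Primes) (f : GQ × GQ → mu p)
    (st : primeLocalGaloisGroup q × primeLocalGaloisGroup q) :
    resAt p q f st = f (primeLocalToGlobal q st.1, primeLocalToGlobal q st.2) := rfl

/-- **Input (LOC-SYM)** (REC-LOC (L1)+(L2)): for every prime `q` a linear functional on the local
`2`-cochains at `q` with values in `μ_p` which kills the coboundaries of level-constant cochains
and satisfies the unramified symbol formula
`lam (res_q (χ_{ℓ,ψ} ∪ κ_b)) = v_q(b) · ψ(q)` for every prime `ℓ ≠ q`. -/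
def LocSym : Prop :=
  ∀ q : Nat.Primes, ∃ lam : (primeLocalGaloisGroup q × primeLocalGaloisGroup q → muAt p q)
      →ₗ[ZMod p] ZMod p,
    (∀ y : primeLocalGaloisGroup q → muAt p q, IsLevelConstant₁ (primeLocalToGlobal q) y →
        lam ((d₁₂ (muAt p q)).hom y) = 0) ∧
    ∀ (ℓ : ℕ) [Fact ℓ.Prime] (ψ : (ZMod ℓ)ˣ →* Multiplicative (ZMod p)) (b : ℚ) (c : GQ → mu p),
      ℓ ≠ (q : ℕ) → b ≠ 0 → IsKummerCocycle p b c →
      lam (resAt p q (cupG p (chiAdd p ℓ ψ) c)) =
        (padicValRat (q : ℕ) b : ZMod p) * Core.psi0 ℓ ψ ((q : ℕ) : ZMod ℓ)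

/-- **Input (TAME-LOC)** (REC-LOC (L0) + REC-TAME): for `p` odd, `ψ` surjective, if the symbol
`χ_{ℓ,ψ} ∪ κ_b` is locally trivial at `ℓ` (so `b` is a local norm from the totally ramified
extension cut out by `χ_{ℓ,ψ}`), then `Ψ_{ℓ,ψ}(b) = ∑_{q ≠ ℓ} v_q(b) ψ(q) = 0`. -/
def TameLoc : Prop :=
  p ≠ 2 → ∀ (ℓ : ℕ) [Fact ℓ.Prime] (ψ : (ZMod ℓ)ˣ →* Multiplicative (ZMod p)),
    Function.Surjective ψ → ∀ (b : ℚ) (c : GQ → mu p), b ≠ 0 → IsKummerCocycle p b c →
      resAt p ⟨ℓ, Fact.out⟩ (cupG p (chiAdd p ℓ ψ) c) ∈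
        levelCoboundaries₂ (primeLocalToGlobal ⟨ℓ, Fact.out⟩) (muAt p ⟨ℓ, Fact.out⟩) →
      Core.Psi ℓ ψ b = 0

/-- **Input (LOC-LINE)** (LOC (C) at `U = ⊤`): `H²(G_{ℚ_q}, μ_p)` is at most one-dimensional, in
cochain form. -/
def LocLine : Prop :=
  ∀ q : Nat.Primes, ∀ f ∈ levelCocycles₂ (primeLocalToGlobal q) (muAt p q),
    ∀ g ∈ levelCocycles₂ (primeLocalToGlobal q) (muAt p q),
      g ∉ levelCoboundaries₂ (primeLocalToGlobal q) (muAt p q) →
      ∃ m : ZMod p, f - m • g ∈ levelCoboundaries₂ (primeLocalToGlobal q) (muAt p q)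

/-- **REC-FINAL, output shape** (= the hypotheses `hcob`, `hrec` of `S55/Trace/LamS.exists_lamS`
and the field `recip` of `S55/Abs/LamW.Datum`): one family of local functionals `lam q` on local
`2`-cochains, for ALL primes `q`, killing the coboundaries of level-constant cochains, nonzero on
level-constant cocycles, normalised by the unramified symbol formula, and satisfying reciprocity
for every level-`T` global `2`-cocycle, `T ∋ p` finite. -/
def RecFinal : Prop :=
  ∃ lam : ∀ q : Nat.Primes,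
      (primeLocalGaloisGroup q × primeLocalGaloisGroup q → muAt p q) →ₗ[ZMod p] ZMod p,
    (∀ (q : Nat.Primes) (y : primeLocalGaloisGroup q → muAt p q),
        IsLevelConstant₁ (primeLocalToGlobal q) y → lam q ((d₁₂ (muAt p q)).hom y) = 0) ∧
    (∀ q : Nat.Primes, ∃ z ∈ levelCocycles₂ (primeLocalToGlobal q) (muAt p q), lam q z ≠ 0) ∧
    (∀ (q : Nat.Primes) (ℓ : ℕ) [Fact ℓ.Prime] (ψ : (ZMod ℓ)ˣ →* Multiplicative (ZMod p))
        (b : ℚ) (c : GQ → mu p), ℓ ≠ (q : ℕ) → b ≠ 0 → IsKummerCocycle p b c →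
        lam q (resAt p q (cupG p (chiAdd p ℓ ψ) c)) =
          (padicValRat (q : ℕ) b : ZMod p) * Core.psi0 ℓ ψ ((q : ℕ) : ZMod ℓ)) ∧
    ∀ (T : Finset Nat.Primes), pPrime p ∈ T → ∀ z : GQ × GQ → mu p,
      (d₂₃ (mu p)).hom z = 0 → IsLevelConstantS₂ T z → ∑ q ∈ T, lam q (resAt p q z) = 0

end Fermat.Agent.CFT.Rec
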