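import Fermat.Agent.CFT.Rec.Inert
import Fermat.Agent.CFT.LocalBr.AdapterMain

/-!
# CFT / Rec / InertCob: global cocycles are coboundaries on `D_A ∩ Gal(ℚ̄/E)` at inert primes

Let `ℓ` be a prime, `ψ : (ℤ/ℓ)ˣ → ℤ/p`, `E = chiField ℓ ψ`.  For a prime `q ≠ ℓ` with `ψ(q) ≠ 0`
and every valuation subring `A` of `ℚ̄` over `q`, the restriction of a level-constant `μ_p`-valued
`2`-cocycle of a subgroup containing the decomposition group `D_A` to `D_A ∩ Gal(ℚ̄/E)` is the
coboundary of a level-constant `1`-cochain (LOC (D2): restriction to an open subgroup of index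
divisible by `p` kills `H²(-, μ_p)`).  The statement is given in the literal `hloc` shape of
`CFT/Global/HPK.hp_K_of` (Case B of the step "`res_E x` is locally trivial everywhere" of `hGLOB`).
-/

set_option autoImplicit false

namespace Fermat.Agent.CFT.Rec.InertCob

open groupCohomology ExtCitation Fermat.Agent.CFT.LocalBr Fermat.Agent.CFT.Rec.Local
  Fermat.Agent.CFT.Rec.TameCrit Fermat.Agent.CFT.LocalBr.Adapter Fermat.Agent.CFT.Rec.Inert
open scoped Pointwise

local notation "Qb" => AlgebraicClosure ℚ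
local notation "GQ" => (AlgebraicClosure ℚ ≃ₐ[ℚ] AlgebraicClosure ℚ)

variable (q : ℕ) [Fact q.Prime] (p : ℕ) [Fact p.Prime]

/-- Restriction of a level-constant `2`-cocycle of `G_ℚ` to a subgroup. -/
theorem restrict_mem_levelCocycles₂ (D : Subgroup GQ) {z : GQ × GQ → muQ p}
    (hz : z ∈ levelCocycles₂ (MonoidHom.id GQ) (muQ p)) :
    cochainsPullPush₂ D.subtype (LinearMap.id : (muQ p) →ₗ[ZMod p] (Rep.res D.subtype (muQ p))) z ∈
      levelCocycles₂ D.subtype (Rep.res D.subtype (muQ p)) :=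
  cochainsPullPush₂_mem_levelCocycles₂ (rH := MonoidHom.id GQ) (rG := D.subtype) D.subtype
    (fun _ => rfl) _ (fun _ _ => rfl) hz

/-- **LOC (D2) on cochains, decomposition-group form.**  If `K ≤ K'` are finite over `ℚ`, `A` lies
over `q` and `p ∣ [D_A(K) : D_A(K')]`, then every level-constant `μ_p`-valued `2`-cocycle of
`D_A(K)` restricts to a level-constant coboundary on `D_A(K')`. -/
theorem restrict_mem_levelCoboundaries₂ {A : ValuationSubring Qb} (hA : A.LiesOverPrime q)
    {K K' : IntermediateField ℚ Qb} [FiniteDimensional ℚ K] [FiniteDimensional ℚ K'] (h : K ≤ K')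
    (hp : p ∣ (decomp A K').relIndex (decomp A K))
    {y : ↥(decomp A K) × ↥(decomp A K) → Rep.res (decomp A K).subtype (muQ p)}
    (hy : y ∈ levelCocycles₂ (decomp A K).subtype (Rep.res (decomp A K).subtype (muQ p))) :
    cochainsPullPush₂ (Subgroup.inclusion (decomp_anti A h))
        (LinearMap.id : (Rep.res (decomp A K).subtype (muQ p)) →ₗ[ZMod p]
          (Rep.res (decomp A K').subtype (muQ p))) y ∈
      levelCoboundaries₂ (decomp A K').subtype (Rep.res (decomp A K').subtype (muQ p)) := by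
  have h0 := resSub_mu_eq_zero q p hA h hp
  have h1 : resSub (muQ p) (decomp_anti A h)
      (continuousH2π (decomp A K).subtype (Rep.res (decomp A K).subtype (muQ p)) ⟨y, hy⟩) = 0 := by
    rw [h0, LinearMap.zero_apply]
  rw [resSub_eq, continuousH2Map_continuousH2π, continuousH2π_eq_zero_iff] at h1
  exact h1

variable (ℓ : ℕ) [Fact ℓ.Prime] (ψ : (ZMod ℓ)ˣ →* Multiplicative (ZMod p))

variable {q ℓ} in
/-- **Case B of `hGLOB` (inert primes), `hp_K` shape.**  For `q ≠ ℓ` with `ψ(q) ≠ 0`, `A` over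
`q`, and a level-constant `μ_p`-valued `2`-cocycle `z` of `G_ℚ`: on
`D_A ∩ Gal(ℚ̄/E)`, `E = chiField ℓ ψ`, `z` is the coboundary of a level-constant `1`-cochain. -/
theorem exists_primitive_of_inert (hqℓ : q ≠ ℓ) (h0 : Core.psi0 ℓ ψ ((q : ℕ) : ZMod ℓ) ≠ 0)
    {A : ValuationSubring Qb} (hA : A.LiesOverPrime q) {z : GQ × GQ → muQ p}
    (hz : z ∈ levelCocycles₂ (MonoidHom.id GQ) (muQ p)) :
    ∃ t : ↥(A.decompositionSubgroup ℚ ⊓ (chiField ℓ ψ).fixingSubgroup) → ZMod p,
      IsLevelConstant₁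
        (Subgroup.subtype (A.decompositionSubgroup ℚ ⊓ (chiField ℓ ψ).fixingSubgroup)) t ∧
      ∀ s s' : ↥(A.decompositionSubgroup ℚ ⊓ (chiField ℓ ψ).fixingSubgroup),
        z ((s : GQ), (s' : GQ)) =
          ((cycloChar p (s : GQ) : (ZMod p)ˣ) : ZMod p) * t s' - t (s * s') + t s := by
  have hfd : FiniteDimensional ℚ (chiField ℓ ψ) := finiteDimensional_chiField ℓ ψ
  have hy := restrict_mem_levelCocycles₂ p (decomp A ⊥) hz
  have h1 := restrict_mem_levelCoboundaries₂ q p hA (bot_le : (⊥ : IntermediateField ℚ Qb) ≤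
    chiField ℓ ψ) (dvd_relIndex_decomp p ψ hqℓ h0 hA) hy
  obtain ⟨t, ht, hdt⟩ := (mem_levelCoboundaries₂_iff _ _ _).1 h1
  refine ⟨t, ht, fun s s' => ?_⟩
  have h2 := congrFun hdt (s, s')
  rw [d₁₂_hom_apply] at h2
  exact h2.symm

end Fermat.Agent.CFT.Rec.InertCob
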