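import Fermat.Agent.CFT.Rec.Defs
import Fermat.Agent.CFT.Rec.CharField

/-!
# REC-KER: the kernel of `χ_{ℓ,ψ}` is `Gal(ℚ̄/E)` for a finite extension `E/ℚ`

* `kerChi p ℓ ψ` : the kernel of `χ_{ℓ,ψ} = ψ ∘ cycMod ℓ`, a normal subgroup of `G_ℚ`.
* `exists_kerChi_eq_fixingSubgroup` (REC-KER, frozen statement): it is the fixing subgroup of a
  finite extension `E/ℚ` (a subfield of `ℚ(ζ_ℓ)`; `Cyclo.cycMod_eq_one_iff`,
  `Cyclo.finiteDimensional_cycloField`, Galois correspondence / `Rec/CharField`).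
-/

set_option autoImplicit false

open CategoryTheory groupCohomology ExtCitation

namespace Fermat.Agent.CFT.Rec

local notation "Qb" => AlgebraicClosure ℚ
local notation "GQ" => (AlgebraicClosure ℚ ≃ₐ[ℚ] AlgebraicClosure ℚ)

variable (p : ℕ) [Fact p.Prime]

variable (ℓ : ℕ) [Fact ℓ.Prime]

/-- The kernel of `χ_{ℓ,ψ}` as a subgroup of `G_ℚ` (`= G_E`). -/
noncomputable def kerChi (ψ : (ZMod ℓ)ˣ →* Multiplicative (ZMod p)) : Subgroup GQ :=
  (Cyclo.chi ℓ ψ).ker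

instance kerChi_normal (ψ : (ZMod ℓ)ˣ →* Multiplicative (ZMod p)) : (kerChi p ℓ ψ).Normal :=
  MonoidHom.normal_ker _

theorem mem_kerChi_iff (ψ : (ZMod ℓ)ˣ →* Multiplicative (ZMod p)) (σ : GQ) :
    σ ∈ kerChi p ℓ ψ ↔ chiAdd p ℓ ψ σ = 0 := by
  rw [kerChi, MonoidHom.mem_ker, chiAdd]
  constructor
  · intro h; rw [h]; rfl
  · intro h; exact Multiplicative.toAdd.injective h

/-- **(REC-KER)** `ker χ_{ℓ,ψ}` is the fixing subgroup of a finite extension `E/ℚ`. -/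
theorem exists_kerChi_eq_fixingSubgroup (ψ : (ZMod ℓ)ˣ →* Multiplicative (ZMod p)) :
    ∃ E : IntermediateField ℚ Qb, FiniteDimensional ℚ E ∧ kerChi p ℓ ψ = E.fixingSubgroup := by
  have hQb : IsGalois ℚ Qb :=
    have : IsAlgClosure ℚ Qb := AlgebraicClosure.instIsAlgClosure ℚ
    IsAlgClosure.isGalois ℚ Qb
  have hfd := Cyclo.finiteDimensional_cycloField ℓ
  have hle : (Cyclo.cycloField ℓ).fixingSubgroup ≤ (Cyclo.chi ℓ ψ).ker := fun _ hσ =>
    MonoidHom.mem_ker.mpr (Cyclo.chi_eq_one_of_mem_fixingSubgroup ℓ ψ hσ)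
  exact ⟨IntermediateField.fixedField (Cyclo.chi ℓ ψ).ker,
    CharField.finiteDimensional_fixedField_ker (Cyclo.chi ℓ ψ) (Cyclo.cycloField ℓ) hle,
    (CharField.fixingSubgroup_fixedField_ker (Cyclo.chi ℓ ψ) (Cyclo.cycloField ℓ) hle).symm⟩

end Fermat.Agent.CFT.Rec
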