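import Fermat.Agent.CFT.Rec.Defs
import Fermat.Agent.CFT.LocalBr.Cup

/-!
# REC-SYM: global symbols `χ ∪ κ_b` (Kummer cocycles and cup products on `G_ℚ`)

Row REC-SYM of the REC package (tasks row 442, helper195).

* `exists_isKummerCocycle` : Kummer cocycles of `b ≠ 0` exist;
* `IsKummerCocycle.mem_cocycles₁`, `IsKummerCocycle.isLevelConstant` : a Kummer cocycle of
  `b ≠ 0` is a level-constant `1`-cocycle (level `ℚ(β)`).  NOTE the hypothesis `hb : b ≠ 0`:
  for `b = 0` the predicate `IsKummerCocycle p 0 c` holds for EVERY function `c` (`β = 0`), so the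
  two statements are false without it;
* `IsKummerCocycle.mul`, `IsKummerCocycle.exists_sub_eq` : additivity in `b`, uniqueness up to
  a coboundary;
* `cupG_mem_levelCocycles₂`, `cupG_dZero_mem_levelCoboundaries₂` : the cup product of a
  level-constant character with a level-constant `1`-cocycle (resp. `1`-coboundary) is a
  level-constant `2`-cocycle (resp. `2`-coboundary; primitive `σ ↦ -χ σ • σ m`).
-/

set_option autoImplicit false

open CategoryTheory groupCohomology ExtCitation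

namespace Fermat.Agent.CFT.Rec

local notation "Qb" => AlgebraicClosure ℚ
local notation "GQ" => (AlgebraicClosure ℚ ≃ₐ[ℚ] AlgebraicClosure ℚ)

variable (p : ℕ) [Fact p.Prime]

/-! ### Powers of the chosen primitive `p`-th root of unity -/

theorem zetaQb_pow_val_natCast (n : ℕ) :
    LocalBr.zetaQb p ^ ZMod.val (n : ZMod p) = LocalBr.zetaQb p ^ n := by
  rw [ZMod.val_natCast]
  exact (pow_eq_pow_mod n (LocalBr.isPrimitiveRoot_zetaQb p).pow_eq_one).symm

theorem zetaQb_pow_val_injective {a b : ZMod p}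
    (h : LocalBr.zetaQb p ^ ZMod.val a = LocalBr.zetaQb p ^ ZMod.val b) : a = b := by
  have : NeZero p := ⟨(Fact.out : p.Prime).ne_zero⟩
  exact ZMod.val_injective p
    ((LocalBr.isPrimitiveRoot_zetaQb p).pow_inj (ZMod.val_lt a) (ZMod.val_lt b) h)

theorem zetaQb_ne_zero : LocalBr.zetaQb p ≠ 0 :=
  (LocalBr.isPrimitiveRoot_zetaQb p).ne_zero (Fact.out : p.Prime).ne_zero

/-- `σ ζ = ζ ^ χ_cyc(σ)`. -/
theorem apply_zetaQb (σ : GQ) :
    σ (LocalBr.zetaQb p) = LocalBr.zetaQb p ^ ZMod.val ((cycloChar p σ : (ZMod p)ˣ) : ZMod p) :=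
  LocalBr.cycloChar_spec p σ (LocalBr.isPrimitiveRoot_zetaQb p).pow_eq_one

/-- Kummer cocycles exist. -/
theorem exists_isKummerCocycle (b : ℚ) (hb : b ≠ 0) : ∃ c : GQ → mu p, IsKummerCocycle p b c := by
  have hp : p.Prime := Fact.out
  have : NeZero p := ⟨hp.ne_zero⟩
  obtain ⟨β, hβ⟩ := IsAlgClosed.exists_pow_nat_eq (algebraMap ℚ Qb b) hp.pos
  have hβ0 : β ≠ 0 := by
    rintro rfl
    rw [zero_pow hp.ne_zero] at hβ
    exact hb ((map_eq_zero (algebraMap ℚ Qb)).1 hβ.symm)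
  have key : ∀ σ : GQ, ∃ i : ℕ, σ β = LocalBr.zetaQb p ^ i * β := by
    intro σ
    have h1 : (σ β / β) ^ p = 1 := by
      rw [div_pow, ← map_pow, hβ, AlgEquiv.commutes, div_self]
      rw [← hβ]
      exact pow_ne_zero _ hβ0
    obtain ⟨i, -, hi⟩ := (LocalBr.isPrimitiveRoot_zetaQb p).eq_pow_of_pow_eq_one h1
    exact ⟨i, by rw [hi, div_mul_cancel₀ _ hβ0]⟩
  choose i hi using key
  refine ⟨fun σ => ((i σ : ℕ) : ZMod p), β, hβ, fun σ => ?_⟩
  rw [hi σ]
  congr 1
  exact (zetaQb_pow_val_natCast p (i σ)).symm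

variable {p}

/-- The defining relation of a Kummer cocycle for a `p`-th root `β ≠ 0`. -/
theorem kummer_mul_aux {β : Qb} (hβ0 : β ≠ 0) {c : GQ → mu p}
    (hc : ∀ σ : GQ, σ β = LocalBr.zetaQb p ^ (ZMod.val (c σ : ZMod p)) * β) (σ τ : GQ) :
    c (σ * τ) = (mu p).ρ σ (c τ) + c σ := by
  have : NeZero p := ⟨(Fact.out : p.Prime).ne_zero⟩
  have h1 : (σ * τ) β = LocalBr.zetaQb p ^ (ZMod.val (c (σ * τ) : ZMod p)) * β := hc (σ * τ)
  have h2 : (σ * τ) β = LocalBr.zetaQb p ^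
      (ZMod.val ((cycloChar p σ : (ZMod p)ˣ) : ZMod p) * ZMod.val (c τ : ZMod p)
        + ZMod.val (c σ : ZMod p)) * β := by
    rw [AlgEquiv.mul_apply, hc τ, map_mul, map_pow, apply_zetaQb, hc σ, ← pow_mul, pow_add]
    ring
  rw [h1] at h2
  have h3 := mul_right_cancel₀ hβ0 h2
  rw [← zetaQb_pow_val_natCast p (ZMod.val ((cycloChar p σ : (ZMod p)ˣ) : ZMod p) *
    ZMod.val (c τ : ZMod p) + ZMod.val (c σ : ZMod p))] at h3
  have h4 := zetaQb_pow_val_injective p h3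
  rw [h4, mu_ρ_apply]
  push_cast
  rw [ZMod.natCast_zmod_val, ZMod.natCast_zmod_val, ZMod.natCast_zmod_val]
  rfl

/-- A Kummer cocycle (of `b ≠ 0`) is a `1`-cocycle with values in `μ_p`. -/
theorem IsKummerCocycle.mem_cocycles₁ {b : ℚ} {c : GQ → mu p} (h : IsKummerCocycle p b c)
    (hb : b ≠ 0) : c ∈ cocycles₁ (mu p) := by
  obtain ⟨β, hβ, hc⟩ := h
  have hβ0 : β ≠ 0 := by
    rintro rfl
    rw [zero_pow (Fact.out : p.Prime).ne_zero] at hβ
    exact hb ((map_eq_zero (algebraMap ℚ Qb)).1 hβ.symm)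
  rw [mem_cocycles₁_iff]
  exact fun σ τ => kummer_mul_aux hβ0 hc σ τ

/-- A Kummer cocycle (of `b ≠ 0`) is level-constant. -/
theorem IsKummerCocycle.isLevelConstant {b : ℚ} {c : GQ → mu p} (h : IsKummerCocycle p b c)
    (hb : b ≠ 0) : IsLevelConstant₁ (MonoidHom.id GQ) c := by
  obtain ⟨β, hβ, hc⟩ := h
  have hβ0 : β ≠ 0 := by
    rintro rfl
    rw [zero_pow (Fact.out : p.Prime).ne_zero] at hβ
    exact hb ((map_eq_zero (algebraMap ℚ Qb)).1 hβ.symm)
  have hint : IsIntegral ℚ β := ((AlgebraicClosure.isAlgebraic ℚ).isAlgebraic β).isIntegral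
  refine ⟨IntermediateField.adjoin ℚ {β}, IntermediateField.adjoin.finiteDimensional hint,
    fun g s hs => ?_⟩
  have hsβ : s β = β :=
    (IntermediateField.mem_fixingSubgroup_iff _ _).1 hs β
      (IntermediateField.mem_adjoin_simple_self ℚ β)
  have hcs : c s = 0 := by
    have h1 := hc s
    rw [hsβ] at h1
    have h2 : LocalBr.zetaQb p ^ ZMod.val (c s : ZMod p) = LocalBr.zetaQb p ^ ZMod.val (0 : ZMod p) := by
      rw [ZMod.val_zero, pow_zero]
      exact (mul_right_cancel₀ hβ0 (by rw [one_mul]; exact h1)).symm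
    exact zetaQb_pow_val_injective p h2
  rw [kummer_mul_aux hβ0 hc g s, hcs, map_zero, zero_add]

/-- Kummer cocycles are additive in `b`. -/
theorem IsKummerCocycle.mul {b b' : ℚ} {c c' : GQ → mu p} (h : IsKummerCocycle p b c)
    (h' : IsKummerCocycle p b' c') : IsKummerCocycle p (b * b') (c + c') := by
  have : NeZero p := ⟨(Fact.out : p.Prime).ne_zero⟩
  obtain ⟨β, hβ, hc⟩ := h
  obtain ⟨β', hβ', hc'⟩ := h'
  refine ⟨β * β', by rw [mul_pow, hβ, hβ', map_mul], fun σ => ?_⟩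
  have hv : LocalBr.zetaQb p ^ ZMod.val ((c + c') σ : ZMod p)
      = LocalBr.zetaQb p ^ (ZMod.val (c σ : ZMod p) + ZMod.val (c' σ : ZMod p)) := by
    have h1 : ((c + c') σ : ZMod p)
        = ((ZMod.val (c σ : ZMod p) + ZMod.val (c' σ : ZMod p) : ℕ) : ZMod p) := by
      push_cast
      rw [ZMod.natCast_zmod_val, ZMod.natCast_zmod_val]
      rfl
    rw [h1, zetaQb_pow_val_natCast]
  rw [map_mul, hc σ, hc' σ, hv, pow_add]
  ring

/-- Two Kummer cocycles of the same `b ≠ 0` differ by a coboundary. -/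
theorem IsKummerCocycle.exists_sub_eq {b : ℚ} (hb : b ≠ 0) {c c' : GQ → mu p}
    (h : IsKummerCocycle p b c) (h' : IsKummerCocycle p b c') :
    ∃ m : mu p, ∀ σ : GQ, c' σ - c σ = (mu p).ρ σ m - m := by
  have hp : p.Prime := Fact.out
  have : NeZero p := ⟨hp.ne_zero⟩
  obtain ⟨β, hβ, hc⟩ := h
  obtain ⟨β', hβ', hc'⟩ := h'
  have hβ0 : β ≠ 0 := by
    rintro rfl
    rw [zero_pow hp.ne_zero] at hβ
    exact hb ((map_eq_zero (algebraMap ℚ Qb)).1 hβ.symm)
  have h1 : (β' / β) ^ p = 1 := by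
    rw [div_pow, hβ, hβ', div_self]
    rw [← hβ]
    exact pow_ne_zero _ hβ0
  obtain ⟨j, -, hj⟩ := (LocalBr.isPrimitiveRoot_zetaQb p).eq_pow_of_pow_eq_one h1
  have hβ'eq : β' = LocalBr.zetaQb p ^ j * β := by rw [hj, div_mul_cancel₀ _ hβ0]
  refine ⟨((j : ℕ) : ZMod p), fun σ => ?_⟩
  have e1 : σ β' = LocalBr.zetaQb p ^ (ZMod.val (c' σ : ZMod p) + j) * β := by
    rw [hc' σ, hβ'eq, pow_add]
    ring
  have e2 : σ β' = LocalBr.zetaQb p ^
      (ZMod.val ((cycloChar p σ : (ZMod p)ˣ) : ZMod p) * j + ZMod.val (c σ : ZMod p)) * β := by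
    rw [hβ'eq, map_mul, map_pow, apply_zetaQb, hc σ, ← pow_mul, pow_add]
    ring
  rw [e1] at e2
  have e3 := mul_right_cancel₀ hβ0 e2
  rw [← zetaQb_pow_val_natCast p (ZMod.val (c' σ : ZMod p) + j),
    ← zetaQb_pow_val_natCast p (ZMod.val ((cycloChar p σ : (ZMod p)ˣ) : ZMod p) * j
      + ZMod.val (c σ : ZMod p))] at e3
  have e4 := zetaQb_pow_val_injective p e3
  push_cast at e4
  rw [ZMod.natCast_zmod_val, ZMod.natCast_zmod_val, ZMod.natCast_zmod_val] at e4
  rw [mu_ρ_apply]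
  have e5 : (c' σ : ZMod p) - (c σ : ZMod p)
      = ((cycloChar p σ : (ZMod p)ˣ) : ZMod p) * (j : ZMod p) - (j : ZMod p) := by
    linear_combination e4
  exact e5

variable (p)

/-- Elements of `G_ℚ` fixing `ℚ(μ_p)` act trivially on `μ_p`. -/
theorem mu_ρ_eq_of_mem {g : GQ} (hg : g ∈ (LocalBr.Cup.muField p).fixingSubgroup) (x : mu p) :
    (mu p).ρ g x = x := by
  rw [mu_ρ_apply, LocalBr.Cup.cycloChar_eq_one_of_mem_fixingSubgroup p hg, Units.val_one, one_smul]

/-- `cupG p χ c` is a `2`-cocycle for an additive `χ` and a `1`-cocycle `c`. -/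
theorem cupG_mem_cocycles₂ (χ : GQ → ZMod p) (hχ : ∀ s t, χ (s * t) = χ s + χ t)
    (c : GQ → mu p) (hc : c ∈ cocycles₁ (mu p)) : cupG p χ c ∈ cocycles₂ (mu p) := by
  rw [mem_cocycles₂_iff]
  intro g h j
  have hc' := (mem_cocycles₁_iff c).1 hc h j
  simp only [cupG_apply]
  rw [hχ, hc', map_smul, map_add, map_mul, Module.End.mul_apply, add_smul, smul_add]
  abel

/-- The cup product of a level-constant character and a level-constant `1`-cocycle is a
level-constant `2`-cocycle. -/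
theorem cupG_mem_levelCocycles₂ (χ : GQ → ZMod p) (hχ : ∀ s t, χ (s * t) = χ s + χ t)
    (hχl : IsLevelConstant₁ (MonoidHom.id GQ) χ) (c : GQ → mu p) (hc : c ∈ cocycles₁ (mu p))
    (hcl : IsLevelConstant₁ (MonoidHom.id GQ) c) :
    cupG p χ c ∈ levelCocycles₂ (MonoidHom.id GQ) (mu p) := by
  refine (mem_levelCocycles₂_iff _ _ _).2 ⟨cupG_mem_cocycles₂ p χ hχ c hc, ?_⟩
  obtain ⟨F₁, hF₁, h₁⟩ := hχl
  obtain ⟨F₂, hF₂, h₂⟩ := hcl
  have := hF₁; have := hF₂
  have := LocalBr.Cup.finiteDimensional_muField p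
  refine ⟨F₁ ⊔ F₂ ⊔ LocalBr.Cup.muField p, inferInstance, fun g g' s s' hs hs' => ?_⟩
  have hs₁ : MonoidHom.id GQ s ∈ F₁.fixingSubgroup :=
    IntermediateField.fixingSubgroup_antitone (le_sup_left.trans le_sup_left) hs
  have hs₂' : MonoidHom.id GQ s' ∈ F₂.fixingSubgroup :=
    IntermediateField.fixingSubgroup_antitone (le_sup_right.trans le_sup_left) hs'
  have hs₃ : s ∈ (LocalBr.Cup.muField p).fixingSubgroup :=
    IntermediateField.fixingSubgroup_antitone le_sup_right hs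
  simp only [cupG_apply]
  rw [h₁ g s hs₁, h₂ g' s' hs₂', map_mul, Module.End.mul_apply, mu_ρ_eq_of_mem p hs₃]

/-- The cup product of a level-constant character with a `1`-coboundary is a level-constant
`2`-coboundary. -/
theorem cupG_dZero_mem_levelCoboundaries₂ (χ : GQ → ZMod p) (hχ : ∀ s t, χ (s * t) = χ s + χ t)
    (hχl : IsLevelConstant₁ (MonoidHom.id GQ) χ) (m : mu p) :
    cupG p χ (fun σ => (mu p).ρ σ m - m) ∈ levelCoboundaries₂ (MonoidHom.id GQ) (mu p) := by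
  rw [mem_levelCoboundaries₂_iff]
  refine ⟨fun σ => -(χ σ • (mu p).ρ σ m), ?_, ?_⟩
  · obtain ⟨F₁, hF₁, h₁⟩ := hχl
    have := hF₁
    have := LocalBr.Cup.finiteDimensional_muField p
    refine ⟨F₁ ⊔ LocalBr.Cup.muField p, inferInstance, fun g s hs => ?_⟩
    have hs₁ : MonoidHom.id GQ s ∈ F₁.fixingSubgroup :=
      IntermediateField.fixingSubgroup_antitone le_sup_left hs
    have hs₃ : s ∈ (LocalBr.Cup.muField p).fixingSubgroup :=
      IntermediateField.fixingSubgroup_antitone le_sup_right hs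
    show -(χ (g * s) • (mu p).ρ (g * s) m) = -(χ g • (mu p).ρ g m)
    rw [h₁ g s hs₁, map_mul, Module.End.mul_apply, mu_ρ_eq_of_mem p hs₃]
  · funext ⟨s, t⟩
    rw [d₁₂_hom_apply, cupG_apply]
    simp only [hχ, map_neg, map_smul, map_sub, map_mul, Module.End.mul_apply, add_smul, smul_sub]
    abel

end Fermat.Agent.CFT.Rec
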