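import Fermat.Agent.CFT.Rec.Bridge
import Fermat.Agent.CFT.Rec.Sym
import Fermat.Agent.CFT.Rec.KerChi
import Fermat.Agent.CFT.Rec.InertCob

/-!
# REC-INERT: at an inert prime of the auxiliary field every class is split

`isTrivOn_decomp_inf_kerChi_of_inert` (frozen statement): if `q ≠ ℓ` and `ψ(q) ≠ 0` (`q` is inert
in the fixed field `E` of `ker χ_{ℓ,ψ}`), every global level-constant `2`-cocycle with values in
`μ_p` is trivial on `D_q ∩ ker χ` (distinguished place above `q`).

Proof: let `c` be a Kummer cocycle of `q` (`exists_isKummerCocycle`) and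
`z₀ = res_q (χ ∪ c)`, a level-constant local cocycle (`cupG_mem_levelCocycles₂`,
`resAt_mem_levelCocycles₂`).  By `LocSym`, `lam z₀ = v_q(q) ψ(q) = ψ(q) ≠ 0` and `lam` kills
level-constant coboundaries, so `z₀` is not a level-constant coboundary.  By `LocLine`,
`res_q f - m • z₀ = d y` with `y` level-constant.  The cochain `χ ∪ c` vanishes identically on
`ker χ × G_ℚ`, so `res_q f = d y` on the preimage of `ker χ`; conclude with
`isTrivOn_decomp_inf_of_resAt`.
-/

set_option autoImplicit false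

open CategoryTheory groupCohomology ExtCitation

namespace Fermat.Agent.CFT.Rec

local notation "Qb" => AlgebraicClosure ℚ
local notation "GQ" => (AlgebraicClosure ℚ ≃ₐ[ℚ] AlgebraicClosure ℚ)

variable (p : ℕ) [Fact p.Prime]

variable (ℓ : ℕ) [Fact ℓ.Prime]

/-- **(REC-INERT)** `q ≠ ℓ`, `ψ(q) ≠ 0`: every global level-constant `2`-cocycle with values in
`μ_p` is trivial on `D_q ∩ ker χ` (distinguished place above `q`). -/
theorem isTrivOn_decomp_inf_kerChi_of_inert (hLine : LocLine p) (hSym : LocSym p)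
    (ψ : (ZMod ℓ)ˣ →* Multiplicative (ZMod p))
    (q : Nat.Primes) (hqℓ : ℓ ≠ (q : ℕ)) (hψq : Core.psi0 ℓ ψ ((q : ℕ) : ZMod ℓ) ≠ 0)
    (f : GQ × GQ → mu p) (hf : f ∈ levelCocycles₂ (MonoidHom.id GQ) (mu p)) :
    IsTrivOn p (mu p) (decomp q ⊓ kerChi p ℓ ψ) f := by
  -- direct route through LOC (D2) (`Rec/InertCob`); `hLine`, `hSym` are not needed
  have : Fact (q : ℕ).Prime := ⟨q.2⟩
  have hA := Fermat.Agent.S55.Arith.Unram.liesOverPrime_primeLocalPlace q
  obtain ⟨t, ht, hd⟩ := InertCob.exists_primitive_of_inert p ψ (Ne.symm hqℓ) hψq hA hf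
  have hU : decomp q ⊓ kerChi p ℓ ψ =
      (primeLocalPlace q).decompositionSubgroup ℚ ⊓ (TameCrit.chiField ℓ ψ).fixingSubgroup := by
    rw [TameCrit.fixingSubgroup_chiField]
    rfl
  rw [hU]
  exact ⟨t, ht, fun g h => hd g h⟩

end Fermat.Agent.CFT.Rec
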