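/-
CFT / REC — REC-GLOB-KER (helper146).

The kernel of restriction to a cyclic open subgroup, on level-constant cochains:

  a level-constant `μ_p`-valued 2-cocycle `z` of `G` whose restriction to `H = ker χ`
  (`χ : G → ℤ/p` additive, onto) is the coboundary of a level-constant cochain of `H` is
  `χ ∪ κ_β + d e`, with `κ_β` the Kummer cocycle of an element `β : A` such that `p • β` is
  `G`-invariant.

Everything is stated on explicit cochains in the vocabulary of `CFT/LC` (`LevelBasis`, `dOne`,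
`H90`, `H90On`, `IsKummer`), so that it applies verbatim to the Prelude's
`levelCocycles₂ / levelCoboundaries₂` through `LC/ContH2`.

Proof.  (1) Inflation–restriction for the cyclic quotient, through the extension group
`E = A ×_f G` of the cocycle `f = i ∘ z` (`Ext`): the splitting `S` of `E` over `H` given by the
primitive is normalised by a suitable lift `σ̃` of a generator `σ` (Hilbert 90 on `H` kills the
obstruction cocycle `psi`), `σ̃ ^ n = ι b * S (σ ^ n)` with `b` invariant, and the section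
`σ ^ j h ↦ σ̃ ^ j * S h` has cocycle exactly the carry cocycle of `b`.
(2) Kummer/Bockstein on cochains.  (3) `LC.kummer_injective`.
-/
import Fermat.Agent.CFT.LC.Kummer

set_option autoImplicit false

universe u v w v' w'

namespace Fermat.Agent.CFT.Rec.GlobalKer

open Fermat.Agent.CFT.LC

variable {G : Type u} [Group G]

/-! ### The extension group of a 2-cocycle -/

section ExtGroup

variable {k : Type v} [CommRing k] (A : Rep.{w} k G)

/-- The explicit 2-cocycle identity, as a class (so that the twisted product is a group by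
instance resolution). -/
class Coc (f : G × G → A) : Prop where
  coc : ∀ g h j, f (g * h, j) + f (g, h) = A.ρ g (f (h, j)) + f (g, h * j)

/-- The twisted product `A ×_f G`. -/
@[ext] structure Ext (f : G × G → A) where
  /-- the module component -/
  a : A
  /-- the group component -/
  g : G

variable {A} (f : G × G → A)

lemma coc_one_left [hf : Coc A f] (g : G) : f (1, g) = f (1, 1) := by
  have h := hf.coc 1 1 g
  simp only [mul_one, one_mul, map_one, Module.End.one_apply] at h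
  exact (add_left_cancel h).symm

lemma coc_one_right [hf : Coc A f] (g : G) : f (g, 1) = A.ρ g (f (1, 1)) := by
  have h := hf.coc g 1 1
  simp only [mul_one] at h
  exact add_right_cancel h

instance [hf : Coc A f] : Group (Ext A f) where
  mul x y := ⟨x.a + A.ρ x.g y.a + f (x.g, y.g), x.g * y.g⟩
  one := ⟨-f (1, 1), 1⟩
  inv x := ⟨-A.ρ x.g⁻¹ x.a - f (x.g⁻¹, x.g) - f (1, 1), x.g⁻¹⟩
  mul_assoc x y z := by
    have h := eq_sub_of_add_eq (hf.coc x.g y.g z.g)
    refine Ext.ext ?_ (mul_assoc _ _ _)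
    show x.a + A.ρ x.g y.a + f (x.g, y.g) + A.ρ (x.g * y.g) z.a + f (x.g * y.g, z.g) =
      x.a + A.ρ x.g (y.a + A.ρ y.g z.a + f (y.g, z.g)) + f (x.g, y.g * z.g)
    rw [h, map_mul, Module.End.mul_apply, map_add, map_add]
    abel
  one_mul x := by
    refine Ext.ext ?_ (one_mul _)
    show -f (1, 1) + A.ρ 1 x.a + f (1, x.g) = x.a
    rw [coc_one_left f x.g, map_one, Module.End.one_apply]
    abel
  mul_one x := by
    refine Ext.ext ?_ (mul_one _)
    show x.a + A.ρ x.g (-f (1, 1)) + f (x.g, 1) = x.a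
    rw [coc_one_right f x.g, map_neg]
    abel
  inv_mul_cancel x := by
    refine Ext.ext ?_ (inv_mul_cancel _)
    show -A.ρ x.g⁻¹ x.a - f (x.g⁻¹, x.g) - f (1, 1) + A.ρ x.g⁻¹ x.a + f (x.g⁻¹, x.g) = -f (1, 1)
    abel

variable [hf : Coc A f]

@[simp] lemma mul_a (x y : Ext A f) : (x * y).a = x.a + A.ρ x.g y.a + f (x.g, y.g) := rfl
@[simp] lemma mul_g (x y : Ext A f) : (x * y).g = x.g * y.g := rfl
@[simp] lemma one_a : (1 : Ext A f).a = -f (1, 1) := rfl
@[simp] lemma one_g : (1 : Ext A f).g = 1 := rfl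

/-- The projection `E → G`. -/
def proj : Ext A f →* G where
  toFun := Ext.g
  map_one' := rfl
  map_mul' _ _ := rfl

@[simp] lemma pow_g (x : Ext A f) (m : ℕ) : (x ^ m).g = x.g ^ m := map_pow (proj f) x m

/-- The inclusion `A → E`. -/
def ι (c : A) : Ext A f := ⟨c - f (1, 1), 1⟩

lemma ι_mul (c : A) (x : Ext A f) : ι f c * x = ⟨c + x.a, x.g⟩ := by
  refine Ext.ext ?_ (one_mul _)
  show c - f (1, 1) + A.ρ 1 x.a + f (1, x.g) = c + x.a
  rw [coc_one_left f x.g, map_one, Module.End.one_apply]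
  abel

lemma mul_ι (x : Ext A f) (c : A) : x * ι f c = ⟨x.a + A.ρ x.g c, x.g⟩ := by
  refine Ext.ext ?_ (mul_one _)
  show x.a + A.ρ x.g (c - f (1, 1)) + f (x.g, 1) = x.a + A.ρ x.g c
  rw [coc_one_right f x.g, map_sub]
  abel

lemma mul_ι_comm (x : Ext A f) (c : A) : x * ι f c = ι f (A.ρ x.g c) * x := by
  rw [mul_ι, ι_mul]
  exact Ext.ext (add_comm _ _) rfl

lemma ι_add (c d : A) : ι f (c + d) = ι f c * ι f d := by
  rw [ι_mul]
  refine Ext.ext ?_ rfl
  show c + d - f (1, 1) = c + (d - f (1, 1))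
  abel

lemma ι_zero : ι f (0 : A) = 1 := Ext.ext (zero_sub _) rfl

lemma ι_nsmul (m : ℕ) (c : A) : ι f (m • c) = ι f c ^ m := by
  induction m with
  | zero => rw [zero_smul, pow_zero, ι_zero]
  | succ m ih => rw [succ_nsmul, ι_add, ih, pow_succ]

omit hf in
lemma ι_injective : Function.Injective (ι f) := by
  intro c d h
  have h1 := congrArg Ext.a h
  exact sub_left_injective h1

lemma eq_ι_mul (x y : Ext A f) (h : x.g = y.g) : x = ι f (x.a - y.a) * y := by
  rw [ι_mul]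
  refine Ext.ext ?_ h
  show x.a = x.a - y.a + y.a
  abel

end ExtGroup

/-! ### Inflation–restriction for a cyclic quotient, on cochains -/

section Cyclic

variable {k : Type v} [CommRing k] (A : Rep.{w} k G) (n : ℕ)

/-- The data: a 2-cocycle `f` of `G`, an additive `χ : G → ZMod n` with kernel `H`, an element
`σ` with `χ σ = 1`, and a primitive `x₀` of `f` on `H`. -/
structure Datum where
  /-- the 2-cocycle -/
  f : G × G → A
  coc : ∀ g h j, f (g * h, j) + f (g, h) = A.ρ g (f (h, j)) + f (g, h * j)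
  /-- the character -/
  χ : G → ZMod n
  χ_mul : ∀ g h, χ (g * h) = χ g + χ h
  /-- its kernel -/
  H : Subgroup G
  mem_H : ∀ g, g ∈ H ↔ χ g = 0
  /-- a generator of the quotient -/
  σ : G
  χ_σ : χ σ = 1
  /-- a primitive of `f` on `H` -/
  x₀ : H → A
  hx₀ : ∀ s t : H, f ((s : G), (t : G)) = A.ρ (s : G) (x₀ t) - x₀ (s * t) + x₀ s

namespace Datum

variable {A n} (D : Datum A n)

instance : Coc A D.f := ⟨D.coc⟩

lemma χ_one : D.χ 1 = 0 := by
  have h := D.χ_mul 1 1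
  rw [mul_one] at h
  exact add_eq_left.mp h.symm

lemma χ_inv (g : G) : D.χ g⁻¹ = -D.χ g := by
  have h := D.χ_mul g⁻¹ g
  rw [inv_mul_cancel, D.χ_one] at h
  exact eq_neg_of_add_eq_zero_left h.symm

lemma χ_pow (g : G) (m : ℕ) : D.χ (g ^ m) = m * D.χ g := by
  induction m with
  | zero => rw [pow_zero, D.χ_one, Nat.cast_zero, zero_mul]
  | succ m ih => rw [pow_succ, D.χ_mul, ih, Nat.cast_succ, add_mul, one_mul]

lemma conj_mem (g : G) {t : G} (ht : t ∈ D.H) : g⁻¹ * t * g ∈ D.H := by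
  rw [D.mem_H] at ht ⊢
  rw [D.χ_mul, D.χ_mul, D.χ_inv, ht]
  ring

/-- conjugation by `σ ^ m` on `H` -/
def cjp (m : ℕ) (t : D.H) : D.H := ⟨(D.σ ^ m)⁻¹ * t * D.σ ^ m, D.conj_mem _ t.2⟩

/-- conjugation by `σ` on `H` -/
def cj (t : D.H) : D.H := ⟨D.σ⁻¹ * t * D.σ, D.conj_mem _ t.2⟩

lemma cj_mul (s t : D.H) : D.cj (s * t) = D.cj s * D.cj t := Subtype.ext (by
  show D.σ⁻¹ * ((s : G) * (t : G)) * D.σ = D.σ⁻¹ * s * D.σ * (D.σ⁻¹ * t * D.σ)
  group)

lemma cjp_zero (t : D.H) : D.cjp 0 t = t := Subtype.ext (by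
  show (D.σ ^ 0)⁻¹ * (t : G) * D.σ ^ 0 = t
  group)

lemma cj_cjp (m : ℕ) (t : D.H) : D.cj (D.cjp m t) = D.cjp (m + 1) t := Subtype.ext (by
  show D.σ⁻¹ * ((D.σ ^ m)⁻¹ * (t : G) * D.σ ^ m) * D.σ = (D.σ ^ (m + 1))⁻¹ * t * D.σ ^ (m + 1)
  rw [pow_succ]
  group)

/-- the splitting of the extension over `H` -/
def S (t : D.H) : Ext A D.f := ⟨-D.x₀ t, t⟩

lemma S_mul (s t : D.H) : D.S (s * t) = D.S s * D.S t := by
  refine Ext.ext ?_ rfl
  show -D.x₀ (s * t) = -D.x₀ s + A.ρ (s : G) (-D.x₀ t) + D.f ((s : G), (t : G))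
  rw [D.hx₀, map_neg]
  abel

/-- the splitting as a homomorphism -/
def SHom : D.H →* Ext A D.f := MonoidHom.mk' D.S D.S_mul

lemma S_pow (t : D.H) (m : ℕ) : D.S (t ^ m) = D.S t ^ m := map_pow D.SHom t m

/-- the obstruction to `σ̃ = (0, σ)` normalising the splitting: a 1-cocycle of `H` -/
def psi (t : D.H) : A :=
  -A.ρ D.σ (D.x₀ (D.cj t)) + D.f (D.σ, D.σ⁻¹ * t * D.σ) + D.x₀ t - D.f ((t : G), D.σ)

/-- a lift of `σ` -/
def st (a : A) : Ext A D.f := ⟨a, D.σ⟩

lemma st_mul_S (t : D.H) : D.st 0 * D.S (D.cj t) = ι D.f (D.psi t) * (D.S t * D.st 0) := by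
  rw [ι_mul]
  refine Ext.ext ?_ ?_
  · show (0 : A) + A.ρ D.σ (-D.x₀ (D.cj t)) + D.f (D.σ, D.σ⁻¹ * t * D.σ) =
      D.psi t + (-D.x₀ t + A.ρ (t : G) 0 + D.f ((t : G), D.σ))
    rw [psi, map_neg, map_zero]
    abel
  · show D.σ * (D.σ⁻¹ * t * D.σ) = t * D.σ
    group

lemma psi_mul (s t : D.H) : D.psi (s * t) = A.ρ (s : G) (D.psi t) + D.psi s := by
  have h1 : D.st 0 * D.S (D.cj (s * t)) =
      ι D.f (D.psi s + A.ρ (s : G) (D.psi t)) * (D.S (s * t) * D.st 0) := by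
    have e1 : D.S s * ι D.f (D.psi t) = ι D.f (A.ρ (s : G) (D.psi t)) * D.S s :=
      mul_ι_comm D.f (D.S s) (D.psi t)
    rw [D.cj_mul, D.S_mul, ← mul_assoc, D.st_mul_S, mul_assoc, mul_assoc, D.st_mul_S,
      ← mul_assoc (D.S s), e1, ι_add, D.S_mul]
    simp only [mul_assoc]
  have h2 := D.st_mul_S (s * t)
  rw [h1] at h2
  have h3 := ι_injective D.f (mul_right_cancel h2)
  rw [← h3]
  abel

section Main

variable (a : A)

lemma S_mul_st (ha : ∀ t : D.H, D.psi t = A.ρ (t : G) a - a) (t : D.H) :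
    D.S t * D.st a = D.st a * D.S (D.cj t) := by
  refine Ext.ext ?_ ?_
  · show -D.x₀ t + A.ρ (t : G) a + D.f ((t : G), D.σ) =
      a + A.ρ D.σ (-D.x₀ (D.cj t)) + D.f (D.σ, D.σ⁻¹ * t * D.σ)
    have h := ha t
    rw [psi] at h
    rw [map_neg]
    linear_combination (norm := abel) -h
  · show (t : G) * D.σ = D.σ * (D.σ⁻¹ * t * D.σ)
    group

lemma S_mul_st_pow (ha : ∀ t : D.H, D.psi t = A.ρ (t : G) a - a) (m : ℕ) (t : D.H) :
    D.S t * D.st a ^ m = D.st a ^ m * D.S (D.cjp m t) := by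
  induction m with
  | zero => rw [pow_zero, mul_one, one_mul, D.cjp_zero]
  | succ m ih =>
    rw [pow_succ, ← mul_assoc, ih, mul_assoc, D.S_mul_st a ha, D.cj_cjp, ← mul_assoc]

variable [NeZero n]

/-- the exponent of `σ` -/
def j (g : G) : ℕ := (D.χ g).val

lemma r_mem (g : G) : (D.σ ^ D.j g)⁻¹ * g ∈ D.H := by
  rw [D.mem_H, D.χ_mul, D.χ_inv, D.χ_pow, D.χ_σ, mul_one, j, ZMod.natCast_zmod_val]
  exact neg_add_cancel _

/-- the `H`-component -/
def r (g : G) : D.H := ⟨(D.σ ^ D.j g)⁻¹ * g, D.r_mem g⟩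

omit [NeZero n] in
lemma σ_pow_mem : D.σ ^ n ∈ D.H := by
  rw [D.mem_H, D.χ_pow, ZMod.natCast_self, zero_mul]

/-- `σ ^ n` as an element of `H` -/
def σn : D.H := ⟨D.σ ^ n, D.σ_pow_mem⟩

/-- the invariant element -/
def b (a : A) : A := (D.st a ^ n).a - (D.S D.σn).a

omit [NeZero n] in
lemma st_pow_n : D.st a ^ n = ι D.f (D.b a) * D.S D.σn :=
  eq_ι_mul D.f _ _ (by rw [pow_g]; rfl)

omit [NeZero n] in
lemma ρ_H_b (ha : ∀ t : D.H, D.psi t = A.ρ (t : G) a - a) (t : D.H) :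
    A.ρ (t : G) (D.b a) = D.b a := by
  have h := D.S_mul_st_pow a ha n t
  rw [D.st_pow_n, ← mul_assoc, mul_ι_comm, mul_assoc, mul_assoc, ← D.S_mul, ← D.S_mul] at h
  have e : D.σn * D.cjp n t = t * D.σn := Subtype.ext (by
    show D.σ ^ n * ((D.σ ^ n)⁻¹ * (t : G) * D.σ ^ n) = t * D.σ ^ n
    group)
  rw [e] at h
  exact ι_injective D.f (mul_right_cancel h)

omit [NeZero n] in
lemma ρ_σ_b (ha : ∀ t : D.H, D.psi t = A.ρ (t : G) a - a) : A.ρ D.σ (D.b a) = D.b a := by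
  have h : D.st a * D.st a ^ n = D.st a ^ n * D.st a :=
    (pow_succ' _ _).symm.trans (pow_succ _ _)
  rw [D.st_pow_n, ← mul_assoc, mul_ι_comm, mul_assoc, mul_assoc, D.S_mul_st a ha] at h
  have e : D.cj D.σn = D.σn := Subtype.ext (by
    show D.σ⁻¹ * D.σ ^ n * D.σ = D.σ ^ n
    rw [mul_assoc, ← pow_succ, pow_succ', inv_mul_cancel_left])
  rw [e] at h
  exact ι_injective D.f (mul_right_cancel h)

lemma ρ_b (ha : ∀ t : D.H, D.psi t = A.ρ (t : G) a - a) (g : G) : A.ρ g (D.b a) = D.b a := by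
  have hpow : ∀ m : ℕ, A.ρ (D.σ ^ m) (D.b a) = D.b a := by
    intro m
    induction m with
    | zero => rw [pow_zero, map_one, Module.End.one_apply]
    | succ m ih => rw [pow_succ, map_mul, Module.End.mul_apply, D.ρ_σ_b a ha, ih]
  have hg : g = D.σ ^ D.j g * (D.r g : G) := by
    show g = D.σ ^ D.j g * ((D.σ ^ D.j g)⁻¹ * g)
    group
  rw [hg, map_mul, Module.End.mul_apply, D.ρ_H_b a ha, hpow]

/-- the new section of the extension -/
def τ (a : A) (g : G) : Ext A D.f := D.st a ^ D.j g * D.S (D.r g)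

lemma τ_g (g : G) : (D.τ a g).g = g := by
  show (D.st a ^ D.j g).g * ((D.σ ^ D.j g)⁻¹ * g) = g
  rw [pow_g]
  show D.σ ^ D.j g * ((D.σ ^ D.j g)⁻¹ * g) = g
  group

lemma j_mul (g g' : G) : D.j (g * g') = (D.j g + D.j g') % n := by
  rw [j, D.χ_mul, ZMod.val_add]
  rfl

lemma τ_mul (ha : ∀ t : D.H, D.psi t = A.ρ (t : G) a - a) (g g' : G) :
    D.τ a g * D.τ a g' = ι D.f (((D.j g + D.j g') / n) • D.b a) * D.τ a (g * g') := by
  set c := (D.j g + D.j g') / n with hc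
  have hj : D.j g + D.j g' = D.j (g * g') + n * c := by
    rw [D.j_mul, hc]
    exact (Nat.mod_add_div _ _).symm
  have hG : D.σn ^ c * (D.cjp (D.j g') (D.r g) * D.r g') = D.r (g * g') := Subtype.ext (by
    show (D.σ ^ n) ^ c * ((D.σ ^ D.j g')⁻¹ * ((D.σ ^ D.j g)⁻¹ * g) * D.σ ^ D.j g' *
      ((D.σ ^ D.j g')⁻¹ * g')) = (D.σ ^ D.j (g * g'))⁻¹ * (g * g')
    have h1 : (D.σ ^ n) ^ c = (D.σ ^ D.j (g * g'))⁻¹ * (D.σ ^ D.j g * D.σ ^ D.j g') := by
      rw [← pow_mul, ← pow_add, hj, pow_add, inv_mul_cancel_left]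
    rw [h1]
    group)
  have hcomm : Commute (ι D.f (D.b a)) (D.S D.σn) := by
    show ι D.f (D.b a) * D.S D.σn = D.S D.σn * ι D.f (D.b a)
    rw [mul_ι_comm]
    show _ = ι D.f (A.ρ (D.σn : G) (D.b a)) * _
    rw [D.ρ_H_b a ha]
  have hι : ∀ (m : ℕ) (d : A), (∀ g, A.ρ g d = d) →
      D.st a ^ m * ι D.f d = ι D.f d * D.st a ^ m := by
    intro m d hd
    rw [mul_ι_comm, hd]
  calc D.τ a g * D.τ a g'
      = D.st a ^ D.j g * (D.S (D.r g) * D.st a ^ D.j g') * D.S (D.r g') := by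
        simp only [τ, mul_assoc]
    _ = D.st a ^ (D.j g + D.j g') * D.S (D.cjp (D.j g') (D.r g) * D.r g') := by
        rw [D.S_mul_st_pow a ha, D.S_mul, pow_add]
        simp only [mul_assoc]
    _ = D.st a ^ D.j (g * g') * (ι D.f (c • D.b a) * D.S (D.σn ^ c)) *
          D.S (D.cjp (D.j g') (D.r g) * D.r g') := by
        rw [hj, pow_add, pow_mul, D.st_pow_n a, hcomm.mul_pow, ι_nsmul, D.S_pow]
    _ = ι D.f (c • D.b a) * (D.st a ^ D.j (g * g') * D.S (D.r (g * g'))) := by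
        rw [← mul_assoc (D.st a ^ D.j (g * g')),
          hι _ _ (fun g => by rw [map_nsmul, D.ρ_b a ha]), ← hG]
        simp only [mul_assoc, D.S_mul]
    _ = ι D.f (c • D.b a) * D.τ a (g * g') := rfl

end Main

/-- **Cyclic inflation–restriction on cochains** (algebraic core).  If the obstruction cocycle
`psi` is the coboundary of `a`, then `f` is the carry cocycle of an invariant element `b`
minus the coboundary of an explicit cochain `x`, whose behaviour under right translation by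
`H` is recorded. -/
theorem exists_carry [NeZero n] (a : A) (ha : ∀ t : D.H, D.psi t = A.ρ (t : G) a - a) :
    ∃ (b : A) (x : G → A), (∀ g, A.ρ g b = b) ∧
      (∀ g g', D.f (g, g') = (((D.χ g).val + (D.χ g').val) / n) • b - dOne A x (g, g')) ∧
      (∀ (g : G) (m : D.H), x (g * m) = x g - A.ρ g (D.x₀ m) + D.f (g, (m : G))) := by
  refine ⟨D.b a, fun g => (D.τ a g).a, D.ρ_b a ha, fun g g' => ?_, fun g m => ?_⟩
  · have h := congrArg Ext.a (D.τ_mul a ha g g')
    rw [ι_mul] at h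
    simp only [mul_a, D.τ_g, j] at h
    rw [dOne_apply]
    linear_combination (norm := abel) h
  · have h1 : D.τ a (g * m) = D.τ a g * D.S m := by
      have hj : D.j (g * (m : G)) = D.j g := by
        rw [j, j, D.χ_mul, (D.mem_H m).1 m.2, add_zero]
      have hr : D.r (g * (m : G)) = D.r g * m := Subtype.ext (by
        show (D.σ ^ D.j (g * (m : G)))⁻¹ * (g * m) = (D.σ ^ D.j g)⁻¹ * g * m
        rw [hj, mul_assoc])
      rw [τ, τ, hj, hr, D.S_mul, mul_assoc]
    show (D.τ a (g * m)).a = _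
    rw [h1, mul_a, D.τ_g]
    show (D.τ a g).a + A.ρ g (-D.x₀ m) + D.f (g, (m : G)) = _
    rw [map_neg]
    abel

end Datum

/-- **Cyclic inflation–restriction on level-constant cochains.**  A level-constant 2-cocycle
`f` of `G` whose restriction to `H = ker χ` is the coboundary of a level-constant cochain of
`H` is the carry cocycle of an invariant element minus the coboundary of a level-constant
cochain, if Hilbert 90 holds on level-constant cochains of `H`. -/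
theorem exists_carry_const {A : Rep.{w} k G} {n : ℕ} [NeZero n] (𝒩 : LevelBasis G)
    (D : Datum A n) (hf : 𝒩.Const₂ D.f) (hχ : 𝒩.Const₁ D.χ)
    (hx₀ : ∃ N', 𝒩.mem N' ∧ ∀ t s : D.H, (s : G) ∈ N' → D.x₀ (t * s) = D.x₀ t)
    (h90 : H90On 𝒩 A D.H) :
    ∃ (b : A) (x : G → A), (∀ g, A.ρ g b = b) ∧ 𝒩.Const₁ x ∧
      ∀ g g', D.f (g, g') = (((D.χ g).val + (D.χ g').val) / n) • b - dOne A x (g, g') := by
  obtain ⟨N₁, hN₁, hf₁⟩ := hf
  obtain ⟨N₂, hN₂, hχ₂⟩ := hχ
  obtain ⟨N₃, hN₃, hx₃⟩ := hx₀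
  obtain ⟨N₄, hN₄, h₄⟩ := 𝒩.directed N₁ N₂ hN₁ hN₂
  obtain ⟨N, hN, hle⟩ := 𝒩.directed N₄ N₃ hN₄ hN₃
  have hNn : N.Normal := 𝒩.normal N hN
  have hle₁ : N ≤ N₁ := fun s hs => (h₄ (hle hs).1).1
  have hle₂ : N ≤ N₂ := fun s hs => (h₄ (hle hs).1).2
  have hle₃ : N ≤ N₃ := fun s hs => (hle hs).2
  have hNH : N ≤ D.H := by
    intro s hs
    rw [D.mem_H]
    have h := hχ₂ 1 s (hle₂ hs)
    rwa [one_mul, D.χ_one] at h
  -- the obstruction cocycle is level-constant
  have hpsi : ∀ t s : D.H, (s : G) ∈ N → D.psi (t * s) = D.psi t := by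
    intro t s hs
    have hcs : D.σ⁻¹ * (s : G) * D.σ ∈ N := hNn.conj_mem' s hs D.σ
    have e1 : D.x₀ (D.cj (t * s)) = D.x₀ (D.cj t) := by
      rw [D.cj_mul]
      exact hx₃ _ _ (hle₃ hcs)
    have e2 : D.f (D.σ, D.σ⁻¹ * ((t * s : D.H) : G) * D.σ) =
        D.f (D.σ, D.σ⁻¹ * (t : G) * D.σ) := by
      have h := hf₁ D.σ (D.σ⁻¹ * (t : G) * D.σ) 1 (D.σ⁻¹ * (s : G) * D.σ) N₁.one_mem (hle₁ hcs)
      rw [mul_one] at h
      rw [← h]
      congr 2
      show D.σ⁻¹ * ((t : G) * (s : G)) * D.σ = _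
      group
    have e3 : D.x₀ (t * s) = D.x₀ t := hx₃ t s (hle₃ hs)
    have e4 : D.f (((t * s : D.H) : G), D.σ) = D.f ((t : G), D.σ) := by
      have h := hf₁ (t : G) D.σ (s : G) 1 (hle₁ hs) N₁.one_mem
      rwa [mul_one] at h
    rw [Datum.psi, Datum.psi, e1, e2, e3, e4]
  obtain ⟨a, ha⟩ := h90 D.psi ⟨N, hN, hpsi⟩ D.psi_mul
  obtain ⟨b, x, hb, hfx, hxm⟩ := D.exists_carry a ha
  refine ⟨b, x, hb, ⟨N, hN, fun g s hs => ?_⟩, hfx⟩
  have h : x (g * s) = x g - A.ρ g (D.x₀ ⟨s, hNH hs⟩) + D.f (g, s) := hxm g ⟨s, hNH hs⟩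
  have e1 : D.x₀ ⟨s, hNH hs⟩ = D.x₀ 1 := by
    have h' := hx₃ 1 ⟨s, hNH hs⟩ (hle₃ hs)
    rwa [one_mul] at h'
  have e2 : D.f (g, s) = A.ρ g (D.f (1, 1)) := by
    have h' := hf₁ g 1 1 s N₁.one_mem (hle₁ hs)
    rw [mul_one, one_mul] at h'
    rw [h', coc_one_right D.f g]
  have e3 : D.f (1, 1) = D.x₀ 1 := by
    have h' := D.hx₀ 1 1
    simp only [OneMemClass.coe_one, map_one, Module.End.one_apply, mul_one] at h'
    rw [h']
    abel
  rw [h, e1, e2, e3]
  abel

end Cyclic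

/-! ### The symbol theorem -/

section Symbol

variable {k' : Type v'} [CommRing k'] {p : ℕ} [NeZero p]
variable {T : Rep.{w} (ZMod p) G} {A : Rep.{w'} k' G}

/-- **REC-GLOB-KER.**  A level-constant `T`-valued 2-cocycle `z` (`T = A[p]`, Kummer datum)
whose restriction to `H = ker χ` is the coboundary of a level-constant `T`-valued cochain of
`H` is `χ ∪ κ + d e`, where `κ` is the Kummer cocycle of some `β : A` with `p • β` invariant
and `e` is level-constant. -/
theorem exists_symbol (𝒩 : LevelBasis G) (hA : 𝒩.Smooth A) {i : T →+ A} (hK : IsKummer i p)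
    (h90 : H90 𝒩 A) (χ : G → ZMod p) (hχ : ∀ g h, χ (g * h) = χ g + χ h) (hχc : 𝒩.Const₁ χ)
    (σ : G) (hσ : χ σ = 1) (H : Subgroup G) (hH : ∀ g, g ∈ H ↔ χ g = 0) (h90H : H90On 𝒩 A H)
    {z : G × G → T} (hz : 𝒩.Const₂ z)
    (hcoc : ∀ g h j, z (g * h, j) + z (g, h) = T.ρ g (z (h, j)) + z (g, h * j))
    (c : H → T) (hc : ∃ N', 𝒩.mem N' ∧ ∀ t s : H, (s : G) ∈ N' → c (t * s) = c t)
    (hzc : ∀ s t : H, z ((s : G), (t : G)) = T.ρ (s : G) (c t) - c (s * t) + c s) :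
    ∃ β : A, (∀ g, A.ρ g (p • β) = p • β) ∧ ∃ κ : G → T, 𝒩.Const₁ κ ∧
      (∀ g h, κ (g * h) = T.ρ g (κ h) + κ g) ∧ (∀ g, i (κ g) = A.ρ g β - β) ∧
      ∃ e : G → T, 𝒩.Const₁ e ∧ ∀ g h, z (g, h) = χ g • T.ρ g (κ h) + dOne T e (g, h) := by
  -- the datum
  let D : Datum A p :=
    { f := fun q => i (z q)
      coc := fun g h j => by
        have h1 := congrArg i (hcoc g h j)
        simpa only [map_add, hK.equivariant] using h1
      χ := χ
      χ_mul := hχ
      H := H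
      mem_H := hH
      σ := σ
      χ_σ := hσ
      x₀ := fun t => i (c t)
      hx₀ := fun s t => by
        have h1 := congrArg i (hzc s t)
        simpa only [map_add, map_sub, hK.equivariant] using h1 }
  obtain ⟨b, x, hb, hx, hfx⟩ := exists_carry_const 𝒩 D (hz.comp i) hχc
    (by obtain ⟨N', hN', h⟩ := hc; exact ⟨N', hN', fun t s hs => congrArg i (h t s hs)⟩) h90H
  obtain ⟨β, rfl⟩ := hK.div b
  obtain ⟨κ, hκc, hκ, hκβ⟩ := exists_kummer_cocycle 𝒩 hA hK β hb
  refine ⟨β, hb, κ, hκc, hκ, hκβ, ?_⟩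
  have hfx' : ∀ g h, i (z (g, h)) =
      (((χ g).val + (χ h).val) / p) • (p • β) - dOne A x (g, h) := hfx
  -- the auxiliary cochains
  let F : G → A := fun g => (χ g).val • β
  let m : G → T := fun g => χ g • κ g
  have hF : 𝒩.Const₁ F := hχc.comp (fun u => u.val • β)
  have hm : 𝒩.Const₁ m := hχc.map₂ hκc (fun u t => u • t)
  -- Bockstein: the carry cocycle of `p • β`
  have hcarry : ∀ g h, (((χ g).val + (χ h).val) / p) • (p • β) =
      dOne A F (g, h) - i (χ h • κ g) := by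
    intro g h
    obtain ⟨cc, hcc⟩ : ∃ cc : ℕ, cc = ((χ g).val + (χ h).val) / p := ⟨_, rfl⟩
    have hv : (χ g).val + (χ h).val = (χ (g * h)).val + cc * p := by
      rw [hcc, hχ, ZMod.val_add, mul_comm]
      exact (Nat.mod_add_div _ _).symm
    have h1 : i (χ h • κ g) = (χ h).val • (A.ρ g β - β) := by
      rw [← hκβ, ← map_nsmul]
      congr 1
      rw [← Nat.cast_smul_eq_nsmul (ZMod p), ZMod.natCast_zmod_val]
    have key : (χ g).val • β + (χ h).val • β = (χ (g * h)).val • β + cc • (p • β) := by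
      rw [← add_smul, hv, add_smul, mul_smul]
    rw [← hcc, h1, dOne_apply]
    simp only [F]
    rw [map_nsmul, smul_sub]
    linear_combination (norm := abel) -key
  -- antisymmetry
  have hanti : ∀ g h, dOne T m (g, h) = -(χ g • T.ρ g (κ h)) - χ h • κ g := by
    intro g h
    rw [dOne_apply]
    simp only [m]
    rw [hχ, hκ, map_smul, add_smul, smul_add, smul_add]
    abel
  -- the coboundary in `A`
  have hd : dOne A (fun g => F g - x g + i (m g)) =
      fun q => i (z q - χ q.1 • T.ρ q.1 (κ q.2)) := by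
    funext ⟨g, h⟩
    have e1 : (fun g => F g - x g + i (m g)) = F - x + fun g => i (m g) := rfl
    have e2 := hK.dOne_comp m g h
    rw [hanti, map_sub, map_neg] at e2
    rw [e1, dOne_add, dOne_sub]
    show dOne A F (g, h) - dOne A x (g, h) + dOne A (fun g => i (m g)) (g, h) =
      i (z (g, h) - χ g • T.ρ g (κ h))
    rw [map_sub, hfx' g h, hcarry g h, ← e2]
    abel
  obtain ⟨e, hec, he⟩ := kummer_injective 𝒩 hA hK h90
    ((hF.map₂ hx (fun u v => u - v)).map₂ (hm.comp i) (fun u v => u + v)) hd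
  refine ⟨e, hec, fun g h => ?_⟩
  have h1 := congrFun he (g, h)
  rw [h1]
  abel

end Symbol

end Fermat.Agent.CFT.Rec.GlobalKer
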