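import Fermat.Agent.CFT.Rec.KerChi
import Fermat.Agent.CFT.Rec.GlobalKer
import Fermat.Agent.CFT.Global.LCGlobal

/-!
# REC-INFRES: a class split by the cyclic field `E` is a symbol `χ ∪ κ_b`

`exists_symbol_of_isTrivOn_ker` : `ψ` surjective, `χ = χ_{ℓ,ψ}`; a global level-constant
`2`-cocycle `f` with values in `μ_p` which is the coboundary of a level-constant cochain on
`ker χ` is cohomologous to `χ ∪ κ_b` for some `b ∈ ℚˣ`.

This is the Prelude-language instance of helper146's abstract `Rec/GlobalKer.exists_symbol`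
(inflation–restriction for the cyclic quotient through the extension group, Kummer/Bockstein on
cochains, Kummer injectivity) at `G = G_ℚ`, `𝒩 = basisOf id`, `A = ℚ̄ˣ`, `T = μ_p`, with Hilbert 90
for level-constant cochains from `CFT/Global/LCGlobal.h90_core`.
-/

set_option autoImplicit false

open CategoryTheory groupCohomology ExtCitation

namespace Fermat.Agent.CFT.Rec

open Fermat.Agent.CFT.LC Fermat.Agent.CFT.Global.LCGlobal Fermat.Agent.CFT.LocalBr

local notation "Qb" => AlgebraicClosure ℚ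
local notation "GQ" => (AlgebraicClosure ℚ ≃ₐ[ℚ] AlgebraicClosure ℚ)

local instance isAlgebraicQbar_infres : Algebra.IsAlgebraic ℚ (AlgebraicClosure ℚ) :=
  AlgebraicClosure.isAlgebraic ℚ

/-- `ℚ̄ˣ` is smooth for the level basis of `G_ℚ`. -/
theorem smooth_unitsQ_id : (basisOf (MonoidHom.id GQ)).Smooth unitsQ := by
  rw [smooth_basisOf_iff]
  intro a
  obtain ⟨F, hF⟩ : ∃ F : IntermediateField ℚ Qb,
      F = IntermediateField.adjoin ℚ
        {((Additive.toMul (a : Additive Qbˣ) : Qbˣ) : Qb)} := ⟨_, rfl⟩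
  have hfin : FiniteDimensional ℚ F := by
    rw [hF]
    exact IntermediateField.adjoin.finiteDimensional (Algebra.IsIntegral.isIntegral _)
  refine ⟨F, hfin, fun s hs => ?_⟩
  have h1 : (s : GQ) ∈ F.fixingSubgroup := hs
  rw [IntermediateField.mem_fixingSubgroup_iff] at h1
  have h2 := h1 _ (hF ▸ IntermediateField.mem_adjoin_simple_self ℚ _)
  show Additive.ofMul (Units.map ((s : GQ) : Qb →* Qb) (Additive.toMul a)) = a
  apply Additive.toMul.injective
  apply Units.ext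
  exact h2

/-- Hilbert 90 for level-constant `1`-cocycles `G_ℚ → ℚ̄ˣ`. -/
theorem h90_id : H90 (basisOf (MonoidHom.id GQ)) unitsQ := by
  rintro y ⟨_, ⟨F, hF, hFn, rfl⟩, hc⟩ hcoc
  obtain ⟨a, ha⟩ := h90_core (⊤ : Subgroup GQ) (fun s => y s) (fun s t => hcoc s t) F
    (fun t s hs => hc t s hs)
  exact ⟨a, fun g => ha ⟨g, Subgroup.mem_top g⟩⟩

/-- Hilbert 90 for level-constant `1`-cocycles of a subgroup of `G_ℚ`. -/
theorem h90On_id (H : Subgroup GQ) : H90On (basisOf (MonoidHom.id GQ)) unitsQ H := by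
  rintro y ⟨_, ⟨F, hF, hFn, rfl⟩, hc⟩ hcoc
  exact h90_core H y hcoc F (fun t s hs => hc t s hs)

variable (p : ℕ) [Fact p.Prime] (ℓ : ℕ) [Fact ℓ.Prime]

/-- **(REC-INFRES)** A global level-constant `2`-cocycle which is trivial on `ker χ_{ℓ,ψ}` is
cohomologous to a symbol `χ_{ℓ,ψ} ∪ κ_b`. -/
theorem exists_symbol_of_isTrivOn_ker
    (ψ : (ZMod ℓ)ˣ →* Multiplicative (ZMod p)) (hψ : Function.Surjective ψ)
    (f : GQ × GQ → mu p) (hf : f ∈ levelCocycles₂ (MonoidHom.id GQ) (mu p))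
    (h : IsTrivOn p (mu p) (kerChi p ℓ ψ) f) :
    ∃ b : ℚ, b ≠ 0 ∧ ∃ c : GQ → mu p, IsKummerCocycle p b c ∧
      f - cupG p (chiAdd p ℓ ψ) c ∈ levelCoboundaries₂ (MonoidHom.id GQ) (mu p) := by
  classical
  have hp : p.Prime := Fact.out
  have : NeZero p := ⟨hp.ne_zero⟩
  obtain ⟨y, hy, hd⟩ := h
  obtain ⟨σ, hσ⟩ := Cyclo.chi_surjective ℓ ψ hψ (Multiplicative.ofAdd 1)
  have hσ' : chiAdd p ℓ ψ σ = 1 := by rw [chiAdd, hσ]; rfl
  have hyc : ∃ N', (basisOf (MonoidHom.id GQ)).mem N' ∧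
      ∀ t s : ↥(kerChi p ℓ ψ), (s : GQ) ∈ N' → y (t * s) = y t := by
    obtain ⟨F, hF, hc⟩ := hy
    obtain ⟨F', hF', hFn', hle⟩ := exists_normal_ge F
    exact ⟨lev (MonoidHom.id GQ) F', ⟨F', hF', hFn', rfl⟩,
      fun t s hs => hc t s (lev_antitone (MonoidHom.id GQ) hle hs)⟩
  obtain ⟨β, hβ, κ, hκc, hκ, hκβ, e, hec, he⟩ :=
    GlobalKer.exists_symbol (basisOf (MonoidHom.id GQ)) smooth_unitsQ_id (isKummer_muHomQ p)
      h90_id (chiAdd p ℓ ψ) (chiAdd_mul p ℓ ψ)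
      ((const₁_basisOf_iff _ _).2 (chiAdd_isLevelConstant p ℓ ψ)) σ hσ' (kerChi p ℓ ψ)
      (mem_kerChi_iff p ℓ ψ) (h90On_id _) (z := f) ((const₂_basisOf_iff _ _).2 hf.2)
      ((mem_cocycles₂_iff f).1 hf.1) y hyc hd
  -- the element `b`
  obtain ⟨β', hβ'⟩ : ∃ β' : Qbˣ, (Additive.ofMul β' : Additive Qbˣ) = β := ⟨Additive.toMul β, rfl⟩
  have hfixU : ∀ g : GQ, (g • (β' ^ p) : Qbˣ) = β' ^ p := by
    intro g
    have h1 := hβ g
    rw [← hβ'] at h1
    exact h1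
  have hfix : ∀ g : GQ, g ((β' : Qb) ^ p) = (β' : Qb) ^ p := by
    intro g
    have h1 := congrArg (fun u : Qbˣ => (u : Qb)) (hfixU g)
    simpa using h1
  have hgal : IsGalois ℚ Qb := by
    have h : @IsGalois ℚ _ (AlgebraicClosure ℚ) _ (AlgebraicClosure.instAlgebra ℚ) := inferInstance
    have e : (AlgebraicClosure.instAlgebra ℚ : Algebra ℚ (AlgebraicClosure ℚ)) =
        DivisionRing.toRatAlgebra := Subsingleton.elim _ _
    rw [e] at h
    exact h
  have hbot : (β' : Qb) ^ p ∈ (⊥ : IntermediateField ℚ Qb) :=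
    (InfiniteGalois.mem_bot_iff_fixed _).2 hfix
  obtain ⟨b, hb⟩ := IntermediateField.mem_bot.1 hbot
  have hb0 : b ≠ 0 := by
    rintro rfl
    rw [map_zero] at hb
    exact (pow_ne_zero p β'.ne_zero) hb.symm
  refine ⟨b, hb0, κ, ⟨(β' : Qb), hb.symm, fun τ => ?_⟩, ?_⟩
  · -- Kummer relation
    have h1 := hκβ τ
    rw [muHomQ_apply, muEmbQ_apply, ← hβ'] at h1
    have h2 : (zetaUnitQ p ^ (ZMod.val (κ τ : ZMod p)) : Qbˣ) = τ • β' / β' := h1
    have h3 := congrArg (fun u : Qbˣ => (u : Qb)) h2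
    simp only [Units.val_pow_eq_pow_val, coe_zetaUnitQ, Units.val_div_eq_div_val] at h3
    have h4 : ((τ • β' : Qbˣ) : Qb) = τ (β' : Qb) := rfl
    rw [h4] at h3
    rw [h3, div_mul_cancel₀ _ β'.ne_zero]
  · rw [mem_levelCoboundaries₂_iff]
    refine ⟨e, (const₁_basisOf_iff _ _).1 hec, ?_⟩
    funext ⟨g, h'⟩
    have h1 := he g h'
    rw [d₁₂_hom_eq_dOne]
    show dOne (mu p) e (g, h') = f (g, h') - cupG p (chiAdd p ℓ ψ) κ (g, h')
    rw [h1, cupG_apply]
    abel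

end Fermat.Agent.CFT.Rec
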