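import Fermat.Agent.CFT.Rec.Conj
import Fermat.Agent.CFT.Rec.InertRow
import Fermat.Agent.CFT.Rec.InfRes

/-!
# REC-GLOB: a class which is locally trivial outside the inert primes of `E` is a symbol

`exists_symbol` : assembly of REC-CONJ, REC-KER, REC-INERT, REC-INFRES with the Hasse principle
`HasseRes p`.
-/

set_option autoImplicit false

open CategoryTheory groupCohomology ExtCitation

namespace Fermat.Agent.CFT.Rec

local notation "Qb" => AlgebraicClosure ℚ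
local notation "GQ" => (AlgebraicClosure ℚ ≃ₐ[ℚ] AlgebraicClosure ℚ)

variable (p : ℕ) [Fact p.Prime]

variable (ℓ : ℕ) [Fact ℓ.Prime]

/-- **(REC-GLOB)** A global class which is locally trivial at every prime where `χ_{ℓ,ψ}` is
trivial or ramified is a symbol `χ_{ℓ,ψ} ∪ κ_b`. -/
theorem exists_symbol (hLine : LocLine p) (hHP : HasseRes p) (hSym : LocSym p)
    (ψ : (ZMod ℓ)ˣ →* Multiplicative (ZMod p)) (hψ : Function.Surjective ψ)
    (f : GQ × GQ → mu p) (hf : f ∈ levelCocycles₂ (MonoidHom.id GQ) (mu p))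
    (hloc : ∀ q : Nat.Primes,
      resAt p q f ∈ levelCoboundaries₂ (primeLocalToGlobal q) (muAt p q) ∨
      (ℓ ≠ (q : ℕ) ∧ Core.psi0 ℓ ψ ((q : ℕ) : ZMod ℓ) ≠ 0)) :
    ∃ b : ℚ, b ≠ 0 ∧ ∃ c : GQ → mu p, IsKummerCocycle p b c ∧
      f - cupG p (chiAdd p ℓ ψ) c ∈ levelCoboundaries₂ (MonoidHom.id GQ) (mu p) := by
  obtain ⟨E, hE, hker⟩ := exists_kerChi_eq_fixingSubgroup p ℓ ψ
  refine exists_symbol_of_isTrivOn_ker p ℓ ψ hψ f hf ?_
  rw [hker]
  refine hHP E hE f hf fun q A hq hA => ?_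
  rw [← hker]
  refine isTrivOn_decomp_inf_of_place p ⟨q, hq⟩ hf (kerChi p ℓ ψ) ?_ A hA
  rcases hloc ⟨q, hq⟩ with h | ⟨h1, h2⟩
  · exact ((resAt_mem_levelCoboundaries₂_iff p ⟨q, hq⟩ f).1 h).mono inf_le_left
  · exact isTrivOn_decomp_inf_kerChi_of_inert p ℓ hLine hSym ψ ⟨q, hq⟩ h1 h2 f hf

end Fermat.Agent.CFT.Rec
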