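import Fermat.Agent.CFT.Rec.Defs
import Fermat.Agent.CFT.Global.HPKFinal

/-!
# REC: the Hasse principle input `HasseRes p`, hypothesis-free for odd `p`

`hasseRes_of_odd` : `HasseRes p` (Rec/Defs.lean) for an odd prime `p`, directly from the landed
`CFT/Global/HPKFinal.hp_K` (which is already stated for `ZMod p`-valued cochains twisted by the
mod `p` cyclotomic character, with the local condition on `D(A) ⊓ G_K` for every valuation
subring `A` of `ℚ̄` over a rational prime).  This is the input `hHP` of `Rec/Main.recFinal_of`.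
-/

set_option autoImplicit false

open CategoryTheory groupCohomology ExtCitation

namespace Fermat.Agent.CFT.Rec

local notation "Qb" => AlgebraicClosure ℚ
local notation "GQ" => (AlgebraicClosure ℚ ≃ₐ[ℚ] AlgebraicClosure ℚ)

variable (p : ℕ) [Fact p.Prime]

/-- **Hasse principle in the shape consumed by REC**, for odd `p`. -/
theorem hasseRes_of_odd (hp2 : p ≠ 2) : HasseRes p := by
  intro K hK f hf hloc
  have := hK
  obtain ⟨hcoc, hlev⟩ := (mem_levelCocycles₂_iff _ _ f).1 hf
  have hcoc' := (mem_cocycles₂_iff f).1 hcoc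
  obtain ⟨c, hc, hd⟩ := Fermat.Agent.CFT.Global.HPK.hp_K hp2 K
    (fun st : K.fixingSubgroup × K.fixingSubgroup => (f ((st.1 : GQ), (st.2 : GQ)) : ZMod p))
    (fun g h j => by
      have h1 := hcoc' (g : GQ) (h : GQ) (j : GQ)
      rw [mu_ρ_apply] at h1
      exact h1)
    (IsLevelConstant₂.precomp (rH := MonoidHom.id GQ) (rG := Subgroup.subtype K.fixingSubgroup)
      (Subgroup.subtype K.fixingSubgroup) (fun _ => rfl) hlev)
    (fun q hq Av hAv => by
      obtain ⟨y, hy, hyd⟩ := hloc q Av hq hAv
      refine ⟨y, hy, fun s s' => ?_⟩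
      have h1 := hyd s s'
      rw [mu_ρ_apply] at h1
      exact h1)
  refine ⟨c, hc, fun g h => ?_⟩
  have h1 := hd g h
  rw [mu_ρ_apply]
  exact h1

end Fermat.Agent.CFT.Rec
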