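/-
PROGRAM CFT, reciprocity over `ℚ` (row REC-TAME): the tame norm computation at the auxiliary
prime `ℓ`.

`χ = ψ ∘ cycMod ℓ` is the cyclic character of order `p` of `G_ℚ` cut out inside `ℚ(ζ_ℓ)`
(`Fermat.Agent.CFT.Rec.Cyclo`).  Its restriction to the local Galois group at `ℓ` is still
surjective (the extension is totally ramified at `ℓ`), and a norm from the corresponding local
field `E_ℓ` has the shape `ℓ ^ m * u` with `u` a `p`-th power modulo `ℓ`, hence `ψ (u) = 1`.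
-/
import Mathlib
import Fermat.Agent.CFT.Rec.Cyclo
import Fermat.Agent.CFT.Rec.CharField
import Fermat.Agent.CFT.Rec.Core

set_option autoImplicit false

namespace Fermat.Agent.CFT.Rec.TameNorm

open Fermat.Agent.CFT.Rec

/-! ### Expansions in powers of a uniformiser of a totally ramified extension -/

section Expansion

variable (ℓ : ℕ) [hℓ : Fact ℓ.Prime]

/-- The norm of a nonzero element of `ℚ_ℓ` in `PadicAlgCl ℓ` is an integral power of `ℓ⁻¹`. -/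
theorem norm_algebraMap_eq_zpow {a : ℚ_[ℓ]} (ha : a ≠ 0) :
    ‖algebraMap ℚ_[ℓ] (PadicAlgCl ℓ) a‖ = ((ℓ : ℝ)⁻¹) ^ a.valuation := by
  rw [PadicAlgCl.norm_extends, Padic.norm_eq_zpow_neg_valuation ha, inv_zpow']

variable {ℓ} {p : ℕ} {ϖ : PadicAlgCl ℓ}

theorem norm_pos_of_pow_eq (hp : 0 < p) (hϖ : ‖ϖ‖ ^ p = (ℓ : ℝ)⁻¹) : 0 < ‖ϖ‖ := by
  rcases (norm_nonneg ϖ).eq_or_lt with h | h
  · rw [← h, zero_pow hp.ne'] at hϖ
    have : (0 : ℝ) < (ℓ : ℝ)⁻¹ := inv_pos.mpr (by exact_mod_cast hℓ.out.pos)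
    rw [← hϖ] at this
    exact absurd this (lt_irrefl _)
  · exact h

theorem norm_lt_one_of_pow_eq (hϖ : ‖ϖ‖ ^ p = (ℓ : ℝ)⁻¹) : ‖ϖ‖ < 1 := by
  by_contra h
  have h1 : (1 : ℝ) ≤ ‖ϖ‖ ^ p := one_le_pow₀ (not_lt.mp h)
  rw [hϖ] at h1
  have : (ℓ : ℝ)⁻¹ < 1 := inv_lt_one_of_one_lt₀ (by exact_mod_cast hℓ.out.one_lt)
  exact absurd h1 (not_le.mpr this)

/-- The norm of a term `a ϖ ^ i` as a power of `‖ϖ‖`. -/
theorem norm_term_eq_zpow (hp : 0 < p) (hϖ : ‖ϖ‖ ^ p = (ℓ : ℝ)⁻¹) {a : ℚ_[ℓ]} (ha : a ≠ 0)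
    (i : ℕ) : ‖algebraMap ℚ_[ℓ] (PadicAlgCl ℓ) a * ϖ ^ i‖ = ‖ϖ‖ ^ ((p : ℤ) * a.valuation + i) := by
  have h0 := norm_pos_of_pow_eq hp hϖ
  rw [norm_mul, norm_pow, norm_algebraMap_eq_zpow ℓ ha, ← hϖ, zpow_add₀ h0.ne', zpow_mul,
    zpow_natCast, zpow_natCast]

/-- Terms `a ϖ ^ i`, `i < p`, with the same norm have the same index. -/
theorem index_eq_of_norm_term_eq (hp : 0 < p) (hϖ : ‖ϖ‖ ^ p = (ℓ : ℝ)⁻¹) {a b : ℚ_[ℓ]}
    (ha : a ≠ 0) (hb : b ≠ 0) {i j : ℕ} (hi : i < p) (hj : j < p)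
    (h : ‖algebraMap ℚ_[ℓ] (PadicAlgCl ℓ) a * ϖ ^ i‖ = ‖algebraMap ℚ_[ℓ] (PadicAlgCl ℓ) b * ϖ ^ j‖) : i = j := by
  have h0 := norm_pos_of_pow_eq hp hϖ
  have h1 := norm_lt_one_of_pow_eq hϖ
  rw [norm_term_eq_zpow hp hϖ ha, norm_term_eq_zpow hp hϖ hb, zpow_right_inj₀ h0 h1.ne] at h
  have hdvd : (p : ℤ) ∣ (i : ℤ) - j := ⟨b.valuation - a.valuation, by linarith⟩
  have habs : |(i : ℤ) - j| < p := by
    rw [abs_lt]; constructor <;> omega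
  have := Int.eq_zero_of_abs_lt_dvd hdvd habs
  omega

/-- **Dominant term.** For `c = ∑_{i < p} a_i ϖ ^ i` with `a_i ∈ ℚ_ℓ` and `‖ϖ‖ ^ p = ℓ⁻¹`,
every term has norm at most `‖c‖`, and some term has norm exactly `‖c‖`. -/
theorem norm_term_le_and_exists (hp : 0 < p) (hϖ : ‖ϖ‖ ^ p = (ℓ : ℝ)⁻¹) (a : Fin p → ℚ_[ℓ]) :
    (∀ j, ‖algebraMap ℚ_[ℓ] (PadicAlgCl ℓ) (a j) * ϖ ^ (j : ℕ)‖ ≤
        ‖∑ i, algebraMap ℚ_[ℓ] (PadicAlgCl ℓ) (a i) * ϖ ^ (i : ℕ)‖) ∧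
      ∃ j, ‖∑ i, algebraMap ℚ_[ℓ] (PadicAlgCl ℓ) (a i) * ϖ ^ (i : ℕ)‖ =
        ‖algebraMap ℚ_[ℓ] (PadicAlgCl ℓ) (a j) * ϖ ^ (j : ℕ)‖ := by
  classical
  set t : Fin p → PadicAlgCl ℓ := fun i => algebraMap ℚ_[ℓ] (PadicAlgCl ℓ) (a i) * ϖ ^ (i : ℕ) with ht
  set s : Finset (Fin p) := Finset.univ.filter (fun i => a i ≠ 0) with hs
  have hts : ∀ i, i ∉ s → t i = 0 := by
    intro i hi
    have : a i = 0 := by simpa [hs] using hi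
    simp [ht, this]
  have hsum : ∑ i, t i = ∑ i ∈ s, t i := by
    symm
    apply Finset.sum_subset (Finset.subset_univ _)
    intro i _ hi
    exact hts i hi
  have hpair : Set.Pairwise (s : Set (Fin p)) (fun i j => ‖t i‖₊ ≠ ‖t j‖₊) := by
    intro i hi j hj hij h
    apply hij
    have hi' : a i ≠ 0 := by simpa [hs] using hi
    have hj' : a j ≠ 0 := by simpa [hs] using hj
    have h' : ‖t i‖ = ‖t j‖ := by rw [← coe_nnnorm, ← coe_nnnorm, h]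
    exact Fin.ext (index_eq_of_norm_term_eq hp hϖ hi' hj' i.2 j.2 h')
  have hsup := IsUltrametricDist.nnnorm_sum_eq_sup_of_pairwise_ne hpair
  refine ⟨fun j => ?_, ?_⟩
  · by_cases hj : j ∈ s
    · rw [hsum, ← coe_nnnorm, ← coe_nnnorm, NNReal.coe_le_coe, hsup]
      exact Finset.le_sup (f := fun i => ‖t i‖₊) hj
    · show ‖t j‖ ≤ _
      rw [hts j hj, norm_zero]
      exact norm_nonneg _
  · rcases s.eq_empty_or_nonempty with hse | hsne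
    · refine ⟨⟨0, hp⟩, ?_⟩
      show ‖∑ i, t i‖ = ‖t _‖
      rw [hsum, hse, Finset.sum_empty, hts _ (by rw [hse]; exact Finset.notMem_empty _)]
    · obtain ⟨j, -, hj⟩ := Finset.exists_mem_eq_sup s hsne (fun i => ‖t i‖₊)
      refine ⟨j, ?_⟩
      show ‖∑ i, t i‖ = ‖t j‖
      rw [hsum, ← coe_nnnorm, ← coe_nnnorm, hsup, hj]

/-- Linear independence of `1, ϖ, …, ϖ ^ (p - 1)` over `ℚ_ℓ`. -/
theorem eq_zero_of_sum_eq_zero (hp : 0 < p) (hϖ : ‖ϖ‖ ^ p = (ℓ : ℝ)⁻¹) (a : Fin p → ℚ_[ℓ])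
    (h : ∑ i, algebraMap ℚ_[ℓ] (PadicAlgCl ℓ) (a i) * ϖ ^ (i : ℕ) = 0) : ∀ i, a i = 0 := by
  intro j
  have h1 := (norm_term_le_and_exists hp hϖ a).1 j
  rw [h, norm_zero] at h1
  have h2 : algebraMap ℚ_[ℓ] (PadicAlgCl ℓ) (a j) * ϖ ^ (j : ℕ) = 0 := norm_le_zero_iff.mp h1
  have hϖ0 : ϖ ≠ 0 := norm_pos_iff.mp (norm_pos_of_pow_eq hp hϖ)
  rcases mul_eq_zero.mp h2 with h3 | h3
  · exact (map_eq_zero _).mp h3
  · exact absurd h3 (pow_ne_zero _ hϖ0)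

/-- The norm of a nonzero `∑_{i < p} a_i ϖ ^ i` is an integral power of `‖ϖ‖`. -/
theorem exists_norm_eq_zpow (hp : 0 < p) (hϖ : ‖ϖ‖ ^ p = (ℓ : ℝ)⁻¹) (a : Fin p → ℚ_[ℓ])
    (h : ∑ i, algebraMap ℚ_[ℓ] (PadicAlgCl ℓ) (a i) * ϖ ^ (i : ℕ) ≠ 0) :
    ∃ m : ℤ, ‖∑ i, algebraMap ℚ_[ℓ] (PadicAlgCl ℓ) (a i) * ϖ ^ (i : ℕ)‖ = ‖ϖ‖ ^ m := by
  obtain ⟨j, hj⟩ := (norm_term_le_and_exists hp hϖ a).2
  have haj : a j ≠ 0 := by
    rintro h0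
    rw [h0, map_zero, zero_mul, norm_zero, norm_eq_zero] at hj
    exact h hj
  exact ⟨_, hj.trans (norm_term_eq_zpow hp hϖ haj j)⟩

/-- **Units.** If `c = ∑_{i < p} a_i ϖ ^ i` has norm `1` then `a_0` is a unit of `ℤ_ℓ` and
`c ≡ a_0` modulo the maximal ideal. -/
theorem norm_sub_lt_one_of_norm_eq_one (hp : 0 < p) (hϖ : ‖ϖ‖ ^ p = (ℓ : ℝ)⁻¹)
    (a : Fin p → ℚ_[ℓ]) (h : ‖∑ i, algebraMap ℚ_[ℓ] (PadicAlgCl ℓ) (a i) * ϖ ^ (i : ℕ)‖ = 1) :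
    ‖a ⟨0, hp⟩‖ = 1 ∧
      ‖∑ i, algebraMap ℚ_[ℓ] (PadicAlgCl ℓ) (a i) * ϖ ^ (i : ℕ) - algebraMap ℚ_[ℓ] (PadicAlgCl ℓ) (a ⟨0, hp⟩)‖ < 1 := by
  classical
  have h0 := norm_pos_of_pow_eq hp hϖ
  have h1 := norm_lt_one_of_pow_eq hϖ
  obtain ⟨hle, j, hj⟩ := norm_term_le_and_exists hp hϖ a
  rw [h] at hle hj
  -- terms of positive index have norm `< 1`
  have hlt : ∀ i : Fin p, i ≠ ⟨0, hp⟩ → ‖algebraMap ℚ_[ℓ] (PadicAlgCl ℓ) (a i) * ϖ ^ (i : ℕ)‖ < 1 := by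
    intro i hi
    refine lt_of_le_of_ne (hle i) ?_
    intro heq
    by_cases hai : a i = 0
    · rw [hai, map_zero, zero_mul, norm_zero] at heq
      exact zero_ne_one heq
    · rw [norm_term_eq_zpow hp hϖ hai, ← zpow_zero ‖ϖ‖, zpow_right_inj₀ h0 h1.ne] at heq
      have hdvd : (p : ℤ) ∣ ((i : ℕ) : ℤ) := ⟨-(a i).valuation, by linarith⟩
      have hi0 : (i : ℕ) ≠ 0 := fun h => hi (Fin.ext h)
      have hlt := i.2
      have := Int.eq_zero_of_abs_lt_dvd hdvd (by rw [abs_lt]; constructor <;> omega)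
      omega
  have hj0 : j = ⟨0, hp⟩ := by
    by_contra hne
    exact absurd hj.symm (hlt j hne).ne
  constructor
  · rw [hj0] at hj
    have h2 : ‖algebraMap ℚ_[ℓ] (PadicAlgCl ℓ) (a ⟨0, hp⟩) * ϖ ^ ((⟨0, hp⟩ : Fin p) : ℕ)‖ =
        ‖a ⟨0, hp⟩‖ := by
      rw [Fin.val_mk, pow_zero, mul_one, PadicAlgCl.norm_extends]
    rw [← h2]
    exact hj.symm
  · have hsplit : ∑ i, algebraMap ℚ_[ℓ] (PadicAlgCl ℓ) (a i) * ϖ ^ (i : ℕ) - algebraMap ℚ_[ℓ] (PadicAlgCl ℓ) (a ⟨0, hp⟩) =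
        ∑ i ∈ Finset.univ.erase (⟨0, hp⟩ : Fin p), algebraMap ℚ_[ℓ] (PadicAlgCl ℓ) (a i) * ϖ ^ (i : ℕ) := by
      rw [← Finset.add_sum_erase Finset.univ _ (Finset.mem_univ (⟨0, hp⟩ : Fin p))]
      simp
    rw [hsplit]
    have : Nonempty (Fin p) := ⟨⟨0, hp⟩⟩
    obtain ⟨i, hi, hi'⟩ := IsUltrametricDist.exists_norm_finsetSum_le
      (Finset.univ.erase (⟨0, hp⟩ : Fin p)) (fun i => algebraMap ℚ_[ℓ] (PadicAlgCl ℓ) (a i) * ϖ ^ (i : ℕ))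
    rcases (Finset.univ.erase (⟨0, hp⟩ : Fin p)).eq_empty_or_nonempty with he | hne
    · rw [he, Finset.sum_empty, norm_zero]
      exact one_pos
    · exact lt_of_le_of_lt hi' (hlt i (Finset.ne_of_mem_erase (hi hne)))

end Expansion

/-! ### Norms of the cyclotomic elements at `ℓ` -/

section LocalNorms

variable (ℓ : ℕ) [hℓ : Fact ℓ.Prime]

/-- The image of `ζ_ℓ` in `PadicAlgCl ℓ`. -/
noncomputable def zLoc : PadicAlgCl ℓ := padicEmbedding ℓ (Cyclo.zeta ℓ)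

theorem zLoc_pow : zLoc ℓ ^ ℓ = 1 := by
  rw [zLoc, ← map_pow, Cyclo.zeta_pow, map_one]

theorem norm_zLoc : ‖zLoc ℓ‖ = 1 := by
  have h : ‖zLoc ℓ‖ ^ ℓ = 1 := by rw [← norm_pow, zLoc_pow, norm_one]
  exact (pow_eq_one_iff_of_nonneg (norm_nonneg _) hℓ.out.ne_zero).mp h

theorem padicEmbedding_oneSub (a : (ZMod ℓ)ˣ) :
    padicEmbedding ℓ (Cyclo.oneSub ℓ a) = 1 - zLoc ℓ ^ (a : ZMod ℓ).val := by
  rw [Cyclo.oneSub, map_sub, map_one, map_pow, zLoc]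

theorem norm_one_sub_pow_le {w : PadicAlgCl ℓ} (hw : ‖w‖ ≤ 1) (n : ℕ) :
    ‖1 - w ^ n‖ ≤ ‖1 - w‖ := by
  have h1 : 1 - w ^ n = (1 - w) * ∑ i ∈ Finset.range n, w ^ i := by
    rw [mul_comm]; exact (geom_sum_mul_neg w n).symm
  have h2 : ‖∑ i ∈ Finset.range n, w ^ i‖ ≤ 1 :=
    IsUltrametricDist.norm_sum_le_of_forall_le_of_nonneg zero_le_one
      (fun i _ => by rw [norm_pow]; exact pow_le_one₀ (norm_nonneg _) hw)
  rw [h1, norm_mul]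
  calc ‖1 - w‖ * ‖∑ i ∈ Finset.range n, w ^ i‖ ≤ ‖1 - w‖ * 1 :=
        mul_le_mul_of_nonneg_left h2 (norm_nonneg _)
    _ = ‖1 - w‖ := mul_one _

theorem norm_oneSub_le (a b : (ZMod ℓ)ˣ) :
    ‖padicEmbedding ℓ (Cyclo.oneSub ℓ a)‖ ≤ ‖padicEmbedding ℓ (Cyclo.oneSub ℓ b)‖ := by
  rw [padicEmbedding_oneSub, padicEmbedding_oneSub]
  obtain ⟨c, hc⟩ : ∃ c : (ZMod ℓ)ˣ, a = b * c := ⟨b⁻¹ * a, (mul_inv_cancel_left b a).symm⟩
  have h : zLoc ℓ ^ (a : ZMod ℓ).val = (zLoc ℓ ^ (b : ZMod ℓ).val) ^ (c : ZMod ℓ).val := by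
    rw [← pow_mul, zLoc, ← map_pow, ← map_pow]
    congr 1
    rw [Cyclo.zeta_pow_eq_iff, Nat.cast_mul, ZMod.natCast_zmod_val, ZMod.natCast_zmod_val,
      ZMod.natCast_zmod_val, ← Units.val_mul, ← hc]
  rw [h]
  exact norm_one_sub_pow_le ℓ (by rw [norm_pow, norm_zLoc, one_pow]) _

theorem norm_oneSub_eq (a b : (ZMod ℓ)ˣ) :
    ‖padicEmbedding ℓ (Cyclo.oneSub ℓ a)‖ = ‖padicEmbedding ℓ (Cyclo.oneSub ℓ b)‖ :=
  le_antisymm (norm_oneSub_le ℓ a b) (norm_oneSub_le ℓ b a)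

theorem norm_natCast_self : ‖(ℓ : PadicAlgCl ℓ)‖ = (ℓ : ℝ)⁻¹ := by
  rw [← map_natCast (algebraMap ℚ_[ℓ] (PadicAlgCl ℓ)), PadicAlgCl.norm_extends, Padic.norm_p]

/-- `‖1 - ζ ^ a‖ ^ (ℓ - 1) = ℓ⁻¹`. -/
theorem norm_oneSub_pow (a : (ZMod ℓ)ˣ) :
    ‖padicEmbedding ℓ (Cyclo.oneSub ℓ a)‖ ^ (ℓ - 1) = (ℓ : ℝ)⁻¹ := by
  have h := congrArg (fun x => ‖padicEmbedding ℓ x‖) (Cyclo.prod_oneSub ℓ)
  simp only [map_prod, norm_prod, map_natCast] at h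
  rw [Finset.prod_congr rfl (fun b _ => norm_oneSub_eq ℓ b a), Finset.prod_const,
    Finset.card_univ, ZMod.card_units, norm_natCast_self] at h
  exact h

variable {p : ℕ} [hp : Fact p.Prime] (ψ : (ZMod ℓ)ˣ →* Multiplicative (ZMod p))

open Classical in
theorem card_filter_ker_mul (hψ : Function.Surjective ψ) :
    ((Finset.univ : Finset (ZMod ℓ)ˣ).filter (fun a => ψ a = 1)).card * p = ℓ - 1 := by
  have : NeZero p := ⟨hp.out.ne_zero⟩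
  have h1 := Subgroup.card_mul_index ψ.ker
  rw [Subgroup.index_ker, MonoidHom.range_eq_top.mpr hψ,
    Nat.card_congr (Subgroup.topEquiv (G := Multiplicative (ZMod p))).toEquiv,
    Nat.card_eq_fintype_card (α := Multiplicative (ZMod p)), Fintype.card_multiplicative,
    ZMod.card, Nat.card_eq_fintype_card (α := (ZMod ℓ)ˣ), ZMod.card_units] at h1
  rw [← h1]
  congr 1
  have h2 : Nat.card ψ.ker = Nat.card {a : (ZMod ℓ)ˣ // ψ a = 1} :=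
    Nat.card_congr (Equiv.subtypeEquivRight (p := fun a => a ∈ ψ.ker) (q := fun a => ψ a = 1)
      (fun _ => MonoidHom.mem_ker))
  rw [h2, Nat.card_eq_fintype_card, Fintype.card_subtype]

/-- The local norm of the image of `normElt`: `‖ι (normElt)‖ ^ p = ℓ⁻¹`. -/
theorem norm_normElt_pow (hψ : Function.Surjective ψ) :
    ‖padicEmbedding ℓ (Cyclo.normElt ℓ ψ)‖ ^ p = (ℓ : ℝ)⁻¹ := by
  classical
  rw [Cyclo.normElt, map_prod, norm_prod, Finset.prod_congr rfl (fun b _ => norm_oneSub_eq ℓ b 1),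
    Finset.prod_const, ← pow_mul, ← norm_oneSub_pow ℓ 1]
  congr 1
  convert card_filter_ker_mul ℓ ψ hψ

end LocalNorms

/-! ### The local character and the local field at `ℓ` -/

section LocalField

variable (ℓ : ℕ) [hℓ : Fact ℓ.Prime] {p : ℕ} [hp : Fact p.Prime]
  (ψ : (ZMod ℓ)ˣ →* Multiplicative (ZMod p))

/-- The restriction of `χ = ψ ∘ cycMod ℓ` to the local Galois group at `ℓ`. -/
noncomputable def chiLoc : (PadicAlgCl ℓ ≃ₐ[ℚ_[ℓ]] PadicAlgCl ℓ) →* Multiplicative (ZMod p) :=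
  (Cyclo.chi ℓ ψ).comp (localGaloisToGlobal ℓ)

theorem chiLoc_apply (τ : PadicAlgCl ℓ ≃ₐ[ℚ_[ℓ]] PadicAlgCl ℓ) :
    chiLoc ℓ ψ τ = ψ (Cyclo.cycMod ℓ (localGaloisToGlobal ℓ τ)) := rfl

/-- The local cyclotomic field `ℚ_ℓ(ζ_ℓ)`. -/
noncomputable def cycloLoc : IntermediateField ℚ_[ℓ] (PadicAlgCl ℓ) :=
  IntermediateField.adjoin ℚ_[ℓ] {zLoc ℓ}

theorem finiteDimensional_cycloLoc : FiniteDimensional ℚ_[ℓ] (cycloLoc ℓ) := by
  apply IntermediateField.adjoin.finiteDimensional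
  exact Algebra.IsIntegral.isIntegral _

/-- Level of the local character: it is trivial on the fixing subgroup of `ℚ_ℓ(ζ_ℓ)`. -/
theorem fixingSubgroup_cycloLoc_le : (cycloLoc ℓ).fixingSubgroup ≤ (chiLoc ℓ ψ).ker := by
  intro τ hτ
  have h1 : τ (zLoc ℓ) = zLoc ℓ :=
    (IntermediateField.mem_fixingSubgroup_iff _ _).mp hτ _
      (IntermediateField.mem_adjoin_simple_self _ _)
  have h2 : localGaloisToGlobal ℓ τ (Cyclo.zeta ℓ) = Cyclo.zeta ℓ := by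
    apply (padicEmbedding ℓ).toRingHom.injective
    show padicEmbedding ℓ (localGaloisToGlobal ℓ τ (Cyclo.zeta ℓ)) = padicEmbedding ℓ (Cyclo.zeta ℓ)
    rw [padicEmbedding_localGaloisToGlobal]
    exact h1
  have h3 : Cyclo.cycMod ℓ (localGaloisToGlobal ℓ τ) = 1 := by
    apply Units.ext
    rw [Cyclo.cycMod_eq_of_pow ℓ _ 1 (by rw [pow_one]; exact h2), Nat.cast_one, Units.val_one]
  rw [MonoidHom.mem_ker, chiLoc_apply, h3, map_one]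

/-- The local field `E_ℓ` cut out by the local character: the fixed field of its kernel. -/
noncomputable def localField : IntermediateField ℚ_[ℓ] (PadicAlgCl ℓ) :=
  IntermediateField.fixedField (chiLoc ℓ ψ).ker

theorem mem_localField_iff (c : PadicAlgCl ℓ) :
    c ∈ localField ℓ ψ ↔ ∀ τ : PadicAlgCl ℓ ≃ₐ[ℚ_[ℓ]] PadicAlgCl ℓ, chiLoc ℓ ψ τ = 1 → τ c = c := by
  rw [localField, IntermediateField.mem_fixedField_iff]
  rfl

theorem finiteDimensional_localField : FiniteDimensional ℚ_[ℓ] (localField ℓ ψ) :=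
  haveI := finiteDimensional_cycloLoc ℓ
  CharField.finiteDimensional_fixedField_ker (chiLoc ℓ ψ) (cycloLoc ℓ)
    (fixingSubgroup_cycloLoc_le ℓ ψ)

/-- The uniformiser `ι (normElt)` of the local field. -/
noncomputable def piLoc : PadicAlgCl ℓ := padicEmbedding ℓ (Cyclo.normElt ℓ ψ)

theorem piLoc_mem : piLoc ℓ ψ ∈ localField ℓ ψ := by
  rw [mem_localField_iff]
  intro τ hτ
  rw [piLoc, ← padicEmbedding_localGaloisToGlobal, Cyclo.apply_normElt_of_mem_ker ℓ ψ _ hτ]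

theorem norm_piLoc_pow (hψ : Function.Surjective ψ) : ‖piLoc ℓ ψ‖ ^ p = (ℓ : ℝ)⁻¹ :=
  norm_normElt_pow ℓ ψ hψ

theorem card_multiplicative_zmod : Nat.card (Multiplicative (ZMod p)) = p := by
  have : NeZero p := ⟨hp.out.ne_zero⟩
  rw [Nat.card_eq_fintype_card, Fintype.card_multiplicative, ZMod.card]

/-- `[E_ℓ : ℚ_ℓ] = p` and every element of `E_ℓ` is a `ℚ_ℓ`-combination of
`1, ϖ, …, ϖ ^ (p - 1)` (the local extension is totally ramified). -/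
theorem finrank_localField_and_expansion (hψ : Function.Surjective ψ) :
    Module.finrank ℚ_[ℓ] (localField ℓ ψ) = p ∧
      ∀ c ∈ localField ℓ ψ, ∃ a : Fin p → ℚ_[ℓ],
        c = ∑ i, algebraMap ℚ_[ℓ] (PadicAlgCl ℓ) (a i) * piLoc ℓ ψ ^ (i : ℕ) := by
  have hfd := finiteDimensional_localField ℓ ψ
  have hcl := finiteDimensional_cycloLoc ℓ
  have hp0 : 0 < p := hp.out.pos
  have hϖ := norm_piLoc_pow ℓ ψ hψ
  set b : Fin p → localField ℓ ψ := fun i => (⟨piLoc ℓ ψ, piLoc_mem ℓ ψ⟩ : localField ℓ ψ) ^ (i : ℕ)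
    with hb
  have hcoe : ∀ g : Fin p → ℚ_[ℓ], ((∑ i, g i • b i : localField ℓ ψ) : PadicAlgCl ℓ) =
      ∑ i, algebraMap ℚ_[ℓ] (PadicAlgCl ℓ) (g i) * piLoc ℓ ψ ^ (i : ℕ) := by
    intro g
    rw [AddSubmonoidClass.coe_finsetSum]
    refine Finset.sum_congr rfl fun i _ => ?_
    rw [IntermediateField.coe_smul, Algebra.smul_def, hb]
    simp
  have hli : LinearIndependent ℚ_[ℓ] b := by
    rw [Fintype.linearIndependent_iff]
    intro g hg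
    have h1 := congrArg (fun x : localField ℓ ψ => (x : PadicAlgCl ℓ)) hg
    simp only [hcoe, ZeroMemClass.coe_zero] at h1
    exact eq_zero_of_sum_eq_zero hp0 hϖ g h1
  have hle : Module.finrank ℚ_[ℓ] (localField ℓ ψ) ≤ p := by
    have := CharField.finrank_fixedField_ker_le (chiLoc ℓ ψ) (cycloLoc ℓ)
      (fixingSubgroup_cycloLoc_le ℓ ψ)
    rwa [card_multiplicative_zmod] at this
  have hge : p ≤ Module.finrank ℚ_[ℓ] (localField ℓ ψ) := by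
    have := hli.fintype_card_le_finrank
    rwa [Fintype.card_fin] at this
  have hrank : Module.finrank ℚ_[ℓ] (localField ℓ ψ) = p := le_antisymm hle hge
  refine ⟨hrank, fun c hc => ?_⟩
  have hspan := hli.span_eq_top_of_card_eq_finrank' (by rw [Fintype.card_fin, hrank])
  have hmem : (⟨c, hc⟩ : localField ℓ ψ) ∈ Submodule.span ℚ_[ℓ] (Set.range b) := by
    rw [hspan]; exact Submodule.mem_top
  obtain ⟨g, hg⟩ := (Submodule.mem_span_range_iff_exists_fun _).mp hmem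
  refine ⟨g, ?_⟩
  rw [← hcoe, hg]

theorem finrank_localField (hψ : Function.Surjective ψ) :
    Module.finrank ℚ_[ℓ] (localField ℓ ψ) = p :=
  (finrank_localField_and_expansion ℓ ψ hψ).1

/-- The local character at `ℓ` is still surjective: `E_ℓ / ℚ_ℓ` has degree `p`. -/
theorem chiLoc_surjective (hψ : Function.Surjective ψ) : Function.Surjective (chiLoc ℓ ψ) := by
  have hcl := finiteDimensional_cycloLoc ℓ
  have : NeZero p := ⟨hp.out.ne_zero⟩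
  have h1 := CharField.finrank_fixedField_ker (chiLoc ℓ ψ) (cycloLoc ℓ)
    (fixingSubgroup_cycloLoc_le ℓ ψ)
  have h2 : Module.finrank ℚ_[ℓ] (IntermediateField.fixedField (chiLoc ℓ ψ).ker) = p :=
    finrank_localField ℓ ψ hψ
  rw [h2, Subgroup.index_ker] at h1
  have h3 : Nat.card (chiLoc ℓ ψ).range = Nat.card (Multiplicative (ZMod p)) := by
    rw [← h1, card_multiplicative_zmod]
  rw [← MonoidHom.range_eq_top]
  exact Subgroup.eq_top_of_card_eq _ h3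

theorem exists_chiLoc_eq_ofAdd_one (hψ : Function.Surjective ψ) :
    ∃ s : PadicAlgCl ℓ ≃ₐ[ℚ_[ℓ]] PadicAlgCl ℓ, chiLoc ℓ ψ s = Multiplicative.ofAdd 1 :=
  chiLoc_surjective ℓ ψ hψ _

end LocalField

/-! ### The tame norm theorem -/

section Main

variable (ℓ : ℕ) [hℓ : Fact ℓ.Prime] {p : ℕ} [hp : Fact p.Prime]
  (ψ : (ZMod ℓ)ˣ →* Multiplicative (ZMod p))

theorem multiplicative_zmod_pow (x : Multiplicative (ZMod p)) : x ^ p = 1 := by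
  apply Multiplicative.toAdd.injective
  rw [toAdd_pow, toAdd_one, nsmul_eq_mul, ZMod.natCast_self, zero_mul]

/-- Global norm relation for `normElt`: `∏_{k < p} σ ^ k (normElt) = ℓ` whenever
`χ σ = 1 ∈ ℤ/p` (the computation of `Cyclo.exists_cyclic_norm_eq`, for the explicit element). -/
theorem prod_pow_apply_normElt (σ : AlgebraicClosure ℚ ≃ₐ[ℚ] AlgebraicClosure ℚ)
    (hσ : ψ (Cyclo.cycMod ℓ σ) = Multiplicative.ofAdd 1) :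
    ∏ k ∈ Finset.range p, (σ ^ k) (Cyclo.normElt ℓ ψ) = (ℓ : AlgebraicClosure ℚ) := by
  classical
  have : NeZero p := ⟨hp.out.ne_zero⟩
  rw [← Cyclo.prod_oneSub ℓ]
  have hmaps : ∀ b ∈ (Finset.univ : Finset (ZMod ℓ)ˣ),
      (Multiplicative.toAdd (ψ b)).val ∈ Finset.range p :=
    fun b _ => Finset.mem_range.mpr (ZMod.val_lt _)
  rw [← Finset.prod_fiberwise_of_maps_to hmaps]
  refine Finset.prod_congr rfl fun k hk => ?_
  have hk' : k < p := Finset.mem_range.mp hk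
  rw [Cyclo.apply_normElt, map_pow, map_pow, hσ]
  refine Finset.prod_congr ?_ fun _ _ => rfl
  ext b
  simp only [Finset.mem_filter, Finset.mem_univ, true_and]
  have h1 : (Multiplicative.ofAdd (1 : ZMod p)) ^ k = Multiplicative.ofAdd (k : ZMod p) := by
    rw [← ofAdd_nsmul, nsmul_eq_mul, mul_one]
  rw [h1]
  constructor
  · intro h
    rw [h, toAdd_ofAdd, ZMod.val_cast_of_lt hk']
  · intro h
    rw [← h, ZMod.natCast_zmod_val]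
    rfl

theorem apply_pow_padicEmbedding (s : PadicAlgCl ℓ ≃ₐ[ℚ_[ℓ]] PadicAlgCl ℓ) (k : ℕ)
    (x : AlgebraicClosure ℚ) :
    (s ^ k) (padicEmbedding ℓ x) = padicEmbedding ℓ ((localGaloisToGlobal ℓ s ^ k) x) := by
  rw [← map_pow, padicEmbedding_localGaloisToGlobal]

/-- **`ℓ` is a local norm**: `∏_{k < p} s ^ k (ϖ) = ℓ` for every `s` in the local Galois group
with `χ s = 1 ∈ ℤ/p`. -/
theorem prod_pow_apply_piLoc (s : PadicAlgCl ℓ ≃ₐ[ℚ_[ℓ]] PadicAlgCl ℓ)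
    (hs : chiLoc ℓ ψ s = Multiplicative.ofAdd 1) :
    ∏ k ∈ Finset.range p, (s ^ k) (piLoc ℓ ψ) = (ℓ : PadicAlgCl ℓ) := by
  simp only [piLoc, apply_pow_padicEmbedding]
  rw [← map_prod, prod_pow_apply_normElt ℓ ψ _ hs, map_natCast]

/-- A product of elements all congruent to `y` is congruent to a power of `y`. -/
theorem norm_prod_sub_pow_lt_one {ι : Type*} (S : Finset ι) (x : ι → PadicAlgCl ℓ)
    (y : PadicAlgCl ℓ) (hy : ‖y‖ ≤ 1) (h : ∀ i ∈ S, ‖x i - y‖ < 1) :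
    ‖∏ i ∈ S, x i - y ^ S.card‖ < 1 := by
  classical
  induction S using Finset.induction_on with
  | empty => simp
  | insert i S hi ih =>
    rw [Finset.prod_insert hi, Finset.card_insert_of_notMem hi, pow_succ']
    have h1 := h i (Finset.mem_insert_self i S)
    have h2 := ih (fun j hj => h j (Finset.mem_insert_of_mem hj))
    have hP : ‖∏ j ∈ S, x j‖ ≤ 1 := by
      have h3 : ∏ j ∈ S, x j = (∏ j ∈ S, x j - y ^ S.card) + y ^ S.card := by ring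
      rw [h3]
      refine (IsUltrametricDist.norm_add_le_max _ _).trans (max_le h2.le ?_)
      rw [norm_pow]
      exact pow_le_one₀ (norm_nonneg _) hy
    have h4 : x i * ∏ j ∈ S, x j - y * y ^ S.card =
        (x i - y) * ∏ j ∈ S, x j + y * (∏ j ∈ S, x j - y ^ S.card) := by ring
    rw [h4]
    refine lt_of_le_of_lt (IsUltrametricDist.norm_add_le_max _ _) (max_lt ?_ ?_)
    · rw [norm_mul]
      exact lt_of_le_of_lt (mul_le_of_le_one_right (norm_nonneg _) hP) h1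
    · rw [norm_mul]
      exact lt_of_le_of_lt (mul_le_of_le_one_left (norm_nonneg _) hy) h2

theorem norm_algEquiv_apply (τ : PadicAlgCl ℓ ≃ₐ[ℚ_[ℓ]] PadicAlgCl ℓ)
    (y : PadicAlgCl ℓ) : ‖τ y‖ = ‖y‖ := by
  rw [← coe_nnnorm, nnnorm_padicAlgCl_algEquiv, coe_nnnorm]

/-- **Tame norm theorem (analytic form).** For `c ≠ 0` in the local field `E_ℓ` and `s` with
`χ s = 1 ∈ ℤ/p`: the norm `∏_{k < p} s ^ k c` equals `ℓ ^ m` times an element congruent to the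
`p`-th power of a unit `a₀` of `ℤ_ℓ`. -/
theorem exists_norm_prod_div_sub_lt_one (hψ : Function.Surjective ψ)
    (s : PadicAlgCl ℓ ≃ₐ[ℚ_[ℓ]] PadicAlgCl ℓ) (hs : chiLoc ℓ ψ s = Multiplicative.ofAdd 1)
    (c : PadicAlgCl ℓ) (hc0 : c ≠ 0) (hc : c ∈ localField ℓ ψ) :
    ∃ (m : ℤ) (a₀ : ℚ_[ℓ]), ‖a₀‖ = 1 ∧
      ‖(∏ k ∈ Finset.range p, (s ^ k) c) / (ℓ : PadicAlgCl ℓ) ^ m -
        algebraMap ℚ_[ℓ] (PadicAlgCl ℓ) (a₀ ^ p)‖ < 1 := by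
  have hp0 : 0 < p := hp.out.pos
  have hϖ := norm_piLoc_pow ℓ ψ hψ
  have hϖ0 : piLoc ℓ ψ ≠ 0 := norm_pos_iff.mp (norm_pos_of_pow_eq hp0 hϖ)
  obtain ⟨-, hexp⟩ := finrank_localField_and_expansion ℓ ψ hψ
  obtain ⟨a, ha⟩ := hexp c hc
  obtain ⟨m, hm⟩ := exists_norm_eq_zpow hp0 hϖ a (ha ▸ hc0)
  rw [← ha] at hm
  set w := c / piLoc ℓ ψ ^ m with hw
  have hwn : ‖w‖ = 1 := by
    rw [hw, norm_div, norm_zpow, hm, div_self (zpow_ne_zero _ (norm_ne_zero_iff.mpr hϖ0))]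
  have hwmem : w ∈ localField ℓ ψ := div_mem hc (zpow_mem (piLoc_mem ℓ ψ) m)
  obtain ⟨a', ha'⟩ := hexp w hwmem
  obtain ⟨h1, h2⟩ := norm_sub_lt_one_of_norm_eq_one hp0 hϖ a' (ha' ▸ hwn)
  rw [← ha'] at h2
  refine ⟨m, a' ⟨0, hp0⟩, h1, ?_⟩
  have hc' : c = piLoc ℓ ψ ^ m * w := by
    rw [hw, mul_div_cancel₀ _ (zpow_ne_zero _ hϖ0)]
  have hprod : ∏ k ∈ Finset.range p, (s ^ k) c =
      (ℓ : PadicAlgCl ℓ) ^ m * ∏ k ∈ Finset.range p, (s ^ k) w := by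
    rw [hc']
    simp only [map_mul, map_zpow₀]
    rw [Finset.prod_mul_distrib, Finset.prod_zpow, prod_pow_apply_piLoc ℓ ψ s hs]
  have hℓ0 : (ℓ : PadicAlgCl ℓ) ≠ 0 := by exact_mod_cast hℓ.out.ne_zero
  rw [hprod, mul_div_cancel_left₀ _ (zpow_ne_zero _ hℓ0), map_pow]
  have hk : ∀ k ∈ Finset.range p,
      ‖(s ^ k) w - algebraMap ℚ_[ℓ] (PadicAlgCl ℓ) (a' ⟨0, hp0⟩)‖ < 1 := by
    intro k _
    have h5 : (s ^ k) w - algebraMap ℚ_[ℓ] (PadicAlgCl ℓ) (a' ⟨0, hp0⟩) =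
        (s ^ k) (w - algebraMap ℚ_[ℓ] (PadicAlgCl ℓ) (a' ⟨0, hp0⟩)) := by
      rw [map_sub, AlgEquiv.commutes]
    rw [h5, norm_algEquiv_apply]
    exact h2
  have hy : ‖algebraMap ℚ_[ℓ] (PadicAlgCl ℓ) (a' ⟨0, hp0⟩)‖ ≤ 1 := by
    rw [PadicAlgCl.norm_extends, h1]
  have key := norm_prod_sub_pow_lt_one ℓ (Finset.range p) (fun k => (s ^ k) w)
    (algebraMap ℚ_[ℓ] (PadicAlgCl ℓ) (a' ⟨0, hp0⟩)) hy hk
  rwa [Finset.card_range] at key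

end Main

/-! ### Corollaries: the residue of a local norm, and the final form for REC -/

section Corollaries

variable (ℓ : ℕ) [hℓ : Fact ℓ.Prime] {p : ℕ} [hp : Fact p.Prime]
  (ψ : (ZMod ℓ)ˣ →* Multiplicative (ZMod p))

/-- Reduction modulo `ℓ` on units of `ℤ_ℓ`. -/
noncomputable def unitsToZMod : ℤ_[ℓ]ˣ →* (ZMod ℓ)ˣ :=
  Units.map (PadicInt.toZMod : ℤ_[ℓ] →+* ZMod ℓ).toMonoidHom

theorem coe_unitsToZMod (u : ℤ_[ℓ]ˣ) :
    ((unitsToZMod ℓ u : (ZMod ℓ)ˣ) : ZMod ℓ) = PadicInt.toZMod (u : ℤ_[ℓ]) := rfl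

/-- **Tame norm theorem.** If `b = ℓ ^ v * u ∈ ℚ_ℓ`, `u ∈ ℤ_ℓˣ`, is the norm
`∏_{k < p} s ^ k c` of a nonzero element `c` of the local field `E_ℓ` (`χ s = 1 ∈ ℤ/p`), then
`ψ (u mod ℓ) = 1`. -/
theorem psi_eq_one_of_prod_eq (hψ : Function.Surjective ψ)
    (s : PadicAlgCl ℓ ≃ₐ[ℚ_[ℓ]] PadicAlgCl ℓ) (hs : chiLoc ℓ ψ s = Multiplicative.ofAdd 1)
    (c : PadicAlgCl ℓ) (hc0 : c ≠ 0) (hc : c ∈ localField ℓ ψ) (b : ℚ_[ℓ])
    (hb : algebraMap ℚ_[ℓ] (PadicAlgCl ℓ) b = ∏ k ∈ Finset.range p, (s ^ k) c)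
    (u : ℤ_[ℓ]ˣ) (v : ℤ) (hbu : b = (ℓ : ℚ_[ℓ]) ^ v * ((u : ℤ_[ℓ]) : ℚ_[ℓ])) :
    ψ (unitsToZMod ℓ u) = 1 := by
  obtain ⟨m, a₀, ha₀, h⟩ := exists_norm_prod_div_sub_lt_one ℓ ψ hψ s hs c hc0 hc
  rw [← hb] at h
  have h' : ‖b / (ℓ : ℚ_[ℓ]) ^ m - a₀ ^ p‖ < 1 := by
    rw [← PadicAlgCl.norm_extends, map_sub, map_div₀, map_zpow₀, map_natCast]
    exact h
  have ha₀p : ‖a₀ ^ p‖ = 1 := by rw [norm_pow, ha₀, one_pow]
  have hn : ‖b / (ℓ : ℚ_[ℓ]) ^ m‖ = 1 := by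
    have h1 : b / (ℓ : ℚ_[ℓ]) ^ m = (b / (ℓ : ℚ_[ℓ]) ^ m - a₀ ^ p) + a₀ ^ p := by ring
    rw [h1, Padic.add_eq_max_of_ne (by rw [ha₀p]; exact h'.ne), ha₀p]
    exact max_eq_right h'.le
  have hun : ‖((u : ℤ_[ℓ]) : ℚ_[ℓ])‖ = 1 := by
    rw [← PadicInt.norm_def]
    exact PadicInt.isUnit_iff.mp u.isUnit
  have hℓ0 : (ℓ : ℚ_[ℓ]) ≠ 0 := by exact_mod_cast hℓ.out.ne_zero
  have hvm : v = m := by
    rw [hbu, mul_comm, mul_div_assoc, ← zpow_sub₀ hℓ0, norm_mul, hun, one_mul, Padic.norm_p_zpow]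
      at hn
    have hℓ1 : (1 : ℝ) < ℓ := by exact_mod_cast hℓ.out.one_lt
    have h2 : -(v - m) = 0 := by
      exact (zpow_eq_one_iff_right₀ (by linarith) hℓ1.ne').mp hn
    omega
  have hbm : b / (ℓ : ℚ_[ℓ]) ^ m = ((u : ℤ_[ℓ]) : ℚ_[ℓ]) := by
    rw [hbu, hvm, mul_div_cancel_left₀ _ (zpow_ne_zero _ hℓ0)]
  rw [hbm] at h'
  set a₁ : ℤ_[ℓ] := ⟨a₀, ha₀.le⟩ with ha₁
  have ha₁u : IsUnit a₁ := PadicInt.isUnit_iff.mpr (by rw [PadicInt.norm_def]; exact ha₀)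
  have hmem : (u : ℤ_[ℓ]) - a₁ ^ p ∈ RingHom.ker (PadicInt.toZMod : ℤ_[ℓ] →+* ZMod ℓ) := by
    rw [PadicInt.ker_toZMod, IsLocalRing.mem_maximalIdeal, PadicInt.mem_nonunits,
      PadicInt.norm_def]
    push_cast
    exact h'
  rw [RingHom.mem_ker, map_sub, map_pow, sub_eq_zero] at hmem
  have hunit : unitsToZMod ℓ u = (unitsToZMod ℓ ha₁u.unit) ^ p := by
    apply Units.ext
    rw [coe_unitsToZMod, Units.val_pow_eq_pow_val, coe_unitsToZMod, IsUnit.unit_spec]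
    exact hmem
  rw [hunit, map_pow, multiplicative_zmod_pow]

/-- Powers of `s` form a section of the local character. -/
theorem chiLoc_pow_val (s : PadicAlgCl ℓ ≃ₐ[ℚ_[ℓ]] PadicAlgCl ℓ)
    (hs : chiLoc ℓ ψ s = Multiplicative.ofAdd 1) (c : Multiplicative (ZMod p)) :
    chiLoc ℓ ψ (s ^ (Multiplicative.toAdd c).val) = c := by
  have : NeZero p := ⟨hp.out.ne_zero⟩
  rw [map_pow, hs, ← ofAdd_nsmul, nsmul_eq_mul, mul_one, ZMod.natCast_zmod_val]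
  rfl

/-- The norm from the local field `E_ℓ` is the product over the powers of `s`. -/
theorem algebraMap_norm_eq_prod (s : PadicAlgCl ℓ ≃ₐ[ℚ_[ℓ]] PadicAlgCl ℓ)
    (hs : chiLoc ℓ ψ s = Multiplicative.ofAdd 1) (x : localField ℓ ψ) :
    algebraMap ℚ_[ℓ] (PadicAlgCl ℓ) (Algebra.norm ℚ_[ℓ] x) =
      ∏ k ∈ Finset.range p, (s ^ k) (x : PadicAlgCl ℓ) := by
  have : NeZero p := ⟨hp.out.ne_zero⟩
  have hcl := finiteDimensional_cycloLoc ℓ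
  have h := CharField.norm_eq_prod (chiLoc ℓ ψ) (cycloLoc ℓ) (fixingSubgroup_cycloLoc_le ℓ ψ)
    (fun c => s ^ (Multiplicative.toAdd c).val) (chiLoc_pow_val ℓ ψ s hs) x
  refine h.trans ?_
  refine Finset.prod_nbij' (fun c => (Multiplicative.toAdd c).val)
    (fun k => Multiplicative.ofAdd (k : ZMod p)) ?_ ?_ ?_ ?_ ?_
  · intro c _
    exact Finset.mem_range.mpr (ZMod.val_lt _)
  · intro k _
    exact Finset.mem_univ _
  · intro c _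
    rw [ZMod.natCast_zmod_val]
    rfl
  · intro k hk
    rw [toAdd_ofAdd, ZMod.val_cast_of_lt (Finset.mem_range.mp hk)]
  · intro c _
    rfl

/-- **`ℓ` is a local norm** from `E_ℓ` (norm of the uniformiser `piLoc`). -/
theorem norm_piLoc (hψ : Function.Surjective ψ) :
    Algebra.norm ℚ_[ℓ] (⟨piLoc ℓ ψ, piLoc_mem ℓ ψ⟩ : localField ℓ ψ) = (ℓ : ℚ_[ℓ]) := by
  obtain ⟨s, hs⟩ := exists_chiLoc_eq_ofAdd_one ℓ ψ hψ
  apply (algebraMap ℚ_[ℓ] (PadicAlgCl ℓ)).injective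
  rw [algebraMap_norm_eq_prod ℓ ψ s hs, map_natCast]
  exact prod_pow_apply_piLoc ℓ ψ s hs

/-- **Tame norm theorem, norm form.** If the norm of a nonzero `x ∈ E_ℓ` is `ℓ ^ v * u` with
`u ∈ ℤ_ℓˣ`, then `ψ (u mod ℓ) = 1`. -/
theorem psi_eq_one_of_norm_eq (hψ : Function.Surjective ψ) (x : localField ℓ ψ) (hx : x ≠ 0)
    (u : ℤ_[ℓ]ˣ) (v : ℤ)
    (hxu : Algebra.norm ℚ_[ℓ] x = (ℓ : ℚ_[ℓ]) ^ v * ((u : ℤ_[ℓ]) : ℚ_[ℓ])) :
    ψ (unitsToZMod ℓ u) = 1 := by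
  obtain ⟨s, hs⟩ := exists_chiLoc_eq_ofAdd_one ℓ ψ hψ
  refine psi_eq_one_of_prod_eq ℓ ψ hψ s hs (x : PadicAlgCl ℓ) ?_ x.2 _
    (algebraMap_norm_eq_prod ℓ ψ s hs x) u v hxu
  exact fun h => hx (Subtype.ext h)

/-- A rational number of `ℓ`-adic valuation `0` as a unit of `ℤ_ℓ`, with its residue class. -/
theorem exists_unit_eq_ratCast {u : ℚ} (hu : u ≠ 0) (hv : padicValRat ℓ u = 0) :
    ∃ u' : ℤ_[ℓ]ˣ, ((u' : ℤ_[ℓ]) : ℚ_[ℓ]) = (u : ℚ_[ℓ]) ∧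
      ((u.den : ℕ) : ZMod ℓ) ≠ 0 ∧
      ((unitsToZMod ℓ u' : (ZMod ℓ)ˣ) : ZMod ℓ) = ((u.num : ℤ) : ZMod ℓ) / ((u.den : ℕ) : ZMod ℓ) := by
  have hn : ‖(u : ℚ_[ℓ])‖ = 1 := by
    rw [Padic.eq_padicNorm, padicNorm.eq_zpow_of_nonzero hu, hv]
    simp
  set u₁ : ℤ_[ℓ] := ⟨(u : ℚ_[ℓ]), hn.le⟩ with hu₁
  have hu₁u : IsUnit u₁ := PadicInt.isUnit_iff.mpr (by rw [PadicInt.norm_def]; exact hn)
  have hmul : u₁ * ((u.den : ℕ) : ℤ_[ℓ]) = ((u.num : ℤ) : ℤ_[ℓ]) := by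
    apply Subtype.ext
    push_cast
    show (u : ℚ_[ℓ]) * (u.den : ℚ_[ℓ]) = (u.num : ℚ_[ℓ])
    exact_mod_cast congrArg (fun q : ℚ => (q : ℚ_[ℓ])) (Rat.mul_den_eq_num u)
  have hmul' := congrArg (PadicInt.toZMod : ℤ_[ℓ] →+* ZMod ℓ) hmul
  rw [map_mul, map_natCast, map_intCast] at hmul'
  have hden : ((u.den : ℕ) : ZMod ℓ) ≠ 0 := by
    intro h0
    rw [h0, mul_zero] at hmul'
    have h1 : (ℓ : ℤ) ∣ u.num := (ZMod.intCast_zmod_eq_zero_iff_dvd _ _).mp hmul'.symm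
    have h2 : ℓ ∣ u.den := (ZMod.natCast_eq_zero_iff _ _).mp h0
    have h3 : ℓ ∣ u.num.natAbs := Int.natCast_dvd.mp h1
    exact hℓ.out.one_lt.ne' (Nat.eq_one_of_dvd_coprimes u.reduced h3 h2)
  refine ⟨hu₁u.unit, rfl, hden, ?_⟩
  rw [coe_unitsToZMod, IsUnit.unit_spec, eq_div_iff hden]
  exact hmul'

/-- **REC-TAME, final form.** If the rational number `b ≠ 0` is, in `ℚ_ℓ`, a norm
`∏_{k < p} s ^ k c` from the local field `E_ℓ`, then `∑_{q ≠ ℓ} v_q(b) ψ(q mod ℓ) = 0`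
(`p` odd). -/
theorem Psi_eq_zero_of_prod_eq (hψ : Function.Surjective ψ) (hp2 : p ≠ 2)
    (s : PadicAlgCl ℓ ≃ₐ[ℚ_[ℓ]] PadicAlgCl ℓ) (hs : chiLoc ℓ ψ s = Multiplicative.ofAdd 1)
    (c : PadicAlgCl ℓ) (hc0 : c ≠ 0) (hc : c ∈ localField ℓ ψ) {b : ℚ} (hb0 : b ≠ 0)
    (hb : algebraMap ℚ_[ℓ] (PadicAlgCl ℓ) (b : ℚ_[ℓ]) = ∏ k ∈ Finset.range p, (s ^ k) c) :
    Core.Psi ℓ ψ b = 0 := by
  have hℓ0 : ((ℓ : ℕ) : ℚ) ≠ 0 := by exact_mod_cast hℓ.out.ne_zero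
  set u : ℚ := b * ((ℓ : ℕ) : ℚ) ^ (-(padicValRat ℓ b)) with hu
  have hu0 : u ≠ 0 := mul_ne_zero hb0 (zpow_ne_zero _ hℓ0)
  have hv : padicValRat ℓ u = 0 := by
    rw [hu, padicValRat.mul hb0 (zpow_ne_zero _ hℓ0), padicValRat.zpow, padicValRat.self hℓ.out.one_lt]
    ring
  obtain ⟨u', hu', hden, hres⟩ := exists_unit_eq_ratCast ℓ hu0 hv
  have hbu : (b : ℚ_[ℓ]) = (ℓ : ℚ_[ℓ]) ^ (padicValRat ℓ b) * ((u' : ℤ_[ℓ]) : ℚ_[ℓ]) := by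
    rw [hu', hu]
    push_cast
    rw [mul_comm, mul_assoc, ← zpow_add₀ (by exact_mod_cast hℓ.out.ne_zero), neg_add_cancel,
      zpow_zero, mul_one]
  have key := psi_eq_one_of_prod_eq ℓ ψ hψ s hs c hc0 hc _ hb u' _ hbu
  rw [Core.Psi_eq ψ hb0, ← hu, Core.Psi_eq_of_padicValRat_eq_zero ψ hp2 hu0 hv, ← hres,
    Core.psi0_of_ne ψ (Units.ne_zero _)]
  have h1 : Units.mk0 ((unitsToZMod ℓ u' : (ZMod ℓ)ˣ) : ZMod ℓ) (Units.ne_zero _) =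
      unitsToZMod ℓ u' := Units.ext rfl
  rw [h1, key]
  rfl

/-- **REC-TAME, final form with `Algebra.norm`.** -/
theorem Psi_eq_zero_of_mem_range_norm (hψ : Function.Surjective ψ) (hp2 : p ≠ 2) {b : ℚ}
    (hb0 : b ≠ 0)
    (hb : (b : ℚ_[ℓ]) ∈ Set.range (Algebra.norm ℚ_[ℓ] : localField ℓ ψ → ℚ_[ℓ])) :
    Core.Psi ℓ ψ b = 0 := by
  obtain ⟨x, hx⟩ := hb
  obtain ⟨s, hs⟩ := exists_chiLoc_eq_ofAdd_one ℓ ψ hψ
  have hfd := finiteDimensional_localField ℓ ψ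
  have hx0 : x ≠ 0 := by
    rintro rfl
    rw [Algebra.norm_zero] at hx
    exact hb0 (by exact_mod_cast hx.symm)
  refine Psi_eq_zero_of_prod_eq ℓ ψ hψ hp2 s hs (x : PadicAlgCl ℓ) (fun h => hx0 (Subtype.ext h))
    x.2 hb0 ?_
  rw [← hx]
  exact algebraMap_norm_eq_prod ℓ ψ s hs x

/-- Any intermediate field with the same membership criterion is the local field `E_ℓ`. -/
theorem eq_localField_of_forall_mem_iff (L : IntermediateField ℚ_[ℓ] (PadicAlgCl ℓ))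
    (h : ∀ c : PadicAlgCl ℓ, c ∈ L ↔
      ∀ τ : PadicAlgCl ℓ ≃ₐ[ℚ_[ℓ]] PadicAlgCl ℓ, chiLoc ℓ ψ τ = 1 → τ c = c) :
    L = localField ℓ ψ := by
  ext c
  rw [h, mem_localField_iff]

/-- The fixing subgroup of the local field `E_ℓ` is the kernel of the local character. -/
theorem fixingSubgroup_localField : (localField ℓ ψ).fixingSubgroup = (chiLoc ℓ ψ).ker :=
  haveI := finiteDimensional_cycloLoc ℓ
  CharField.fixingSubgroup_fixedField_ker (chiLoc ℓ ψ) (cycloLoc ℓ)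
    (fixingSubgroup_cycloLoc_le ℓ ψ)

end Corollaries

end Fermat.Agent.CFT.Rec.TameNorm
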