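/-
PROGRAM CFT, reciprocity over `ℚ`: packaging of the cyclic character `χ = ψ ∘ cycMod ℓ` for the
consumers of REC.

* generic: the fixed field of the kernel of a character of finite level is Galois;
* local at `ℓ`: the local field `E_ℓ` is finite Galois, it is cut out by the additive local
  character `chiLocAdd`, and the tame norm theorem combined with the norm criterion for Kummer
  cup products (`Fermat.Agent.CFT.Cyclic.kummerCup_coboundary_iff_norm`): if `χ ∪ κ_b` is a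
  level-constant coboundary at `ℓ` then `∑_{q ≠ ℓ} v_q(b) ψ(q) = 0`;
* global: the field `E = chiField ℓ ψ` cut out by `χ`, of degree `p`, Galois, unramified outside
  `ℓ`, in which `ℓ` is a norm; values of `χ` at Frobenius elements in the vocabulary of `Rec/Core`.
-/
import Mathlib
import Fermat.Agent.CFT.Rec.TameNorm
import Fermat.Agent.CFT.Cyclic.Galois

set_option autoImplicit false

namespace Fermat.Agent.CFT.Rec.TameCrit

open Fermat.Agent.CFT.Rec Fermat.Agent.CFT.Rec.TameNorm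

/-! ### Generic -/

section Generic

variable {K Ω : Type*} [Field K] [Field Ω] [Algebra K Ω] [IsGalois K Ω]
variable {X : Type*} [Group X] (χ : (Ω ≃ₐ[K] Ω) →* X)
variable (L₀ : IntermediateField K Ω) [FiniteDimensional K L₀]

/-- The fixed field of the kernel of a character of finite level is Galois over the base. -/
theorem isGalois_fixedField_ker (hL₀ : L₀.fixingSubgroup ≤ χ.ker) :
    IsGalois K (IntermediateField.fixedField χ.ker) := by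
  rw [← InfiniteGalois.normal_iff_isGalois, CharField.fixingSubgroup_fixedField_ker χ L₀ hL₀]
  exact MonoidHom.normal_ker χ

end Generic

/-! ### Local at `ℓ` -/

section Local

variable (ℓ : ℕ) [hℓ : Fact ℓ.Prime] {p : ℕ} [hp : Fact p.Prime]
  (ψ : (ZMod ℓ)ˣ →* Multiplicative (ZMod p))

theorem isGalois_localField : IsGalois ℚ_[ℓ] (localField ℓ ψ) :=
  have := finiteDimensional_cycloLoc ℓ
  isGalois_fixedField_ker (chiLoc ℓ ψ) (cycloLoc ℓ) (fixingSubgroup_cycloLoc_le ℓ ψ)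

/-- The local character at `ℓ` in additive form. -/
noncomputable def chiLocAdd (τ : PadicAlgCl ℓ ≃ₐ[ℚ_[ℓ]] PadicAlgCl ℓ) : ZMod p :=
  Multiplicative.toAdd (chiLoc ℓ ψ τ)

theorem chiLocAdd_mul (σ τ : PadicAlgCl ℓ ≃ₐ[ℚ_[ℓ]] PadicAlgCl ℓ) :
    chiLocAdd ℓ ψ (σ * τ) = chiLocAdd ℓ ψ σ + chiLocAdd ℓ ψ τ := by
  rw [chiLocAdd, map_mul, toAdd_mul]
  rfl

theorem chiLocAdd_eq_zero_iff (g : PadicAlgCl ℓ ≃ₐ[ℚ_[ℓ]] PadicAlgCl ℓ) :
    chiLocAdd ℓ ψ g = 0 ↔ g ∈ (localField ℓ ψ).fixingSubgroup := by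
  rw [fixingSubgroup_localField, MonoidHom.mem_ker]
  rfl

theorem exists_chiLocAdd_eq_one (hψ : Function.Surjective ψ) :
    ∃ s : PadicAlgCl ℓ ≃ₐ[ℚ_[ℓ]] PadicAlgCl ℓ, chiLocAdd ℓ ψ s = 1 := by
  obtain ⟨s, hs⟩ := exists_chiLoc_eq_ofAdd_one ℓ ψ hψ
  exact ⟨s, by rw [chiLocAdd, hs]; rfl⟩

/-- **hTAME, cochain form.** If the Kummer cup product `χ_ℓ ∪ κ_b` of the local character at `ℓ`
with (a `p`-th root `β` of) the rational number `b ≠ 0` is the coboundary of a level-constant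
cochain with values in the `p`-th roots of unity, then `∑_{q ≠ ℓ} v_q(b) ψ(q mod ℓ) = 0`. -/
theorem Psi_eq_zero_of_kummerCup_eq_dOne (hψ : Function.Surjective ψ) (hp2 : p ≠ 2) {b : ℚ}
    (hb0 : b ≠ 0) (β : (PadicAlgCl ℓ)ˣ)
    (hβ : (β : PadicAlgCl ℓ) ^ p = algebraMap ℚ_[ℓ] (PadicAlgCl ℓ) (b : ℚ_[ℓ]))
    (h : (PadicAlgCl ℓ ≃ₐ[ℚ_[ℓ]] PadicAlgCl ℓ) → (PadicAlgCl ℓ)ˣ) (hpow : ∀ σ, h σ ^ p = 1)
    (hlev : ∃ F : IntermediateField ℚ_[ℓ] (PadicAlgCl ℓ), FiniteDimensional ℚ_[ℓ] F ∧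
      ∀ g, ∀ t ∈ F.fixingSubgroup, h (g * t) = h g)
    (hd : ∀ σ τ, Cyclic.dOne h (σ, τ) = Cyclic.kummerCup (chiLocAdd ℓ ψ) β (σ, τ)) :
    Core.Psi ℓ ψ b = 0 := by
  have : NeZero p := ⟨hp.out.ne_zero⟩
  have hfd := finiteDimensional_localField ℓ ψ
  have hgal := isGalois_localField ℓ ψ
  obtain ⟨s, hs⟩ := exists_chiLocAdd_eq_one ℓ ψ hψ
  have key := (Cyclic.kummerCup_coboundary_iff_norm (localField ℓ ψ) (chiLocAdd_mul ℓ ψ)
    (chiLocAdd_eq_zero_iff ℓ ψ) hs (b : ℚ_[ℓ]) β hβ).mp ⟨h, hpow, hlev, hd⟩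
  exact Psi_eq_zero_of_mem_range_norm ℓ ψ hψ hp2 hb0 key

end Local

/-! ### Global -/

section Global

theorem isGalois_Qb : IsGalois ℚ (AlgebraicClosure ℚ) :=
  have : IsAlgClosure ℚ (AlgebraicClosure ℚ) := AlgebraicClosure.instIsAlgClosure ℚ
  IsAlgClosure.isGalois ℚ (AlgebraicClosure ℚ)

attribute [local instance] isGalois_Qb

variable (ℓ : ℕ) [hℓ : Fact ℓ.Prime] {p : ℕ} [hp : Fact p.Prime]
  (ψ : (ZMod ℓ)ˣ →* Multiplicative (ZMod p))

/-- The field `E ⊆ ℚ(ζ_ℓ)` cut out by the character `χ = ψ ∘ cycMod ℓ`. -/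
noncomputable def chiField : IntermediateField ℚ (AlgebraicClosure ℚ) :=
  IntermediateField.fixedField (Cyclo.chi ℓ ψ).ker

theorem fixingSubgroup_cycloField_le :
    (Cyclo.cycloField ℓ).fixingSubgroup ≤ (Cyclo.chi ℓ ψ).ker := fun _ hσ =>
  MonoidHom.mem_ker.mpr (Cyclo.chi_eq_one_of_mem_fixingSubgroup ℓ ψ hσ)

theorem mem_chiField_iff (c : AlgebraicClosure ℚ) :
    c ∈ chiField ℓ ψ ↔
      ∀ σ : AlgebraicClosure ℚ ≃ₐ[ℚ] AlgebraicClosure ℚ, Cyclo.chi ℓ ψ σ = 1 → σ c = c := by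
  rw [chiField, IntermediateField.mem_fixedField_iff]
  rfl

theorem chiField_le_cycloField : chiField ℓ ψ ≤ Cyclo.cycloField ℓ :=
  CharField.fixedField_ker_le (Cyclo.chi ℓ ψ) (Cyclo.cycloField ℓ)
    (fixingSubgroup_cycloField_le ℓ ψ)

theorem finiteDimensional_chiField : FiniteDimensional ℚ (chiField ℓ ψ) :=
  have := Cyclo.finiteDimensional_cycloField ℓ
  CharField.finiteDimensional_fixedField_ker (Cyclo.chi ℓ ψ) (Cyclo.cycloField ℓ)
    (fixingSubgroup_cycloField_le ℓ ψ)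

theorem isGalois_chiField : IsGalois ℚ (chiField ℓ ψ) :=
  have := Cyclo.finiteDimensional_cycloField ℓ
  isGalois_fixedField_ker (Cyclo.chi ℓ ψ) (Cyclo.cycloField ℓ) (fixingSubgroup_cycloField_le ℓ ψ)

theorem fixingSubgroup_chiField : (chiField ℓ ψ).fixingSubgroup = (Cyclo.chi ℓ ψ).ker :=
  have := Cyclo.finiteDimensional_cycloField ℓ
  CharField.fixingSubgroup_fixedField_ker (Cyclo.chi ℓ ψ) (Cyclo.cycloField ℓ)
    (fixingSubgroup_cycloField_le ℓ ψ)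

theorem finrank_chiField (hψ : Function.Surjective ψ) : Module.finrank ℚ (chiField ℓ ψ) = p := by
  have := Cyclo.finiteDimensional_cycloField ℓ
  rw [chiField, CharField.finrank_fixedField_ker_of_surjective (Cyclo.chi ℓ ψ) (Cyclo.cycloField ℓ)
    (fixingSubgroup_cycloField_le ℓ ψ) (Cyclo.chi_surjective ℓ ψ hψ), card_multiplicative_zmod]

/-- `E` is unramified outside `ℓ`. -/
theorem chiField_isUnramifiedOutside :
    (chiField ℓ ψ).IsUnramifiedOutside {(⟨ℓ, hℓ.out⟩ : Nat.Primes)} :=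
  IntermediateField.IsUnramifiedOutside.of_le (chiField_le_cycloField ℓ ψ)
    (Cyclo.cycloField_isUnramifiedOutside ℓ)

/-- The global character in additive form. -/
noncomputable def chiAdd (σ : AlgebraicClosure ℚ ≃ₐ[ℚ] AlgebraicClosure ℚ) : ZMod p :=
  Multiplicative.toAdd (Cyclo.chi ℓ ψ σ)

theorem chiAdd_mul (σ τ : AlgebraicClosure ℚ ≃ₐ[ℚ] AlgebraicClosure ℚ) :
    chiAdd ℓ ψ (σ * τ) = chiAdd ℓ ψ σ + chiAdd ℓ ψ τ := by
  rw [chiAdd, map_mul, toAdd_mul]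
  rfl

theorem chiAdd_eq_zero_iff (g : AlgebraicClosure ℚ ≃ₐ[ℚ] AlgebraicClosure ℚ) :
    chiAdd ℓ ψ g = 0 ↔ g ∈ (chiField ℓ ψ).fixingSubgroup := by
  rw [fixingSubgroup_chiField, MonoidHom.mem_ker]
  rfl

theorem exists_chiAdd_eq_one (hψ : Function.Surjective ψ) :
    ∃ s : AlgebraicClosure ℚ ≃ₐ[ℚ] AlgebraicClosure ℚ, chiAdd ℓ ψ s = 1 := by
  obtain ⟨s, hs⟩ := Cyclo.chi_surjective ℓ ψ hψ (Multiplicative.ofAdd 1)
  exact ⟨s, by rw [chiAdd, hs]; rfl⟩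

/-- The local character at `ℓ` is the restriction of the global one. -/
theorem chiLocAdd_eq (τ : PadicAlgCl ℓ ≃ₐ[ℚ_[ℓ]] PadicAlgCl ℓ) :
    chiLocAdd ℓ ψ τ = chiAdd ℓ ψ (localGaloisToGlobal ℓ τ) := rfl

/-- `χ` is level-constant of level `E`, additive form. -/
theorem chiAdd_mul_of_mem_fixingSubgroup (g : AlgebraicClosure ℚ ≃ₐ[ℚ] AlgebraicClosure ℚ)
    {s : AlgebraicClosure ℚ ≃ₐ[ℚ] AlgebraicClosure ℚ} (hs : s ∈ (chiField ℓ ψ).fixingSubgroup) :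
    chiAdd ℓ ψ (g * s) = chiAdd ℓ ψ g := by
  rw [chiAdd_mul, (chiAdd_eq_zero_iff ℓ ψ s).mpr hs, add_zero]

/-- The value of `χ` at a Frobenius element over `q ≠ ℓ`, in the vocabulary of `Rec/Core`. -/
theorem chiAdd_frobenius {q : ℕ} (hq : q.Prime) (hqℓ : q ≠ ℓ)
    (A : ValuationSubring (AlgebraicClosure ℚ)) (hA : A.LiesOverPrime q)
    (σ : AlgebraicClosure ℚ ≃ₐ[ℚ] AlgebraicClosure ℚ) (hσ : A.IsFrobeniusAt σ q) :
    chiAdd ℓ ψ σ = Core.psi0 ℓ ψ (q : ZMod ℓ) := by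
  have hq0 : ((q : ℕ) : ZMod ℓ) ≠ 0 := by
    intro h
    rw [ZMod.natCast_eq_zero_iff] at h
    exact hqℓ ((Nat.prime_dvd_prime_iff_eq hℓ.out hq).mp h).symm
  rw [chiAdd, Cyclo.chi_frobenius ℓ ψ hq hqℓ A hA σ hσ, Core.psi0_of_ne ψ hq0]
  congr 2

/-- `χ` is trivial on inertia at `q ≠ ℓ`, additive form. -/
theorem chiAdd_inertia {q : ℕ} (hq : q.Prime) (hqℓ : q ≠ ℓ)
    (A : ValuationSubring (AlgebraicClosure ℚ)) (hA : A.LiesOverPrime q)
    (σ : AlgebraicClosure ℚ ≃ₐ[ℚ] AlgebraicClosure ℚ) (hσ : σ ∈ A.inertiaSubgroupIn ℚ) :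
    chiAdd ℓ ψ σ = 0 := by
  rw [chiAdd, Cyclo.chi_inertia ℓ ψ hq hqℓ A hA σ hσ]
  rfl

theorem normElt_mem_chiField : Cyclo.normElt ℓ ψ ∈ chiField ℓ ψ := by
  rw [mem_chiField_iff]
  intro σ hσ
  exact Cyclo.apply_normElt_of_mem_ker ℓ ψ σ hσ

/-- **`ℓ` is a global norm from `E`.** -/
theorem norm_normElt (hψ : Function.Surjective ψ) :
    Algebra.norm ℚ (⟨Cyclo.normElt ℓ ψ, normElt_mem_chiField ℓ ψ⟩ : chiField ℓ ψ) = (ℓ : ℚ) := by
  have : NeZero p := ⟨hp.out.ne_zero⟩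
  have := Cyclo.finiteDimensional_cycloField ℓ
  obtain ⟨s, hs⟩ := Cyclo.chi_surjective ℓ ψ hψ (Multiplicative.ofAdd 1)
  have hsec : ∀ c : Multiplicative (ZMod p),
      Cyclo.chi ℓ ψ (s ^ (Multiplicative.toAdd c).val) = c := by
    intro c
    rw [map_pow, hs, ← ofAdd_nsmul, nsmul_eq_mul, mul_one, ZMod.natCast_zmod_val]
    rfl
  have h := CharField.norm_eq_prod (Cyclo.chi ℓ ψ) (Cyclo.cycloField ℓ)
    (fixingSubgroup_cycloField_le ℓ ψ) (fun c => s ^ (Multiplicative.toAdd c).val) hsec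
    (⟨Cyclo.normElt ℓ ψ, normElt_mem_chiField ℓ ψ⟩ : chiField ℓ ψ)
  apply (algebraMap ℚ (AlgebraicClosure ℚ)).injective
  rw [map_natCast]
  refine h.trans ?_
  rw [← prod_pow_apply_normElt ℓ ψ s hs]
  refine Finset.prod_nbij' (fun c => (Multiplicative.toAdd c).val)
    (fun k => Multiplicative.ofAdd (k : ZMod p)) ?_ ?_ ?_ ?_ ?_
  · intro c _
    exact Finset.mem_range.mpr (ZMod.val_lt _)
  · intro k _
    exact Finset.mem_univ _
  · intro c _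
    rw [ZMod.natCast_zmod_val]
    rfl
  · intro k hk
    rw [toAdd_ofAdd, ZMod.val_cast_of_lt (Finset.mem_range.mp hk)]
  · intro c _
    rfl

end Global

end Fermat.Agent.CFT.Rec.TameCrit
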