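import Fermat.Agent.CFT.Rec.Local
import Fermat.Agent.CFT.Rec.TameCrit

/-!
# CFT / Rec / LocalTame: the tame step of reciprocity (`hTAME`) and the line clause, Prelude form

* `Psi_eq_zero_of_cupLoc_mem`, `Psi_eq_zero_of_resQ_cupQ_mem` : **hTAME**.  Let `ℓ` be a prime,
  `ψ : (ℤ/ℓ)ˣ → ℤ/p` surjective, `p` odd, `χ = ψ ∘ cycMod ℓ`, `b ∈ ℚˣ` with Kummer cocycle `κ_b`.
  If the restriction of `χ ∪ κ_b` to `Gq ℓ` is a level-constant coboundary (Prelude
  `levelCoboundaries₂`), then `∑_{q ≠ ℓ} v_q(b) ψ(q) = 0` (`Core.Psi ℓ ψ b = 0`).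
  (= local norm criterion `LocalCrit` + the tame norm theorem `TameNorm`.)
* `lamQ_eq_zero_imp_mem` : once `H²(ℚ_q, μ_p)` is spanned by the normalising class (LOC (C)),
  the normalised functional `lamQ` is injective on classes.
-/

set_option autoImplicit false

namespace Fermat.Agent.CFT.Rec.LocalTame

open groupCohomology ExtCitation Fermat.Agent.CFT.LocalBr Fermat.Agent.CFT.Rec.LocalCrit
  Fermat.Agent.CFT.Rec.Local Fermat.Agent.CFT.Rec.TameNorm Fermat.Agent.CFT.Rec.TameCrit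

local notation "Qb" => AlgebraicClosure ℚ
local notation "GQ" => (AlgebraicClosure ℚ ≃ₐ[ℚ] AlgebraicClosure ℚ)

section Tame

variable (ℓ : ℕ) [Fact ℓ.Prime] (p : ℕ) [Fact p.Prime] (ψ : (ZMod ℓ)ˣ →* Multiplicative (ZMod p))

/-- **hTAME, local Prelude form.** -/
theorem Psi_eq_zero_of_cupLoc_mem (hψ : Function.Surjective ψ) (hp2 : p ≠ 2) {b : ℚ} (hb : b ≠ 0)
    {β : (PadicAlgCl ℓ)ˣ}
    (hβ : (β : PadicAlgCl ℓ) ^ p = algebraMap ℚ_[ℓ] (PadicAlgCl ℓ) (b : ℚ_[ℓ]))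
    {κ : Gq ℓ → ZMod p} (hκ : IsKummer ℓ p β κ)
    (h : cupLoc ℓ p (chiLocAdd ℓ ψ) κ ∈ levelCoboundaries₂ (localGaloisToGlobal ℓ) (muLoc ℓ p)) :
    Core.Psi ℓ ψ b = 0 := by
  have := finiteDimensional_localField ℓ ψ
  have := isGalois_localField ℓ ψ
  obtain ⟨s, hs⟩ := exists_chiLocAdd_eq_one ℓ ψ hψ
  have hnorm := (cupLoc_mem_levelCoboundaries₂_iff_norm (localField ℓ ψ) (chiLocAdd_mul ℓ ψ)
    (chiLocAdd_eq_zero_iff ℓ ψ) hs (b : ℚ_[ℓ]) hβ hκ).1 h
  exact Psi_eq_zero_of_mem_range_norm ℓ ψ hψ hp2 hb hnorm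

/-- **hTAME, global Prelude form:** if the restriction to `Gq ℓ` of the global cup product
`χ ∪ κ_b` (`χ = ψ ∘ cycMod ℓ`) is a level-constant coboundary, then
`∑_{q ≠ ℓ} v_q(b) ψ(q) = 0`. -/
theorem Psi_eq_zero_of_resQ_cupQ_mem (hψ : Function.Surjective ψ) (hp2 : p ≠ 2) {b : ℚ}
    (hb : b ≠ 0) {β : Qb} (hβ : β ^ p = algebraMap ℚ Qb b) {κ : GQ → ZMod p}
    (hκ : IsKummerQ p β κ)
    (h : resQ ℓ p (cupQ p (Local.chiAdd p ℓ ψ) κ) ∈
      levelCoboundaries₂ (localGaloisToGlobal ℓ) (muLoc ℓ p)) :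
    Core.Psi ℓ ψ b = 0 := by
  have hp : p.Prime := Fact.out
  have hβ0 : β ≠ 0 := by
    rintro rfl
    rw [zero_pow hp.ne_zero] at hβ
    exact hb ((map_eq_zero _).1 hβ.symm)
  refine Psi_eq_zero_of_cupLoc_mem ℓ p ψ hψ hp2 hb
    (β := Units.mk0 (padicEmbedding ℓ β)
      ((map_ne_zero_iff _ (padicEmbedding ℓ).toRingHom.injective).2 hβ0))
    (by rw [Units.val_mk0]; exact padicEmbedding_pow_eq ℓ hβ) (hκ.isKummer ℓ hβ0) ?_
  exact h

end Tame

section Line

variable (q : ℕ) [Fact q.Prime] (p : ℕ) [Fact p.Prime]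

/-- **The line clause.**  If every level-constant `2`-cocycle is a multiple of the normalising
class modulo level-constant coboundaries (`dim H²(ℚ_q, μ_p) = 1`, LOC (C)), then `lamQ` detects
coboundaries. -/
theorem lamQ_eq_zero_imp_mem
    (hline : ∀ z ∈ levelCocycles₂ (localGaloisToGlobal q) (muLoc q p), ∃ a : ZMod p,
      z - a • normClass q p ∈ levelCoboundaries₂ (localGaloisToGlobal q) (muLoc q p))
    {z : Gq q × Gq q → muLoc q p} (hz : z ∈ levelCocycles₂ (localGaloisToGlobal q) (muLoc q p))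
    (h : lamQ q p z = 0) : z ∈ levelCoboundaries₂ (localGaloisToGlobal q) (muLoc q p) := by
  obtain ⟨a, ha⟩ := hline z hz
  have h1 := lamQ_eq_of_sub_mem q p ha
  rw [h, map_smul, lamQ_normClass, smul_eq_mul, mul_one] at h1
  rw [← h1, zero_smul, sub_zero] at ha
  exact ha

/-- `lamQ` of a cocycle is its coordinate with respect to the normalising class. -/
theorem lamQ_eq_of_sub_smul_mem {z : Gq q × Gq q → muLoc q p} {a : ZMod p}
    (ha : z - a • normClass q p ∈ levelCoboundaries₂ (localGaloisToGlobal q) (muLoc q p)) :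
    lamQ q p z = a := by
  rw [lamQ_eq_of_sub_mem q p ha, map_smul, lamQ_normClass, smul_eq_mul, mul_one]

/-- The line hypothesis from `dim H² = 1` (Prelude `continuousH2`). -/
theorem hline_of_finrank
    (hC : Module.finrank (ZMod p) (continuousH2 (localGaloisToGlobal q) (muLoc q p)) = 1) :
    ∀ z ∈ levelCocycles₂ (localGaloisToGlobal q) (muLoc q p), ∃ a : ZMod p,
      z - a • normClass q p ∈ levelCoboundaries₂ (localGaloisToGlobal q) (muLoc q p) := by
  intro z hz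
  set c₀ : ↥(levelCocycles₂ (localGaloisToGlobal q) (muLoc q p)) :=
    ⟨normClass q p, normClass_mem_levelCocycles₂ q p⟩ with hc₀
  have hne : continuousH2π (localGaloisToGlobal q) (muLoc q p) c₀ ≠ 0 := by
    rw [Ne, continuousH2π_eq_zero_iff]
    exact normClass_notMem_levelCoboundaries₂ q p
  obtain ⟨a, ha⟩ := (finrank_eq_one_iff_of_nonzero' _ hne).1 hC
    (continuousH2π (localGaloisToGlobal q) (muLoc q p) ⟨z, hz⟩)
  refine ⟨a, ?_⟩
  have h1 : continuousH2π (localGaloisToGlobal q) (muLoc q p) (⟨z, hz⟩ - a • c₀) = 0 := by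
    rw [map_sub, map_smul, ha, sub_self]
  rw [continuousH2π_eq_zero_iff] at h1
  exact h1

end Line

end Fermat.Agent.CFT.Rec.LocalTame
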