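import Fermat.Agent.CFT.Rec.Defs
import Fermat.Agent.CFT.Rec.LocalTame

/-!
# REC: the local inputs `LocSym p` and `TameLoc p` (from REC-LOC / REC-TAME)

* `locSym : LocSym p`   — from `Rec/Local.lamP`, `lamP_d₁₂`, `lamQ_resQ_cupQ` (helper56);
* `tameLoc : TameLoc p` — from `Rec/LocalTame.Psi_eq_zero_of_resQ_cupQ_mem` (helper56 + helper25).
-/

set_option autoImplicit false

open CategoryTheory groupCohomology ExtCitation

namespace Fermat.Agent.CFT.Rec

local notation "Qb" => AlgebraicClosure ℚ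
local notation "GQ" => (AlgebraicClosure ℚ ≃ₐ[ℚ] AlgebraicClosure ℚ)

variable (p : ℕ) [Fact p.Prime]

/-- **LOC-SYM**: the normalised local functionals of `Rec/Local` satisfy `LocSym p`. -/
theorem locSym : LocSym p := by
  intro q
  have : Fact (q : ℕ).Prime := ⟨q.2⟩
  refine ⟨Local.lamP p q, fun y hy => Local.lamP_d₁₂ p q hy, ?_⟩
  intro ℓ _ ψ b c hℓq hb hc
  obtain ⟨β, hβ, hκ⟩ := hc
  exact Local.lamQ_resQ_cupQ (q : ℕ) p (Ne.symm hℓq) ψ hb hβ hκ

/-- **TAME-LOC**: `TameLoc p` from the local norm criterion and the tame norm theorem. -/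
theorem tameLoc : TameLoc p := by
  intro hp2 ℓ _ ψ hψ b c hb hc h
  obtain ⟨β, hβ, hκ⟩ := hc
  exact LocalTame.Psi_eq_zero_of_resQ_cupQ_mem ℓ p ψ hψ hp2 hb hβ hκ h

end Fermat.Agent.CFT.Rec
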