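import Fermat.Agent.CFT.Rec.LocalCrit
import Fermat.Agent.CFT.Rec.Cyclo
import Fermat.Agent.CFT.Rec.Core
import Fermat.Agent.CFT.Local.Unramified
import Fermat.Agent.CFT.Local.UnramNormed
import Fermat.Agent.CFT.Local.PadicExt

/-!
# CFT / Rec / Local (brick REC-LOC): the unramified local symbol and the normalising class

`q`, `p` primes (also `q = p`), `Gq q = Gal(ℚ̄_q/ℚ_q)`, `μ_p = muLoc q p`.

* `exists_pow_forall_root` : every `τ ∈ Gq q` acts on all roots of unity of order dividing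
  `q ^ n - 1` as one power of the Frobenius `z ↦ z ^ q`;
* `chiUr q p : Gq q → 𝔽_p` : the unramified character of degree `p` (value `1` at Frobenius),
  kernel field `unrField q p = ℚ_q(ζ_{q^p-1})` (Galois of degree `p`, `e = 1`);
* `mem_range_norm_unrField_of_norm_eq_one` (units are norms),
  `natCast_notMem_range_norm_unrField` (`q` is not a norm);
* `normClass q p = χ_ur ∪ κ_q` : the normalising class, a level-constant `2`-cocycle which is
  not a level-constant coboundary;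
* `cupLoc_smul_chiUr_sub_mem` : `a χ_ur ∪ κ_b ≡ v_q(b) a • normClass` (local symbol);
* `lamQ q p` : a linear functional on `μ_p`-valued `2`-cochains of `Gq q`, killing level-constant
  coboundaries, with `lamQ (normClass) = 1`;
* global form: `chiAdd p ℓ ψ` (additive form of `Cyclo.chi ℓ ψ`), `IsKummerQ p β κ`, `cupQ p χ κ`,
  `resQ q p` (the Prelude's restriction of cochains),
  `chiAdd_localGaloisToGlobal` (`χ ∘ loc_q = ψ(q) • χ_ur` for `ℓ ≠ q`),
  `resQ_cupQ_sub_mem`, **`lamQ_resQ_cupQ`** :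
  `lamQ q p (res_q (χ ∪ κ_b)) = v_q(b) * ψ(q)`  (`ψ(q) = Core.psi0 ℓ ψ q`);
* `lamP p q` : the same family indexed by `q : Nat.Primes` on `primeLocalGaloisGroup q`.
-/

set_option autoImplicit false

namespace Fermat.Agent.CFT.Rec.Local

open scoped NNReal NormedField Valued
open IsLocalRing groupCohomology ExtCitation
open Fermat.Agent.CFT.Local.NormedLocal Fermat.Agent.CFT.Local.PadicExt Fermat.Agent.CFT.Local
  Fermat.Agent.CFT.LocalBr Fermat.Agent.CFT.Rec.LocalCrit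

variable (q : ℕ) [Fact q.Prime]

/-! ### The residue field of `ℚ_q` -/

lemma integer_padic_eq_subring : (𝒪[ℚ_[q]] : Subring ℚ_[q]) = PadicInt.subring q := by
  ext x
  rw [Valued.integer.mem_iff]
  change _ ↔ ‖x‖ ≤ 1
  rfl

lemma card_residueField_padic_eq : Nat.card 𝓀[ℚ_[q]] = q := by
  let e0 : 𝒪[ℚ_[q]] ≃+* ℤ_[q] := RingEquiv.subringCongr (integer_padic_eq_subring q)
  have e : 𝓀[ℚ_[q]] ≃+* ZMod q :=
    (IsLocalRing.ResidueField.mapEquiv e0).trans PadicInt.residueField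
  rw [Nat.card_congr e.toEquiv, Nat.card_zmod]

/-! ### Roots of unity of order `q ^ n - 1` -/

variable {q}

lemma pow_sub_one_ne_zero {n : ℕ} (hn : 0 < n) : q ^ n - 1 ≠ 0 := by
  have h1 : 1 < q := (Fact.out : q.Prime).one_lt
  have h2 : q ^ 1 ≤ q ^ n := Nat.pow_le_pow_right (by omega) hn
  rw [pow_one] at h2
  omega

/-- Normality of `ℚ_q(ζ)` for a root of unity `ζ`. -/
lemma normal_adjoin_root {m : ℕ} (hm : m ≠ 0) {ζ : PadicAlgCl q} (hζ : IsPrimitiveRoot ζ m) :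
    Normal ℚ_[q] (IntermediateField.adjoin ℚ_[q] {ζ}) := by
  have : NeZero m := ⟨hm⟩
  rw [IntermediateField.normal_iff_forall_map_le]
  intro σ
  rw [IntermediateField.adjoin_map, Set.image_singleton, IntermediateField.adjoin_le_iff,
    Set.singleton_subset_iff]
  obtain ⟨i, -, hi⟩ := hζ.eq_pow_of_pow_eq_one (ξ := σ ζ) (by rw [← map_pow, hζ.pow_eq_one, map_one])
  rw [← hi]
  exact pow_mem (IntermediateField.mem_adjoin_simple_self ℚ_[q] ζ) i

/-- Every element of the local Galois group raises a primitive root of unity of order `q ^ n - 1`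
to a power of `q`. -/
theorem exists_apply_root_eq_pow {n : ℕ} (hn : 0 < n) {ζ : PadicAlgCl q}
    (hζ : IsPrimitiveRoot ζ (q ^ n - 1)) (τ : Gq q) : ∃ j : ℕ, τ ζ = ζ ^ (q ^ j) := by
  let M : IntermediateField ℚ_[q] (PadicAlgCl q) := IntermediateField.adjoin ℚ_[q] {ζ}
  have hζint : IsIntegral ℚ_[q] ζ := Algebra.IsIntegral.isIntegral ζ
  have : FiniteDimensional ℚ_[q] M := IntermediateField.adjoin.finiteDimensional hζint
  let ζM : M := ⟨ζ, IntermediateField.mem_adjoin_simple_self ℚ_[q] ζ⟩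
  have hζM : IsPrimitiveRoot ζM (Nat.card 𝓀[ℚ_[q]] ^ n - 1) := by
    rw [card_residueField_padic_eq]
    exact IsPrimitiveRoot.of_map_of_injective (f := algebraMap M (PadicAlgCl q)) hζ
      (algebraMap M (PadicAlgCl q)).injective
  have hnorm : Normal ℚ_[q] M := normal_adjoin_root (pow_sub_one_ne_zero hn) hζ
  obtain ⟨j, hj⟩ := Unramified.exists_map_root_eq_pow (K := ℚ_[q]) (L := M) hn hζM
    ((AlgEquiv.restrictNormal τ M : M ≃ₐ[ℚ_[q]] M) : M →ₐ[ℚ_[q]] M)
  refine ⟨j, ?_⟩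
  have h1 := congrArg (algebraMap M (PadicAlgCl q)) hj
  rw [card_residueField_padic_eq] at h1
  simpa [AlgEquiv.restrictNormal_commutes] using h1

/-- Every element of the local Galois group acts on ALL roots of unity of order dividing
`q ^ n - 1` as the same power of the Frobenius. -/
theorem exists_pow_forall_root (n : ℕ) (hn : 0 < n) (τ : Gq q) :
    ∃ j : ℕ, ∀ z : PadicAlgCl q, z ^ (q ^ n - 1) = 1 → τ z = z ^ (q ^ j) := by
  have hne : NeZero (q ^ n - 1) := ⟨pow_sub_one_ne_zero hn⟩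
  have hne' : NeZero ((q ^ n - 1 : ℕ) : PadicAlgCl q) := ⟨by exact_mod_cast pow_sub_one_ne_zero hn⟩
  obtain ⟨ζ, hζ⟩ := HasEnoughRootsOfUnity.exists_primitiveRoot (PadicAlgCl q) (q ^ n - 1)
  obtain ⟨j, hj⟩ := exists_apply_root_eq_pow hn hζ τ
  refine ⟨j, fun z hz => ?_⟩
  obtain ⟨i, -, rfl⟩ := hζ.eq_pow_of_pow_eq_one hz
  rw [map_pow, hj, ← pow_mul, ← pow_mul, mul_comm]

/-! ### The unramified character of degree `p` -/

variable (q) (p : ℕ) [Fact p.Prime]

theorem exists_zetaUr : ∃ ζ : PadicAlgCl q, IsPrimitiveRoot ζ (q ^ p - 1) := by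
  have hn : 0 < p := (Fact.out : p.Prime).pos
  have hne : NeZero (q ^ p - 1) := ⟨pow_sub_one_ne_zero hn⟩
  have hne' : NeZero ((q ^ p - 1 : ℕ) : PadicAlgCl q) := ⟨by exact_mod_cast pow_sub_one_ne_zero hn⟩
  exact HasEnoughRootsOfUnity.exists_primitiveRoot (PadicAlgCl q) (q ^ p - 1)

/-- A chosen primitive root of unity of order `q ^ p - 1` in `ℚ̄_q`. -/
noncomputable def zetaUr : PadicAlgCl q := (exists_zetaUr q p).choose

theorem zetaUr_spec : IsPrimitiveRoot (zetaUr q p) (q ^ p - 1) := (exists_zetaUr q p).choose_spec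

/-- `q` has order `p` modulo `q ^ p - 1`. -/
lemma natCast_pow_eq_iff (j j' : ℕ) :
    ((q : ZMod (q ^ p - 1)) ^ j = (q : ZMod (q ^ p - 1)) ^ j') ↔ (j : ZMod p) = (j' : ZMod p) := by
  have hp : p.Prime := Fact.out
  have hq : q.Prime := Fact.out
  have h1 : 1 ≤ q ^ p := Nat.one_le_pow _ _ hq.pos
  have hpow : (q : ZMod (q ^ p - 1)) ^ p = 1 := by
    have : ((q ^ p : ℕ) : ZMod (q ^ p - 1)) = ((q ^ p - 1 + 1 : ℕ) : ZMod (q ^ p - 1)) := by
      rw [Nat.sub_add_cancel h1]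
    rw [← Nat.cast_pow, this, Nat.cast_add, ZMod.natCast_self, zero_add, Nat.cast_one]
  have hne1 : (q : ZMod (q ^ p - 1)) ≠ 1 := by
    intro h
    have h2 : ((q : ℕ) : ZMod (q ^ p - 1)) = ((1 : ℕ) : ZMod (q ^ p - 1)) := by
      rw [h, Nat.cast_one]
    rw [ZMod.natCast_eq_natCast_iff] at h2
    have h3 : q ^ 2 ≤ q ^ p := Nat.pow_le_pow_right hq.pos hp.two_le
    have h4 : q * 2 ≤ q ^ 2 := by
      rw [sq]; exact Nat.mul_le_mul_left q hq.two_le
    have h5 : q < q ^ p - 1 := by have := hq.two_le; omega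
    have h6 : 1 < q ^ p - 1 := by have := hq.two_le; omega
    rw [Nat.ModEq, Nat.mod_eq_of_lt h5, Nat.mod_eq_of_lt h6] at h2
    have := hq.two_le
    omega
  have hord : orderOf (q : ZMod (q ^ p - 1)) = p := orderOf_eq_prime hpow hne1
  have hfin : IsOfFinOrder (q : ZMod (q ^ p - 1)) :=
    isOfFinOrder_iff_pow_eq_one.2 ⟨p, hp.pos, hpow⟩
  rw [hfin.pow_eq_pow_iff_modEq, hord, ZMod.natCast_eq_natCast_iff]

lemma zetaUr_pow_eq_iff (j j' : ℕ) :
    zetaUr q p ^ (q ^ j) = zetaUr q p ^ (q ^ j') ↔ (j : ZMod p) = (j' : ZMod p) := by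
  have hn : 0 < p := (Fact.out : p.Prime).pos
  rw [((zetaUr_spec q p).isOfFinOrder (pow_sub_one_ne_zero hn)).pow_eq_pow_iff_modEq,
    ← (zetaUr_spec q p).eq_orderOf, ← ZMod.natCast_eq_natCast_iff, Nat.cast_pow, Nat.cast_pow,
    natCast_pow_eq_iff]

theorem exists_apply_zetaUr (τ : Gq q) : ∃ j : ℕ, τ (zetaUr q p) = zetaUr q p ^ (q ^ j) :=
  exists_apply_root_eq_pow (Fact.out : p.Prime).pos (zetaUr_spec q p) τ

/-- The unramified character `Gq q → 𝔽_p`: `τ ζ = ζ ^ (q ^ chiUr τ)` for `ζ` a primitive root of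
unity of order `q ^ p - 1`; it sends the Frobenius to `1`. -/
noncomputable def chiUr (τ : Gq q) : ZMod p := ((exists_apply_zetaUr q p τ).choose : ZMod p)

variable {q p}

theorem chiUr_eq {τ : Gq q} {j : ℕ} (h : τ (zetaUr q p) = zetaUr q p ^ (q ^ j)) :
    chiUr q p τ = j := by
  have h1 := (exists_apply_zetaUr q p τ).choose_spec
  exact ((zetaUr_pow_eq_iff q p _ _).1 (h.symm.trans h1)).symm

theorem chiUr_mul (σ τ : Gq q) : chiUr q p (σ * τ) = chiUr q p σ + chiUr q p τ := by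
  obtain ⟨a, ha⟩ := exists_apply_zetaUr q p σ
  obtain ⟨b, hb⟩ := exists_apply_zetaUr q p τ
  have h : (σ * τ) (zetaUr q p) = zetaUr q p ^ (q ^ (a + b)) := by
    rw [AlgEquiv.mul_apply, hb, map_pow, ha, ← pow_mul, ← pow_add]
  rw [chiUr_eq h, chiUr_eq ha, chiUr_eq hb, Nat.cast_add]

theorem chiUr_eq_zero_iff (τ : Gq q) : chiUr q p τ = 0 ↔ τ (zetaUr q p) = zetaUr q p := by
  constructor
  · intro h
    obtain ⟨a, ha⟩ := exists_apply_zetaUr q p τ
    rw [chiUr_eq ha] at h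
    have h0 : (a : ZMod p) = ((0 : ℕ) : ZMod p) := by rw [h, Nat.cast_zero]
    rw [ha, (zetaUr_pow_eq_iff q p a 0).2 h0, pow_zero, pow_one]
  · intro h
    have h' : τ (zetaUr q p) = zetaUr q p ^ (q ^ 0) := by rw [pow_zero, pow_one, h]
    rw [chiUr_eq h', Nat.cast_zero]

variable (q p)

/-- The unramified extension of `ℚ_q` of degree `p` inside `ℚ̄_q`. -/
noncomputable def unrField : IntermediateField ℚ_[q] (PadicAlgCl q) :=
  IntermediateField.adjoin ℚ_[q] {zetaUr q p}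

theorem zetaUr_mem_unrField : zetaUr q p ∈ unrField q p :=
  IntermediateField.mem_adjoin_simple_self ℚ_[q] (zetaUr q p)

instance finiteDimensional_unrField : FiniteDimensional ℚ_[q] (unrField q p) :=
  IntermediateField.adjoin.finiteDimensional (Algebra.IsIntegral.isIntegral _)

theorem chiUr_eq_zero_iff_mem (τ : Gq q) :
    chiUr q p τ = 0 ↔ τ ∈ (unrField q p).fixingSubgroup := by
  rw [chiUr_eq_zero_iff, IntermediateField.mem_fixingSubgroup_iff]
  constructor
  · intro h x hx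
    exact Fermat.Agent.S55.Glue.algEquiv_apply_eq_of_mem_adjoin τ {zetaUr q p}
      (fun y hy => by rw [Set.mem_singleton_iff.1 hy]; exact h) hx
  · intro h
    exact h _ (zetaUr_mem_unrField q p)

theorem chiUr_isLevelConstant : IsLevelConstant₁ (localGaloisToGlobal q) (chiUr q p) := by
  rw [Fermat.Agent.S55.Glue.isLevelConstant₁_localGaloisToGlobal_iff]
  refine ⟨unrField q p, inferInstance, fun g s hs => ?_⟩
  rw [chiUr_mul, (chiUr_eq_zero_iff_mem q p s).2 hs, add_zero]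

/-! ### Arithmetic of the unramified extension -/

/-- The generator of `unrField` as an element of the field. -/
noncomputable def zetaUrM : unrField q p := ⟨zetaUr q p, zetaUr_mem_unrField q p⟩

theorem zetaUrM_spec : IsPrimitiveRoot (zetaUrM q p) (Nat.card 𝓀[ℚ_[q]] ^ p - 1) := by
  rw [card_residueField_padic_eq]
  exact IsPrimitiveRoot.of_map_of_injective (f := algebraMap (unrField q p) (PadicAlgCl q))
    (zetaUr_spec q p) (algebraMap (unrField q p) (PadicAlgCl q)).injective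

theorem adjoin_zetaUrM : IntermediateField.adjoin ℚ_[q] {zetaUrM q p} = ⊤ := by
  apply IntermediateField.lift_injective (unrField q p)
  rw [IntermediateField.lift_adjoin_simple, IntermediateField.lift_top]
  rfl

instance isGalois_unrField : IsGalois ℚ_[q] (unrField q p) := by
  have hn : 0 < p := (Fact.out : p.Prime).pos
  have hm : Nat.card 𝓀[ℚ_[q]] ^ p - 1 ≠ 0 := by
    rw [card_residueField_padic_eq]; exact pow_sub_one_ne_zero hn
  exact Unramified.isGalois_of_root hm (zetaUrM_spec q p) (adjoin_zetaUrM q p)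

theorem finrank_unrField : Module.finrank ℚ_[q] (unrField q p) = p :=
  Unramified.finrank_eq (Fact.out : p.Prime).pos (zetaUrM_spec q p) (adjoin_zetaUrM q p)

theorem ramificationIdx_unrField : (𝓂[unrField q p]).ramificationIdx 𝒪[ℚ_[q]] = 1 :=
  Unramified.ramificationIdx_eq_one (Fact.out : p.Prime).pos (zetaUrM_spec q p)
    (adjoin_zetaUrM q p)

/-- A Frobenius element: `chiUr` takes the value `1`. -/
theorem exists_chiUr_eq_one : ∃ s : Gq q, chiUr q p s = 1 := by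
  obtain ⟨φ, hφ, -, -⟩ := Unramified.exists_frobenius (Fact.out : p.Prime).pos (zetaUrM_spec q p)
    (adjoin_zetaUrM q p)
  refine ⟨φ.liftNormal (PadicAlgCl q), ?_⟩
  have h1 : (φ.liftNormal (PadicAlgCl q)) (zetaUr q p) = zetaUr q p ^ (q ^ 1) := by
    have h2 := AlgEquiv.liftNormal_commutes φ (PadicAlgCl q) (zetaUrM q p)
    rw [hφ, card_residueField_padic_eq] at h2
    rw [pow_one]
    exact h2
  rw [chiUr_eq h1, Nat.cast_one]

/-- **Units are norms** from the unramified extension. -/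
theorem mem_range_norm_unrField_of_norm_eq_one {u : ℚ_[q]} (hu : ‖u‖ = 1) :
    u ∈ Set.range (Algebra.norm ℚ_[q] : unrField q p → ℚ_[q]) := by
  obtain ⟨φ, -, -, hφ⟩ := Unramified.exists_frobenius (Fact.out : p.Prime).pos (zetaUrM_spec q p)
    (adjoin_zetaUrM q p)
  have hgen : ∀ τ : Gal(unrField q p/ℚ_[q]), τ ∈ Subgroup.zpowers φ := by
    intro τ
    obtain ⟨j, -, rfl⟩ := hφ τ
    exact Subgroup.npow_mem_zpowers φ j
  obtain ⟨y, -, hy⟩ := UnitCoh.exists_norm_eq_of_unramified ℚ_[q] (unrField q p) φ hgen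
    (ramificationIdx_unrField q p) u hu
  exact ⟨y, hy⟩

lemma irreducible_natCast_integer_padic : Irreducible ((q : ℕ) : 𝒪[ℚ_[q]]) := by
  let e0 : 𝒪[ℚ_[q]] ≃+* ℤ_[q] := RingEquiv.subringCongr (integer_padic_eq_subring q)
  have h := map_maximalIdeal_of_surjective e0.symm.toRingHom e0.symm.surjective
  rw [PadicInt.maximalIdeal_eq_span_p, Ideal.map_span, Set.image_singleton] at h
  have h2 : e0.symm.toRingHom ((q : ℕ) : ℤ_[q]) = ((q : ℕ) : 𝒪[ℚ_[q]]) := map_natCast e0.symm q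
  rw [h2] at h
  exact (IsDiscreteValuationRing.irreducible_iff_uniformizer _).2 h.symm

/-- **`q` is not a norm** from the unramified extension of degree `p`. -/
theorem natCast_notMem_range_norm_unrField :
    (q : ℚ_[q]) ∉ Set.range (Algebra.norm ℚ_[q] : unrField q p → ℚ_[q]) := by
  rintro ⟨y, hy⟩
  have hp : p.Prime := Fact.out
  have hq : q.Prime := Fact.out
  have hq0 : (q : ℚ_[q]) ≠ 0 := by exact_mod_cast hq.ne_zero
  have hy0 : y ≠ 0 := by
    rintro rfl
    rw [Algebra.norm_zero] at hy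
    exact hq0 hy.symm
  -- the norm of `N y`
  have h1 : ‖algebraMap ℚ_[q] (unrField q p) (Algebra.norm ℚ_[q] y)‖ = ‖y‖ ^ p := by
    classical
    rw [Algebra.norm_eq_prod_automorphisms, norm_prod]
    have : ∀ σ : Gal(unrField q p/ℚ_[q]), ‖σ y‖ = ‖y‖ := fun σ => norm_algEquiv_eq σ y
    rw [Finset.prod_congr rfl (fun σ _ => this σ), Finset.prod_const, Finset.card_univ,
      ← Nat.card_eq_fintype_card, IsGalois.card_aut_eq_finrank, finrank_unrField]
  rw [hy, norm_algebraMap', Padic.norm_p] at h1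
  -- the value group
  have hirr := Unramified.irreducible_algebraMap_of_ramificationIdx_eq_one
    (ramificationIdx_unrField q p) (irreducible_natCast_integer_padic q)
  obtain ⟨k, hk⟩ := exists_norm_eq_zpow (K := unrField q p) hirr hy0
  have h2 : ‖((algebraMap 𝒪[ℚ_[q]] 𝒪[unrField q p] ((q : ℕ) : 𝒪[ℚ_[q]]) : 𝒪[unrField q p]) :
      unrField q p)‖ = (q : ℝ)⁻¹ := by
    change ‖algebraMap ℚ_[q] (unrField q p) ((q : ℕ) : ℚ_[q])‖ = _
    rw [norm_algebraMap', Padic.norm_p]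
  rw [h2] at hk
  rw [hk, ← zpow_natCast, ← zpow_mul] at h1
  have hq1 : (1 : ℝ) < q := by exact_mod_cast hq.one_lt
  have hqinv0 : (0 : ℝ) < (q : ℝ)⁻¹ := by positivity
  have hqinv1 : (q : ℝ)⁻¹ ≠ 1 := (inv_lt_one_of_one_lt₀ hq1).ne
  have h3 : (q : ℝ)⁻¹ ^ (1 : ℤ) = (q : ℝ)⁻¹ ^ (k * (p : ℤ)) := by rw [zpow_one]; exact h1
  have h4 : (1 : ℤ) = k * (p : ℤ) := zpow_right_injective₀ hqinv0 hqinv1 h3
  have h5 : (p : ℤ) ∣ 1 := ⟨k, by rw [h4]; ring⟩
  have h6 : p ∣ 1 := by exact_mod_cast h5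
  exact hp.one_lt.ne' (Nat.dvd_one.1 h6)

/-! ### The normalising class and the unramified symbol -/

theorem exists_rootQ : ∃ β : (PadicAlgCl q)ˣ,
    (β : PadicAlgCl q) ^ p = algebraMap ℚ_[q] (PadicAlgCl q) ((q : ℕ) : ℚ_[q]) := by
  have hp : p.Prime := Fact.out
  have hq : q.Prime := Fact.out
  obtain ⟨z, hz⟩ := IsAlgClosed.exists_pow_nat_eq
    (algebraMap ℚ_[q] (PadicAlgCl q) ((q : ℕ) : ℚ_[q])) hp.pos
  have hq0 : algebraMap ℚ_[q] (PadicAlgCl q) ((q : ℕ) : ℚ_[q]) ≠ 0 := by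
    rw [map_natCast]
    exact_mod_cast hq.ne_zero
  have hz0 : z ≠ 0 := by
    rintro rfl
    rw [zero_pow hp.ne_zero] at hz
    exact hq0 hz.symm
  exact ⟨Units.mk0 z hz0, by rw [Units.val_mk0, hz]⟩

/-- A chosen `p`-th root of `q` in `ℚ̄_q`. -/
noncomputable def rootQ : (PadicAlgCl q)ˣ := (exists_rootQ q p).choose

theorem rootQ_pow : (rootQ q p : PadicAlgCl q) ^ p =
    algebraMap ℚ_[q] (PadicAlgCl q) ((q : ℕ) : ℚ_[q]) := (exists_rootQ q p).choose_spec

/-- A unit whose `p`-th power lies in `ℚ_q` has a Kummer cocycle. -/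
theorem exists_isKummer_of_pow_eq {β : (PadicAlgCl q)ˣ} {b : ℚ_[q]}
    (hβ : (β : PadicAlgCl q) ^ p = algebraMap ℚ_[q] (PadicAlgCl q) b) :
    ∃ κ : Gq q → ZMod p, IsKummer q p β κ := by
  refine exists_isKummer β (fun τ => ?_)
  ext
  rw [AlgEquiv.smul_units_def, Units.coe_map, MonoidHom.coe_coe, Units.val_pow_eq_pow_val, hβ,
    AlgEquiv.commutes]

/-- The Kummer cocycle of the chosen `p`-th root of `q`. -/
noncomputable def kummerQ : Gq q → ZMod p := (exists_isKummer_of_pow_eq q p (rootQ_pow q p)).choose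

theorem kummerQ_spec : IsKummer q p (rootQ q p) (kummerQ q p) :=
  (exists_isKummer_of_pow_eq q p (rootQ_pow q p)).choose_spec

/-- **The normalising class** at `q`: the cup product `χ_ur ∪ κ_q` of the unramified character of
degree `p` (value `1` at Frobenius) with the Kummer cocycle of `q`. -/
noncomputable def normClass : Gq q × Gq q → muLoc q p := cupLoc q p (chiUr q p) (kummerQ q p)

theorem normClass_mem_levelCocycles₂ :
    normClass q p ∈ levelCocycles₂ (localGaloisToGlobal q) (muLoc q p) :=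
  cupLoc_mem_levelCocycles₂ chiUr_mul (chiUr_isLevelConstant q p) (kummerQ_spec q p)

/-- The local norm criterion for the unramified character. -/
theorem cupLoc_chiUr_mem_iff (b : ℚ_[q]) {β : (PadicAlgCl q)ˣ}
    (hβ : (β : PadicAlgCl q) ^ p = algebraMap ℚ_[q] (PadicAlgCl q) b) {κ : Gq q → ZMod p}
    (hκ : IsKummer q p β κ) :
    cupLoc q p (chiUr q p) κ ∈ levelCoboundaries₂ (localGaloisToGlobal q) (muLoc q p) ↔
      b ∈ Set.range (Algebra.norm ℚ_[q] : unrField q p → ℚ_[q]) := by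
  obtain ⟨s, hs⟩ := exists_chiUr_eq_one q p
  exact cupLoc_mem_levelCoboundaries₂_iff_norm (unrField q p) chiUr_mul
    (chiUr_eq_zero_iff_mem q p) hs b hβ hκ

/-- The normalising class is not a coboundary. -/
theorem normClass_notMem_levelCoboundaries₂ :
    normClass q p ∉ levelCoboundaries₂ (localGaloisToGlobal q) (muLoc q p) := by
  rw [normClass, cupLoc_chiUr_mem_iff q p _ (rootQ_pow q p) (kummerQ_spec q p)]
  exact natCast_notMem_range_norm_unrField q p

/-- **The unramified symbol (local form).**  For `b ∈ ℚ_qˣ` with Kummer cocycle `κ`, the class of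
`χ_ur ∪ κ` is `v_q(b)` times the normalising class. -/
theorem cupLoc_chiUr_sub_mem {b : ℚ_[q]} (hb : b ≠ 0) {β : (PadicAlgCl q)ˣ}
    (hβ : (β : PadicAlgCl q) ^ p = algebraMap ℚ_[q] (PadicAlgCl q) b) {κ : Gq q → ZMod p}
    (hκ : IsKummer q p β κ) :
    cupLoc q p (chiUr q p) κ - ((b.valuation : ℤ) : ZMod p) • normClass q p ∈
      levelCoboundaries₂ (localGaloisToGlobal q) (muLoc q p) := by
  have hq : q.Prime := Fact.out
  have hq0 : ((q : ℕ) : ℚ_[q]) ≠ 0 := by exact_mod_cast hq.ne_zero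
  set v : ℤ := b.valuation with hv
  -- the unit part
  have hκ' : IsKummer q p (β * rootQ q p ^ (-v)) (κ + (-v) • kummerQ q p) :=
    hκ.mul ((kummerQ_spec q p).zpow (-v))
  have hβ' : ((β * rootQ q p ^ (-v) : (PadicAlgCl q)ˣ) : PadicAlgCl q) ^ p =
      algebraMap ℚ_[q] (PadicAlgCl q) (b * ((q : ℕ) : ℚ_[q]) ^ (-v)) := by
    rw [Units.val_mul, mul_pow, hβ, Units.val_zpow_eq_zpow_val, ← zpow_natCast, ← zpow_mul,
      mul_comm (-v) (p : ℤ), zpow_mul, zpow_natCast, rootQ_pow, map_mul, map_zpow₀]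
  have hnorm : ‖b * ((q : ℕ) : ℚ_[q]) ^ (-v)‖ = 1 := by
    rw [norm_mul, norm_zpow, Padic.norm_p, Padic.norm_eq_zpow_neg_valuation hb, ← hv, inv_zpow',
      neg_neg, ← zpow_add₀ (by exact_mod_cast hq.ne_zero : (q : ℝ) ≠ 0), neg_add_cancel, zpow_zero]
  have hmem := (cupLoc_chiUr_mem_iff q p _ hβ' hκ').2
    (mem_range_norm_unrField_of_norm_eq_one q p hnorm)
  have hsm : (-v) • kummerQ q p = ((-v : ℤ) : ZMod p) • kummerQ q p :=
    (Int.cast_smul_eq_zsmul (ZMod p) (-v) (kummerQ q p)).symm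
  rw [cupLoc_add_right, hsm, cupLoc_smul_right] at hmem
  have heq : cupLoc q p (chiUr q p) κ - ((v : ℤ) : ZMod p) • normClass q p =
      cupLoc q p (chiUr q p) κ + ((-v : ℤ) : ZMod p) • cupLoc q p (chiUr q p) (kummerQ q p) := by
    rw [Int.cast_neg, neg_smul, sub_eq_add_neg]
    rfl
  rw [heq]
  exact hmem

/-- The unramified symbol for the multiples of the unramified character. -/
theorem cupLoc_smul_chiUr_sub_mem (a : ZMod p) {b : ℚ_[q]} (hb : b ≠ 0) {β : (PadicAlgCl q)ˣ}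
    (hβ : (β : PadicAlgCl q) ^ p = algebraMap ℚ_[q] (PadicAlgCl q) b) {κ : Gq q → ZMod p}
    (hκ : IsKummer q p β κ) :
    cupLoc q p (a • chiUr q p) κ - (((b.valuation : ℤ) : ZMod p) * a) • normClass q p ∈
      levelCoboundaries₂ (localGaloisToGlobal q) (muLoc q p) := by
  have h := (levelCoboundaries₂ (localGaloisToGlobal q) (muLoc q p)).smul_mem a
    (cupLoc_chiUr_sub_mem q p hb hβ hκ)
  have heq : a • (cupLoc q p (chiUr q p) κ - ((b.valuation : ℤ) : ZMod p) • normClass q p) =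
      cupLoc q p (a • chiUr q p) κ - (((b.valuation : ℤ) : ZMod p) * a) • normClass q p := by
    rw [smul_sub, cupLoc_smul_left, smul_smul, mul_comm]
  rw [heq] at h
  exact h

/-! ### The normalised local functional -/

theorem exists_lamQ : ∃ lam : (Gq q × Gq q → muLoc q p) →ₗ[ZMod p] ZMod p,
    lam (normClass q p) = 1 ∧
      ∀ f ∈ levelCoboundaries₂ (localGaloisToGlobal q) (muLoc q p), lam f = 0 := by
  obtain ⟨f, hf, hmap⟩ := Submodule.exists_dual_map_eq_bot_of_notMem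
    (normClass_notMem_levelCoboundaries₂ q p) inferInstance
  refine ⟨(f (normClass q p))⁻¹ • f, ?_, fun g hg => ?_⟩
  · rw [LinearMap.smul_apply, smul_eq_mul, inv_mul_cancel₀ hf]
  · have h0 : f g = 0 := by
      have : f g ∈ Submodule.map f (levelCoboundaries₂ (localGaloisToGlobal q) (muLoc q p)) :=
        Submodule.mem_map_of_mem hg
      rw [hmap] at this
      exact (Submodule.mem_bot _).1 this
    rw [LinearMap.smul_apply, h0, smul_zero]

/-- **The normalised local functional** `lam_q` on `μ_p`-valued `2`-cochains of `Gq q`: it kills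
the level-constant coboundaries and takes the value `1` on the normalising class `χ_ur ∪ κ_q`.
(Once `H²(ℚ_q, μ_p)` is known to be a line it is THE invariant map on level-constant cocycles.) -/
noncomputable def lamQ : (Gq q × Gq q → muLoc q p) →ₗ[ZMod p] ZMod p := (exists_lamQ q p).choose

theorem lamQ_normClass : lamQ q p (normClass q p) = 1 := (exists_lamQ q p).choose_spec.1

theorem lamQ_eq_zero_of_mem {f : Gq q × Gq q → muLoc q p}
    (hf : f ∈ levelCoboundaries₂ (localGaloisToGlobal q) (muLoc q p)) : lamQ q p f = 0 :=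
  (exists_lamQ q p).choose_spec.2 f hf

/-- `lam_q` only depends on the class modulo level-constant coboundaries. -/
theorem lamQ_eq_of_sub_mem {f g : Gq q × Gq q → muLoc q p}
    (h : f - g ∈ levelCoboundaries₂ (localGaloisToGlobal q) (muLoc q p)) :
    lamQ q p f = lamQ q p g := by
  have h0 := lamQ_eq_zero_of_mem q p h
  rw [map_sub, sub_eq_zero] at h0
  exact h0

/-- **The unramified symbol (local form):** `lam_q (a χ_ur ∪ κ_b) = v_q(b) * a`. -/
theorem lamQ_cupLoc_smul_chiUr (a : ZMod p) {b : ℚ_[q]} (hb : b ≠ 0) {β : (PadicAlgCl q)ˣ}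
    (hβ : (β : PadicAlgCl q) ^ p = algebraMap ℚ_[q] (PadicAlgCl q) b) {κ : Gq q → ZMod p}
    (hκ : IsKummer q p β κ) :
    lamQ q p (cupLoc q p (a • chiUr q p) κ) = ((b.valuation : ℤ) : ZMod p) * a := by
  rw [lamQ_eq_of_sub_mem q p (cupLoc_smul_chiUr_sub_mem q p a hb hβ hκ), map_smul, lamQ_normClass,
    smul_eq_mul, mul_one]

/-! ### Global symbols restricted to `Gq q` -/

section Global

local notation "Qb" => AlgebraicClosure ℚ
local notation "GQ" => (AlgebraicClosure ℚ ≃ₐ[ℚ] AlgebraicClosure ℚ)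

/-- `κ : G_ℚ → 𝔽_p` is the Kummer cocycle of `β ∈ ℚ̄`: `t β = ζ_p ^ κ t * β`, `ζ_p = zetaQb p`. -/
def IsKummerQ (β : Qb) (κ : GQ → ZMod p) : Prop :=
  ∀ t : GQ, t β = zetaQb p ^ (κ t).val * β

/-- The global cup product cochain `(s, t) ↦ χ s • (s • κ t)` with values in `μ_p = 𝔽_p(1)`. -/
noncomputable def cupQ (χ κ : GQ → ZMod p) : GQ × GQ → ofChar (k := ZMod p) (cycloChar p) :=
  fun st => χ st.1 • (ofChar (k := ZMod p) (cycloChar p)).ρ st.1 (κ st.2)

/-- Restriction of `μ_p`-valued `2`-cochains from `G_ℚ` to `Gq q` (the Prelude's cochain map). -/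
noncomputable abbrev resQ :
    (GQ × GQ → ofChar (k := ZMod p) (cycloChar p)) →ₗ[ZMod p] (Gq q × Gq q → muLoc q p) :=
  cochainsPullPush₂ (localGaloisToGlobal q)
    (LinearMap.id : (ofChar (k := ZMod p) (cycloChar p)) →ₗ[ZMod p] (muLoc q p))

theorem resQ_cupQ (χ κ : GQ → ZMod p) :
    resQ q p (cupQ p χ κ) =
      cupLoc q p (fun τ => χ (localGaloisToGlobal q τ)) (fun τ => κ (localGaloisToGlobal q τ)) :=
  rfl

variable {p} in
/-- A global Kummer cocycle restricts to a local Kummer cocycle. -/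
theorem IsKummerQ.isKummer {β : Qb} (hβ0 : β ≠ 0) {κ : GQ → ZMod p} (hκ : IsKummerQ p β κ) :
    IsKummer q p (Units.mk0 (padicEmbedding q β)
      ((map_ne_zero_iff _ (padicEmbedding q).toRingHom.injective).2 hβ0))
      (fun τ => κ (localGaloisToGlobal q τ)) := by
  apply isKummer_of_apply_eq
  intro τ
  rw [Units.val_mk0, ← padicEmbedding_localGaloisToGlobal, hκ, map_mul, map_pow]
  rfl

/-- The additive form of the character `χ = ψ ∘ cycMod ℓ` of `Rec/Cyclo`. -/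
noncomputable def chiAdd (ℓ : ℕ) [Fact ℓ.Prime] (ψ : (ZMod ℓ)ˣ →* Multiplicative (ZMod p))
    (g : GQ) : ZMod p :=
  Multiplicative.toAdd (Cyclo.chi ℓ ψ g)

variable {q p} in
theorem chiAdd_mul {ℓ : ℕ} [Fact ℓ.Prime] (ψ : (ZMod ℓ)ˣ →* Multiplicative (ZMod p)) (g h : GQ) :
    chiAdd p ℓ ψ (g * h) = chiAdd p ℓ ψ g + chiAdd p ℓ ψ h := by
  rw [chiAdd, map_mul]; rfl

/-- **Unramified characters are multiples of `chiUr`:** on the local Galois group at `q ≠ ℓ` the
cyclotomic character `χ = ψ ∘ cycMod ℓ` is `ψ(q) • chiUr`. -/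
theorem chiAdd_localGaloisToGlobal {ℓ : ℕ} [Fact ℓ.Prime] (hqℓ : q ≠ ℓ)
    (ψ : (ZMod ℓ)ˣ →* Multiplicative (ZMod p)) (τ : Gq q) :
    chiAdd p ℓ ψ (localGaloisToGlobal q τ) =
      Core.psi0 ℓ ψ ((q : ℕ) : ZMod ℓ) * chiUr q p τ := by
  have hp : p.Prime := Fact.out
  have hq : q.Prime := Fact.out
  have hℓ : ℓ.Prime := Fact.out
  have hℓ1 : 0 < ℓ - 1 := Nat.sub_pos_of_lt hℓ.one_lt
  have hn : 0 < p * (ℓ - 1) := Nat.mul_pos hp.pos hℓ1
  obtain ⟨j, hj⟩ := exists_pow_forall_root (q := q) (p * (ℓ - 1)) hn τ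
  have hq1 : 1 ≤ q ^ p := Nat.one_le_pow _ _ hq.pos
  -- the order of `zetaUr` divides `q ^ n - 1`
  have hd1 : q ^ p - 1 ∣ q ^ (p * (ℓ - 1)) - 1 := by
    have h := Nat.sub_one_dvd_pow_sub_one (q ^ p) (ℓ - 1)
    rwa [← pow_mul] at h
  have hz1 : zetaUr q p ^ (q ^ (p * (ℓ - 1)) - 1) = 1 := by
    obtain ⟨c, hc⟩ := hd1
    rw [hc, pow_mul, (zetaUr_spec q p).pow_eq_one, one_pow]
  -- `ℓ` divides `q ^ n - 1`
  have hqℓ0 : ((q : ℕ) : ZMod ℓ) ≠ 0 := by
    rw [Ne, ZMod.natCast_eq_zero_iff]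
    intro h
    exact hqℓ ((Nat.prime_dvd_prime_iff_eq hℓ hq).1 h).symm
  have hd2 : ℓ ∣ q ^ (p * (ℓ - 1)) - 1 := by
    have h1 : ((q : ℕ) : ZMod ℓ) ^ (ℓ - 1) = 1 := ZMod.pow_card_sub_one_eq_one hqℓ0
    have h2 : ((q ^ (p * (ℓ - 1)) - 1 : ℕ) : ZMod ℓ) = 0 := by
      rw [Nat.cast_sub (Nat.one_le_pow _ _ hq.pos), Nat.cast_pow, mul_comm, pow_mul, h1, one_pow,
        Nat.cast_one, sub_self]
    exact (ZMod.natCast_eq_zero_iff _ _).1 h2
  have hz2 : padicEmbedding q (Cyclo.zeta ℓ) ^ (q ^ (p * (ℓ - 1)) - 1) = 1 := by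
    obtain ⟨c, hc⟩ := hd2
    rw [hc, pow_mul, ← map_pow, Cyclo.zeta_pow, map_one, one_pow]
  -- the exponent of `τ` on both roots of unity
  have h1 : chiUr q p τ = j := chiUr_eq (hj _ hz1)
  have h2 : localGaloisToGlobal q τ (Cyclo.zeta ℓ) = Cyclo.zeta ℓ ^ (q ^ j) := by
    apply (padicEmbedding q).toRingHom.injective
    change padicEmbedding q (localGaloisToGlobal q τ (Cyclo.zeta ℓ)) =
      padicEmbedding q (Cyclo.zeta ℓ ^ (q ^ j))
    rw [padicEmbedding_localGaloisToGlobal, hj _ hz2, map_pow]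
  have h3 := Cyclo.cycMod_eq_of_pow ℓ (localGaloisToGlobal q τ) (q ^ j) h2
  have h4 : Cyclo.cycMod ℓ (localGaloisToGlobal q τ) = Units.mk0 ((q : ℕ) : ZMod ℓ) hqℓ0 ^ j := by
    apply Units.ext
    rw [h3, Units.val_pow_eq_pow_val, Units.val_mk0, Nat.cast_pow]
  rw [chiAdd, Cyclo.chi_apply, h4, map_pow, toAdd_pow, Core.psi0_of_ne ψ hqℓ0, h1, nsmul_eq_mul,
    mul_comm]

omit [Fact p.Prime] in
variable {p} in
/-- The local form of the equation `β ^ p = b`. -/
theorem padicEmbedding_pow_eq {b : ℚ} {β : Qb} (hβ : β ^ p = algebraMap ℚ Qb b) :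
    padicEmbedding q β ^ p = algebraMap ℚ_[q] (PadicAlgCl q) (b : ℚ_[q]) := by
  rw [← map_pow, hβ, AlgHom.commutes, IsScalarTower.algebraMap_apply ℚ ℚ_[q] (PadicAlgCl q),
    eq_ratCast]

/-- **The unramified symbol formula (cochain form).**  For a prime `ℓ ≠ q`, the character
`χ = ψ ∘ cycMod ℓ` of `G_ℚ`, `b ∈ ℚˣ` and a Kummer cocycle `κ` of `b`, the restriction to `Gq q`
of the cup product `χ ∪ κ` is `v_q(b) ψ(q)` times the normalising class, modulo level-constant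
coboundaries. -/
theorem resQ_cupQ_sub_mem {ℓ : ℕ} [Fact ℓ.Prime] (hqℓ : q ≠ ℓ)
    (ψ : (ZMod ℓ)ˣ →* Multiplicative (ZMod p)) {b : ℚ} (hb : b ≠ 0) {β : Qb}
    (hβ : β ^ p = algebraMap ℚ Qb b) {κ : GQ → ZMod p} (hκ : IsKummerQ p β κ) :
    resQ q p (cupQ p (chiAdd p ℓ ψ) κ) -
        ((padicValRat q b : ZMod p) * Core.psi0 ℓ ψ ((q : ℕ) : ZMod ℓ)) • normClass q p ∈
      levelCoboundaries₂ (localGaloisToGlobal q) (muLoc q p) := by
  have hp : p.Prime := Fact.out
  have hβ0 : β ≠ 0 := by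
    rintro rfl
    rw [zero_pow hp.ne_zero] at hβ
    exact hb ((map_eq_zero _).1 hβ.symm)
  have hb' : (b : ℚ_[q]) ≠ 0 := Rat.cast_ne_zero.2 hb
  have hχ : (fun τ : Gq q => chiAdd p ℓ ψ (localGaloisToGlobal q τ)) =
      Core.psi0 ℓ ψ ((q : ℕ) : ZMod ℓ) • chiUr q p := by
    funext τ
    rw [chiAdd_localGaloisToGlobal q p hqℓ ψ τ, Pi.smul_apply, smul_eq_mul]
  have h := cupLoc_smul_chiUr_sub_mem q p (Core.psi0 ℓ ψ ((q : ℕ) : ZMod ℓ)) hb'
    (β := Units.mk0 (padicEmbedding q β)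
      ((map_ne_zero_iff _ (padicEmbedding q).toRingHom.injective).2 hβ0))
    (by rw [Units.val_mk0]; exact padicEmbedding_pow_eq q hβ) (hκ.isKummer q hβ0)
  rw [Padic.valuation_ratCast] at h
  rw [resQ_cupQ, hχ]
  exact h

/-- **The unramified symbol formula:** `lam_q (res_q (χ ∪ κ_b)) = v_q(b) ψ(q)` for `ℓ ≠ q`,
`χ = ψ ∘ cycMod ℓ` (any `q`, also `q = p`). -/
theorem lamQ_resQ_cupQ {ℓ : ℕ} [Fact ℓ.Prime] (hqℓ : q ≠ ℓ)
    (ψ : (ZMod ℓ)ˣ →* Multiplicative (ZMod p)) {b : ℚ} (hb : b ≠ 0) {β : Qb}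
    (hβ : β ^ p = algebraMap ℚ Qb b) {κ : GQ → ZMod p} (hκ : IsKummerQ p β κ) :
    lamQ q p (resQ q p (cupQ p (chiAdd p ℓ ψ) κ)) =
      (padicValRat q b : ZMod p) * Core.psi0 ℓ ψ ((q : ℕ) : ZMod ℓ) := by
  rw [lamQ_eq_of_sub_mem q p (resQ_cupQ_sub_mem q p hqℓ ψ hb hβ hκ), map_smul, lamQ_normClass,
    smul_eq_mul, mul_one]

/-- `lam_q` kills the coboundaries of level-constant `1`-cochains. -/
theorem lamQ_d₁₂ {x : Gq q → muLoc q p} (hx : IsLevelConstant₁ (localGaloisToGlobal q) x) :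
    lamQ q p ((d₁₂ (muLoc q p)).hom x) = 0 :=
  lamQ_eq_zero_of_mem q p ((mem_levelCoboundaries₂_iff _ _ _).2 ⟨x, hx, rfl⟩)

end Global

/-! ### The family indexed by `Nat.Primes` (Prelude shape) -/

/-- The normalised local functionals in the Prelude's indexing: `lamP p q` is a linear functional
on the `μ_p`-valued `2`-cochains of `primeLocalGaloisGroup q`. -/
noncomputable def lamP (q : Nat.Primes) :
    (primeLocalGaloisGroup q × primeLocalGaloisGroup q →
      Rep.res (primeLocalToGlobal q) (ofChar (k := ZMod p) (cycloChar p))) →ₗ[ZMod p] ZMod p :=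
  letI : Fact (q : ℕ).Prime := ⟨q.2⟩
  lamQ (q : ℕ) p

theorem lamP_eq (q : Nat.Primes) :
    lamP p q = @lamQ (q : ℕ) ⟨q.2⟩ p _ := rfl

/-- `lamP` kills the coboundaries of level-constant `1`-cochains. -/
theorem lamP_d₁₂ (q : Nat.Primes)
    {x : primeLocalGaloisGroup q → Rep.res (primeLocalToGlobal q) (ofChar (k := ZMod p) (cycloChar p))}
    (hx : IsLevelConstant₁ (primeLocalToGlobal q) x) :
    lamP p q ((d₁₂ (Rep.res (primeLocalToGlobal q) (ofChar (k := ZMod p) (cycloChar p)))).hom x)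
      = 0 :=
  letI : Fact (q : ℕ).Prime := ⟨q.2⟩
  lamQ_d₁₂ (q : ℕ) p hx

end Fermat.Agent.CFT.Rec.Local
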