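/-
PROGRAM CFT, reciprocity over `ℚ` (REC-FINAL): the reciprocity family on cochains.

The family `inv p q = Local.lamP p q` of normalised local functionals (all primes `q`) on the
`μ_p`-valued local `2`-cochains

* kills the coboundaries of level-constant local `1`-cochains (`inv_d₁₂`),
* is non-zero on level `2`-cocycles (`exists_inv_ne_zero`), and
* satisfies reciprocity `∑_{q ∈ T} inv q (res_q z) = 0` for every level-`T` global `2`-cocycle
  `z`, `p ∈ T`, `p` odd (`inv_reciprocity`), GIVEN the global input `GlobHyp p`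
  (Hasse principle: a global class which is locally trivial in the cyclic field cut out by the
  auxiliary character `χ = ψ ∘ cycMod ℓ` is a symbol `χ ∪ κ_b`).

Proof of reciprocity: choose the auxiliary `(ℓ, ψ)` with `ℓ ∉ T`, `ψ(q) ≠ 0` on `T`
(`AuxChar.exists_aux_char`); `GlobHyp` gives `z = χ ∪ κ_b + d e`; for `q ≠ ℓ` the unramified
symbol formula (`Local.lamQ_resQ_cupQ`) gives `inv q (res_q z) = v_q(b) ψ(q)`; at `ℓ ∉ T` the
class `res_ℓ z` is trivial, so `b` is a local norm from `E_ℓ` (`LocalCrit`), hence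
`∑_{q ≠ ℓ} v_q(b) ψ(q) = 0` by the tame norm theorem (`TameNorm`).
-/
import Fermat.Agent.S55.Trace.RecAdapt
import Fermat.Agent.CFT.Rec.Local
import Fermat.Agent.CFT.Rec.TameCrit
import Fermat.Agent.CFT.Rec.AuxChar

set_option autoImplicit false

open CategoryTheory groupCohomology ExtCitation

namespace Fermat.Agent.CFT.Rec.Inst

open Fermat.Agent.S55 Fermat.Agent.S55.Abs Fermat.Agent.S55.Trace.LamS Fermat.Agent.CFT.Rec

variable (p : ℕ) [Fact p.Prime]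

/-- `z = χ ∪ κ_b + d e` on cochains, for the character `χ = ψ ∘ cycMod ℓ`, some `b ∈ ℚˣ` with
Kummer cocycle `κ`, and a level-constant `1`-cochain `e`. -/
def IsSymbol (ℓ : ℕ) [Fact ℓ.Prime] (ψ : (ZMod ℓ)ˣ →* Multiplicative (ZMod p))
    (z : GQ × GQ → mu p) : Prop :=
  ∃ (b : ℚ) (β : AlgebraicClosure ℚ) (κ : GQ → ZMod p) (e : GQ → mu p),
    b ≠ 0 ∧ β ^ p = algebraMap ℚ (AlgebraicClosure ℚ) b ∧ Local.IsKummerQ p β κ ∧
    IsLevelConstant₁ (MonoidHom.id GQ) e ∧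
    z = Local.cupQ p (Local.chiAdd p ℓ ψ) κ + (d₁₂ (mu p)).hom e

/-- **hGLOB** (cochain form): a level-constant global `μ_p`-valued `2`-cocycle which at every
prime `q` is either a local level-coboundary, or sits at a prime `q ≠ ℓ` with `ψ(q) ≠ 0` (`q` is
inert in the field cut out by `χ = ψ ∘ cycMod ℓ`), is a symbol `χ ∪ κ_b` up to a level-constant
coboundary. -/
def GlobHyp : Prop :=
  ∀ (ℓ : ℕ) [Fact ℓ.Prime] (ψ : (ZMod ℓ)ˣ →* Multiplicative (ZMod p)), Function.Surjective ψ →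
    ℓ ≠ p → ∀ (T : Finset Nat.Primes), pPrime p ∈ T → ∀ z ∈ lev2 p T, (d₂₃ (mu p)).hom z = 0 →
    (∀ q : Nat.Primes,
      Base.EvalCup.res₂ (primeLocalToGlobal q) (mu p) z ∈
          B2 (localLevel (primeLocalToGlobal q)) (muLoc p q) ∨
        ((q : ℕ) ≠ ℓ ∧ Core.psi0 ℓ ψ ((q : ℕ) : ZMod ℓ) ≠ 0)) →
    IsSymbol p ℓ ψ z

/-- The reciprocity family on cochains: the normalised local functionals of `Rec/Local`. -/
noncomputable def inv (q : Nat.Primes) :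
    (primeLocalGaloisGroup q × primeLocalGaloisGroup q → muLoc p q) →ₗ[ZMod p] ZMod p :=
  Local.lamP p q

/-- `inv` kills the coboundaries of level-constant local `1`-cochains. -/
theorem inv_d₁₂ (q : Nat.Primes) (f : primeLocalGaloisGroup q → muLoc p q)
    (hf : f ∈ C1 (localLevel (primeLocalToGlobal q)) (muLoc p q)) :
    inv p q ((d₁₂ (muLoc p q)).hom f) = 0 :=
  Local.lamP_d₁₂ p q ((isLevelConstant₁_iff (primeLocalToGlobal q) f).mpr hf)

/-- `inv q` is non-zero on level `2`-cocycles: it takes the value `1` on the normalising class. -/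
theorem exists_inv_eq_one (q : Nat.Primes) :
    ∃ z ∈ Z2 (localLevel (primeLocalToGlobal q)) (muLoc p q), inv p q z = 1 := by
  have : Fact (q : ℕ).Prime := ⟨q.2⟩
  have h := Local.normClass_mem_levelCocycles₂ (q : ℕ) p
  refine ⟨Local.normClass (q : ℕ) p, ⟨?_, h.1⟩, Local.lamQ_normClass (q : ℕ) p⟩
  exact (isLevelConstant₂_iff (primeLocalToGlobal q) _).mp h.2

theorem exists_inv_ne_zero (q : Nat.Primes) :
    ∃ z ∈ Z2 (localLevel (primeLocalToGlobal q)) (muLoc p q), inv p q z ≠ 0 := by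
  obtain ⟨z, hz, h1⟩ := exists_inv_eq_one p q
  have : Nontrivial (ZMod p) := ZMod.nontrivial_iff.mpr (Fact.out : p.Prime).ne_one
  exact ⟨z, hz, by rw [h1]; exact one_ne_zero⟩

/-! ### The tame step at the auxiliary prime -/

/-- **hTAME** (Prelude cochain form): if the restriction to the local group at `ℓ` of the symbol
`χ ∪ κ_b`, `χ = ψ ∘ cycMod ℓ`, is a level-constant coboundary, then
`∑_{q ≠ ℓ} v_q(b) ψ(q) = 0`. -/
theorem psi_eq_zero_of_resQ_cupQ_mem (hp2 : p ≠ 2) (ℓ : ℕ) [Fact ℓ.Prime]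
    (ψ : (ZMod ℓ)ˣ →* Multiplicative (ZMod p)) (hψ : Function.Surjective ψ) {b : ℚ} (hb : b ≠ 0)
    {β : AlgebraicClosure ℚ} (hβ : β ^ p = algebraMap ℚ (AlgebraicClosure ℚ) b)
    {κ : GQ → ZMod p} (hκ : Local.IsKummerQ p β κ)
    (h : Local.resQ ℓ p (Local.cupQ p (Local.chiAdd p ℓ ψ) κ) ∈
      levelCoboundaries₂ (localGaloisToGlobal ℓ) (LocalBr.muLoc ℓ p)) :
    Core.Psi ℓ ψ b = 0 := by
  have hp : p.Prime := Fact.out
  have hβ0 : β ≠ 0 := by
    rintro rfl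
    rw [zero_pow hp.ne_zero] at hβ
    exact hb ((map_eq_zero _).1 hβ.symm)
  have hfd := TameNorm.finiteDimensional_localField ℓ ψ
  have hgal := TameCrit.isGalois_localField ℓ ψ
  obtain ⟨s, hs⟩ := TameCrit.exists_chiLocAdd_eq_one ℓ ψ hψ
  have key := (LocalCrit.cupLoc_mem_levelCoboundaries₂_iff_norm (TameNorm.localField ℓ ψ)
    (TameCrit.chiLocAdd_mul ℓ ψ) (TameCrit.chiLocAdd_eq_zero_iff ℓ ψ) hs (b : ℚ_[ℓ])
    (β := Units.mk0 (padicEmbedding ℓ β)
      ((map_ne_zero_iff _ (padicEmbedding ℓ).toRingHom.injective).2 hβ0))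
    (by rw [Units.val_mk0]; exact Local.padicEmbedding_pow_eq ℓ hβ)
    (hκ.isKummer ℓ hβ0)).mp h
  exact TameNorm.Psi_eq_zero_of_mem_range_norm ℓ ψ hψ hp2 hb key

/-! ### Reciprocity -/

/-- The restriction of a level-constant global `1`-cochain is a level local `1`-cochain. -/
theorem res₁_mem_C1 (q : Nat.Primes) {e : GQ → mu p} (he : IsLevelConstant₁ (MonoidHom.id GQ) e) :
    Base.EvalCup.res₁ (primeLocalToGlobal q) (mu p) e ∈
      C1 (localLevel (primeLocalToGlobal q)) (muLoc p q) := by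
  obtain ⟨F, hF, h⟩ := he
  refine ⟨_, ⟨F, hF, rfl⟩, fun g s hs => ?_⟩
  show e (primeLocalToGlobal q (g * s)) = e (primeLocalToGlobal q g)
  rw [map_mul]
  exact h _ _ hs

/-- The unramified symbol formula for a symbol `z = χ ∪ κ_b + d e`, at `q ≠ ℓ`. -/
theorem inv_res_symbol (ℓ : ℕ) [Fact ℓ.Prime] (ψ : (ZMod ℓ)ˣ →* Multiplicative (ZMod p))
    {b : ℚ} (hb : b ≠ 0) {β : AlgebraicClosure ℚ}
    (hβ : β ^ p = algebraMap ℚ (AlgebraicClosure ℚ) b) {κ : GQ → ZMod p}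
    (hκ : Local.IsKummerQ p β κ) {e : GQ → mu p} (he : IsLevelConstant₁ (MonoidHom.id GQ) e)
    (q : Nat.Primes) (hq : (q : ℕ) ≠ ℓ) :
    inv p q (Base.EvalCup.res₂ (primeLocalToGlobal q) (mu p)
        (Local.cupQ p (Local.chiAdd p ℓ ψ) κ + (d₁₂ (mu p)).hom e)) =
      (padicValRat (q : ℕ) b : ZMod p) * Core.psi0 ℓ ψ ((q : ℕ) : ZMod ℓ) := by
  have : Fact (q : ℕ).Prime := ⟨q.2⟩
  rw [map_add, map_add, ← Base.EvalCup.d₁₂_res, inv_d₁₂ p q _ (res₁_mem_C1 p q he), add_zero]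
  exact Local.lamQ_resQ_cupQ (q : ℕ) p hq ψ hb hβ hκ

/-- **hTAME** in the vocabulary of `Trace/LamS`: if the restriction at `ℓ` of a symbol
`χ ∪ κ_b + d e` is a level coboundary, then `∑_{q ≠ ℓ} v_q(b) ψ(q) = 0`. -/
theorem psi_eq_zero_of_res₂_mem (hp2 : p ≠ 2) (ℓ : ℕ) [hℓ : Fact ℓ.Prime]
    (ψ : (ZMod ℓ)ˣ →* Multiplicative (ZMod p)) (hψ : Function.Surjective ψ) {b : ℚ} (hb : b ≠ 0)
    {β : AlgebraicClosure ℚ} (hβ : β ^ p = algebraMap ℚ (AlgebraicClosure ℚ) b)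
    {κ : GQ → ZMod p} (hκ : Local.IsKummerQ p β κ) {e : GQ → mu p}
    (he : IsLevelConstant₁ (MonoidHom.id GQ) e)
    (h : Base.EvalCup.res₂ (primeLocalToGlobal (pPrime ℓ)) (mu p)
        (Local.cupQ p (Local.chiAdd p ℓ ψ) κ + (d₁₂ (mu p)).hom e) ∈
      B2 (localLevel (primeLocalToGlobal (pPrime ℓ))) (muLoc p (pPrime ℓ))) :
    Core.Psi ℓ ψ b = 0 := by
  obtain ⟨x, hx, hxz⟩ := h
  have he' := res₁_mem_C1 p (pPrime ℓ) he
  have h1 : (d₁₂ (muLoc p (pPrime ℓ))).hom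
      (x - Base.EvalCup.res₁ (primeLocalToGlobal (pPrime ℓ)) (mu p) e) =
      Base.EvalCup.res₂ (primeLocalToGlobal (pPrime ℓ)) (mu p)
        (Local.cupQ p (Local.chiAdd p ℓ ψ) κ) := by
    rw [map_sub, hxz, Base.EvalCup.d₁₂_res, map_add, add_sub_cancel_right]
  have h2 : Base.EvalCup.res₂ (primeLocalToGlobal (pPrime ℓ)) (mu p)
      (Local.cupQ p (Local.chiAdd p ℓ ψ) κ) ∈
      levelCoboundaries₂ (primeLocalToGlobal (pPrime ℓ)) (muLoc p (pPrime ℓ)) :=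
    (mem_levelCoboundaries₂_iff _ _ _).mpr
      ⟨_, (isLevelConstant₁_iff (primeLocalToGlobal (pPrime ℓ)) _).mpr
        ((C1 (localLevel (primeLocalToGlobal (pPrime ℓ))) (muLoc p (pPrime ℓ))).sub_mem hx he'),
        h1⟩
  exact psi_eq_zero_of_resQ_cupQ_mem p hp2 ℓ ψ hψ hb hβ hκ h2

/-- **Reciprocity** for the family `inv`: for `p` odd, `p ∈ T` and a global `2`-cocycle `z` of
level `T`, the sum of the local invariants of `z` over `T` vanishes (given `GlobHyp p`). -/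
theorem inv_reciprocity (hp2 : p ≠ 2) (hG : GlobHyp p) (T : Finset Nat.Primes)
    (hpT : pPrime p ∈ T) (z : GQ × GQ → mu p) (hz : z ∈ lev2 p T)
    (hdz : (d₂₃ (mu p)).hom z = 0) :
    ∑ q ∈ T, inv p q (Base.EvalCup.res₂ (primeLocalToGlobal q) (mu p) z) = 0 := by
  classical
  obtain ⟨ℓ, hℓ, ψ, hψ, hℓp, -, hℓT, hψT⟩ := AuxChar.exists_aux_char p T
  -- outside `T` the restriction of `z` is a level coboundary
  have hB : ∀ q : Nat.Primes, q ∉ T → Base.EvalCup.res₂ (primeLocalToGlobal q) (mu p) z ∈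
      B2 (localLevel (primeLocalToGlobal q)) (muLoc p q) := by
    intro q hq
    have hd : (d₂₃ (muLoc p q)).hom (Base.EvalCup.res₂ (primeLocalToGlobal q) (mu p) z) = 0 := by
      rw [Base.EvalCup.d₂₃_res, hdz, map_zero]
    obtain ⟨x, hx, hxz⟩ := hUR_mu p T hpT q hq _ (res₂_mem_ur2 p hq hz) hd
    exact ⟨x, hx, hxz⟩
  have hloc : ∀ q : Nat.Primes,
      Base.EvalCup.res₂ (primeLocalToGlobal q) (mu p) z ∈
          B2 (localLevel (primeLocalToGlobal q)) (muLoc p q) ∨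
        ((q : ℕ) ≠ ℓ ∧ Core.psi0 ℓ ψ ((q : ℕ) : ZMod ℓ) ≠ 0) := by
    intro q
    by_cases hq : q ∈ T
    · exact Or.inr ⟨hℓT q hq, hψT q hq⟩
    · exact Or.inl (hB q hq)
  obtain ⟨b, β, κ, e, hb, hβ, hκ, he, hzeq⟩ := hG ℓ ψ hψ hℓp T hpT z hz hdz hloc
  -- the invariants away from `ℓ`
  have hformula : ∀ q : Nat.Primes, (q : ℕ) ≠ ℓ →
      inv p q (Base.EvalCup.res₂ (primeLocalToGlobal q) (mu p) z) =
        (padicValRat (q : ℕ) b : ZMod p) * Core.psi0 ℓ ψ ((q : ℕ) : ZMod ℓ) := by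
    intro q hq
    rw [hzeq]
    exact inv_res_symbol p ℓ ψ hb hβ hκ he q hq
  -- the tame step at `ℓ`
  have hPsi : Core.Psi ℓ ψ b = 0 := by
    have hℓ'T : pPrime ℓ ∉ T := fun h => hℓT _ h rfl
    have hmem := hB (pPrime ℓ) hℓ'T
    rw [hzeq] at hmem
    exact psi_eq_zero_of_res₂_mem p hp2 ℓ ψ hψ hb hβ hκ he hmem
  -- conclusion
  have hsupp : ∀ q : Nat.Primes, q ∉ T →
      (if (q : ℕ) = ℓ then (0 : ZMod p)
        else (padicValRat (q : ℕ) b : ZMod p) * Core.psi0 ℓ ψ ((q : ℕ) : ZMod ℓ)) = 0 := by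
    intro q hqT
    split_ifs with h
    · rfl
    · rw [← hformula q h]
      exact inv_res_eq_zero_of_notMem p (inv p) (inv_d₁₂ p) hpT hz hdz hqT
  have hsum : ∑ q ∈ T, inv p q (Base.EvalCup.res₂ (primeLocalToGlobal q) (mu p) z) =
      ∑ᶠ q : Nat.Primes, (if (q : ℕ) = ℓ then (0 : ZMod p)
        else (padicValRat (q : ℕ) b : ZMod p) * Core.psi0 ℓ ψ ((q : ℕ) : ZMod ℓ)) := by
    rw [finsum_eq_sum_of_support_subset (s := T) _
      (Function.support_subset_iff'.mpr fun q hq => hsupp q (fun h => hq (Finset.mem_coe.2 h)))]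
    refine Finset.sum_congr rfl fun q hq => ?_
    rw [if_neg (hℓT q hq), hformula q (hℓT q hq)]
  rw [hsum]
  exact hPsi

end Fermat.Agent.CFT.Rec.Inst
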