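/-
PROGRAM CFT, reciprocity over `ℚ` (REC-FINAL): the global input `Inst.GlobHyp p` from the
symbol theorem in the Prelude vocabulary of `Rec/Defs` (the conclusion shape of
`Rec/Glob.exists_symbol`).

* `SymbolHyp p` : for every auxiliary character `χ = ψ ∘ cycMod ℓ` (`ψ` onto), every
  level-constant global `μ_p`-valued `2`-cocycle `f` which at every prime `q` is either a local
  level-coboundary or sits at a prime `q ≠ ℓ` with `ψ(q) ≠ 0`, is `χ ∪ κ_b` up to a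
  level-constant coboundary (`Rec.resAt`, `Rec.cupG`, `Rec.IsKummerCocycle`, Prelude
  `levelCocycles₂ / levelCoboundaries₂`).
* `globHyp_of_symbolHyp : SymbolHyp p → GlobHyp p` (pure dictionary).
-/
import Fermat.Agent.CFT.Rec.Inst
import Fermat.Agent.CFT.Rec.Defs

set_option autoImplicit false

open CategoryTheory groupCohomology ExtCitation

namespace Fermat.Agent.CFT.Rec.Inst

open Fermat.Agent.S55 Fermat.Agent.S55.Abs

variable (p : ℕ) [Fact p.Prime]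

/-- The symbol theorem in the vocabulary of `Rec/Defs` (conclusion shape of
`Rec/Glob.exists_symbol`). -/
def SymbolHyp : Prop :=
  ∀ (ℓ : ℕ) [Fact ℓ.Prime] (ψ : (ZMod ℓ)ˣ →* Multiplicative (ZMod p)), Function.Surjective ψ →
    ∀ f ∈ levelCocycles₂ (MonoidHom.id GQ) (Rec.mu p),
      (∀ q : Nat.Primes,
        Rec.resAt p q f ∈ levelCoboundaries₂ (primeLocalToGlobal q) (Rec.muAt p q) ∨
          (ℓ ≠ (q : ℕ) ∧ Core.psi0 ℓ ψ ((q : ℕ) : ZMod ℓ) ≠ 0)) →
      ∃ b : ℚ, b ≠ 0 ∧ ∃ c : GQ → Rec.mu p, Rec.IsKummerCocycle p b c ∧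
        f - Rec.cupG p (Rec.chiAdd p ℓ ψ) c ∈ levelCoboundaries₂ (MonoidHom.id GQ) (Rec.mu p)

/-- **hGLOB from the symbol theorem** (dictionary between `Rec/Defs` and `Rec/Inst`). -/
theorem globHyp_of_symbolHyp (h : SymbolHyp p) : GlobHyp p := by
  intro ℓ _ ψ hψ _ T _ z hz hdz hloc
  have hzlev : z ∈ levelCocycles₂ (MonoidHom.id GQ) (Rec.mu p) :=
    ⟨hdz, ((Trace.LamS.mem_lev2_iff p T z).1 hz).isLevelConstant₂⟩
  obtain ⟨b, hb, c, ⟨β, hβ, hc⟩, hdiff⟩ := h ℓ ψ hψ z hzlev (fun q => by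
    rcases hloc q with hq | ⟨hq1, hq2⟩
    · left
      obtain ⟨x, hx, hxz⟩ := hq
      exact (mem_levelCoboundaries₂_iff _ _ _).2
        ⟨x, (isLevelConstant₁_iff (primeLocalToGlobal q) x).mpr hx, hxz⟩
    · exact Or.inr ⟨fun h => hq1 h.symm, hq2⟩)
  obtain ⟨e, he, hd⟩ := (mem_levelCoboundaries₂_iff _ _ _).1 hdiff
  refine ⟨b, β, c, e, hb, hβ, hc, he, ?_⟩
  have h1 : z = Rec.cupG p (Rec.chiAdd p ℓ ψ) c + (d₁₂ (Rec.mu p)).hom e := by
    rw [hd]; abel
  exact h1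

end Fermat.Agent.CFT.Rec.Inst
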