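/-
PROGRAM CFT, reciprocity over `ℚ` (REC-FINAL): from cochains to classes.

`Rec/Inst` provides the reciprocity family on cochains, `Inst.inv p q = Local.lamP p q`.
Here it is pushed down to the level cohomology of the local groups:

* `invH p q` : the induced functional on `Abs.H2 (localLevel (primeLocalToGlobal q)) (muLoc p q)`,
  with `invH_mk` (value on the class of a level 2-cocycle) and `invH_ne_zero`;
* `invH_rec_classes` : reciprocity in the shape of the hypothesis `hrec` of
  `Trace/RecAdapt.exists_lamS_of_classes`;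
* `invH_rec_arith`   : reciprocity in the shape of the hypothesis `hREC` of
  `Base/EvalUR.exists_arithInput_of_rec` (= the field `recip` of `Wire.IsRec`);
* `exists_rec_family_of_glob` : the bundle, given `p ≠ 2` and the global input `Inst.GlobHyp p`.
-/
import Fermat.Agent.CFT.Rec.Inst
import Fermat.Agent.S55.Base.EvalUR

set_option autoImplicit false

open CategoryTheory groupCohomology ExtCitation

namespace Fermat.Agent.CFT.Rec.InstAux

open Fermat.Agent.S55 Fermat.Agent.S55.Abs Fermat.Agent.S55.Trace.LamS Fermat.Agent.CFT.Rec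

variable (p : ℕ) [Fact p.Prime]

/-- The reciprocity family on classes: the functional induced by `Inst.inv p q` on the level
cohomology `H²(G_q, μ_p)` of the local group at `q`. -/
noncomputable def invH (q : Nat.Primes) :
    H2 (localLevel (primeLocalToGlobal q)) (muLoc p q) →ₗ[ZMod p] ZMod p :=
  Submodule.liftQ _
    ((Inst.inv p q) ∘ₗ (Z2 (localLevel (primeLocalToGlobal q)) (muLoc p q)).subtype) (by
      rintro z ⟨f, hf, hfz⟩
      rw [LinearMap.mem_ker, LinearMap.comp_apply]
      have h : (Z2 (localLevel (primeLocalToGlobal q)) (muLoc p q)).subtype z =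
          (d₁₂ (muLoc p q)).hom f := hfz.symm
      rw [h]
      exact Inst.inv_d₁₂ p q f hf)

/-- The value of `invH` on the class of a level 2-cocycle. -/
theorem invH_mk (q : Nat.Primes)
    (z : primeLocalGaloisGroup q × primeLocalGaloisGroup q → muLoc p q)
    (hz : z ∈ Z2 (localLevel (primeLocalToGlobal q)) (muLoc p q)) :
    invH p q (Submodule.Quotient.mk ⟨z, hz⟩) = Inst.inv p q z := rfl

/-- Every `invH p q` is non-zero (value `1` on the normalising class). -/
theorem invH_ne_zero (q : Nat.Primes) : invH p q ≠ 0 := by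
  obtain ⟨z, hz, hne⟩ := Inst.exists_inv_ne_zero p q
  intro h
  apply hne
  rw [← invH_mk p q z hz, h, LinearMap.zero_apply]

/-- **Reciprocity on classes**, in the shape of the hypothesis `hrec` of
`Trace/RecAdapt.exists_lamS_of_classes`. -/
theorem invH_rec_classes (hp2 : p ≠ 2) (hG : Inst.GlobHyp p) (T : Finset Nat.Primes)
    (hpT : pPrime p ∈ T) (z : GQ × GQ → mu p) (hz : z ∈ lev2 p T)
    (hdz : (d₂₃ (mu p)).hom z = 0)
    (hloc : ∀ q : Nat.Primes, Base.EvalCup.res₂ (primeLocalToGlobal q) (mu p) z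
      ∈ Z2 (localLevel (primeLocalToGlobal q)) (muLoc p q)) :
    ∑ q ∈ T, invH p q (Submodule.Quotient.mk
      ⟨Base.EvalCup.res₂ (primeLocalToGlobal q) (mu p) z, hloc q⟩) = 0 := by
  rw [← Inst.inv_reciprocity p hp2 hG T hpT z hz hdz]
  exact Finset.sum_congr rfl fun q _ => invH_mk p q _ (hloc q)

/-- **Reciprocity on classes**, in the shape of the hypothesis `hREC` of
`Base/EvalUR.exists_arithInput_of_rec` (the field `recip` of `Wire.IsRec`). -/
theorem invH_rec_arith (hp2 : p ≠ 2) (hG : Inst.GlobHyp p) (S : Finset Nat.Primes)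
    (hpS : pPrime p ∈ S) (T : Finset Nat.Primes) (hST : S ⊆ T)
    (z : GQ × GQ → muRep (cycloChar p)) (hz : z ∈ Z2 (globalLevel T) (muRep (cycloChar p))) :
    ∑ w ∈ T, invH p w (Submodule.Quotient.mk ⟨_, Base.EvalQ.res₂_mem_Z2 w hz⟩) = 0 := by
  have hdz : (d₂₃ (mu p)).hom z = 0 := hz.2
  rw [← Inst.inv_reciprocity p hp2 hG T (hST hpS) z hz.1 hdz]
  exact Finset.sum_congr rfl fun q _ => invH_mk p q _ (Base.EvalQ.res₂_mem_Z2 q hz)

/-- **REC-FINAL modulo `hGLOB`**: the class-level reciprocity family, in both consumer shapes,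
with all functionals non-zero. -/
theorem exists_rec_family_of_glob (hp2 : p ≠ 2) (hG : Inst.GlobHyp p) :
    ∃ i : ∀ q : Nat.Primes,
        H2 (localLevel (primeLocalToGlobal q)) (muLoc p q) →ₗ[ZMod p] ZMod p,
      (∀ q, i q ≠ 0) ∧
      (∀ (q : Nat.Primes) (z : primeLocalGaloisGroup q × primeLocalGaloisGroup q → muLoc p q)
        (hz : z ∈ Z2 (localLevel (primeLocalToGlobal q)) (muLoc p q)),
        i q (Submodule.Quotient.mk ⟨z, hz⟩) = Inst.inv p q z) ∧
      (∀ (T : Finset Nat.Primes), pPrime p ∈ T → ∀ (z : GQ × GQ → mu p) (_ : z ∈ lev2 p T)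
        (_ : (d₂₃ (mu p)).hom z = 0)
        (hloc : ∀ q : Nat.Primes, Base.EvalCup.res₂ (primeLocalToGlobal q) (mu p) z
          ∈ Z2 (localLevel (primeLocalToGlobal q)) (muLoc p q)),
        ∑ q ∈ T, i q (Submodule.Quotient.mk
          ⟨Base.EvalCup.res₂ (primeLocalToGlobal q) (mu p) z, hloc q⟩) = 0) ∧
      (∀ S : Finset Nat.Primes, pPrime p ∈ S → ∀ T : Finset Nat.Primes, S ⊆ T →
        ∀ (z : GQ × GQ → muRep (cycloChar p))
          (hz : z ∈ Z2 (globalLevel T) (muRep (cycloChar p))),
        ∑ w ∈ T, i w (Submodule.Quotient.mk ⟨_, Base.EvalQ.res₂_mem_Z2 w hz⟩) = 0) :=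
  ⟨invH p, invH_ne_zero p, invH_mk p, invH_rec_classes p hp2 hG, invH_rec_arith p hp2 hG⟩

end Fermat.Agent.CFT.Rec.InstAux
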