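/-
PROGRAM CFT, reciprocity over `ℚ` (REC-FINAL): the deliverable of the integration chain.

`Wire.IsRec p S (InstAux.invH p)` — the REC-FINAL brick of `S55/Wire/Layer2` — from `p ≠ 2` and
the global input `Inst.GlobHyp p`; also the direct applications of the two consumer theorems
(`Trace/RecAdapt.exists_lamS_of_classes`, `Base/EvalUR.exists_arithInput_of_rec`).
-/
import Fermat.Agent.CFT.Rec.InstAux
import Fermat.Agent.S55.Wire.Layer2

set_option autoImplicit false

open CategoryTheory groupCohomology ExtCitation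

namespace Fermat.Agent.CFT.Rec.InstWire

open Fermat.Agent.S55 Fermat.Agent.S55.Abs Fermat.Agent.S55.Trace.LamS Fermat.Agent.CFT.Rec

variable (p : ℕ) [Fact p.Prime]

/-- **REC-FINAL brick of the integration chain**, given `hGLOB`. -/
theorem isRec_of_glob (hp2 : p ≠ 2) (hG : Inst.GlobHyp p) (S : Finset Nat.Primes)
    (hpS : pPrime p ∈ S) : Wire.IsRec p S (InstAux.invH p) :=
  ⟨InstAux.invH_rec_arith p hp2 hG S hpS, InstAux.invH_ne_zero p⟩

theorem exists_isRec_of_glob (hp2 : p ≠ 2) (hG : Inst.GlobHyp p) (S : Finset Nat.Primes)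
    (hpS : pPrime p ∈ S) : ∃ lamH : Wire.LamH p, Wire.IsRec p S lamH :=
  ⟨InstAux.invH p, isRec_of_glob p hp2 hG S hpS⟩

/-- The arithmetic input of EVAL extending `invH`. -/
theorem exists_arithInput_of_glob (hp2 : p ≠ 2) (hG : Inst.GlobHyp p) (S : Finset Nat.Primes)
    (hpS : pPrime p ∈ S) :
    ∃ I : Base.EvalQ.ArithInput p S, Wire.Extends I (InstAux.invH p) :=
  Base.EvalQ.exists_arithInput_of_rec hpS (InstAux.invH p)
    (InstAux.invH_rec_arith p hp2 hG S hpS)

end Fermat.Agent.CFT.Rec.InstWire
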