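/-
PROGRAM CFT, reciprocity over `ℚ` (REC-FINAL), hypothesis-free for odd `p`.

* `symbolHyp` : the symbol theorem (REC-GLOB) in the vocabulary of `Rec/Defs`: a level-constant
  global `μ_p`-valued `2`-cocycle which at every prime `q` is a local level-coboundary or sits
  at a prime `q ≠ ℓ` with `ψ(q) ≠ 0` is `χ_{ℓ,ψ} ∪ κ_b` up to a level-constant coboundary.
  Assembly of the rows REC-KER (`KerChi`), REC-INFRES (`InfRes`), REC-CONJ (`Conj`), the Hasse
  principle `hasseRes_of_odd` (HP-K) and LOC (D2) at the inert primes (`InertCob`).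
* `globHyp` : `Inst.GlobHyp p`.
* `isRec` : **the REC-FINAL brick of `S55/Wire/Layer2`**: `Wire.IsRec p S (InstAux.invH p)`.
* `exists_isRec`, `exists_arithInput` : the two consumer forms.
-/
import Fermat.Agent.CFT.Rec.Glob
import Fermat.Agent.CFT.Rec.HasseResOdd
import Fermat.Agent.CFT.Rec.Inputs
import Fermat.Agent.CFT.Rec.InstGlob
import Fermat.Agent.CFT.Rec.InstWire

set_option autoImplicit false

open CategoryTheory groupCohomology ExtCitation

namespace Fermat.Agent.CFT.Rec.Final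

open Fermat.Agent.S55 Fermat.Agent.S55.Abs Fermat.Agent.CFT.Rec

variable (p : ℕ) [Fact p.Prime]

/-- **The symbol theorem** (REC-GLOB), hypothesis-free for odd `p`. -/
theorem symbolHyp (hp2 : p ≠ 2) : Inst.SymbolHyp p := by
  intro ℓ _ ψ hψ f hf hloc
  obtain ⟨E, hE, hker⟩ := exists_kerChi_eq_fixingSubgroup p ℓ ψ
  refine exists_symbol_of_isTrivOn_ker p ℓ ψ hψ f hf ?_
  rw [hker]
  refine hasseRes_of_odd p hp2 E hE f hf fun q A hq hA => ?_
  rw [← hker]
  refine isTrivOn_decomp_inf_of_place p ⟨q, hq⟩ hf (kerChi p ℓ ψ) ?_ A hA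
  rcases hloc ⟨q, hq⟩ with h | ⟨h1, h2⟩
  · exact ((resAt_mem_levelCoboundaries₂_iff p ⟨q, hq⟩ f).1 h).mono inf_le_left
  · have : Fact q.Prime := ⟨hq⟩
    have hA' := Fermat.Agent.S55.Arith.Unram.liesOverPrime_primeLocalPlace ⟨q, hq⟩
    obtain ⟨t, ht, hd⟩ := InertCob.exists_primitive_of_inert p ψ (Ne.symm h1) h2 hA' hf
    have hU : decomp ⟨q, hq⟩ ⊓ kerChi p ℓ ψ =
        (primeLocalPlace ⟨q, hq⟩).decompositionSubgroup ℚ ⊓
          (TameCrit.chiField ℓ ψ).fixingSubgroup := by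
      rw [TameCrit.fixingSubgroup_chiField]
      rfl
    rw [hU]
    exact ⟨t, ht, fun g h => hd g h⟩

/-- **hGLOB**, hypothesis-free for odd `p`. -/
theorem globHyp (hp2 : p ≠ 2) : Inst.GlobHyp p :=
  Inst.globHyp_of_symbolHyp p (symbolHyp p hp2)

/-- **REC-FINAL** (the brick of `S55/Wire/Layer2`): for odd `p` and `S ∋ p`, the class-level
local invariants `InstAux.invH p` are all non-zero and satisfy reciprocity at every finite level
`T ⊇ S`. -/
theorem isRec (hp2 : p ≠ 2) (S : Finset Nat.Primes) (hpS : pPrime p ∈ S) :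
    Wire.IsRec p S (InstAux.invH p) :=
  InstWire.isRec_of_glob p hp2 (globHyp p hp2) S hpS

theorem exists_isRec (hp2 : p ≠ 2) (S : Finset Nat.Primes) (hpS : pPrime p ∈ S) :
    ∃ lamH : Wire.LamH p, Wire.IsRec p S lamH :=
  ⟨InstAux.invH p, isRec p hp2 S hpS⟩

/-- The arithmetic input of EVAL extending `invH`. -/
theorem exists_arithInput (hp2 : p ≠ 2) (S : Finset Nat.Primes) (hpS : pPrime p ∈ S) :
    ∃ I : Base.EvalQ.ArithInput p S, Wire.Extends I (InstAux.invH p) :=
  InstWire.exists_arithInput_of_glob p hp2 (globHyp p hp2) S hpS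

end Fermat.Agent.CFT.Rec.Final
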