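import Mathlib

/-!
# Reciprocity over `ℚ`: the formal core (REC-FORMAL)

Abstract form of the proof of `∑_q inv_q (loc_q x) = 0` for `x ∈ H²(G_ℚ, μ_p)`:

* `X` : global classes, `H q` : local classes at the prime `q` (lines), `loc q : X → H q`;
* `C` : auxiliary characters (in the instance: pairs `(ℓ, ψ)`, `ψ : (ℤ/ℓ)ˣ → ℤ/p`), `cond c` the
  only prime where `c` ramifies, `frob c q` the value of `c` at the Frobenius of `q ≠ cond c`;
* `sym c b : X` : the symbol `χ_c ∪ κ_b`, `b ∈ ℚˣ`.

Hypotheses (the rows of the REC package):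
* `hadd`  : the symbol is additive in `b`;
* `hF1`   : `c` unramified at `q`, `b` a `q`-unit ⟹ `loc q (sym c b) = 0` (units are norms);
* `hF3`   : `c` unramified and non-trivial at `q` ⟹ `loc q (sym c q) ≠ 0`;
* `hF4`   : unramified characters at `q` are determined by their value at Frobenius;
* `hAUX`  : auxiliary characters exist (`Lib/AuxPrime` + `Rec/Cyclo`);
* `hGLOB` : Hasse principle ⟹ a class which is locally trivial at every prime where `c` is
            trivial or ramified is a symbol `sym c b`;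
* `hTAME` : if `sym c b` is locally trivial at `cond c` then `∑_{q ≠ cond c} v_q(b) frob c q = 0`
            (`ℓ` is a norm; local norms at a tamely ramified prime are power residues; REC-CORE).

Conclusion: a coherent family of non-zero linear functionals `inv q` on the `H q` (lines, by
LOC-C, but this is not used here), normalised by the unramified symbol formula
`inv q (loc q (sym c b)) = v_q(b) * frob c q`, with `∑_q inv q (loc q x) = 0`.
-/

set_option autoImplicit false

namespace Fermat.Agent.CFT.Rec.Formal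

open Module

/-- The prime `q` as a unit of `ℚ`. -/
def primeUnit (q : Nat.Primes) : ℚˣ := Units.mk0 (q : ℚ) (by exact_mod_cast q.2.ne_zero)

@[simp] lemma coe_primeUnit (q : Nat.Primes) : ((primeUnit q : ℚˣ) : ℚ) = (q : ℚ) := rfl

lemma padicValRat_primeUnit_zpow (q : Nat.Primes) (z : ℤ) :
    padicValRat (q : ℕ) ((primeUnit q ^ z : ℚˣ) : ℚ) = z := by
  have : Fact (q : ℕ).Prime := ⟨q.2⟩
  rw [Units.val_zpow_eq_zpow_val, coe_primeUnit]
  have h1 : padicValRat (q : ℕ) ((q : ℕ) : ℚ) = 1 := by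
    rw [padicValRat.of_nat, padicValNat_self]; rfl
  rcases Int.eq_nat_or_neg z with ⟨n, rfl | rfl⟩
  · rw [zpow_natCast, padicValRat.pow, h1, mul_one]
  · rw [zpow_neg, zpow_natCast, padicValRat.inv, padicValRat.pow, h1, mul_one]

variable {p : ℕ} [Fact p.Prime]
variable {X : Type*} [AddCommGroup X] [Module (ZMod p) X]
variable {H : Nat.Primes → Type*} [∀ q, AddCommGroup (H q)] [∀ q, Module (ZMod p) (H q)]
variable {C : Type*}

/-- **Reciprocity, formal core.** -/
theorem exists_inv (loc : ∀ q, X →ₗ[ZMod p] H q) (cond : C → Nat.Primes)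
    (frob : C → Nat.Primes → ZMod p) (sym : C → ℚˣ → X)
    (hadd : ∀ c b b', sym c (b * b') = sym c b + sym c b')
    (hF1 : ∀ c q, q ≠ cond c → ∀ b : ℚˣ, padicValRat (q : ℕ) (b : ℚ) = 0 → loc q (sym c b) = 0)
    (hF3 : ∀ c q, q ≠ cond c → frob c q ≠ 0 → loc q (sym c (primeUnit q)) ≠ 0)
    (hF4 : ∀ c c' q, q ≠ cond c → q ≠ cond c' → ∀ b,
      frob c q • loc q (sym c' b) = frob c' q • loc q (sym c b))
    (hAUX : ∀ T : Finset Nat.Primes, ∃ c, cond c ∉ T ∧ ∀ q ∈ T, frob c q ≠ 0)
    (hGLOB : ∀ x c, (∀ q, loc q x = 0 ∨ (q ≠ cond c ∧ frob c q ≠ 0)) → ∃ b, x = sym c b)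
    (hTAME : ∀ c b, loc (cond c) (sym c b) = 0 →
      ∑ᶠ q : Nat.Primes,
        (if q = cond c then 0 else (padicValRat (q : ℕ) (b : ℚ) : ZMod p) * frob c q) = 0) :
    ∃ inv : ∀ q, H q →ₗ[ZMod p] ZMod p, (∀ q, inv q ≠ 0) ∧
      (∀ c q, q ≠ cond c → ∀ b : ℚˣ,
        inv q (loc q (sym c b)) = (padicValRat (q : ℕ) (b : ℚ) : ZMod p) * frob c q) ∧
      ∀ x, {q | loc q x ≠ 0}.Finite → ∑ᶠ q, inv q (loc q x) = 0 := by
  classical
  -- the symbol is a homomorphism in `b`
  let F : C → Additive ℚˣ →+ X := fun c =>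
    AddMonoidHom.mk' (fun b => sym c (Additive.toMul b)) (fun b b' => hadd c _ _)
  have hzpow : ∀ c (b : ℚˣ) (z : ℤ), sym c (b ^ z) = z • sym c b := by
    intro c b z
    have h := map_zsmul (F c) z (Additive.ofMul b)
    simpa [F, ← ofMul_zpow] using h
  -- an auxiliary character at every prime
  choose cq hcq1 hcq2 using fun q : Nat.Primes => hAUX {q}
  have hcq1' : ∀ q, q ≠ cond (cq q) := fun q h => hcq1 q (by rw [← h]; exact Finset.mem_singleton_self q)
  have hcq2' : ∀ q, frob (cq q) q ≠ 0 := fun q => hcq2 q q (Finset.mem_singleton_self q)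
  have he : ∀ q, loc q (sym (cq q) (primeUnit q)) ≠ 0 := fun q => hF3 _ q (hcq1' q) (hcq2' q)
  choose f hf using fun q : Nat.Primes => Projective.exists_dual_eq_one (ZMod p) (he q)
  let inv : ∀ q, H q →ₗ[ZMod p] ZMod p := fun q => frob (cq q) q • f q
  have hinv_e : ∀ q, inv q (loc q (sym (cq q) (primeUnit q))) = frob (cq q) q := fun q => by
    simp [inv, hf q]
  -- the unramified symbol formula
  have hformula : ∀ c q, q ≠ cond c → ∀ b : ℚˣ,
      inv q (loc q (sym c b)) = (padicValRat (q : ℕ) (b : ℚ) : ZMod p) * frob c q := by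
    intro c q hq b
    have : Fact (q : ℕ).Prime := ⟨q.2⟩
    set v : ℤ := padicValRat (q : ℕ) (b : ℚ) with hv
    -- value on the uniformiser
    have hπ : inv q (loc q (sym c (primeUnit q))) = frob c q := by
      have h1 := hF4 (cq q) c q (hcq1' q) hq (primeUnit q)
      have h2 := congrArg (inv q) h1
      rw [map_smul, map_smul, hinv_e, smul_eq_mul, smul_eq_mul] at h2
      exact mul_left_cancel₀ (hcq2' q) (by rw [h2, mul_comm])
    -- the unit part
    have hb : b = b * (primeUnit q ^ v)⁻¹ * primeUnit q ^ v := by group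
    have hu : padicValRat (q : ℕ) ((b * (primeUnit q ^ v)⁻¹ : ℚˣ) : ℚ) = 0 := by
      rw [Units.val_mul, padicValRat.mul b.ne_zero (Units.ne_zero _), ← zpow_neg,
        padicValRat_primeUnit_zpow, ← hv]
      ring
    rw [hb, hadd, map_add, map_add, hF1 c q hq _ hu, map_zero, zero_add, hzpow, map_zsmul,
      map_zsmul, hπ, zsmul_eq_mul]
  refine ⟨inv, fun q h => hcq2' q ?_, hformula, fun x hx => ?_⟩
  · rw [← hinv_e q, h, LinearMap.zero_apply]
  · -- reciprocity
    obtain ⟨c, hc1, hc2⟩ := hAUX hx.toFinset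
    have hcond : loc (cond c) x = 0 := by
      by_contra h
      exact hc1 (hx.mem_toFinset.2 h)
    obtain ⟨b, rfl⟩ := hGLOB x c (fun q => by
      by_cases h : loc q x = 0
      · exact Or.inl h
      · refine Or.inr ⟨fun hq => h (hq ▸ hcond), hc2 q (hx.mem_toFinset.2 h)⟩)
    rw [← hTAME c b hcond]
    refine finsum_congr fun q => ?_
    by_cases hq : q = cond c
    · rw [if_pos hq, hq, hcond, map_zero]
    · rw [if_neg hq, hformula c q hq b]

end Fermat.Agent.CFT.Rec.Formal
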