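import Fermat.Agent.CFT.LC.ContH2
import Fermat.Agent.CFT.LocalBr.LayerBrauer
import Fermat.Agent.CFT.LocalBr.ResRuleD2
import Fermat.Agent.S55.Glue.LocalRange
import Fermat.Agent.S55.Glue.PlacesAbove
import Fermat.Agent.S55.Glue.LocalLevel
import Fermat.Agent.S55.Glue.LocalDegreePlaces
import Fermat.Agent.CFT.Global.LCGlobal

/-!
# REC-GLOB, local step: `res_E x` is locally trivial at every place

`GQ = Gal(ℚ̄/ℚ)`, `z : GQ × GQ → N` a level-constant 2-cocycle (`N = μ_p` in the application),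
`E/ℚ` a finite Galois extension (`Fix E` normal in `GQ`).  For a prime `q`:

* **Case A** (`exists_primitive_of_local`): if `z` is a level-constant coboundary on the local
  Galois group at `q`, then on `D(Av) ⊓ Fix E`, for EVERY place `Av` of `ℚ̄` above `q`, `z` is the
  coboundary of a level-constant cochain.
* **Case B** (`exists_primitive_of_inert`): if `p` divides the index of the preimage of `Fix E`
  in the local Galois group at `q` (e.g. `q` is inert in `E`, `[E : ℚ] = p`), the same conclusion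
  holds for `N = μ_p` (LOC-D2: a degree-`p` extension kills `H²(ℚ_q, μ_p)`), given the local
  Brauer theorem `BrauerHyp q`.

Ingredients: descent along `localGaloisToGlobal q` (its range is `D(padicPlace q)`), the
conjugation homotopy for 2-cocycles (`conj_homotopy`), transitivity of `GQ` on the places above
`q`.
-/

set_option autoImplicit false

open CategoryTheory groupCohomology ExtCitation

namespace Fermat.Agent.CFT.Rec.GlobLoc

local notation "Qb" => AlgebraicClosure ℚ
local notation "GQ" => (AlgebraicClosure ℚ ≃ₐ[ℚ] AlgebraicClosure ℚ)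

/-! ### The conjugation homotopy for 2-cocycles -/

section Conj

variable {k : Type} [CommRing k] {G : Type} [Group G] (N : Rep k G)

/-- The homotopy cochain of conjugation by `σ` on 2-cocycles:
`κ_σ(x) = σ • (a(σ⁻¹, x) − a(σ⁻¹ x σ, σ⁻¹))`. -/
def kap (a : G × G → N) (σ : G) (x : G) : N :=
  N.ρ σ (a (σ⁻¹, x) - a (σ⁻¹ * x * σ, σ⁻¹))

theorem conj_homotopy_aux {a : G × G → N} (ha : a ∈ cocycles₂ N) (σ x y : G) :
    N.ρ σ⁻¹ (a (x, y)) = a (σ⁻¹ * x * σ, σ⁻¹ * y * σ) +
      (N.ρ (σ⁻¹ * x * σ) (a (σ⁻¹, y) - a (σ⁻¹ * y * σ, σ⁻¹))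
        - (a (σ⁻¹, x * y) - a (σ⁻¹ * (x * y) * σ, σ⁻¹))
        + (a (σ⁻¹, x) - a (σ⁻¹ * x * σ, σ⁻¹))) := by
  have h := (mem_cocycles₂_iff a).1 ha
  have c1 := h σ⁻¹ x y
  have c2 := h (σ⁻¹ * x * σ) σ⁻¹ y
  have c3 := h (σ⁻¹ * x * σ) (σ⁻¹ * y * σ) σ⁻¹
  have e1 : σ⁻¹ * x * σ * σ⁻¹ = σ⁻¹ * x := by group
  have e2 : σ⁻¹ * y * σ * σ⁻¹ = σ⁻¹ * y := by group
  have e3 : σ⁻¹ * x * σ * (σ⁻¹ * y * σ) = σ⁻¹ * (x * y) * σ := by group
  rw [e1] at c2
  rw [e2, e3] at c3
  rw [map_sub]
  have c1' : N.ρ σ⁻¹ (a (x, y)) = a (σ⁻¹ * x, y) + a (σ⁻¹, x) - a (σ⁻¹, x * y) := by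
    rw [c1]; abel
  have c2' : a (σ⁻¹ * x, y) = N.ρ (σ⁻¹ * x * σ) (a (σ⁻¹, y)) + a (σ⁻¹ * x * σ, σ⁻¹ * y)
      - a (σ⁻¹ * x * σ, σ⁻¹) := by
    rw [← c2]; abel
  have c3' : a (σ⁻¹ * x * σ, σ⁻¹ * y) = a (σ⁻¹ * (x * y) * σ, σ⁻¹)
      + a (σ⁻¹ * x * σ, σ⁻¹ * y * σ) - N.ρ (σ⁻¹ * x * σ) (a (σ⁻¹ * y * σ, σ⁻¹)) := by
    rw [c3]; abel
  rw [c1', c2', c3']
  abel

/-- **Conjugation homotopy**: a 2-cocycle and its conjugate by `σ` differ by the coboundary of
the explicit cochain `kap a σ`. -/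
theorem conj_homotopy {a : G × G → N} (ha : a ∈ cocycles₂ N) (σ x y : G) :
    a (x, y) = N.ρ σ (a (σ⁻¹ * x * σ, σ⁻¹ * y * σ)) +
      (N.ρ x (kap N a σ y) - kap N a σ (x * y) + kap N a σ x) := by
  have h := conj_homotopy_aux N ha σ x y
  have h2 := congrArg (N.ρ σ) h
  have e0 : N.ρ σ (N.ρ σ⁻¹ (a (x, y))) = a (x, y) := by
    rw [← Module.End.mul_apply, ← map_mul, mul_inv_cancel, map_one, Module.End.one_apply]
  rw [e0] at h2
  rw [h2]
  simp only [map_add, map_sub, kap]
  have e1 : ∀ v : N, N.ρ σ (N.ρ (σ⁻¹ * x * σ) v) = N.ρ x (N.ρ σ v) := by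
    intro v
    rw [← Module.End.mul_apply, ← map_mul, ← Module.End.mul_apply, ← map_mul]
    congr 2
    group
  rw [e1, e1]

end Conj

/-! ### Descent along a level map and conjugation -/

section Descend

open Fermat.Agent.S55.Glue.LocalRange in
/-- **Descent + conjugation.** Let `a` be a level-constant 2-cocycle of `GQ`, and suppose that
its pull-back along `r : H → GQ` is the coboundary of a level-constant cochain `f` of `H`.  Then
on every subgroup `D` of `GQ` with `σ⁻¹ D σ ⊆ r(H)`, `a` is the coboundary of a level-constant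
cochain of `D`. -/
theorem exists_primitive_conj {k : Type} [CommRing k] (N : Rep k GQ) {a : GQ × GQ → N}
    (ha : a ∈ cocycles₂ N) (hlev : IsLevelConstant₂ (MonoidHom.id GQ) a)
    {H : Type} [Group H] (r : H →* GQ) (f : H → N) (hf : IsLevelConstant₁ r f)
    (hd : ∀ g h : H, a (r g, r h) = N.ρ (r g) (f h) - f (g * h) + f g)
    (D : Subgroup GQ) (σ : GQ) (hD : ∀ s ∈ D, ∃ g : H, r g = σ⁻¹ * s * σ) :
    ∃ t : ↥D → N, IsLevelConstant₁ D.subtype t ∧
      ∀ s s' : ↥D, a ((s : GQ), (s' : GQ)) = N.ρ (s : GQ) (t s') - t (s * s') + t s := by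
  classical
  choose γ hγ using fun s : ↥D => hD s.1 s.2
  have hmul : ∀ s s' : ↥D, f (γ (s * s')) = f (γ s * γ s') := by
    intro s s'
    apply isLevelConstant₁_eq_of_map_eq r hf
    rw [map_mul, hγ, hγ, hγ, Subgroup.coe_mul]
    group
  refine ⟨fun s => N.ρ σ (f (γ s)) + kap N a σ (s : GQ), ?_, ?_⟩
  · obtain ⟨F₀, hF₀, h₀⟩ := id hf
    obtain ⟨F₁, hF₁, h₁⟩ := hlev
    have := hF₀; have := hF₁
    obtain ⟨F, hF, hFn, hle⟩ := LC.exists_normal_ge (F₀ ⊔ F₁)
    have := hFn
    have hnorm : (F.fixingSubgroup).Normal := LC.lev_normal (MonoidHom.id GQ) F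
    have hle₀ : F.fixingSubgroup ≤ F₀.fixingSubgroup :=
      IntermediateField.fixingSubgroup_antitone (le_sup_left.trans hle)
    have hle₁ : F.fixingSubgroup ≤ F₁.fixingSubgroup :=
      IntermediateField.fixingSubgroup_antitone (le_sup_right.trans hle)
    refine ⟨F, hF, fun s n hn => ?_⟩
    have hn0 : (n : GQ) ∈ F.fixingSubgroup := hn
    have hn' : σ⁻¹ * (n : GQ) * σ ∈ F.fixingSubgroup := by
      have := hnorm.conj_mem _ hn0 σ⁻¹
      rwa [inv_inv] at this
    have e1 : f (γ (s * n)) = f (γ s) := by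
      rw [hmul]
      exact h₀ (γ s) (γ n) (by rw [hγ]; exact hle₀ hn')
    have e2 : a (σ⁻¹, ((s * n : ↥D) : GQ)) = a (σ⁻¹, (s : GQ)) := by
      have := h₁ σ⁻¹ (s : GQ) 1 (n : GQ) (one_mem _) (hle₁ hn0)
      rw [mul_one] at this
      rw [Subgroup.coe_mul]
      exact this
    have e3 : a (σ⁻¹ * ((s * n : ↥D) : GQ) * σ, σ⁻¹) = a (σ⁻¹ * (s : GQ) * σ, σ⁻¹) := by
      have := h₁ (σ⁻¹ * (s : GQ) * σ) σ⁻¹ (σ⁻¹ * (n : GQ) * σ) 1 (hle₁ hn') (one_mem _)
      rw [mul_one] at this
      rw [← this, Subgroup.coe_mul]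
      congr 2
      group
    show N.ρ σ (f (γ (s * n))) + kap N a σ ((s * n : ↥D) : GQ) =
      N.ρ σ (f (γ s)) + kap N a σ (s : GQ)
    rw [e1, kap, kap, e2, e3]
  · intro s s'
    have h1 := conj_homotopy N ha σ (s : GQ) (s' : GQ)
    have h2 := hd (γ s) (γ s')
    rw [hγ, hγ] at h2
    rw [h1, h2, ← hmul]
    simp only [map_add, map_sub]
    have e1 : N.ρ σ (N.ρ (σ⁻¹ * (s : GQ) * σ) (f (γ s'))) = N.ρ (s : GQ) (N.ρ σ (f (γ s'))) := by
      rw [← Module.End.mul_apply, ← map_mul, ← Module.End.mul_apply, ← map_mul]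
      congr 2
      group
    rw [e1, Subgroup.coe_mul]
    abel

end Descend

/-! ### The local step at a prime `q` -/

section Local

open Fermat.Agent.CFT.LocalBr Fermat.Agent.CFT.Global.LCGlobal Fermat.Agent.S55.Glue

variable (q : ℕ) [Fact q.Prime] (p : ℕ) [Fact p.Prime]

/-- The preimage of `Fix E` in the local Galois group at `q` (`= Fix(ℚ_q · ι E)`). -/
noncomputable abbrev locSub (E : IntermediateField ℚ Qb) : Subgroup (Gq q) :=
  E.fixingSubgroup.comap (localGaloisToGlobal q)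

theorem isOpenSub_locSub (E : IntermediateField ℚ Qb) [FiniteDimensional ℚ E] :
    IsOpenSub q (locSub q E) :=
  ⟨localLevelField q E, finiteDimensional_localLevelField q E, comap_fixingSubgroup_eq q E⟩

theorem isOpenSub_top : IsOpenSub q (⊤ : Subgroup (Gq q)) :=
  ⟨⊥, inferInstance, (IntermediateField.fixingSubgroup_bot).symm⟩

variable {q p}

/-- **Case A, local part**: a primitive on the whole local Galois group restricts to the
preimage of `Fix E`. -/
theorem exists_primitive_locSub_of_local {z : GQ × GQ → muQ p}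
    (E : IntermediateField ℚ Qb)
    (f : Gq q → muQ p) (hf : IsLevelConstant₁ (localGaloisToGlobal q) f)
    (hd : ∀ g h : Gq q, z (localGaloisToGlobal q g, localGaloisToGlobal q h) =
      (muQ p).ρ (localGaloisToGlobal q g) (f h) - f (g * h) + f g) :
    ∃ f' : ↥(locSub q E) → muQ p, IsLevelConstant₁ (lvl q (locSub q E)) f' ∧
      ∀ g h : ↥(locSub q E), z (lvl q (locSub q E) g, lvl q (locSub q E) h) =
        (muQ p).ρ (lvl q (locSub q E) g) (f' h) - f' (g * h) + f' g :=
  ⟨fun g => f g, IsLevelConstant₁.precomp (rH := localGaloisToGlobal q)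
    (rG := lvl q (locSub q E)) (locSub q E).subtype (fun _ => rfl) hf, fun g h => hd g h⟩

/-- **Case B, local part** (LOC-D2): if `p` divides the index of the preimage of `Fix E` in the
local Galois group at `q`, every level-constant `μ_p`-valued 2-cocycle of `GQ` becomes a
level-constant coboundary on that preimage. -/
theorem exists_primitive_locSub_of_dvd (hB : LayerBrauer.BrauerHyp q) {z : GQ × GQ → muQ p}
    (hz : z ∈ levelCocycles₂ (MonoidHom.id GQ) (muQ p))
    (E : IntermediateField ℚ Qb) [FiniteDimensional ℚ E] (hp : p ∣ (locSub q E).index) :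
    ∃ f' : ↥(locSub q E) → muQ p, IsLevelConstant₁ (lvl q (locSub q E)) f' ∧
      ∀ g h : ↥(locSub q E), z (lvl q (locSub q E) g, lvl q (locSub q E) h) =
        (muQ p).ρ (lvl q (locSub q E) g) (f' h) - f' (g * h) + f' g := by
  have hU' := isOpenSub_locSub q E
  have hU := isOpenSub_top q
  have hle : locSub q E ≤ (⊤ : Subgroup (Gq q)) := le_top
  have hp' : p ∣ (locSub q E).relIndex ⊤ := by rwa [Subgroup.relIndex_top_right]
  have hD2 : resLoc (muLoc q p) hle = 0 :=
    ResRule.resLoc_mu_eq_zero_of_layers p hU' hU hle hp'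
      (fun V _ hV hVU => ⟨(LayerBrauer.layer_brauer hB hU hV hVU).2.2,
        (LayerBrauer.layer_brauer hB hU hV hVU).2.1⟩)
  -- the cocycle on `⊤`
  have hc : (cochainsPullPush₂ (lvl q ⊤)
      (LinearMap.id : (muQ p) →ₗ[ZMod p] (Rep.res (⊤ : Subgroup (Gq q)).subtype (muLoc q p))) z)
      ∈ levelCocycles₂ (lvl q ⊤) (Rep.res (⊤ : Subgroup (Gq q)).subtype (muLoc q p)) :=
    cochainsPullPush₂_mem_levelCocycles₂ (rH := MonoidHom.id GQ) (rG := lvl q ⊤)
      (A := muQ p) (B := Rep.res (⊤ : Subgroup (Gq q)).subtype (muLoc q p))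
      (lvl q ⊤) (fun _ => rfl) LinearMap.id (fun _ _ => rfl) hz
  have h0 := LinearMap.congr_fun hD2
    (continuousH2π (lvl q ⊤) (Rep.res (⊤ : Subgroup (Gq q)).subtype (muLoc q p)) ⟨_, hc⟩)
  rw [LinearMap.zero_apply] at h0
  have h1 := (continuousH2π_eq_zero_iff (lvl q (locSub q E))
    (Rep.res (locSub q E).subtype (muLoc q p)) _).1 h0
  obtain ⟨x, hx, hdx⟩ := (mem_levelCoboundaries₂_iff _ _ _).1 h1
  refine ⟨x, hx, fun g h => ?_⟩
  have h2 := congrFun hdx (g, h)
  rw [d₁₂_hom_apply] at h2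
  exact h2.symm

/-- **Descent to every place.** A level-constant primitive on the preimage of `Fix E` in the
local Galois group at `q` gives, for every place `Av` of `ℚ̄` above `q`, a level-constant
primitive on `D(Av) ⊓ Fix E` (`E/ℚ` Galois). -/
theorem exists_primitive_at {z : GQ × GQ → muQ p}
    (hz : z ∈ levelCocycles₂ (MonoidHom.id GQ) (muQ p))
    (E : IntermediateField ℚ Qb) (hEn : (E.fixingSubgroup).Normal)
    (f : ↥(locSub q E) → muQ p) (hf : IsLevelConstant₁ (lvl q (locSub q E)) f)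
    (hd : ∀ g h : ↥(locSub q E), z (lvl q (locSub q E) g, lvl q (locSub q E) h) =
        (muQ p).ρ (lvl q (locSub q E) g) (f h) - f (g * h) + f g)
    (Av : ValuationSubring Qb) (hAv : Av.LiesOverPrime q) :
    ∃ t : ↥(Av.decompositionSubgroup ℚ ⊓ E.fixingSubgroup) → muQ p,
      IsLevelConstant₁ (Subgroup.subtype (Av.decompositionSubgroup ℚ ⊓ E.fixingSubgroup)) t ∧
      ∀ s s' : ↥(Av.decompositionSubgroup ℚ ⊓ E.fixingSubgroup),
        z ((s : GQ), (s' : GQ)) = (muQ p).ρ (s : GQ) (t s') - t (s * s') + t s := by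
  obtain ⟨σ, hσ⟩ := PlacesAbove.exists_smul_eq (Fact.out : q.Prime)
    (LocalDegree.liesOverPrime_padicPlace q) hAv
  refine exists_primitive_conj (muQ p) hz.1 hz.2 (lvl q (locSub q E)) f hf hd _ σ ?_
  rintro s ⟨hs1, hs2⟩
  rw [← hσ] at hs1
  have h1 : σ⁻¹ * s * σ ∈ (padicPlace q).decompositionSubgroup ℚ :=
    (PlacesAbove.mem_decompositionSubgroup_smul_iff (padicPlace q) σ s).1 hs1
  rw [← LocalRange.range_localGaloisToGlobal_eq_decompositionSubgroup] at h1
  obtain ⟨g, hg⟩ := h1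
  have h2 : σ⁻¹ * s * σ ∈ E.fixingSubgroup := by
    have := hEn.conj_mem _ hs2 σ⁻¹
    rwa [inv_inv] at this
  exact ⟨⟨g, by rw [Subgroup.mem_comap, hg]; exact h2⟩, hg⟩

/-! ### Characters: the index of the local subgroup, and the combined statement -/

section Character

variable {χ : GQ → ZMod p} (hχ : ∀ σ τ : GQ, χ (σ * τ) = χ σ + χ τ)
  {E : IntermediateField ℚ Qb} (hker : ∀ g : GQ, χ g = 0 ↔ g ∈ E.fixingSubgroup)

include hχ in
theorem chi_one : χ 1 = 0 := by
  have h := hχ 1 1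
  rw [mul_one] at h
  exact left_eq_add.mp h

include hχ in
theorem chi_inv (g : GQ) : χ g⁻¹ = -χ g := by
  have h := hχ g g⁻¹
  rw [mul_inv_cancel, chi_one hχ] at h
  exact eq_neg_of_add_eq_zero_right h.symm

include hχ hker in
/-- The kernel field of an additive character is Galois: `Fix E` is normal. -/
theorem normal_fixingSubgroup_of_ker : (E.fixingSubgroup).Normal := by
  refine ⟨fun n hn g => (hker _).1 ?_⟩
  rw [hχ, hχ, (hker n).2 hn, add_zero, chi_inv hχ, add_neg_cancel]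

include hχ hker in
/-- If the character `χ` (with kernel `Fix E`) is non-trivial on the decomposition group of some
place above `q`, the preimage of `Fix E` in the local Galois group at `q` has index `p`. -/
theorem index_locSub_eq (A : ValuationSubring Qb) (hA : A.LiesOverPrime q) (σ₀ : GQ)
    (hσ₀ : σ₀ ∈ A.decompositionSubgroup ℚ) (h0 : χ σ₀ ≠ 0) : (locSub q E).index = p := by
  have hp : p.Prime := Fact.out
  -- move to the distinguished place
  obtain ⟨τ, hτ⟩ := PlacesAbove.exists_smul_eq (Fact.out : q.Prime)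
    (LocalDegree.liesOverPrime_padicPlace q) hA
  rw [← hτ] at hσ₀
  have h1 : τ⁻¹ * σ₀ * τ ∈ (padicPlace q).decompositionSubgroup ℚ :=
    (PlacesAbove.mem_decompositionSubgroup_smul_iff (padicPlace q) τ σ₀).1 hσ₀
  rw [← LocalRange.range_localGaloisToGlobal_eq_decompositionSubgroup] at h1
  obtain ⟨g₀, hg₀⟩ := h1
  have hχg₀ : χ (localGaloisToGlobal q g₀) = χ σ₀ := by
    rw [hg₀, hχ, hχ, chi_inv hχ]; abel
  -- the local character
  let φ : Gq q →* Multiplicative (ZMod p) :=
    { toFun := fun g => Multiplicative.ofAdd (χ (localGaloisToGlobal q g))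
      map_one' := by rw [map_one, chi_one hχ]; rfl
      map_mul' := fun g h => by rw [map_mul, hχ]; rfl }
  have hkerφ : φ.ker = locSub q E := by
    ext g
    rw [MonoidHom.mem_ker, Subgroup.mem_comap, ← hker]
    exact Iff.rfl
  rw [← hkerφ, Subgroup.index_ker]
  have hdvd : Nat.card φ.range ∣ Nat.card (Multiplicative (ZMod p)) :=
    Subgroup.card_subgroup_dvd_card φ.range
  have hcard : Nat.card (Multiplicative (ZMod p)) = p := by
    have : NeZero p := ⟨hp.ne_zero⟩
    rw [Nat.card_eq_fintype_card, Fintype.card_multiplicative, ZMod.card]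
  rw [hcard] at hdvd
  rcases (Nat.dvd_prime hp).1 hdvd with h | h
  · exfalso
    have hbot : φ.range = ⊥ := Subgroup.card_eq_one.1 h
    have hmem : φ g₀ ∈ φ.range := ⟨g₀, rfl⟩
    rw [hbot, Subgroup.mem_bot] at hmem
    apply h0
    rw [← hχg₀]
    exact hmem
  · exact h

include hχ hker in
/-- **REC-GLOB, local step.** Let `z` be a level-constant `μ_p`-valued 2-cocycle of `GQ`, `χ` an
additive character of `GQ` with kernel `Fix E`, and `q` a prime such that EITHER `z` is a
level-constant coboundary on the local Galois group at `q`, OR `χ` is non-trivial on the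
decomposition group of a place above `q` (and the local Brauer theorem holds at `q`).  Then for
every place `Av` of `ℚ̄` above `q`, `z` is the coboundary of a level-constant cochain on
`D(Av) ⊓ Fix E`. -/
theorem exists_primitive_of_hyp [FiniteDimensional ℚ E] {z : GQ × GQ → muQ p}
    (hz : z ∈ levelCocycles₂ (MonoidHom.id GQ) (muQ p))
    (h : (∃ f : Gq q → muQ p, IsLevelConstant₁ (localGaloisToGlobal q) f ∧
          ∀ g h : Gq q, z (localGaloisToGlobal q g, localGaloisToGlobal q h) =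
            (muQ p).ρ (localGaloisToGlobal q g) (f h) - f (g * h) + f g) ∨
        (LayerBrauer.BrauerHyp q ∧ ∃ A : ValuationSubring Qb, A.LiesOverPrime q ∧
          ∃ σ₀ ∈ A.decompositionSubgroup ℚ, χ σ₀ ≠ 0))
    (Av : ValuationSubring Qb) (hAv : Av.LiesOverPrime q) :
    ∃ t : ↥(Av.decompositionSubgroup ℚ ⊓ E.fixingSubgroup) → muQ p,
      IsLevelConstant₁ (Subgroup.subtype (Av.decompositionSubgroup ℚ ⊓ E.fixingSubgroup)) t ∧
      ∀ s s' : ↥(Av.decompositionSubgroup ℚ ⊓ E.fixingSubgroup),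
        z ((s : GQ), (s' : GQ)) = (muQ p).ρ (s : GQ) (t s') - t (s * s') + t s := by
  have hEn := normal_fixingSubgroup_of_ker hχ hker
  rcases h with ⟨f, hf, hd⟩ | ⟨hB, A, hA, σ₀, hσ₀, h0⟩
  · obtain ⟨f', hf', hd'⟩ := exists_primitive_locSub_of_local E f hf hd
    exact exists_primitive_at hz E hEn f' hf' hd' Av hAv
  · have hidx := index_locSub_eq hχ hker A hA σ₀ hσ₀ h0
    obtain ⟨f', hf', hd'⟩ := exists_primitive_locSub_of_dvd hB hz E (by rw [hidx])
    exact exists_primitive_at hz E hEn f' hf' hd' Av hAv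

end Character

end Local

/-! ### Prelude forms (`Nat.Primes`-indexed local data, explicit cyclotomic twist) -/

section Prelude

open Fermat.Agent.CFT.LocalBr Fermat.Agent.CFT.Global.LCGlobal

variable {p : ℕ} [Fact p.Prime]

/-- Unfolding a level coboundary along a level map `r : H → GQ` (cochains pulled back from
`GQ`). -/
theorem exists_of_mem_levelCoboundaries₂ {H : Type} [Group H] (r : H →* GQ)
    {z : GQ × GQ → muQ p}
    (h : (cochainsPullPush₂ r (LinearMap.id : (muQ p) →ₗ[ZMod p] (Rep.res r (muQ p))) z)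
      ∈ levelCoboundaries₂ r (Rep.res r (muQ p))) :
    ∃ f : H → muQ p, IsLevelConstant₁ r f ∧
      ∀ g h : H, z (r g, r h) = (muQ p).ρ (r g) (f h) - f (g * h) + f g := by
  obtain ⟨x, hx, hdx⟩ := (mem_levelCoboundaries₂_iff _ _ _).1 h
  refine ⟨x, hx, fun g h => ?_⟩
  have h2 := congrFun hdx (g, h)
  rw [d₁₂_hom_apply] at h2
  exact h2.symm

/-- **REC-GLOB, local step, Prelude form.**  `q : Nat.Primes`, local data
`primeLocalGaloisGroup q`, `primeLocalToGlobal q`; conclusion with the cyclotomic twist written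
out (the `hloc` shape of the Hasse principle `hp_K`). -/
theorem exists_primitive_of_hyp' {χ : GQ → ZMod p} (hχ : ∀ σ τ : GQ, χ (σ * τ) = χ σ + χ τ)
    {E : IntermediateField ℚ Qb} [FiniteDimensional ℚ E]
    (hker : ∀ g : GQ, χ g = 0 ↔ g ∈ E.fixingSubgroup)
    {z : GQ × GQ → ZMod p}
    (hz : (z : GQ × GQ → muQ p) ∈ levelCocycles₂ (MonoidHom.id GQ) (muQ p))
    (q : Nat.Primes)
    (h : (cochainsPullPush₂ (primeLocalToGlobal q)
            (LinearMap.id : (muQ p) →ₗ[ZMod p] (Rep.res (primeLocalToGlobal q) (muQ p))) z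
          ∈ levelCoboundaries₂ (primeLocalToGlobal q) (Rep.res (primeLocalToGlobal q) (muQ p))) ∨
        (@LayerBrauer.BrauerHyp (q : ℕ) ⟨q.2⟩ ∧ ∃ A : ValuationSubring Qb,
          A.LiesOverPrime (q : ℕ) ∧ ∃ σ₀ ∈ A.decompositionSubgroup ℚ, χ σ₀ ≠ 0))
    (Av : ValuationSubring Qb) (hAv : Av.LiesOverPrime (q : ℕ)) :
    ∃ t : ↥(Av.decompositionSubgroup ℚ ⊓ E.fixingSubgroup) → ZMod p,
      IsLevelConstant₁ (Subgroup.subtype (Av.decompositionSubgroup ℚ ⊓ E.fixingSubgroup)) t ∧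
      ∀ s s' : ↥(Av.decompositionSubgroup ℚ ⊓ E.fixingSubgroup),
        z ((s : GQ), (s' : GQ)) =
          ((cycloChar p (s : GQ) : (ZMod p)ˣ) : ZMod p) * t s' - t (s * s') + t s := by
  have : Fact (q : ℕ).Prime := ⟨q.2⟩
  refine exists_primitive_of_hyp (q := (q : ℕ)) hχ hker hz ?_ Av hAv
  rcases h with h | h
  · exact Or.inl (exists_of_mem_levelCoboundaries₂ (primeLocalToGlobal q) h)
  · exact Or.inr h

end Prelude

end Fermat.Agent.CFT.Rec.GlobLoc
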