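import Fermat.Agent.CFT.Rec.GlobLoc
import Fermat.Agent.CFT.Rec.Inst
import Fermat.Agent.CFT.Local.BrauerLocalFin
import Fermat.Agent.Lib.Frobenius

/-!
# REC-GLOB, local step: the hypothesis-free instance for the auxiliary cyclic field

`E = TameCrit.chiField ℓ ψ` (the fixed field of `ker χ`, `χ = ψ ∘ cycMod ℓ`).  For a level-`T`
global `μ_p`-valued 2-cocycle `z` satisfying the local hypothesis of `Inst.GlobHyp`
(at every prime `q`: `res_q z` is a local level coboundary, or `q ≠ ℓ` and `ψ(q) ≠ 0`),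
`locTriv_chiField` gives the local hypothesis `hloc` of the Hasse principle `HPK.hp_K` at
`K := E`: for every place `Av` of `ℚ̄`, `z` is the coboundary of a level-constant cochain on
`D(Av) ⊓ Fix E`.
-/

set_option autoImplicit false

open CategoryTheory groupCohomology ExtCitation

namespace Fermat.Agent.CFT.Rec.GlobLocFinal

open Fermat.Agent.S55 Fermat.Agent.S55.Abs Fermat.Agent.S55.Trace.LamS Fermat.Agent.CFT.Rec
open Fermat.Agent.CFT.Global.LCGlobal

local notation "Qb" => AlgebraicClosure ℚ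

/-- The local Brauer theorem (`CFT/Local/BrauerLocalFin.brauer_isGalUnits`) in the shape
`LayerBrauer.BrauerHyp` consumed by LOC-D2. -/
theorem brauerHyp (q : ℕ) [Fact q.Prime] : Fermat.Agent.CFT.LocalBr.LayerBrauer.BrauerHyp q :=
  fun _ _ _ h =>
    ⟨(Fermat.Agent.CFT.Local.BrauerLocal.brauer_isGalUnits q h).1,
      (Fermat.Agent.CFT.Local.BrauerLocal.brauer_isGalUnits q h).2.1,
      (Fermat.Agent.CFT.Local.BrauerLocal.brauer_isGalUnits q h).2.2.1⟩

variable (p : ℕ) [Fact p.Prime]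

/-- A level-`T` cochain killed by `d₂₃` is a level-constant cocycle. -/
theorem mem_levelCocycles₂_of_lev2 {T : Finset Nat.Primes} {z : GQ × GQ → mu p}
    (hz : z ∈ lev2 p T) (hdz : (d₂₃ (mu p)).hom z = 0) :
    z ∈ levelCocycles₂ (MonoidHom.id GQ) (muQ p) :=
  ⟨LinearMap.mem_ker.2 hdz, ((mem_lev2_iff p T z).1 hz).isLevelConstant₂⟩

/-- **REC-GLOB, local step** (hypothesis-free, `q : Nat.Primes`): the local hypothesis of
`Inst.GlobHyp` implies the local hypothesis of the Hasse principle `hp_K` at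
`K := chiField ℓ ψ`. -/
theorem locTriv_chiField' (ℓ : ℕ) [Fact ℓ.Prime] (ψ : (ZMod ℓ)ˣ →* Multiplicative (ZMod p))
    {z : GQ × GQ → mu p} (hz : z ∈ levelCocycles₂ (MonoidHom.id GQ) (muQ p))
    (q : Nat.Primes)
    (hloc : Base.EvalCup.res₂ (primeLocalToGlobal q) (mu p) z ∈
          B2 (localLevel (primeLocalToGlobal q)) (muLoc p q) ∨
        ((q : ℕ) ≠ ℓ ∧ Core.psi0 ℓ ψ ((q : ℕ) : ZMod ℓ) ≠ 0))
    (Av : ValuationSubring Qb) (hAv : Av.LiesOverPrime (q : ℕ)) :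
    ∃ t : ↥(Av.decompositionSubgroup ℚ ⊓ (TameCrit.chiField ℓ ψ).fixingSubgroup) → ZMod p,
      IsLevelConstant₁
        (Subgroup.subtype (Av.decompositionSubgroup ℚ ⊓ (TameCrit.chiField ℓ ψ).fixingSubgroup))
        t ∧
      ∀ s s' : ↥(Av.decompositionSubgroup ℚ ⊓ (TameCrit.chiField ℓ ψ).fixingSubgroup),
        z ((s : GQ), (s' : GQ)) =
          ((cycloChar p (s : GQ) : (ZMod p)ˣ) : ZMod p) * t s' - t (s * s') + t s := by
  have := TameCrit.finiteDimensional_chiField ℓ ψ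
  refine GlobLoc.exists_primitive_of_hyp' (χ := TameCrit.chiAdd ℓ ψ) (TameCrit.chiAdd_mul ℓ ψ)
    (TameCrit.chiAdd_eq_zero_iff ℓ ψ) hz q ?_ Av hAv
  rcases hloc with h | ⟨h1, h2⟩
  · left
    obtain ⟨x, hx, hdx⟩ := h
    exact ⟨x, (isLevelConstant₁_iff (primeLocalToGlobal q) x).2 hx, hdx⟩
  · right
    obtain ⟨σ, hσ⟩ := Fermat.Agent.Lib.Frobenius.exists_isFrobeniusAt Av q.2 hAv
    refine ⟨@brauerHyp (q : ℕ) ⟨q.2⟩, Av, hAv, σ, hσ.mem_decompositionSubgroup, ?_⟩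
    rw [TameCrit.chiAdd_frobenius ℓ ψ q.2 h1 Av hAv σ hσ]
    exact h2

/-- **REC-GLOB, local step** (hypothesis-free): literally the `hloc` binder of `HPK.hp_K` at
`K := chiField ℓ ψ`, for `a := z` restricted to `Fix K`. -/
theorem locTriv_chiField (ℓ : ℕ) [Fact ℓ.Prime] (ψ : (ZMod ℓ)ˣ →* Multiplicative (ZMod p))
    {z : GQ × GQ → mu p} (hz : z ∈ levelCocycles₂ (MonoidHom.id GQ) (muQ p))
    (hloc : ∀ q : Nat.Primes,
      Base.EvalCup.res₂ (primeLocalToGlobal q) (mu p) z ∈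
          B2 (localLevel (primeLocalToGlobal q)) (muLoc p q) ∨
        ((q : ℕ) ≠ ℓ ∧ Core.psi0 ℓ ψ ((q : ℕ) : ZMod ℓ) ≠ 0))
    (q : ℕ) (hq : q.Prime) (Av : ValuationSubring Qb) (hAv : Av.LiesOverPrime q) :
    ∃ t : ↥(Av.decompositionSubgroup ℚ ⊓ (TameCrit.chiField ℓ ψ).fixingSubgroup) → ZMod p,
      IsLevelConstant₁
        (Subgroup.subtype (Av.decompositionSubgroup ℚ ⊓ (TameCrit.chiField ℓ ψ).fixingSubgroup))
        t ∧
      ∀ s s' : ↥(Av.decompositionSubgroup ℚ ⊓ (TameCrit.chiField ℓ ψ).fixingSubgroup),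
        z ((s : GQ), (s' : GQ)) =
          ((cycloChar p (s : GQ) : (ZMod p)ˣ) : ZMod p) * t s' - t (s * s') + t s :=
  locTriv_chiField' p ℓ ψ hz ⟨q, hq⟩ (hloc ⟨q, hq⟩) Av hAv

end Fermat.Agent.CFT.Rec.GlobLocFinal
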