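import Fermat.Agent.CFT.Rec.Defs
import Fermat.Agent.CFT.Global.HP.Real
import Fermat.Agent.CFT.Global.LCGlobal

/-!
# REC-HPAD: the Hasse principle in the shape consumed by REC, from the `ℚ̄ˣ`-valued form

`hasseRes_of_units` (frozen statement): `HasseRes p` (Rec/Defs.lean: `μ_p`-valued global cocycle,
locally trivial on `D_A ∩ G_K` for all places `A` ⇒ trivial on `G_K`) follows from the conclusion
of `CFT/Global/HP/Tower.hp_units` (the same statement for `ℚ̄ˣ`-valued multiplicative cocycles of
`G_K` with `p`-torsion values).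

Proof: `a (s, t) := ζ ^ (f (s, t)).val` (`ζ = LocalBr.zetaQb p`, `σ ζ = ζ ^ cycloChar σ`) is a
level-constant multiplicative `2`-cocycle of `G_K` with `p`-torsion values; local triviality of
`f` gives `LocTriv` (push the primitive `y` forward to `ζ ^ y`); `a = dOne c` with `c`
level-constant; Kummer injectivity (`c ^ p` is a level-constant `1`-cocycle, Hilbert 90
`CFT/Cyclic/Galois.exists_smul_div_eq_of_levelConstant`, extract a `p`-th root) replaces `c` by a
`μ_p`-valued level-constant cochain, i.e. a primitive of `f` on `G_K`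
(cf. `CFT/Global/LCGlobal.kummer_injective_glob`).
-/

set_option autoImplicit false

open CategoryTheory groupCohomology ExtCitation

namespace Fermat.Agent.CFT.Rec

local notation "Qb" => AlgebraicClosure ℚ
local notation "GQ" => (AlgebraicClosure ℚ ≃ₐ[ℚ] AlgebraicClosure ℚ)

variable (p : ℕ) [Fact p.Prime]

/-- **(REC-HPAD)** `HasseRes p` from the Hasse principle for `ℚ̄ˣ`-valued cocycles with
`p`-torsion values (the conclusion of `Global.HP.hp_units`). -/
theorem hasseRes_of_units
    (h : ∀ (K : IntermediateField ℚ Qb) [FiniteDimensional ℚ K]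
      (a : K.fixingSubgroup × K.fixingSubgroup → Qbˣ), IsMulCocycle₂ a →
      IsLevelConstant₂ (Subgroup.subtype K.fixingSubgroup) a → (∀ s t, a (s, t) ^ p = 1) →
      Fermat.Agent.CFT.Global.HP.LocTriv K.fixingSubgroup a →
      ∃ c : K.fixingSubgroup → Qbˣ, IsLevelConstant₁ (Subgroup.subtype K.fixingSubgroup) c ∧
        ∀ s t : K.fixingSubgroup, a (s, t) = (s : GQ) • c t / c (s * t) * c s) :
    HasseRes p := by
  intro K hKfd f hf hloc
  haveI := hKfd
  have hp : p.Prime := Fact.out
  have : NeZero p := ⟨hp.ne_zero⟩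
  obtain ⟨hfc, hfl⟩ := (mem_levelCocycles₂_iff _ _ f).mp hf
  -- the restriction of `f` to `G_K` and its image in `ℚ̄ˣ`
  let t : ↥K.fixingSubgroup × ↥K.fixingSubgroup → Global.LCGlobal.muQ p :=
    fun st => f ((st.1 : GQ), (st.2 : GQ))
  let a : ↥K.fixingSubgroup × ↥K.fixingSubgroup → Qbˣ :=
    fun st => Additive.toMul (Global.LCGlobal.muEmbQ p (t st))
  have hacoc : IsMulCocycle₂ a := by
    intro g h' j
    have h1 := (mem_cocycles₂_iff f).mp hfc (g : GQ) (h' : GQ) (j : GQ)
    have h2 := congrArg (Global.LCGlobal.muEmbQ p) h1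
    rw [map_add, map_add, ← Global.LCGlobal.muEmbQ_equivariant] at h2
    exact congrArg Additive.toMul h2
  have halev : IsLevelConstant₂ (Subgroup.subtype K.fixingSubgroup) a := by
    have h1 : IsLevelConstant₂ (Subgroup.subtype K.fixingSubgroup)
        (f ∘ Prod.map (Subgroup.subtype K.fixingSubgroup) (Subgroup.subtype K.fixingSubgroup)) :=
      IsLevelConstant₂.precomp (rH := MonoidHom.id GQ) (rG := Subgroup.subtype K.fixingSubgroup)
        (Subgroup.subtype K.fixingSubgroup) (fun _ => rfl) hfl
    exact h1.comp (fun x => Additive.toMul (Global.LCGlobal.muEmbQ p x))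
  have hapow : ∀ s t', a (s, t') ^ p = 1 := by
    intro s t'
    have h1 : p • Global.LCGlobal.muEmbQ p (t (s, t')) = 0 := by
      rw [← map_nsmul]
      have h2 : p • t (s, t') = 0 := by
        rw [nsmul_eq_mul]
        have : ((p : ℕ) : ZMod p) = 0 := ZMod.natCast_self p
        exact (congrArg (· * (t (s, t') : ZMod p)) this).trans (zero_mul _)
      rw [h2, map_zero]
    exact congrArg Additive.toMul h1
  have haloc : Global.HP.LocTriv K.fixingSubgroup a := by
    intro q hq Av hAv
    obtain ⟨y, hy, hd⟩ := hloc q Av hq hAv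
    refine ⟨fun s => Additive.toMul (Global.LCGlobal.muEmbQ p (y s)),
      hy.comp (fun x => Additive.toMul (Global.LCGlobal.muEmbQ p x)), fun s t' => ?_⟩
    have h1 := hd s t'
    have h2 := congrArg (Global.LCGlobal.muEmbQ p) h1
    rw [map_add, map_sub, ← Global.LCGlobal.muEmbQ_equivariant] at h2
    exact congrArg Additive.toMul h2
  obtain ⟨c, hc, hac⟩ := h K a hacoc halev hapow haloc
  -- Kummer injectivity
  have hmem : (fun x => Global.LCGlobal.muHomQ p (t x)) ∈
      levelCoboundaries₂ (Subgroup.subtype K.fixingSubgroup)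
        (Rep.res (Subgroup.subtype K.fixingSubgroup) Global.LCGlobal.unitsQ) := by
    rw [mem_levelCoboundaries₂_iff]
    refine ⟨fun s => Additive.ofMul (c s), hc.comp (fun x => Additive.ofMul x), ?_⟩
    funext ⟨s, t'⟩
    rw [d₁₂_hom_apply]
    exact (congrArg Additive.ofMul (hac s t')).symm
  obtain ⟨y, hy, hdy⟩ := (mem_levelCoboundaries₂_iff _ _ _).mp
    (Global.LCGlobal.kummer_injective_glob p K.fixingSubgroup t hmem)
  refine ⟨y, hy, fun g h' => ?_⟩
  have h1 := congrFun hdy (g, h')
  rw [d₁₂_hom_apply] at h1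
  exact h1.symm

end Fermat.Agent.CFT.Rec
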