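import Fermat.Agent.CFT.Rec.Local
import Fermat.Agent.CFT.Rec.TameCrit
import Fermat.Agent.CFT.LocalBr.Adapter

/-!
# CFT / Rec / Inert: primes with `ψ(q) ≠ 0` are inert in the auxiliary field

Let `ℓ` be a prime, `ψ : (ℤ/ℓ)ˣ → ℤ/p`, `χ = ψ ∘ cycMod ℓ`, `E = chiField ℓ ψ` the field cut out
by `χ`.  For a prime `q ≠ ℓ` with `ψ(q) ≠ 0` (`Core.psi0 ℓ ψ q ≠ 0`):

* `comap_fixingSubgroup_chiField` : the preimage of `Gal(ℚ̄/E)` in the local Galois group `Gq q`
  is the fixing subgroup of the unramified extension `unrField q p` of degree `p`;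
* `index_fixingSubgroup_unrField`, `dvd_relIndex_comap_top` : it has index `p`;
* `localSub_chiField`, `localSub_bot` : the same for the conjugated local subgroups
  `Adapter.localSub q g E`;
* `dvd_relIndex_decomp` : for every valuation subring `A` of `ℚ̄` over `q`,
  `p ∣ [D_A : D_A ∩ Gal(ℚ̄/E)]` — the hypothesis of `Adapter.resSub_mu_eq_zero` (LOC (D2) at
  decomposition groups), used for the step "`res_E x` is locally trivial at the inert places"
  of the global step `hGLOB` of reciprocity.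
-/

set_option autoImplicit false

namespace Fermat.Agent.CFT.Rec.Inert

open ExtCitation Fermat.Agent.CFT.LocalBr Fermat.Agent.CFT.Rec.Local
  Fermat.Agent.CFT.Rec.TameCrit Fermat.Agent.CFT.LocalBr.Adapter
open scoped Pointwise

local notation "Qb" => AlgebraicClosure ℚ
local notation "GQ" => (AlgebraicClosure ℚ ≃ₐ[ℚ] AlgebraicClosure ℚ)

variable (q : ℕ) [Fact q.Prime] (p : ℕ) [Fact p.Prime] (ℓ : ℕ) [Fact ℓ.Prime]
  (ψ : (ZMod ℓ)ˣ →* Multiplicative (ZMod p))

/-- The global character is invariant under conjugation. -/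
theorem chiAdd_conj (g x : GQ) :
    Local.chiAdd p ℓ ψ (g * x * g⁻¹) = Local.chiAdd p ℓ ψ x := by
  have h1 : Local.chiAdd p ℓ ψ (g * g⁻¹) = Local.chiAdd p ℓ ψ g + Local.chiAdd p ℓ ψ g⁻¹ :=
    Local.chiAdd_mul ψ g g⁻¹
  have h0 : Local.chiAdd p ℓ ψ (1 : GQ) = 0 := by
    have h := Local.chiAdd_mul ψ (1 : GQ) 1
    rw [mul_one] at h
    exact left_eq_add.mp h
  rw [mul_inv_cancel, h0] at h1
  rw [Local.chiAdd_mul, Local.chiAdd_mul]
  linear_combination -h1

/-- Membership in `Gal(ℚ̄/E)` in terms of the additive character of `Rec/Local`. -/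
theorem mem_fixingSubgroup_chiField_iff (x : GQ) :
    x ∈ (chiField ℓ ψ).fixingSubgroup ↔ Local.chiAdd p ℓ ψ x = 0 :=
  (TameCrit.chiAdd_eq_zero_iff ℓ ψ x).symm

variable {q ℓ} in
/-- For `q ≠ ℓ` with `ψ(q) ≠ 0`, a conjugate of a local element lies in `Gal(ℚ̄/E)` iff the
element fixes the unramified extension of degree `p`. -/
theorem conj_mem_fixingSubgroup_chiField_iff (hqℓ : q ≠ ℓ)
    (h0 : Core.psi0 ℓ ψ ((q : ℕ) : ZMod ℓ) ≠ 0) (g : GQ) (τ : Gq q) :
    g * localGaloisToGlobal q τ * g⁻¹ ∈ (chiField ℓ ψ).fixingSubgroup ↔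
      τ ∈ (unrField q p).fixingSubgroup := by
  rw [mem_fixingSubgroup_chiField_iff, chiAdd_conj, chiAdd_localGaloisToGlobal q p hqℓ ψ τ,
    ← chiUr_eq_zero_iff_mem, mul_eq_zero]
  exact ⟨fun h => h.resolve_left h0, Or.inr⟩

variable {q ℓ} in
/-- **(IN-1)** For `q ≠ ℓ` with `ψ(q) ≠ 0`: the preimage of `Gal(ℚ̄/E)` in the local Galois group
at `q` is the fixing subgroup of the unramified extension of degree `p`. -/
theorem comap_fixingSubgroup_chiField (hqℓ : q ≠ ℓ)
    (h0 : Core.psi0 ℓ ψ ((q : ℕ) : ZMod ℓ) ≠ 0) :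
    (chiField ℓ ψ).fixingSubgroup.comap (localGaloisToGlobal q) =
      (unrField q p).fixingSubgroup := by
  ext τ
  rw [Subgroup.mem_comap, ← conj_mem_fixingSubgroup_chiField_iff p ψ hqℓ h0 1 τ, one_mul,
    inv_one, mul_one]

/-- The fixing subgroup of the unramified extension of degree `p` is open. -/
theorem isOpenSub_fixingSubgroup_unrField : IsOpenSub q (unrField q p).fixingSubgroup :=
  ⟨unrField q p, inferInstance, rfl⟩

/-- The whole local Galois group is open. -/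
theorem isOpenSub_top : IsOpenSub q (⊤ : Subgroup (Gq q)) := by
  refine ⟨⊥, inferInstance, ?_⟩
  ext τ
  simp only [Subgroup.mem_top, true_iff, IntermediateField.mem_fixingSubgroup_iff]
  intro x hx
  obtain ⟨r, rfl⟩ := IntermediateField.mem_bot.1 hx
  exact τ.commutes r

/-- **(IN-2)** The fixing subgroup of the unramified extension of degree `p` has index `p`. -/
theorem index_fixingSubgroup_unrField : (unrField q p).fixingSubgroup.index = p := by
  have : IsGalois ℚ_[q] (PadicAlgCl q) := IsAlgClosure.isGalois ℚ_[q] (PadicAlgCl q)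
  rw [← IntermediateField.finrank_eq_fixingSubgroup_index, finrank_unrField]

theorem relIndex_top_fixingSubgroup_unrField :
    (unrField q p).fixingSubgroup.relIndex ⊤ = p := by
  rw [Subgroup.relIndex_top_right, index_fixingSubgroup_unrField]

variable {q ℓ} in
/-- **(IN-2')** For `q ≠ ℓ` with `ψ(q) ≠ 0`: `p` divides the index in `Gq q` of the preimage of
`Gal(ℚ̄/E)` (the hypothesis `hp` of `LocalBr.resLoc_mu_eq_zero` at `U := ⊤`). -/
theorem dvd_relIndex_comap_top (hqℓ : q ≠ ℓ) (h0 : Core.psi0 ℓ ψ ((q : ℕ) : ZMod ℓ) ≠ 0) :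
    p ∣ ((chiField ℓ ψ).fixingSubgroup.comap (localGaloisToGlobal q)).relIndex ⊤ := by
  rw [comap_fixingSubgroup_chiField p ψ hqℓ h0, relIndex_top_fixingSubgroup_unrField]

/-- The conjugated local subgroup of `ℚ` is everything. -/
theorem localSub_bot (g : GQ) : localSub q g (⊥ : IntermediateField ℚ Qb) = ⊤ := by
  ext u
  rw [mem_localSub_iff]
  simp only [Subgroup.mem_top, iff_true, IntermediateField.mem_fixingSubgroup_iff]
  intro x hx
  obtain ⟨r, rfl⟩ := IntermediateField.mem_bot.1 hx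
  exact AlgEquiv.commutes _ r

variable {q ℓ} in
/-- For `q ≠ ℓ` with `ψ(q) ≠ 0`, every conjugated local subgroup of `E` is the fixing subgroup of
the unramified extension of degree `p`. -/
theorem localSub_chiField (hqℓ : q ≠ ℓ) (h0 : Core.psi0 ℓ ψ ((q : ℕ) : ZMod ℓ) ≠ 0) (g : GQ) :
    localSub q g (chiField ℓ ψ) = (unrField q p).fixingSubgroup := by
  ext u
  rw [mem_localSub_iff, conj_mem_fixingSubgroup_chiField_iff p ψ hqℓ h0]

variable {q ℓ} in
/-- **(IN-3)** For `q ≠ ℓ` with `ψ(q) ≠ 0` and every valuation subring `A` of `ℚ̄` over `q`: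
`[D_A : D_A ∩ Gal(ℚ̄/E)] = p`. -/
theorem relIndex_decomp (hqℓ : q ≠ ℓ) (h0 : Core.psi0 ℓ ψ ((q : ℕ) : ZMod ℓ) ≠ 0)
    {A : ValuationSubring Qb} (hA : A.LiesOverPrime q) :
    (decomp A (chiField ℓ ψ)).relIndex (decomp A ⊥) = p := by
  obtain ⟨g, rfl⟩ := exists_smul_padicPlace_eq q hA
  rw [← relIndex_localSub q g (K := ⊥) (K' := chiField ℓ ψ), localSub_bot,
    localSub_chiField p ψ hqℓ h0, relIndex_top_fixingSubgroup_unrField]

variable {q ℓ} in
/-- **(IN-3')** the divisibility form, = hypothesis `hp` of `Adapter.resSub_mu_eq_zero`. -/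
theorem dvd_relIndex_decomp (hqℓ : q ≠ ℓ) (h0 : Core.psi0 ℓ ψ ((q : ℕ) : ZMod ℓ) ≠ 0)
    {A : ValuationSubring Qb} (hA : A.LiesOverPrime q) :
    p ∣ (decomp A (chiField ℓ ψ)).relIndex (decomp A ⊥) := by
  rw [relIndex_decomp p ψ hqℓ h0 hA]

end Fermat.Agent.CFT.Rec.Inert
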