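import Fermat.Agent.CFT.Rec.Defs

/-!
# REC-LINE: `LocLine p` from `dim H²(G_{ℚ_q}, μ_p) = 1`

`locLine_of_finrank` : the cochain form `LocLine p` consumed by REC follows from
`finrank (H2at p q) = 1` for every prime `q` (LOC (C) at `U = ⊤`, transported from
`LocalBr.finrank_H2mu` along `⊤ ≃ Gq q`).
-/

set_option autoImplicit false

open CategoryTheory groupCohomology ExtCitation

namespace Fermat.Agent.CFT.Rec

variable (p : ℕ) [Fact p.Prime]

theorem locLine_of_finrank
    (h : ∀ q : Nat.Primes, Module.finrank (ZMod p) (H2at p q) = 1) : LocLine p := by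
  intro q f hf g hg hgn
  have hg0 : continuousH2π (primeLocalToGlobal q) (muAt p q) ⟨g, hg⟩ ≠ 0 := by
    intro h0
    exact hgn ((continuousH2π_eq_zero_iff _ _ _).1 h0)
  obtain ⟨m, hm⟩ := (finrank_eq_one_iff_of_nonzero' _ hg0).1 (h q)
    (continuousH2π (primeLocalToGlobal q) (muAt p q) ⟨f, hf⟩)
  refine ⟨m, ?_⟩
  have h1 : continuousH2π (primeLocalToGlobal q) (muAt p q)
      (⟨f, hf⟩ - m • ⟨g, hg⟩) = 0 := by
    rw [map_sub, map_smul, hm, sub_self]
  exact (continuousH2π_eq_zero_iff _ _ _).1 h1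

end Fermat.Agent.CFT.Rec
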