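import Fermat.Agent.CFT.Rec.Line
import Fermat.Agent.CFT.LocalBr.Main
import Fermat.Agent.CFT.LocalBr.LayerBrauer

/-!
# REC-LINE: `dim H²(G_{ℚ_q}, μ_p) = 1` in the shape consumed by REC

Transport of LOC (C) at `U = ⊤` (`LocalBr.finrank_H2mu`) along `⊤ ≃ Gq q`, into the Prelude
shape `H2at p q = continuousH2 (primeLocalToGlobal q) (Rep.res (primeLocalToGlobal q) (mu p))`
for `q : Nat.Primes`.

* `topH2Equiv`             : `H2loc (muLoc q p) ⊤ ≃ₗ continuousH2 (localGaloisToGlobal q) (muLoc q p)`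
  (unconditional);
* `finrank_H2at_of_top`    : the transport of the dimension statement (unconditional);
* `finrank_H2at_of_brauer`, `finrank_continuousH2_local_of_brauer`, `locLine_of_brauer` : from
  the local Brauer hypothesis `LayerBrauer.BrauerHyp` (standard axioms only);
* `finrank_H2at`, `finrank_continuousH2_local`, `locLine` : from `LocalBr.finrank_H2mu`
  (hypothesis-free once LOC-C3 closes `LocalBr/Main.lean`).

`finrank_continuousH2_local*` is the literal hypothesis `hC` of `LocalTame.hline_of_finrank`.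
-/

set_option autoImplicit false

open CategoryTheory groupCohomology ExtCitation

namespace Fermat.Agent.CFT.Rec

open Fermat.Agent.CFT.LocalBr

variable (p : ℕ) [Fact p.Prime]

section Transport

variable (q : ℕ) [Fact q.Prime]

/-- The tautological homomorphism `Gq q → ↥⊤`. -/
def toTopHom : Gq q →* ↥(⊤ : Subgroup (Gq q)) where
  toFun g := ⟨g, Subgroup.mem_top g⟩
  map_one' := rfl
  map_mul' _ _ := rfl

/-- `H²(⊤, μ_p) → H²(Gq q, μ_p)` on level-constant cochains. -/
noncomputable def topH2Fwd : H2loc (muLoc q p) (⊤ : Subgroup (Gq q)) →ₗ[ZMod p]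
    continuousH2 (localGaloisToGlobal q) (muLoc q p) :=
  continuousH2Map (rH := lvl q ⊤) (rG := localGaloisToGlobal q) (toTopHom q) (fun _ => rfl)
    (LinearMap.id : (Rep.res (⊤ : Subgroup (Gq q)).subtype (muLoc q p)) →ₗ[ZMod p] muLoc q p)
    (fun _ _ => rfl)

/-- `H²(Gq q, μ_p) → H²(⊤, μ_p)` on level-constant cochains. -/
noncomputable def topH2Bwd : continuousH2 (localGaloisToGlobal q) (muLoc q p) →ₗ[ZMod p]
    H2loc (muLoc q p) (⊤ : Subgroup (Gq q)) :=
  continuousH2Map (rH := localGaloisToGlobal q) (rG := lvl q ⊤) (⊤ : Subgroup (Gq q)).subtype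
    (fun _ => rfl)
    (LinearMap.id : muLoc q p →ₗ[ZMod p] (Rep.res (⊤ : Subgroup (Gq q)).subtype (muLoc q p)))
    (fun _ _ => rfl)

theorem topH2Bwd_topH2Fwd (x : H2loc (muLoc q p) (⊤ : Subgroup (Gq q))) :
    topH2Bwd p q (topH2Fwd p q x) = x := by
  obtain ⟨f, rfl⟩ := Submodule.mkQ_surjective _ x
  rfl

theorem topH2Fwd_topH2Bwd (x : continuousH2 (localGaloisToGlobal q) (muLoc q p)) :
    topH2Fwd p q (topH2Bwd p q x) = x := by
  obtain ⟨f, rfl⟩ := Submodule.mkQ_surjective _ x
  rfl

/-- The transport `H²(⊤, μ_p) ≃ H²(Gq q, μ_p)` on level-constant cochains. -/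
noncomputable def topH2Equiv : H2loc (muLoc q p) (⊤ : Subgroup (Gq q)) ≃ₗ[ZMod p]
    continuousH2 (localGaloisToGlobal q) (muLoc q p) :=
  LinearEquiv.ofLinearMap (topH2Fwd p q) (topH2Bwd p q)
    (LinearMap.ext fun x => topH2Fwd_topH2Bwd p q x)
    (LinearMap.ext fun x => topH2Bwd_topH2Fwd p q x)

theorem finrank_continuousH2_of_top
    (h : Module.finrank (ZMod p) (H2loc (muLoc q p) (⊤ : Subgroup (Gq q))) = 1) :
    Module.finrank (ZMod p) (continuousH2 (localGaloisToGlobal q) (muLoc q p)) = 1 := by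
  rw [← (topH2Equiv p q).finrank_eq]
  exact h

end Transport

/-- **REC-LINE, transport**: `dim H²(G_{ℚ_q}, μ_p) = 1` in the Prelude shape, from the LOC shape
at `U = ⊤`. -/
theorem finrank_H2at_of_top (q : Nat.Primes)
    (h : haveI : Fact (q : ℕ).Prime := ⟨q.2⟩
      Module.finrank (ZMod p) (H2loc (muLoc (q : ℕ) p) (⊤ : Subgroup (Gq (q : ℕ)))) = 1) :
    Module.finrank (ZMod p) (H2at p q) = 1 := by
  have : Fact (q : ℕ).Prime := ⟨q.2⟩
  exact finrank_continuousH2_of_top p (q : ℕ) h

/-- The whole local Galois group is open (`E = ℚ_q`). -/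
theorem isOpenSub_top_line (q : ℕ) [Fact q.Prime] : IsOpenSub q (⊤ : Subgroup (Gq q)) :=
  ⟨⊥, inferInstance, (IntermediateField.fixingSubgroup_bot).symm⟩

/-! ### From the local Brauer hypothesis (no `sorry` in the axiom closure) -/

/-- `dim H²(Gq q, μ_p) = 1` (shape of `LocalTame.hline_of_finrank`) from `BrauerHyp q`. -/
theorem finrank_continuousH2_local_of_brauer (q : ℕ) [Fact q.Prime]
    (hB : LayerBrauer.BrauerHyp q) :
    Module.finrank (ZMod p) (continuousH2 (localGaloisToGlobal q) (muLoc q p)) = 1 :=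
  finrank_continuousH2_of_top p q
    (LayerBrauer.finrank_H2mu_of_brauer hB p (isOpenSub_top_line q))

/-- **REC-LINE from the local Brauer theorem.** -/
theorem finrank_H2at_of_brauer (q : Nat.Primes)
    (hB : haveI : Fact (q : ℕ).Prime := ⟨q.2⟩
      LayerBrauer.BrauerHyp (q : ℕ)) :
    Module.finrank (ZMod p) (H2at p q) = 1 := by
  have : Fact (q : ℕ).Prime := ⟨q.2⟩
  exact finrank_continuousH2_local_of_brauer p (q : ℕ) hB

/-- `LocLine p` from the local Brauer theorem at every prime. -/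
theorem locLine_of_brauer
    (hB : ∀ q : Nat.Primes, haveI : Fact (q : ℕ).Prime := ⟨q.2⟩
      LayerBrauer.BrauerHyp (q : ℕ)) : LocLine p :=
  locLine_of_finrank p fun q => finrank_H2at_of_brauer p q (hB q)

/-! ### From `LocalBr.finrank_H2mu` (LOC (C) at `U = ⊤`) -/

/-- `dim H²(Gq q, μ_p) = 1` (shape of `LocalTame.hline_of_finrank`). -/
theorem finrank_continuousH2_local (q : ℕ) [Fact q.Prime] :
    Module.finrank (ZMod p) (continuousH2 (localGaloisToGlobal q) (muLoc q p)) = 1 :=
  finrank_continuousH2_of_top p q (LocalBr.finrank_H2mu p (isOpenSub_top_line q))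

/-- **REC-LINE**: `H²(G_{ℚ_q}, μ_p)` is one-dimensional over `𝔽_p`, for every prime `q`
(Prelude shape). -/
theorem finrank_H2at (q : Nat.Primes) : Module.finrank (ZMod p) (H2at p q) = 1 := by
  have : Fact (q : ℕ).Prime := ⟨q.2⟩
  exact finrank_continuousH2_local p (q : ℕ)

/-- **Input (LOC-LINE)** of REC. -/
theorem locLine : LocLine p := locLine_of_finrank p (finrank_H2at p)

end Fermat.Agent.CFT.Rec

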