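import Fermat.Agent.CFT.Cyclic.Galois
import Fermat.Agent.CFT.LocalBr.MuEmb
import Fermat.Agent.S55.Glue.LocalLevel

/-!
# CFT / Rec / LocalCrit (brick REC-LOC, part (L0)): the local norm criterion in Prelude language

`q`, `p` primes, `Gq q = Gal(ℚ̄_q/ℚ_q)`, `muLoc q p = μ_p` as a `Gq q`-module (Prelude shape),
level structure `localGaloisToGlobal q`.

* `zpowU q p a = ζ ^ a` : the embedding `μ_p → ℚ̄_qˣ` in multiplicative notation;
* `IsKummer q p β κ`   : `κ : Gq q → 𝔽_p` is the Kummer cocycle of the unit `β`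
  (`τ β / β = ζ ^ κ τ`); `exists_isKummer`, `IsKummer.mul`, `IsKummer.zpow`;
* `cupLoc q p χ κ`     : the cup product cochain `(s, t) ↦ χ s • (s • κ t)`;
* `cupLoc_mem_levelCocycles₂` : it is a level-constant `2`-cocycle;
* `cupLoc_mem_levelCoboundaries₂_iff_norm` : **local norm criterion**: for an additive
  character `χ` with kernel field `L` (finite cyclic over `ℚ_q`) and `β ^ p = b ∈ ℚ_qˣ`, the cup
  product `χ ∪ κ_b` is a level-constant coboundary iff `b` is a norm from `L`.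
-/

set_option autoImplicit false

namespace Fermat.Agent.CFT.Rec.LocalCrit

open groupCohomology ExtCitation Fermat.Agent.CFT.LocalBr Fermat.Agent.CFT.Cyclic

variable (q : ℕ) [Fact q.Prime] (p : ℕ) [Fact p.Prime]

local instance neZero_p_aux : NeZero p := ⟨(Fact.out : p.Prime).ne_zero⟩

/-- `a ↦ ζ ^ a`, the embedding of `𝔽_p(1)` into `ℚ̄_qˣ`, multiplicatively. -/
noncomputable def zpowU (a : ZMod p) : (PadicAlgCl q)ˣ := Additive.toMul (muEmb q p a)

theorem zpowU_eq (a : ZMod p) : zpowU q p a = zetaUnit q p ^ a.val := by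
  rw [zpowU, muEmb_apply]; rfl

theorem zpowU_zero : zpowU q p 0 = 1 := by
  rw [zpowU, map_zero]; rfl

theorem zpowU_add (a b : ZMod p) : zpowU q p (a + b) = zpowU q p a * zpowU q p b := by
  rw [zpowU, map_add]; rfl

theorem zpowU_neg (a : ZMod p) : zpowU q p (-a) = (zpowU q p a)⁻¹ := by
  rw [zpowU, map_neg]; rfl

theorem zpowU_sub (a b : ZMod p) : zpowU q p (a - b) = zpowU q p a / zpowU q p b := by
  rw [zpowU, map_sub]; rfl

theorem zpowU_nsmul (n : ℕ) (a : ZMod p) : zpowU q p (n • a) = zpowU q p a ^ n := by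
  rw [zpowU, map_nsmul]; rfl

theorem zpowU_mul (c a : ZMod p) : zpowU q p (c * a) = zpowU q p a ^ c.val := by
  have h : c * a = c.val • a := by
    rw [nsmul_eq_mul, ZMod.natCast_zmod_val]
  rw [h, zpowU_nsmul]

theorem zpowU_pow (a : ZMod p) : zpowU q p a ^ p = 1 := by
  rw [zpowU_eq, ← pow_mul, mul_comm, pow_mul, zetaUnit_pow, one_pow]

theorem zpowU_injective : Function.Injective (zpowU q p) := fun _ _ h =>
  muEmb_injective q p (Additive.toMul.injective h)

theorem exists_zpowU_eq {u : (PadicAlgCl q)ˣ} (hu : u ^ p = 1) : ∃ a : ZMod p, zpowU q p a = u := by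
  have h : Additive.ofMul u ∈ Set.range (muEmb q p) := by
    rw [mem_range_muEmb_iff]
    change Additive.ofMul (u ^ p) = 0
    rw [hu]; rfl
  obtain ⟨a, ha⟩ := h
  exact ⟨a, by rw [zpowU, ha]; rfl⟩

theorem smul_zpowU (τ : Gq q) (a : ZMod p) :
    τ • zpowU q p a = zpowU q p ((muLoc q p).ρ τ a) := by
  have h := muEmb_equivariant q p τ a
  show τ • Additive.toMul (muEmb q p a) = Additive.toMul (muEmb q p ((muLoc q p).ρ τ a))
  rw [← h]
  rfl

theorem coe_zpowU (a : ZMod p) : ((zpowU q p a : (PadicAlgCl q)ˣ) : PadicAlgCl q) = zetaLoc q p ^ a.val := by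
  rw [zpowU_eq, Units.val_pow_eq_pow_val, coe_zetaUnit]

/-- `κ` is the Kummer cocycle of the unit `β`: `τ β / β = ζ ^ κ τ`. -/
def IsKummer (β : (PadicAlgCl q)ˣ) (κ : Gq q → ZMod p) : Prop :=
  ∀ τ : Gq q, τ • β / β = zpowU q p (κ τ)

/-- The cup product cochain `(s, t) ↦ χ s • (s • κ t)` with values in `μ_p`. -/
noncomputable def cupLoc (χ : Gq q → ZMod p) (κ : Gq q → ZMod p) : Gq q × Gq q → muLoc q p :=
  fun st => χ st.1 • (muLoc q p).ρ st.1 (κ st.2)

theorem cupLoc_apply (χ κ : Gq q → ZMod p) (s t : Gq q) :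
    cupLoc q p χ κ (s, t) = χ s * (muLoc q p).ρ s (κ t) := rfl

variable {q p}

/-- The defining property in terms of field elements. -/
theorem IsKummer.apply_eq {β : (PadicAlgCl q)ˣ} {κ : Gq q → ZMod p} (hκ : IsKummer q p β κ)
    (τ : Gq q) : τ (β : PadicAlgCl q) = zetaLoc q p ^ (κ τ).val * β := by
  have h := hκ τ
  rw [div_eq_iff_eq_mul] at h
  have h2 := congrArg (fun u : (PadicAlgCl q)ˣ => (u : PadicAlgCl q)) h
  simpa [AlgEquiv.smul_units_def, coe_zpowU] using h2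

theorem isKummer_of_apply_eq {β : (PadicAlgCl q)ˣ} {κ : Gq q → ZMod p}
    (h : ∀ τ : Gq q, τ (β : PadicAlgCl q) = zetaLoc q p ^ (κ τ).val * β) : IsKummer q p β κ := by
  intro τ
  rw [div_eq_iff_eq_mul]
  ext
  rw [Units.val_mul, coe_zpowU, AlgEquiv.smul_units_def, Units.coe_map, MonoidHom.coe_coe]
  exact h τ

/-- Existence of the Kummer cocycle of a `p`-th root of a Galois-fixed unit. -/
theorem exists_isKummer (β : (PadicAlgCl q)ˣ) (hβ : ∀ τ : Gq q, τ • β ^ p = β ^ p) :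
    ∃ κ : Gq q → ZMod p, IsKummer q p β κ := by
  have h : ∀ τ : Gq q, ∃ a : ZMod p, zpowU q p a = τ • β / β := fun τ =>
    exists_zpowU_eq q p (by rw [div_pow, ← smul_pow', hβ τ, div_self'])
  choose κ hκ using h
  exact ⟨κ, fun τ => (hκ τ).symm⟩

theorem IsKummer.mul {β₁ β₂ : (PadicAlgCl q)ˣ} {κ₁ κ₂ : Gq q → ZMod p}
    (h₁ : IsKummer q p β₁ κ₁) (h₂ : IsKummer q p β₂ κ₂) :
    IsKummer q p (β₁ * β₂) (κ₁ + κ₂) := by
  intro τ
  rw [Pi.add_apply, zpowU_add, ← h₁ τ, ← h₂ τ, smul_mul', mul_div_mul_comm]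

theorem zpowU_zsmul (n : ℤ) (a : ZMod p) : zpowU q p (n • a) = zpowU q p a ^ n := by
  rw [zpowU, map_zsmul]; rfl

theorem IsKummer.zpow {β : (PadicAlgCl q)ˣ} {κ : Gq q → ZMod p} (h : IsKummer q p β κ) (n : ℤ) :
    IsKummer q p (β ^ n) (n • κ) := by
  intro τ
  rw [Pi.smul_apply, zpowU_zsmul, ← h τ, smul_zpow', div_zpow]

/-- A Kummer cocycle is a `1`-cocycle. -/
theorem IsKummer.map_mul {β : (PadicAlgCl q)ˣ} {κ : Gq q → ZMod p}
    (hκ : IsKummer q p β κ) (σ τ : Gq q) :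
    κ (σ * τ) = (muLoc q p).ρ σ (κ τ) + κ σ := by
  apply zpowU_injective q p
  rw [zpowU_add, ← smul_zpowU, ← hκ, ← hκ, ← hκ, smul_div', mul_smul, div_mul_div_cancel]

/-- A Kummer cocycle is constant modulo the stabiliser of `β`. -/
theorem IsKummer.map_mul_of_fixed {β : (PadicAlgCl q)ˣ} {κ : Gq q → ZMod p}
    (hκ : IsKummer q p β κ) (g s : Gq q) (hs : s (β : PadicAlgCl q) = β) : κ (g * s) = κ g := by
  apply zpowU_injective q p
  have hs' : s • β = β := by
    ext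
    rw [AlgEquiv.smul_units_def, Units.coe_map, MonoidHom.coe_coe]
    exact hs
  rw [← hκ, ← hκ, mul_smul, hs']

/-- The embedding `zpowU` turns the additive differential into the multiplicative one. -/
theorem zpowU_d₁₂ (x : Gq q → ZMod p) (σ τ : Gq q) :
    zpowU q p ((d₁₂ (muLoc q p)).hom x (σ, τ)) = dOne (fun g => zpowU q p (x g)) (σ, τ) := by
  rw [d₁₂_hom_apply, dOne_apply, zpowU_add, zpowU_sub, smul_zpowU]

/-- The embedding `zpowU` turns `cupLoc` into the multiplicative Kummer cup product. -/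
theorem zpowU_cupLoc (χ : Gq q → ZMod p) {β : (PadicAlgCl q)ˣ} {κ : Gq q → ZMod p}
    (hκ : IsKummer q p β κ) (σ τ : Gq q) :
    zpowU q p (cupLoc q p χ κ (σ, τ)) = kummerCup χ β (σ, τ) := by
  rw [cupLoc_apply, zpowU_mul, ← smul_zpowU, ← hκ, kummerCup_apply]

/-- **Local norm criterion (Prelude language).**  Let `χ : Gq q → 𝔽_p` be an additive character
with kernel `Fix(L)`, `L/ℚ_q` finite Galois, `χ s = 1`; let `β ^ p = b ∈ ℚ_q` with Kummer
cocycle `κ`.  Then `χ ∪ κ` is the coboundary of a level-constant `1`-cochain with values in `μ_p`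
iff `b` is a norm from `L`. -/
theorem cupLoc_mem_levelCoboundaries₂_iff_norm
    (L : IntermediateField ℚ_[q] (PadicAlgCl q)) [FiniteDimensional ℚ_[q] L] [IsGalois ℚ_[q] L]
    {χ : Gq q → ZMod p} (hχ : ∀ σ τ, χ (σ * τ) = χ σ + χ τ)
    (hker : ∀ g, χ g = 0 ↔ g ∈ L.fixingSubgroup) {s : Gq q} (hs : χ s = 1)
    (b : ℚ_[q]) {β : (PadicAlgCl q)ˣ}
    (hβ : (β : PadicAlgCl q) ^ p = algebraMap ℚ_[q] (PadicAlgCl q) b) {κ : Gq q → ZMod p}
    (hκ : IsKummer q p β κ) :
    cupLoc q p χ κ ∈ levelCoboundaries₂ (localGaloisToGlobal q) (muLoc q p) ↔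
      b ∈ Set.range (Algebra.norm ℚ_[q] : L → ℚ_[q]) := by
  rw [← kummerCup_coboundary_iff_norm L hχ hker hs b β hβ, mem_levelCoboundaries₂_iff]
  constructor
  · rintro ⟨x, hx, hdx⟩
    obtain ⟨E, hE, hxE⟩ := (Fermat.Agent.S55.Glue.isLevelConstant₁_localGaloisToGlobal_iff q x).1 hx
    refine ⟨fun g => zpowU q p (x g), fun σ => zpowU_pow q p _, ⟨E, hE, fun g t ht => ?_⟩,
      fun σ τ => ?_⟩
    · show zpowU q p (x (g * t)) = zpowU q p (x g)
      rw [hxE g t ht]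
    · rw [← zpowU_d₁₂, hdx, zpowU_cupLoc χ hκ]
  · rintro ⟨h, hh, ⟨F, hF, hhF⟩, hd⟩
    choose x hx using fun σ => exists_zpowU_eq q p (hh σ)
    refine ⟨x, (Fermat.Agent.S55.Glue.isLevelConstant₁_localGaloisToGlobal_iff q x).2
      ⟨F, hF, fun g t ht => ?_⟩, ?_⟩
    · apply zpowU_injective q p
      rw [hx, hx, hhF g t ht]
    · funext ⟨σ, τ⟩
      apply zpowU_injective q p
      rw [zpowU_d₁₂, zpowU_cupLoc χ hκ, ← hd σ τ]
      simp only [hx]

/-- An element of the local Galois group fixing `ζ` acts trivially on `μ_p`. -/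
theorem muLoc_ρ_of_fixed {s : Gq q} (hs : s (zetaLoc q p) = zetaLoc q p) (a : ZMod p) :
    (muLoc q p).ρ s a = a := by
  apply zpowU_injective q p
  rw [← smul_zpowU]
  ext
  rw [AlgEquiv.smul_units_def, Units.coe_map, MonoidHom.coe_coe, coe_zpowU, map_pow, hs]

/-- The action on `μ_p` is multiplication by a scalar. -/
theorem muLoc_ρ_mul (s : Gq q) (a b : ZMod p) :
    (muLoc q p).ρ s (a * b) = a * (muLoc q p).ρ s b := by
  have h := ((muLoc q p).ρ s).map_smul a b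
  exact h

theorem cupLoc_mem_cocycles₂ {χ : Gq q → ZMod p} (hχ : ∀ σ τ, χ (σ * τ) = χ σ + χ τ)
    {β : (PadicAlgCl q)ˣ} {κ : Gq q → ZMod p} (hκ : IsKummer q p β κ) :
    cupLoc q p χ κ ∈ cocycles₂ (muLoc q p) := by
  rw [mem_cocycles₂_iff]
  intro g h j
  rw [cupLoc_apply, cupLoc_apply, cupLoc_apply, cupLoc_apply, hχ, hκ.map_mul h j, map_mul,
    muLoc_ρ_mul, map_add]
  simp only [Module.End.mul_apply]
  ring

/-- `cupLoc χ κ` is a level-constant `2`-cocycle when `χ` is additive and level-constant and `κ`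
is a Kummer cocycle. -/
theorem cupLoc_mem_levelCocycles₂ {χ : Gq q → ZMod p} (hχ : ∀ σ τ, χ (σ * τ) = χ σ + χ τ)
    (hχl : IsLevelConstant₁ (localGaloisToGlobal q) χ)
    {β : (PadicAlgCl q)ˣ} {κ : Gq q → ZMod p} (hκ : IsKummer q p β κ) :
    cupLoc q p χ κ ∈ levelCocycles₂ (localGaloisToGlobal q) (muLoc q p) := by
  refine (mem_levelCocycles₂_iff _ _ _).2 ⟨cupLoc_mem_cocycles₂ hχ hκ, ?_⟩
  obtain ⟨E, hE, hχE⟩ := (Fermat.Agent.S55.Glue.isLevelConstant₁_localGaloisToGlobal_iff q χ).1 hχl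
  rw [Fermat.Agent.S55.Glue.isLevelConstant₂_localGaloisToGlobal_iff]
  have hint : ∀ x : PadicAlgCl q, IsIntegral ℚ_[q] x := fun x => Algebra.IsIntegral.isIntegral x
  have hfin : FiniteDimensional ℚ_[q]
      (IntermediateField.adjoin ℚ_[q] {(β : PadicAlgCl q), zetaLoc q p}) :=
    IntermediateField.finiteDimensional_adjoin (fun x _ => hint x)
  refine ⟨E ⊔ IntermediateField.adjoin ℚ_[q] {(β : PadicAlgCl q), zetaLoc q p},
    IntermediateField.finiteDimensional_sup _ _, fun g g' s s' hs hs' => ?_⟩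
  rw [IntermediateField.fixingSubgroup_sup] at hs hs'
  have hsE : s ∈ E.fixingSubgroup := hs.1
  have hsζ : s (zetaLoc q p) = zetaLoc q p :=
    (IntermediateField.mem_fixingSubgroup_iff _ _).1 hs.2 _
      (IntermediateField.subset_adjoin _ _ (Set.mem_insert_of_mem _ rfl))
  have hs'β : s' (β : PadicAlgCl q) = β :=
    (IntermediateField.mem_fixingSubgroup_iff _ _).1 hs'.2 _
      (IntermediateField.subset_adjoin _ _ (Set.mem_insert _ _))
  rw [cupLoc_apply, cupLoc_apply, hχE g s hsE, hκ.map_mul_of_fixed g' s' hs'β, map_mul]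
  simp only [Module.End.mul_apply]
  rw [muLoc_ρ_of_fixed hsζ]

/-- `cupLoc` is additive in the Kummer cocycle. -/
theorem cupLoc_add_right (χ κ₁ κ₂ : Gq q → ZMod p) :
    cupLoc q p χ (κ₁ + κ₂) = cupLoc q p χ κ₁ + cupLoc q p χ κ₂ := by
  funext ⟨s, t⟩
  rw [Pi.add_apply, cupLoc_apply, cupLoc_apply, cupLoc_apply, Pi.add_apply, map_add, mul_add]

theorem cupLoc_smul_right (χ κ : Gq q → ZMod p) (c : ZMod p) :
    cupLoc q p χ (c • κ) = c • cupLoc q p χ κ := by
  funext ⟨s, t⟩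
  rw [Pi.smul_apply, cupLoc_apply, cupLoc_apply, Pi.smul_apply, smul_eq_mul, muLoc_ρ_mul]
  show _ = c * _
  ring

theorem cupLoc_smul_left (χ κ : Gq q → ZMod p) (c : ZMod p) :
    cupLoc q p (c • χ) κ = c • cupLoc q p χ κ := by
  funext ⟨s, t⟩
  rw [Pi.smul_apply, cupLoc_apply, cupLoc_apply, Pi.smul_apply, smul_eq_mul]
  show _ = c * _
  ring

end Fermat.Agent.CFT.Rec.LocalCrit
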