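import Mathlib
import Fermat.Agent.S55.Shapiro.Core
import Fermat.Agent.S55.Shapiro.Level

/-!
# Corestriction of cochains and the double coset formula (CFT brick REC-K, generic part)

`G` a group, `U ≤ G` a subgroup of finite index, `M : Rep k G`.

* `cosetSum U φ` : the sum of a left-`U`-invariant function over the right cosets `U \ G`;
  `cosetSum_mul_right`, `cosetSum_mackey` (decomposition along double cosets).
* `nrm U M : coind_U^G (Res M) →ₗ M`, `f ↦ ∑_{x ∈ U \ G} ρ(x⁻¹) (f x)`, the coefficient norm;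
  it is `G`-equivariant (`nrm_ρ`).
* `cores₁ M R`, `cores₂ M R`, `cores₃ M R` : corestriction of cochains attached to a retraction
  `R : Retr U` (`= nrm ∘ ind`); they commute with the differentials, respect right invariance,
  and do not depend on `R` up to an explicit coboundary (on cocycles).
* For a homomorphism `ι : Γ →* G` and `g : G`: `locSub U ι g = ι⁻¹(g⁻¹ U g)`, the twisted
  restrictions `tw₁`, `tw₂` and the Mackey evaluation `evTw`.
* `cores₂_comp_sub_sum` : **the double coset formula on cochains**: for a 2-cocycle `z` of `U`,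
  `(cores z) ∘ (ι × ι) - ∑ᵢ cores (tw (g i) z) = d (mackeyPrim …)`, for arbitrary double coset
  representatives `g i` and arbitrary retractions; with the level statements.
-/

set_option autoImplicit false

open groupCohomology

namespace Fermat.Agent.CFT.Rec.MackeyCores

open Fermat.Agent.S55.Shapiro

variable {k : Type} [CommRing k] {G : Type} [Group G]

/-! ### Sums over right cosets -/

/-- The right cosets `U \ G`. -/
abbrev RC (U : Subgroup G) : Type := Quotient (QuotientGroup.rightRel U)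

/-- Left invariance of a function under a subgroup. -/
def LInv {X : Type*} (U : Subgroup G) (φ : G → X) : Prop :=
  ∀ (u : U) (x : G), φ ((u : G) * x) = φ x

theorem rc_out_mk (U : Subgroup G) (x : G) :
    ∃ u : U, (Quotient.mk (QuotientGroup.rightRel U) x).out = (u : G) * x := by
  have h : (QuotientGroup.rightRel U) (Quotient.mk (QuotientGroup.rightRel U) x).out x :=
    Quotient.mk_out (s := QuotientGroup.rightRel U) x
  rw [QuotientGroup.rightRel_apply] at h
  exact ⟨⟨_, U.inv_mem h⟩, by simp⟩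

theorem rc_mk_eq_iff (U : Subgroup G) (x y : G) :
    Quotient.mk (QuotientGroup.rightRel U) x = Quotient.mk (QuotientGroup.rightRel U) y ↔
      y * x⁻¹ ∈ U := by
  rw [Quotient.eq]
  exact QuotientGroup.rightRel_apply

theorem rc_mk_smul (U : Subgroup G) (u : U) (x : G) :
    Quotient.mk (QuotientGroup.rightRel U) ((u : G) * x) =
      Quotient.mk (QuotientGroup.rightRel U) x := by
  rw [rc_mk_eq_iff]
  have : x * ((u : G) * x)⁻¹ = ((u⁻¹ : U) : G) := by simp [mul_inv_rev]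
  rw [this]
  exact (u⁻¹).2

theorem LInv.apply_out {X : Type*} {U : Subgroup G} {φ : G → X} (hφ : LInv U φ) (x : G) :
    φ (Quotient.mk (QuotientGroup.rightRel U) x).out = φ x := by
  obtain ⟨u, hu⟩ := rc_out_mk U x
  rw [hu, hφ]

/-- Sum of a function over the right cosets `U \ G`, evaluated at chosen representatives. -/
noncomputable def cosetSum {X : Type*} [AddCommMonoid X] (U : Subgroup G) (φ : G → X) : X :=
  ∑ᶠ q : RC U, φ q.out

theorem cosetSum_add {X : Type*} [AddCommMonoid X] (U : Subgroup G) [Finite (RC U)]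
    (φ ψ : G → X) : cosetSum U (fun x => φ x + ψ x) = cosetSum U φ + cosetSum U ψ :=
  finsum_add_distrib (Set.toFinite _) (Set.toFinite _)

theorem map_cosetSum {X Y : Type*} [AddCommMonoid X] [AddCommMonoid Y] (U : Subgroup G)
    [Finite (RC U)] (f : X →+ Y) (φ : G → X) :
    f (cosetSum U φ) = cosetSum U (fun x => f (φ x)) :=
  map_finsum f (Set.toFinite _)

/-- Right translation permutes the right cosets. -/
theorem cosetSum_mul_right {X : Type*} [AddCommMonoid X] {U : Subgroup G} {φ : G → X}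
    (hφ : LInv U φ) (g : G) : cosetSum U (fun x => φ (x * g)) = cosetSum U φ := by
  refine finsum_eq_of_bijective
    (fun q : RC U => (Quotient.mk (QuotientGroup.rightRel U) (q.out * g) : RC U)) ⟨?_, ?_⟩ ?_
  · intro a b hab
    rw [rc_mk_eq_iff] at hab
    have h : b.out * a.out⁻¹ ∈ U := by
      have e : b.out * g * (a.out * g)⁻¹ = b.out * a.out⁻¹ := by group
      rwa [e] at hab
    rw [← Quotient.out_eq a, ← Quotient.out_eq b]
    exact (rc_mk_eq_iff U _ _).mpr h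
  · intro q
    refine ⟨Quotient.mk (QuotientGroup.rightRel U) (q.out * g⁻¹), ?_⟩
    obtain ⟨u, hu⟩ := rc_out_mk U (q.out * g⁻¹)
    show Quotient.mk (QuotientGroup.rightRel U)
      ((Quotient.mk (QuotientGroup.rightRel U) (q.out * g⁻¹)).out * g) = q
    rw [hu]
    have e : (u : G) * (q.out * g⁻¹) * g = (u : G) * q.out := by group
    rw [e, rc_mk_smul, Quotient.out_eq]
  · intro q
    exact (hφ.apply_out (q.out * g)).symm

variable {Γ : Type} [Group Γ]

/-- The subgroup `ι⁻¹(g⁻¹ U g)` of `Γ`. -/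
def locSub (U : Subgroup G) (ι : Γ →* G) (g : G) : Subgroup Γ where
  carrier := {γ | g * ι γ * g⁻¹ ∈ U}
  mul_mem' := by
    intro a b ha hb
    have h := U.mul_mem ha hb
    have e : g * ι a * g⁻¹ * (g * ι b * g⁻¹) = g * ι (a * b) * g⁻¹ := by
      rw [map_mul]; group
    rw [e] at h
    exact h
  one_mem' := by
    show g * ι 1 * g⁻¹ ∈ U
    rw [map_one, mul_one, mul_inv_cancel]
    exact U.one_mem
  inv_mem' := by
    intro a ha
    have h := U.inv_mem ha
    have e : (g * ι a * g⁻¹)⁻¹ = g * ι a⁻¹ * g⁻¹ := by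
      rw [map_inv]; group
    rw [e] at h
    exact h

theorem mem_locSub {U : Subgroup G} {ι : Γ →* G} {g : G} {γ : Γ} :
    γ ∈ locSub U ι g ↔ g * ι γ * g⁻¹ ∈ U := Iff.rfl

/-- Conjugation by `g` from the local subgroup to `U`. -/
def conjHom (U : Subgroup G) (ι : Γ →* G) (g : G) : locSub U ι g →* U where
  toFun γ := ⟨g * ι (γ : Γ) * g⁻¹, γ.2⟩
  map_one' := by
    apply Subtype.ext
    show g * ι ((1 : locSub U ι g) : Γ) * g⁻¹ = 1
    rw [Subgroup.coe_one, map_one, mul_one, mul_inv_cancel]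
  map_mul' a b := by
    apply Subtype.ext
    show g * ι ((a * b : locSub U ι g) : Γ) * g⁻¹ = g * ι (a : Γ) * g⁻¹ * (g * ι (b : Γ) * g⁻¹)
    rw [Subgroup.coe_mul, map_mul]; group

theorem conjHom_coe (U : Subgroup G) (ι : Γ →* G) (g : G) (γ : locSub U ι g) :
    (conjHom U ι g γ : G) = g * ι (γ : Γ) * g⁻¹ := rfl

theorem conjHom_mul_self (U : Subgroup G) (ι : Γ →* G) (g : G) (γ : locSub U ι g) (δ : Γ) :
    (conjHom U ι g γ : G) * (g * ι δ) = g * ι ((γ : Γ) * δ) := by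
  rw [conjHom_coe, map_mul]; group

/-- `(g i)` is a system of representatives of the double cosets `U \ G / ι(Γ)`. -/
structure IsDCReps (U : Subgroup G) (ι : Γ →* G) {I : Type} (g : I → G) : Prop where
  surj : ∀ x : G, ∃ i, ∃ u : U, ∃ γ : Γ, x = (u : G) * g i * ι γ
  inj : ∀ (i j : I) (u : U) (γ : Γ), g j = (u : G) * g i * ι γ → i = j

/-- The map `⨆ᵢ Vᵢ \ Γ → U \ G` of the double coset decomposition. -/
noncomputable def dcMap (U : Subgroup G) (ι : Γ →* G) {I : Type} (g : I → G) :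
    (Σ i, RC (locSub U ι (g i))) → RC U :=
  fun p => Quotient.mk (QuotientGroup.rightRel U) (g p.1 * ι p.2.out)

theorem dcMap_injective_snd (U : Subgroup G) (ι : Γ →* G) (g₀ : G) :
    Function.Injective (fun y : RC (locSub U ι g₀) =>
      (Quotient.mk (QuotientGroup.rightRel U) (g₀ * ι y.out) : RC U)) := by
  intro y y' h
  rw [rc_mk_eq_iff] at h
  have h2 : y'.out * y.out⁻¹ ∈ locSub U ι g₀ := by
    rw [mem_locSub]
    have e : g₀ * ι y'.out * (g₀ * ι y.out)⁻¹ = g₀ * ι (y'.out * y.out⁻¹) * g₀⁻¹ := by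
      rw [map_mul, map_inv]; group
    rwa [e] at h
  rw [← Quotient.out_eq y, ← Quotient.out_eq y']
  exact (rc_mk_eq_iff _ _ _).mpr h2

theorem dcMap_bijective {U : Subgroup G} {ι : Γ →* G} {I : Type} {g : I → G}
    (hg : IsDCReps U ι g) : Function.Bijective (dcMap U ι g) := by
  constructor
  · rintro ⟨i, y⟩ ⟨j, y'⟩ h
    have h' := h
    unfold dcMap at h'
    rw [rc_mk_eq_iff] at h'
    have hij : i = j := by
      refine hg.inj i j ⟨_, h'⟩ (y.out * y'.out⁻¹) ?_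
      show g j = g j * ι y'.out * (g i * ι y.out)⁻¹ * g i * ι (y.out * y'.out⁻¹)
      rw [map_mul, map_inv]; group
    subst hij
    have hy : y = y' := dcMap_injective_snd U ι (g i) h
    rw [hy]
  · intro q
    obtain ⟨i, u, γ, hx⟩ := hg.surj q.out
    refine ⟨⟨i, Quotient.mk (QuotientGroup.rightRel (locSub U ι (g i))) γ⟩, ?_⟩
    obtain ⟨v, hv⟩ := rc_out_mk (locSub U ι (g i)) γ
    show Quotient.mk (QuotientGroup.rightRel U)
      (g i * ι (Quotient.mk (QuotientGroup.rightRel (locSub U ι (g i))) γ).out) = q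
    rw [hv, ← conjHom_mul_self U ι (g i) v γ, rc_mk_smul]
    have e : g i * ι γ = ((u⁻¹ : U) : G) * q.out := by
      rw [hx]; simp [mul_assoc]
    rw [e, rc_mk_smul, Quotient.out_eq]

instance finite_rc_locSub (U : Subgroup G) [Finite (RC U)] (ι : Γ →* G) (g₀ : G) :
    Finite (RC (locSub U ι g₀)) :=
  Finite.of_injective _ (dcMap_injective_snd U ι g₀)

theorem IsDCReps.finite {U : Subgroup G} [Finite (RC U)] {ι : Γ →* G} {I : Type} {g : I → G}
    (hg : IsDCReps U ι g) : Finite I := by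
  have : Finite (Σ i, RC (locSub U ι (g i))) :=
    Finite.of_injective _ (dcMap_bijective hg).1
  exact Finite.of_surjective (fun p : (Σ i, RC (locSub U ι (g i))) => p.1)
    (fun i => ⟨⟨i, Quotient.mk _ 1⟩, rfl⟩)

/-- **Double coset decomposition of a coset sum.** -/
theorem cosetSum_mackey {X : Type*} [AddCommMonoid X] {U : Subgroup G} [Finite (RC U)]
    {ι : Γ →* G} {I : Type} [Fintype I] {g : I → G} (hg : IsDCReps U ι g) {φ : G → X}
    (hφ : LInv U φ) :
    cosetSum U φ = ∑ i, cosetSum (locSub U ι (g i)) (fun δ => φ (g i * ι δ)) := by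
  classical
  let _ : ∀ i, Fintype (RC (locSub U ι (g i))) := fun i => Fintype.ofFinite _
  have h1 : cosetSum U φ = ∑ᶠ p : (Σ i, RC (locSub U ι (g i))), φ (g p.1 * ι p.2.out) := by
    symm
    refine finsum_eq_of_bijective (dcMap U ι g) (dcMap_bijective hg) ?_
    intro p
    exact (hφ.apply_out _).symm
  rw [h1, finsum_eq_sum_of_fintype, Fintype.sum_sigma]
  refine Finset.sum_congr rfl fun i _ => ?_
  unfold cosetSum
  rw [finsum_eq_sum_of_fintype]

instance finite_rc_of_finiteIndex (U : Subgroup G) [U.FiniteIndex] : Finite (RC U) :=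
  Finite.of_equiv _ (QuotientGroup.quotientRightRelEquivQuotientLeftRel U).symm

/-- Representatives of the double cosets exist. -/
theorem exists_isDCReps (U : Subgroup G) [Finite (RC U)] (ι : Γ →* G) :
    ∃ (I : Type) (_ : Fintype I) (g : I → G), IsDCReps U ι g := by
  have h : IsDCReps U ι
      (fun q : DoubleCoset.Quotient (U : Set G) (ι.range : Set G) => Quotient.out q) := by
    constructor
    · intro x
      obtain ⟨h, k, hh, hk, e⟩ := DoubleCoset.mk_out_eq_mul U ι.range x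
      obtain ⟨γ, rfl⟩ := hk
      refine ⟨DoubleCoset.mk U ι.range x, ⟨h⁻¹, U.inv_mem hh⟩, γ⁻¹, ?_⟩
      show x = h⁻¹ * Quotient.out (DoubleCoset.mk U ι.range x) * ι γ⁻¹
      rw [e, map_inv]; group
    · intro i j u γ e
      have h1 : DoubleCoset.mk U ι.range (Quotient.out i) =
          DoubleCoset.mk U ι.range (Quotient.out j) :=
        (DoubleCoset.eq U ι.range _ _).mpr ⟨u, u.2, ι γ, ⟨γ, rfl⟩, e⟩
      rwa [DoubleCoset.out_eq', DoubleCoset.out_eq'] at h1
  have hfin := h.finite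
  exact ⟨_, Fintype.ofFinite _, _, h⟩

/-! ### Equivariant maps and differentials -/

section Equivariant

variable {H : Type} [Group H]

/-- A `k`-linear map which is equivariant along a group homomorphism commutes with `d₁₂`
(after pulling the cochain back). -/
theorem equivariant_d₁₂ (f : H →* G) (A : Rep.{0} k G) (B : Rep.{0} k H) (φ : A →ₗ[k] B)
    (hφ : ∀ (h : H) (a : A), φ (A.ρ (f h) a) = B.ρ h (φ a)) (c : G → A) :
    (fun p : H × H => φ ((d₁₂ A).hom c (f p.1, f p.2))) =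
      (d₁₂ B).hom (fun h => φ (c (f h))) := by
  funext p
  rw [d₁₂_hom_apply, d₁₂_hom_apply, map_add, map_sub, hφ, map_mul]

/-- A `k`-linear map which is equivariant along a group homomorphism commutes with `d₂₃`
(after pulling the cochain back). -/
theorem equivariant_d₂₃ (f : H →* G) (A : Rep.{0} k G) (B : Rep.{0} k H) (φ : A →ₗ[k] B)
    (hφ : ∀ (h : H) (a : A), φ (A.ρ (f h) a) = B.ρ h (φ a)) (c : G × G → A) :
    (fun p : H × H × H => φ ((d₂₃ A).hom c (f p.1, f p.2.1, f p.2.2))) =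
      (d₂₃ B).hom (fun p : H × H => φ (c (f p.1, f p.2))) := by
  funext p
  rw [d₂₃_hom_apply, d₂₃_hom_apply, map_sub, map_add, map_sub, hφ, map_mul, map_mul]

end Equivariant

/-! ### The coefficient norm -/

section Norm

variable (U : Subgroup G) (M : Rep.{0} k G)

/-- The summand of the coefficient norm. -/
def nrmTerm (f : Rep.coind U.subtype (Rep.res U.subtype M)) (x : G) : M := M.ρ x⁻¹ (f.1 x)

theorem nrmTerm_linv (f : Rep.coind U.subtype (Rep.res U.subtype M)) :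
    LInv U (nrmTerm U M f) := by
  intro u x
  show M.ρ ((u : G) * x)⁻¹ (f.1 ((u : G) * x)) = M.ρ x⁻¹ (f.1 x)
  rw [coind_apply_smul]
  show M.ρ ((u : G) * x)⁻¹ (M.ρ (u : G) (f.1 x)) = M.ρ x⁻¹ (f.1 x)
  rw [← Module.End.mul_apply, ← map_mul]
  congr 2
  group

variable [Finite (RC U)]

/-- The coefficient norm `coind_U^G (Res M) → M`, `f ↦ ∑_{x ∈ U \ G} ρ(x⁻¹) (f x)`. -/
noncomputable def nrm : Rep.coind U.subtype (Rep.res U.subtype M) →ₗ[k] M where
  toFun f := cosetSum U (nrmTerm U M f)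
  map_add' f f' := by
    rw [← cosetSum_add]
    congr 1
    funext x
    show M.ρ x⁻¹ ((f + f').1 x) = M.ρ x⁻¹ (f.1 x) + M.ρ x⁻¹ (f'.1 x)
    rw [coind_add_apply, map_add]
  map_smul' c f := by
    have h := map_cosetSum U (DistribSMul.toAddMonoidHom (↑M) c) (nrmTerm U M f)
    show cosetSum U (nrmTerm U M (c • f)) = c • cosetSum U (nrmTerm U M f)
    refine Eq.trans ?_ h.symm
    congr 1
    funext x
    show M.ρ x⁻¹ ((c • f).1 x) = c • M.ρ x⁻¹ (f.1 x)
    rw [← map_smul]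
    rfl

theorem nrm_apply (f : Rep.coind U.subtype (Rep.res U.subtype M)) :
    nrm U M f = cosetSum U (nrmTerm U M f) := rfl

/-- The coefficient norm is `G`-equivariant. -/
theorem nrm_ρ (g : G) (f : Rep.coind U.subtype (Rep.res U.subtype M)) :
    nrm U M ((Rep.coind U.subtype (Rep.res U.subtype M)).ρ g f) = M.ρ g (nrm U M f) := by
  rw [nrm_apply, nrm_apply]
  have h := map_cosetSum U ((M.ρ g : M →ₗ[k] M) : M →+ M) (nrmTerm U M f)
  refine Eq.trans ?_ h.symm
  have h2 := cosetSum_mul_right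
    (φ := fun x => ((M.ρ g : M →ₗ[k] M) : M →+ M) (nrmTerm U M f x)) (U := U) ?_ g
  · rw [← h2]
    congr 1
    funext x
    show M.ρ x⁻¹ (f.1 (x * g)) = M.ρ g (M.ρ (x * g)⁻¹ (f.1 (x * g)))
    rw [← Module.End.mul_apply, ← map_mul]
    congr 2
    group
  · intro u x
    show M.ρ g (nrmTerm U M f ((u : G) * x)) = M.ρ g (nrmTerm U M f x)
    rw [nrmTerm_linv]

end Norm

/-! ### Corestriction of cochains -/

section Cores

variable {U : Subgroup G} [Finite (RC U)] (M : Rep.{0} k G) (R : Retr U)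

/-- Corestriction of 1-cochains attached to a retraction: `nrm ∘ ind₁`. -/
noncomputable def cores₁ : (U → Rep.res U.subtype M) →ₗ[k] (G → M) :=
  (nrm U M).compLeft G ∘ₗ ind₁ (Rep.res U.subtype M) R

/-- Corestriction of 2-cochains attached to a retraction: `nrm ∘ ind₂`. -/
noncomputable def cores₂ : (U × U → Rep.res U.subtype M) →ₗ[k] (G × G → M) :=
  (nrm U M).compLeft (G × G) ∘ₗ ind₂ (Rep.res U.subtype M) R

/-- Corestriction of 3-cochains attached to a retraction: `nrm ∘ ind₃`. -/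
noncomputable def cores₃ : (U × U × U → Rep.res U.subtype M) →ₗ[k] (G × G × G → M) :=
  (nrm U M).compLeft (G × G × G) ∘ₗ ind₃ (Rep.res U.subtype M) R

theorem cores₁_apply (β : U → Rep.res U.subtype M) (g : G) :
    cores₁ M R β g = nrm U M (ind₁ (Rep.res U.subtype M) R β g) := rfl

theorem cores₂_apply (β : U × U → Rep.res U.subtype M) (p : G × G) :
    cores₂ M R β p = nrm U M (ind₂ (Rep.res U.subtype M) R β p) := rfl

theorem cores₃_apply (β : U × U × U → Rep.res U.subtype M) (p : G × G × G) :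
    cores₃ M R β p = nrm U M (ind₃ (Rep.res U.subtype M) R β p) := rfl

/-- The explicit transfer formula for `cores₂`. -/
theorem cores₂_apply' (β : U × U → Rep.res U.subtype M) (p : G × G) :
    cores₂ M R β p =
      cosetSum U (fun x => M.ρ (R.tinv x) (β (R.uu x p.1, R.uu (x * p.1) p.2))) := by
  rw [cores₂_apply, nrm_apply]
  congr 1
  funext x
  show M.ρ x⁻¹ (M.ρ (R.r x : G) (β (R.uu x p.1, R.uu (x * p.1) p.2))) = _
  rw [← Module.End.mul_apply, ← map_mul]
  rfl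

/-- The coefficient norm commutes with `d₁₂`. -/
theorem nrm_d₁₂ (c : G → Rep.coind U.subtype (Rep.res U.subtype M)) :
    (fun p : G × G => nrm U M ((d₁₂ (Rep.coind U.subtype (Rep.res U.subtype M))).hom c p)) =
      (d₁₂ M).hom (fun g => nrm U M (c g)) :=
  equivariant_d₁₂ (MonoidHom.id G) _ M (nrm U M) (fun h a => nrm_ρ U M h a) c

/-- The coefficient norm commutes with `d₂₃`. -/
theorem nrm_d₂₃ (c : G × G → Rep.coind U.subtype (Rep.res U.subtype M)) :
    (fun p : G × G × G =>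
        nrm U M ((d₂₃ (Rep.coind U.subtype (Rep.res U.subtype M))).hom c p)) =
      (d₂₃ M).hom (fun p => nrm U M (c p)) :=
  equivariant_d₂₃ (MonoidHom.id G) _ M (nrm U M) (fun h a => nrm_ρ U M h a) c

/-- Corestriction commutes with the differential `d₁₂`. -/
theorem cores₂_d₁₂ (β : U → Rep.res U.subtype M) :
    cores₂ M R ((d₁₂ (Rep.res U.subtype M)).hom β) = (d₁₂ M).hom (cores₁ M R β) := by
  have h := nrm_d₁₂ M (ind₁ (Rep.res U.subtype M) R β)
  rw [← ind₂_d₁₂] at h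
  exact h

/-- Corestriction commutes with the differential `d₂₃`. -/
theorem cores₃_d₂₃ (β : U × U → Rep.res U.subtype M) :
    cores₃ M R ((d₂₃ (Rep.res U.subtype M)).hom β) = (d₂₃ M).hom (cores₂ M R β) := by
  have h := nrm_d₂₃ M (ind₂ (Rep.res U.subtype M) R β)
  rw [← ind₃_d₂₃] at h
  exact h

/-- Corestriction of a 2-cocycle is a 2-cocycle. -/
theorem cores₂_mem_cocycles₂ {z : U × U → Rep.res U.subtype M}
    (hz : z ∈ cocycles₂ (Rep.res U.subtype M)) : cores₂ M R z ∈ cocycles₂ M := by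
  have h : (d₂₃ (Rep.res U.subtype M)).hom z = 0 := LinearMap.mem_ker.mp hz
  refine LinearMap.mem_ker.mpr ?_
  rw [← cores₃_d₂₃, h, map_zero]

/-- Right invariance of the corestriction of a 1-cochain. -/
theorem rinv₁_cores₁ {N : Subgroup G} [N.Normal] (hNU : N ≤ U) {β : U → Rep.res U.subtype M}
    (hβ : RInv₁ (N.subgroupOf U) β) : RInv₁ N (cores₁ M R β) := by
  intro g s hs
  rw [cores₁_apply, cores₁_apply, rinv₁_ind₁ R hNU hβ g s hs]

/-- Right invariance of the corestriction of a 2-cochain. -/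
theorem rinv₂_cores₂ {N : Subgroup G} [N.Normal] (hNU : N ≤ U)
    {β : U × U → Rep.res U.subtype M} (hβ : RInv₂ (N.subgroupOf U) β) :
    RInv₂ N (cores₂ M R β) := by
  intro g g' s s' hs hs'
  rw [cores₂_apply, cores₂_apply, rinv₂_ind₂ R hNU hβ g g' s s' hs hs']

/-- The primitive of the difference of two corestrictions of a 2-cocycle. -/
noncomputable def coresPrim (R R' : Retr U) (z : U × U → Rep.res U.subtype M) : G → M :=
  fun g => nrm U M (hom₁ (Rep.res U.subtype M) R (ind₂ (Rep.res U.subtype M) R' z) g)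

/-- **Independence of the retraction**: on cocycles, two corestrictions differ by an explicit
coboundary. -/
theorem cores₂_sub_cores₂ (R' : Retr U) {z : U × U → Rep.res U.subtype M}
    (hz : z ∈ cocycles₂ (Rep.res U.subtype M)) :
    cores₂ M R z - cores₂ M R' z = (d₁₂ M).hom (coresPrim M R R' z) := by
  have h0 : (d₂₃ (Rep.res U.subtype M)).hom z = 0 := LinearMap.mem_ker.mp hz
  have h := ind₂_sh₂_sub R (ind₂ (Rep.res U.subtype M) R' z)
  rw [sh₂_ind₂, ← ind₃_d₂₃, h0, map_zero, map_zero, add_zero] at h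
  have h2 := nrm_d₁₂ M (hom₁ (Rep.res U.subtype M) R (ind₂ (Rep.res U.subtype M) R' z))
  rw [← h] at h2
  refine Eq.trans ?_ h2
  funext p
  show nrm U M (ind₂ (Rep.res U.subtype M) R z p) - nrm U M (ind₂ (Rep.res U.subtype M) R' z p) =
    nrm U M ((ind₂ (Rep.res U.subtype M) R z - ind₂ (Rep.res U.subtype M) R' z) p)
  rw [Pi.sub_apply, map_sub]

theorem rinv₁_coresPrim (R' : Retr U) {N : Subgroup G} [N.Normal] (hNU : N ≤ U)
    {z : U × U → Rep.res U.subtype M} (hz : RInv₂ (N.subgroupOf U) z) :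
    RInv₁ N (coresPrim M R R' z) := by
  intro g s hs
  show nrm U M (hom₁ (Rep.res U.subtype M) R (ind₂ (Rep.res U.subtype M) R' z) (g * s)) =
    nrm U M (hom₁ (Rep.res U.subtype M) R (ind₂ (Rep.res U.subtype M) R' z) g)
  rw [rinv₁_hom₁ R hNU (rinv₂_ind₂ R' hNU hz) g s hs]

end Cores

/-! ### Inner automorphisms act trivially (explicit homotopy in degree 2) -/

section Inner

variable {H : Type} [Group H] (A : Rep.{0} k H)

/-- The conjugate of a 2-cochain by `v`: `(x, y) ↦ v • z (v⁻¹ x v, v⁻¹ y v)`. -/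
def innerTw (v : H) (z : H × H → A) : H × H → A :=
  fun p => A.ρ v (z (v⁻¹ * p.1 * v, v⁻¹ * p.2 * v))

/-- The homotopy between the conjugate of a 2-cocycle and the cocycle. -/
def innerHom (v : H) (z : H × H → A) : H → A :=
  fun x => z (v, v⁻¹ * x * v) - z (x, v)

/-- A 2-cocycle and its conjugate by `v` differ by an explicit coboundary. -/
theorem innerTw_sub (v : H) {z : H × H → A} (hz : z ∈ cocycles₂ A) :
    innerTw A v z - z = (d₁₂ A).hom (innerHom A v z) := by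
  have hc := (mem_cocycles₂_iff z).mp hz
  funext p
  obtain ⟨x, y⟩ := p
  rw [d₁₂_hom_apply]
  show A.ρ v (z (v⁻¹ * x * v, v⁻¹ * y * v)) - z (x, y) =
    A.ρ x (z (v, v⁻¹ * y * v) - z (y, v)) - (z (v, v⁻¹ * (x * y) * v) - z (x * y, v))
      + (z (v, v⁻¹ * x * v) - z (x, v))
  have i1 := hc x y v
  have i2 := hc x v (v⁻¹ * y * v)
  have i3 := hc v (v⁻¹ * x * v) (v⁻¹ * y * v)
  have e1 : v * (v⁻¹ * y * v) = y * v := by group
  have e2 : v * (v⁻¹ * x * v) = x * v := by group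
  have e3 : v⁻¹ * x * v * (v⁻¹ * y * v) = v⁻¹ * (x * y) * v := by group
  rw [e1] at i2
  rw [e2, e3] at i3
  rw [map_sub]
  have j1 : A.ρ x (z (y, v)) = z (x * y, v) + z (x, y) - z (x, y * v) :=
    eq_sub_of_add_eq i1.symm
  have j2 : A.ρ x (z (v, v⁻¹ * y * v)) = z (x * v, v⁻¹ * y * v) + z (x, v) - z (x, y * v) :=
    eq_sub_of_add_eq i2.symm
  have j3 : A.ρ v (z (v⁻¹ * x * v, v⁻¹ * y * v)) =
      z (x * v, v⁻¹ * y * v) + z (v, v⁻¹ * x * v) - z (v, v⁻¹ * (x * y) * v) :=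
    eq_sub_of_add_eq i3.symm
  rw [j1, j2, j3]
  abel

theorem rinv₁_innerHom (v : H) {N : Subgroup H} [hN : N.Normal] {z : H × H → A}
    (hz : RInv₂ N z) : RInv₁ N (innerHom A v z) := by
  intro x s hs
  show z (v, v⁻¹ * (x * s) * v) - z (x * s, v) = z (v, v⁻¹ * x * v) - z (x, v)
  have e : v⁻¹ * (x * s) * v = v⁻¹ * x * v * (v⁻¹ * s * v) := by group
  have hs' : v⁻¹ * s * v ∈ N := by
    have := hN.conj_mem s hs v⁻¹
    simpa using this
  have h1 := hz v (v⁻¹ * x * v) 1 (v⁻¹ * s * v) N.one_mem hs'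
  have h2 := hz x v s 1 hs N.one_mem
  rw [mul_one] at h1 h2
  rw [e, h1, h2]

end Inner

/-! ### Twisted restriction to the local subgroups and the Mackey evaluation -/

section Twist

variable (U : Subgroup G) (M : Rep.{0} k G) (ι : Γ →* G) (g₀ : G)

/-- Twisted restriction of 1-cochains: `γ ↦ g₀⁻¹ • β (g₀ ι(γ) g₀⁻¹)`. -/
def tw₁ : (U → Rep.res U.subtype M) →ₗ[k]
    (locSub U ι g₀ → Rep.res (locSub U ι g₀).subtype (Rep.res ι M)) where
  toFun β γ := M.ρ g₀⁻¹ (β (conjHom U ι g₀ γ))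
  map_add' _ _ := funext fun _ => map_add (M.ρ g₀⁻¹) _ _
  map_smul' c _ := funext fun _ => map_smul (M.ρ g₀⁻¹) c _

/-- Twisted restriction of 2-cochains:
`(γ, γ') ↦ g₀⁻¹ • β (g₀ ι(γ) g₀⁻¹, g₀ ι(γ') g₀⁻¹)`. -/
def tw₂ : (U × U → Rep.res U.subtype M) →ₗ[k]
    (locSub U ι g₀ × locSub U ι g₀ → Rep.res (locSub U ι g₀).subtype (Rep.res ι M)) where
  toFun β p := M.ρ g₀⁻¹ (β (conjHom U ι g₀ p.1, conjHom U ι g₀ p.2))
  map_add' _ _ := funext fun _ => map_add (M.ρ g₀⁻¹) _ _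
  map_smul' c _ := funext fun _ => map_smul (M.ρ g₀⁻¹) c _

theorem tw₁_apply (β : U → Rep.res U.subtype M) (γ : locSub U ι g₀) :
    tw₁ U M ι g₀ β γ = M.ρ g₀⁻¹ (β (conjHom U ι g₀ γ)) := rfl

theorem tw₂_apply (β : U × U → Rep.res U.subtype M) (p : locSub U ι g₀ × locSub U ι g₀) :
    tw₂ U M ι g₀ β p = M.ρ g₀⁻¹ (β (conjHom U ι g₀ p.1, conjHom U ι g₀ p.2)) := rfl

theorem ρ_inv_conjHom (γ : locSub U ι g₀) (a : M) :
    M.ρ g₀⁻¹ (M.ρ (conjHom U ι g₀ γ : G) a) = M.ρ (ι (γ : Γ)) (M.ρ g₀⁻¹ a) := by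
  rw [← Module.End.mul_apply, ← Module.End.mul_apply, ← map_mul, ← map_mul, conjHom_coe]
  congr 2
  group

/-- Twisted restriction commutes with `d₁₂`. -/
theorem tw₂_d₁₂ (β : U → Rep.res U.subtype M) :
    tw₂ U M ι g₀ ((d₁₂ (Rep.res U.subtype M)).hom β) =
      (d₁₂ (Rep.res (locSub U ι g₀).subtype (Rep.res ι M))).hom (tw₁ U M ι g₀ β) :=
  equivariant_d₁₂ (conjHom U ι g₀) (Rep.res U.subtype M)
    (Rep.res (locSub U ι g₀).subtype (Rep.res ι M)) (M.ρ g₀⁻¹)
    (fun h a => ρ_inv_conjHom U M ι g₀ h a) β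

/-- Twisted restriction of a 2-cocycle is a 2-cocycle. -/
theorem tw₂_mem_cocycles₂ {z : U × U → Rep.res U.subtype M}
    (hz : z ∈ cocycles₂ (Rep.res U.subtype M)) :
    tw₂ U M ι g₀ z ∈ cocycles₂ (Rep.res (locSub U ι g₀).subtype (Rep.res ι M)) := by
  have h : (d₂₃ (Rep.res U.subtype M)).hom z = 0 := LinearMap.mem_ker.mp hz
  refine LinearMap.mem_ker.mpr ?_
  have h2 := equivariant_d₂₃ (conjHom U ι g₀) (Rep.res U.subtype M)
    (Rep.res (locSub U ι g₀).subtype (Rep.res ι M)) (M.ρ g₀⁻¹)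
    (fun h a => ρ_inv_conjHom U M ι g₀ h a) z
  rw [h] at h2
  refine Eq.trans h2.symm ?_
  funext p
  exact map_zero (M.ρ g₀⁻¹)

theorem comap_le_locSub {N : Subgroup G} [hN : N.Normal] (hNU : N ≤ U) :
    N.comap ι ≤ locSub U ι g₀ := by
  intro γ hγ
  exact hNU (hN.conj_mem _ (Subgroup.mem_comap.mp hγ) g₀)

theorem conjHom_mem_of_mem {N : Subgroup G} [hN : N.Normal] {s : locSub U ι g₀}
    (hs : s ∈ (N.comap ι).subgroupOf (locSub U ι g₀)) :
    conjHom U ι g₀ s ∈ N.subgroupOf U := by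
  rw [Subgroup.mem_subgroupOf, conjHom_coe]
  exact hN.conj_mem _ (Subgroup.mem_comap.mp (Subgroup.mem_subgroupOf.mp hs)) g₀

theorem rinv₁_tw₁ {N : Subgroup G} [N.Normal] {β : U → Rep.res U.subtype M}
    (hβ : RInv₁ (N.subgroupOf U) β) :
    RInv₁ ((N.comap ι).subgroupOf (locSub U ι g₀)) (tw₁ U M ι g₀ β) := by
  intro γ s hs
  rw [tw₁_apply, tw₁_apply, map_mul, hβ _ _ (conjHom_mem_of_mem U ι g₀ hs)]

theorem rinv₂_tw₂ {N : Subgroup G} [N.Normal] {β : U × U → Rep.res U.subtype M}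
    (hβ : RInv₂ (N.subgroupOf U) β) :
    RInv₂ ((N.comap ι).subgroupOf (locSub U ι g₀)) (tw₂ U M ι g₀ β) := by
  intro γ γ' s s' hs hs'
  rw [tw₂_apply, tw₂_apply]
  show M.ρ g₀⁻¹ (β (conjHom U ι g₀ (γ * s), conjHom U ι g₀ (γ' * s'))) = _
  rw [map_mul, map_mul,
    hβ _ _ _ _ (conjHom_mem_of_mem U ι g₀ hs) (conjHom_mem_of_mem U ι g₀ hs')]

/-- The Mackey evaluation `coind_U^G (Res M) → coind_V^Γ (Res M)`, `f ↦ (δ ↦ g₀⁻¹ • f (g₀ ι(δ)))`,
`V = locSub U ι g₀`. -/
def evTw : Rep.coind U.subtype (Rep.res U.subtype M) →ₗ[k]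
    Rep.coind (locSub U ι g₀).subtype (Rep.res (locSub U ι g₀).subtype (Rep.res ι M)) where
  toFun f := ⟨fun δ => M.ρ g₀⁻¹ (f.1 (g₀ * ι δ)), fun v δ => by
    show M.ρ g₀⁻¹ (f.1 (g₀ * ι ((v : Γ) * δ))) = M.ρ (ι (v : Γ)) (M.ρ g₀⁻¹ (f.1 (g₀ * ι δ)))
    rw [← conjHom_mul_self U ι g₀ v δ, coind_apply_smul]
    exact ρ_inv_conjHom U M ι g₀ v _⟩
  map_add' f f' := Subtype.ext (funext fun δ => map_add (M.ρ g₀⁻¹) _ _)
  map_smul' c f := Subtype.ext (funext fun δ => map_smul (M.ρ g₀⁻¹) c _)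

theorem evTw_apply (f : Rep.coind U.subtype (Rep.res U.subtype M)) (δ : Γ) :
    (evTw U M ι g₀ f).1 δ = M.ρ g₀⁻¹ (f.1 (g₀ * ι δ)) := rfl

/-- The Mackey evaluation is equivariant along `ι`. -/
theorem evTw_ρ (γ : Γ) (f : Rep.coind U.subtype (Rep.res U.subtype M)) :
    evTw U M ι g₀ ((Rep.coind U.subtype (Rep.res U.subtype M)).ρ (ι γ) f) =
      (Rep.coind (locSub U ι g₀).subtype (Rep.res (locSub U ι g₀).subtype (Rep.res ι M))).ρ γ
        (evTw U M ι g₀ f) := by
  apply Subtype.ext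
  funext δ
  show M.ρ g₀⁻¹ (f.1 (g₀ * ι δ * ι γ)) = M.ρ g₀⁻¹ (f.1 (g₀ * ι (δ * γ)))
  rw [map_mul, mul_assoc]

theorem nrmTerm_evTw (f : Rep.coind U.subtype (Rep.res U.subtype M)) (δ : Γ) :
    nrmTerm (locSub U ι g₀) (Rep.res ι M) (evTw U M ι g₀ f) δ = nrmTerm U M f (g₀ * ι δ) := by
  show M.ρ (ι δ⁻¹) (M.ρ g₀⁻¹ (f.1 (g₀ * ι δ))) = M.ρ (g₀ * ι δ)⁻¹ (f.1 (g₀ * ι δ))
  rw [← Module.End.mul_apply, ← map_mul]
  congr 2
  rw [map_inv]; group

end Twist

/-! ### The double coset formula -/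

section Mackey

variable {U : Subgroup G} [Finite (RC U)] (M : Rep.{0} k G) (ι : Γ →* G)

/-- **Mackey decomposition of the coefficient norm.** -/
theorem nrm_eq_sum_evTw {I : Type} [Fintype I] {g : I → G} (hg : IsDCReps U ι g)
    (f : Rep.coind U.subtype (Rep.res U.subtype M)) :
    nrm U M f = ∑ i, nrm (locSub U ι (g i)) (Rep.res ι M) (evTw U M ι (g i) f) := by
  rw [nrm_apply, cosetSum_mackey hg (nrmTerm_linv U M f)]
  refine Finset.sum_congr rfl fun i _ => ?_
  rw [nrm_apply]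
  congr 1
  funext δ
  exact (nrmTerm_evTw U M ι (g i) f δ).symm

variable (R : Retr U) (g₀ : G)

/-- The induced cochain of `z`, restricted along `ι` and evaluated at the double coset of `g₀`. -/
def mackeyCochain (z : U × U → Rep.res U.subtype M) : Γ × Γ →
    Rep.coind (locSub U ι g₀).subtype (Rep.res (locSub U ι g₀).subtype (Rep.res ι M)) :=
  fun p => evTw U M ι g₀ (ind₂ (Rep.res U.subtype M) R z (ι p.1, ι p.2))

omit [Finite (RC U)] in
theorem mackeyCochain_mem_cocycles₂ {z : U × U → Rep.res U.subtype M}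
    (hz : z ∈ cocycles₂ (Rep.res U.subtype M)) :
    mackeyCochain M ι R g₀ z ∈ cocycles₂
      (Rep.coind (locSub U ι g₀).subtype (Rep.res (locSub U ι g₀).subtype (Rep.res ι M))) := by
  have h : (d₂₃ (Rep.res U.subtype M)).hom z = 0 := LinearMap.mem_ker.mp hz
  refine LinearMap.mem_ker.mpr ?_
  have h2 := equivariant_d₂₃ ι (Rep.coind U.subtype (Rep.res U.subtype M))
    (Rep.coind (locSub U ι g₀).subtype (Rep.res (locSub U ι g₀).subtype (Rep.res ι M)))
    (evTw U M ι g₀) (fun γ a => evTw_ρ U M ι g₀ γ a) (ind₂ (Rep.res U.subtype M) R z)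
  rw [← ind₃_d₂₃, h, map_zero] at h2
  refine Eq.trans h2.symm ?_
  funext p
  exact map_zero (evTw U M ι g₀)

omit [Finite (RC U)] in
theorem retr_r_mul_conj (γ : locSub U ι g₀) (δ : Γ) :
    R.r (g₀ * ι ((γ : Γ) * δ)) = conjHom U ι g₀ γ * R.r (g₀ * ι δ) := by
  rw [← conjHom_mul_self U ι g₀ γ δ, R.map_mul']

omit [Finite (RC U)] in
/-- Evaluation at `1` of the Mackey cochain: the twisted restriction of the conjugate of `z`
by `R.r g₀`. -/
theorem sh₂_mackeyCochain (z : U × U → Rep.res U.subtype M) :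
    sh₂ (locSub U ι g₀) (Rep.res (locSub U ι g₀).subtype (Rep.res ι M))
        (mackeyCochain M ι R g₀ z) =
      tw₂ U M ι g₀ (innerTw (Rep.res U.subtype M) (R.r g₀) z) := by
  funext p
  obtain ⟨a, b⟩ := p
  have e1 : g₀ * ι (1 : Γ) = g₀ := by rw [map_one, mul_one]
  have h1 : R.r (g₀ * ι (a : Γ)) = conjHom U ι g₀ a * R.r g₀ := by
    have := retr_r_mul_conj ι R g₀ a 1
    rwa [mul_one, e1] at this
  have h2 : R.r (g₀ * ι (a : Γ) * ι (b : Γ)) = conjHom U ι g₀ a * conjHom U ι g₀ b * R.r g₀ := by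
    have := retr_r_mul_conj ι R g₀ (a * b) 1
    rw [mul_one, e1, map_mul, Subgroup.coe_mul, map_mul, ← mul_assoc] at this
    exact this
  have hu1 : R.uu g₀ (ι (a : Γ)) = (R.r g₀)⁻¹ * conjHom U ι g₀ a * R.r g₀ := by
    show (R.r g₀)⁻¹ * R.r (g₀ * ι (a : Γ)) = _
    rw [h1, mul_assoc]
  have hu2 : R.uu (g₀ * ι (a : Γ)) (ι (b : Γ)) = (R.r g₀)⁻¹ * conjHom U ι g₀ b * R.r g₀ := by
    show (R.r (g₀ * ι (a : Γ)))⁻¹ * R.r (g₀ * ι (a : Γ) * ι (b : Γ)) = _
    rw [h1, h2]
    group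
  show M.ρ g₀⁻¹ (M.ρ (R.r (g₀ * ι (1 : Γ)) : G)
      (z (R.uu (g₀ * ι (1 : Γ)) (ι (a : Γ)), R.uu (g₀ * ι (1 : Γ) * ι (a : Γ)) (ι (b : Γ))))) =
    M.ρ g₀⁻¹ (M.ρ (R.r g₀ : G)
      (z ((R.r g₀)⁻¹ * conjHom U ι g₀ a * R.r g₀, (R.r g₀)⁻¹ * conjHom U ι g₀ b * R.r g₀)))
  rw [e1, hu1, hu2]

variable (Rl : Retr (locSub U ι g₀))

/-- The local primitive at the double coset of `g₀`. -/
noncomputable def mackeyPrim₁ (z : U × U → Rep.res U.subtype M) : Γ → Rep.res ι M :=
  fun γ =>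
    cores₁ (Rep.res ι M) Rl (tw₁ U M ι g₀ (innerHom (Rep.res U.subtype M) (R.r g₀) z)) γ
      - nrm (locSub U ι g₀) (Rep.res ι M)
          (hom₁ (Rep.res (locSub U ι g₀).subtype (Rep.res ι M)) Rl (mackeyCochain M ι R g₀ z) γ)

/-- The double coset formula at one double coset. -/
theorem nrm_mackeyCochain {z : U × U → Rep.res U.subtype M}
    (hz : z ∈ cocycles₂ (Rep.res U.subtype M)) :
    (fun p : Γ × Γ => nrm (locSub U ι g₀) (Rep.res ι M) (mackeyCochain M ι R g₀ z p)) =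
      cores₂ (Rep.res ι M) Rl (tw₂ U M ι g₀ z)
        + (d₁₂ (Rep.res ι M)).hom (mackeyPrim₁ M ι R g₀ Rl z) := by
  have hc := mackeyCochain_mem_cocycles₂ M ι R g₀ hz
  have hc0 : (d₂₃ (Rep.coind (locSub U ι g₀).subtype
      (Rep.res (locSub U ι g₀).subtype (Rep.res ι M)))).hom (mackeyCochain M ι R g₀ z) = 0 :=
    LinearMap.mem_ker.mp hc
  have h1 := ind₂_sh₂_sub Rl (mackeyCochain M ι R g₀ z)
  rw [hc0, map_zero, add_zero, sh₂_mackeyCochain] at h1
  have h2 : innerTw (Rep.res U.subtype M) (R.r g₀) z =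
      z + (d₁₂ (Rep.res U.subtype M)).hom (innerHom (Rep.res U.subtype M) (R.r g₀) z) := by
    rw [← innerTw_sub (Rep.res U.subtype M) (R.r g₀) hz]; abel
  rw [h2, map_add, tw₂_d₁₂, map_add, ind₂_d₁₂] at h1
  -- h1 : ind₂ (tw₂ z) + d (ind₁ (tw₁ κ)) - c = d (hom₁ c)
  have h3 : mackeyCochain M ι R g₀ z =
      ind₂ (Rep.res (locSub U ι g₀).subtype (Rep.res ι M)) Rl (tw₂ U M ι g₀ z)
        + (d₁₂ (Rep.coind (locSub U ι g₀).subtype
            (Rep.res (locSub U ι g₀).subtype (Rep.res ι M)))).hom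
          (ind₁ (Rep.res (locSub U ι g₀).subtype (Rep.res ι M)) Rl
              (tw₁ U M ι g₀ (innerHom (Rep.res U.subtype M) (R.r g₀) z))
            - hom₁ (Rep.res (locSub U ι g₀).subtype (Rep.res ι M)) Rl
                (mackeyCochain M ι R g₀ z)) := by
    rw [map_sub, ← h1]; abel
  have h4 := nrm_d₁₂ (U := locSub U ι g₀) (Rep.res ι M)
    (ind₁ (Rep.res (locSub U ι g₀).subtype (Rep.res ι M)) Rl
        (tw₁ U M ι g₀ (innerHom (Rep.res U.subtype M) (R.r g₀) z))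
      - hom₁ (Rep.res (locSub U ι g₀).subtype (Rep.res ι M)) Rl (mackeyCochain M ι R g₀ z))
  have h5 : (fun γ : Γ => nrm (locSub U ι g₀) (Rep.res ι M)
      ((ind₁ (Rep.res (locSub U ι g₀).subtype (Rep.res ι M)) Rl
        (tw₁ U M ι g₀ (innerHom (Rep.res U.subtype M) (R.r g₀) z))
      - hom₁ (Rep.res (locSub U ι g₀).subtype (Rep.res ι M)) Rl (mackeyCochain M ι R g₀ z)) γ)) =
      mackeyPrim₁ M ι R g₀ Rl z := by
    funext γ
    rw [Pi.sub_apply, map_sub]
    rfl
  rw [h5] at h4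
  rw [← h4]
  funext p
  conv_lhs => rw [h3]
  rw [Pi.add_apply, map_add]
  rfl

variable {I : Type} [Fintype I] (g : I → G) (Rls : ∀ i, Retr (locSub U ι (g i)))

/-- The primitive in the double coset formula. -/
noncomputable def mackeyPrim (z : U × U → Rep.res U.subtype M) : Γ → Rep.res ι M :=
  fun γ => ∑ i, mackeyPrim₁ M ι R (g i) (Rls i) z γ

/-- **The double coset formula on cochains.**  For a 2-cocycle `z` of `U`, the restriction along
`ι` of its corestriction to `G` is the sum over the double cosets `U g ι(Γ)` of the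
corestrictions of the twisted restrictions of `z`, up to an explicit coboundary. -/
theorem cores₂_comp_eq_sum {g : I → G} (hg : IsDCReps U ι g) (Rls : ∀ i, Retr (locSub U ι (g i)))
    {z : U × U → Rep.res U.subtype M} (hz : z ∈ cocycles₂ (Rep.res U.subtype M)) :
    (fun p : Γ × Γ => cores₂ M R z (ι p.1, ι p.2)) =
      (∑ i, cores₂ (Rep.res ι M) (Rls i) (tw₂ U M ι (g i) z))
        + (d₁₂ (Rep.res ι M)).hom (mackeyPrim M ι R g Rls z) := by
  have h1 : mackeyPrim M ι R g Rls z = ∑ i, mackeyPrim₁ M ι R (g i) (Rls i) z := by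
    funext γ
    rw [Finset.sum_apply]
    rfl
  rw [h1, map_sum, ← Finset.sum_add_distrib]
  funext p
  rw [Finset.sum_apply, cores₂_apply, nrm_eq_sum_evTw M ι hg]
  refine Finset.sum_congr rfl fun i _ => ?_
  exact congrFun (nrm_mackeyCochain M ι R (g i) (Rls i) hz) p

end Mackey

/-! ### Levels in the double coset formula -/

section MackeyLevel

variable {U : Subgroup G} [Finite (RC U)] (M : Rep.{0} k G) (ι : Γ →* G) (R : Retr U) (g₀ : G)
  {N : Subgroup G} [hN : N.Normal] (hNU : N ≤ U)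

include hN hNU

omit [Finite (RC U)] in
theorem rinv₂_mackeyCochain {z : U × U → Rep.res U.subtype M}
    (hz : RInv₂ (N.subgroupOf U) z) : RInv₂ (N.comap ι) (mackeyCochain M ι R g₀ z) := by
  intro γ γ' s s' hs hs'
  show evTw U M ι g₀ (ind₂ (Rep.res U.subtype M) R z (ι (γ * s), ι (γ' * s'))) =
    evTw U M ι g₀ (ind₂ (Rep.res U.subtype M) R z (ι γ, ι γ'))
  rw [map_mul, map_mul, rinv₂_ind₂ R hNU hz (ι γ) (ι γ') (ι s) (ι s')
    (Subgroup.mem_comap.mp hs) (Subgroup.mem_comap.mp hs')]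

theorem rinv₂_cores₂_tw₂ (Rl : Retr (locSub U ι g₀)) {z : U × U → Rep.res U.subtype M}
    (hz : RInv₂ (N.subgroupOf U) z) :
    RInv₂ (N.comap ι) (cores₂ (Rep.res ι M) Rl (tw₂ U M ι g₀ z)) :=
  rinv₂_cores₂ (Rep.res ι M) Rl (comap_le_locSub U ι g₀ hNU) (rinv₂_tw₂ U M ι g₀ hz)

theorem rinv₁_mackeyPrim₁ (Rl : Retr (locSub U ι g₀)) {z : U × U → Rep.res U.subtype M}
    (hz : RInv₂ (N.subgroupOf U) z) : RInv₁ (N.comap ι) (mackeyPrim₁ M ι R g₀ Rl z) := by
  intro γ s hs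
  have h1 := rinv₁_cores₁ (Rep.res ι M) Rl (comap_le_locSub U ι g₀ hNU)
    (rinv₁_tw₁ U M ι g₀ (rinv₁_innerHom (Rep.res U.subtype M) (R.r g₀) hz)) γ s hs
  have h2 := rinv₁_hom₁ Rl (comap_le_locSub U ι g₀ hNU)
    (rinv₂_mackeyCochain M ι R g₀ hNU hz) γ s hs
  show cores₁ (Rep.res ι M) Rl (tw₁ U M ι g₀ (innerHom (Rep.res U.subtype M) (R.r g₀) z)) (γ * s)
      - nrm (locSub U ι g₀) (Rep.res ι M)
          (hom₁ (Rep.res (locSub U ι g₀).subtype (Rep.res ι M)) Rl
            (mackeyCochain M ι R g₀ z) (γ * s)) =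
    cores₁ (Rep.res ι M) Rl (tw₁ U M ι g₀ (innerHom (Rep.res U.subtype M) (R.r g₀) z)) γ
      - nrm (locSub U ι g₀) (Rep.res ι M)
          (hom₁ (Rep.res (locSub U ι g₀).subtype (Rep.res ι M)) Rl
            (mackeyCochain M ι R g₀ z) γ)
  rw [h1, h2]

theorem rinv₁_mackeyPrim {I : Type} [Fintype I] (g : I → G)
    (Rls : ∀ i, Retr (locSub U ι (g i))) {z : U × U → Rep.res U.subtype M}
    (hz : RInv₂ (N.subgroupOf U) z) : RInv₁ (N.comap ι) (mackeyPrim M ι R g Rls z) := by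
  intro γ s hs
  show ∑ i, mackeyPrim₁ M ι R (g i) (Rls i) z (γ * s) = ∑ i, mackeyPrim₁ M ι R (g i) (Rls i) z γ
  refine Finset.sum_congr rfl fun i _ => ?_
  exact rinv₁_mackeyPrim₁ M ι R (g i) hNU (Rls i) hz γ s hs

end MackeyLevel

end Fermat.Agent.CFT.Rec.MackeyCores
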