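import Fermat.Agent.CFT.Rec.Glob
import Fermat.Agent.Lib.AuxPrime

/-!
# REC-MAIN: reciprocity over `ℚ` for `H²(G_ℚ, μ_p)`, assembly

`recFinal_of` : from the inputs `LocLine p` (LOC (C)), `HasseRes p` (HP), `LocSym p` and
`TameLoc p` (REC-LOC / REC-TAME), the output `RecFinal p`: one family of local functionals
`lam q`, all primes `q`, with `∑_{q ∈ T} lam q (res_q z) = 0` for every level-`T` cocycle `z`.

Proof: choose an auxiliary prime `ℓ ∉ T`, `ℓ ≡ 1 mod p`, such that no `q ∈ T` is a `p`-th power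
mod `ℓ` (`Lib/AuxPrime`), and `ψ : (ℤ/ℓ)ˣ ↠ ℤ/p`.  By REC-GLOB, `z = χ_{ℓ,ψ} ∪ κ_b + d y`.  For
`q ≠ ℓ` the symbol formula gives `lam q (res_q z) = v_q(b) ψ(q)`; for `q ∉ T` this vanishes
(UR), so `∑_{q ∈ T} lam q (res_q z) = Ψ_{ℓ,ψ}(b)`, and `Ψ_{ℓ,ψ}(b) = 0` by `TameLoc` since `z` is
locally trivial at `ℓ`.
-/

set_option autoImplicit false

open CategoryTheory groupCohomology ExtCitation

namespace Fermat.Agent.CFT.Rec

local notation "Qb" => AlgebraicClosure ℚ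
local notation "GQ" => (AlgebraicClosure ℚ ≃ₐ[ℚ] AlgebraicClosure ℚ)

variable (p : ℕ) [Fact p.Prime]

/-- If `ψ` is surjective and `a` is not a `p`-th power mod `ℓ` then `ψ(a) ≠ 0`. -/
theorem psi0_ne_zero_of_not_pow (ℓ : ℕ) [Fact ℓ.Prime] (ψ : (ZMod ℓ)ˣ →* Multiplicative (ZMod p))
    (hψ : Function.Surjective ψ) (a : ZMod ℓ) (ha : ∀ y : ZMod ℓ, y ^ p ≠ a) :
    Core.psi0 ℓ ψ a ≠ 0 := by
  intro h0
  have ha0 : a ≠ 0 := by
    intro h
    exact ha 0 (by rw [h, zero_pow (Fact.out : p.Prime).ne_zero])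
  rw [Core.psi0_of_ne ψ ha0] at h0
  obtain ⟨g, hg⟩ := IsCyclic.exists_generator (α := (ZMod ℓ)ˣ)
  obtain ⟨k, hk⟩ := Subgroup.mem_zpowers_iff.1 (hg (Units.mk0 a ha0))
  -- `ψ g ≠ 1`
  have hψg : Multiplicative.toAdd (ψ g) ≠ 0 := by
    intro h1
    obtain ⟨u, hu⟩ := hψ (Multiplicative.ofAdd 1)
    obtain ⟨j, hj⟩ := Subgroup.mem_zpowers_iff.1 (hg u)
    have h2 : Multiplicative.toAdd (ψ u) = 1 := by rw [hu]; rfl
    rw [← hj, map_zpow, toAdd_zpow, h1, smul_zero] at h2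
    exact zero_ne_one h2
  have h3 : (k : ZMod p) = 0 := by
    rw [← hk, map_zpow, toAdd_zpow, zsmul_eq_mul] at h0
    exact (mul_eq_zero.1 h0).resolve_right hψg
  obtain ⟨m, hm⟩ := (ZMod.intCast_zmod_eq_zero_iff_dvd k p).1 h3
  apply ha (((g ^ m : (ZMod ℓ)ˣ) : (ZMod ℓ)ˣ) : ZMod ℓ)
  have h4 : (g ^ m) ^ p = Units.mk0 a ha0 := by
    rw [← hk, hm, zpow_mul, ← zpow_natCast, ← zpow_mul, ← zpow_mul, mul_comm]
  have h5 := congrArg (fun u : (ZMod ℓ)ˣ => (u : ZMod ℓ)) h4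
  simpa using h5

/-- **REC-MAIN.** Reciprocity over `ℚ` from the local and Hasse-principle inputs. -/
theorem recFinal_of (hp2 : p ≠ 2) (hLine : LocLine p) (hHP : HasseRes p) (hSym : LocSym p)
    (hTame : TameLoc p) : RecFinal p := by
  classical
  have hp : p.Prime := Fact.out
  have hSym' := hSym
  choose lam hcob hsym using hSym
  refine ⟨lam, hcob, ?_, fun q ℓ _ ψ b c h1 h2 h3 => hsym q ℓ ψ b c h1 h2 h3, ?_⟩
  · -- nonvanishing
    intro q
    obtain ⟨ℓ, hℓ, -, hℓQ, -, hpℓ, hpow⟩ :=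
      Fermat.Agent.Lib.AuxPrime.exists_prime_one_mod_forall_not_pow hp ∅ {(q : ℕ)}
        (fun x hx => by rw [Finset.mem_singleton] at hx; rw [hx]; exact q.2)
    have : Fact ℓ.Prime := ⟨hℓ⟩
    have hℓq : ℓ ≠ (q : ℕ) := fun h => hℓQ (by rw [h]; exact Finset.mem_singleton_self _)
    obtain ⟨ψ, hψ⟩ := Cyclo.exists_surjective_hom (ℓ := ℓ) p hpℓ
    have hq0 : ((q : ℕ) : ℚ) ≠ 0 := by exact_mod_cast q.2.ne_zero
    obtain ⟨c, hc⟩ := exists_isKummerCocycle p ((q : ℕ) : ℚ) hq0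
    refine ⟨resAt p q (cupG p (chiAdd p ℓ ψ) c), resAt_mem_levelCocycles₂ p q
      (cupG_mem_levelCocycles₂ p _ (chiAdd_mul p ℓ ψ) (chiAdd_isLevelConstant p ℓ ψ) c
        (hc.mem_cocycles₁ hq0) (hc.isLevelConstant hq0)), ?_⟩
    rw [hsym q ℓ ψ _ c hℓq hq0 hc]
    have hv : padicValRat (q : ℕ) ((q : ℕ) : ℚ) = 1 := by
      have : Fact (q : ℕ).Prime := ⟨q.2⟩
      exact padicValRat.self q.2.one_lt
    rw [hv, Int.cast_one, one_mul]
    exact psi0_ne_zero_of_not_pow p ℓ ψ hψ _ (hpow (q : ℕ) (Finset.mem_singleton_self _))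
  · -- reciprocity
    intro T hpT z hz hzT
    have hzc : z ∈ cocycles₂ (mu p) := hz
    have hzlev : z ∈ levelCocycles₂ (MonoidHom.id GQ) (mu p) := ⟨hzc, hzT.isLevelConstant₂⟩
    obtain ⟨ℓ, hℓ, -, hℓQ, -, hpℓ, hpow⟩ :=
      Fermat.Agent.Lib.AuxPrime.exists_prime_one_mod_forall_not_pow hp ∅
        (T.image (fun q : Nat.Primes => (q : ℕ)))
        (fun x hx => by
          obtain ⟨q, -, rfl⟩ := Finset.mem_image.1 hx
          exact q.2)
    have : Fact ℓ.Prime := ⟨hℓ⟩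
    have hℓT : ∀ q ∈ T, ℓ ≠ ((q : Nat.Primes) : ℕ) := fun q hq h =>
      hℓQ (by rw [h]; exact Finset.mem_image_of_mem _ hq)
    obtain ⟨ψ, hψ⟩ := Cyclo.exists_surjective_hom (ℓ := ℓ) p hpℓ
    -- `z` is a symbol
    obtain ⟨b, hb, c, hc, hdiff⟩ := exists_symbol p ℓ hLine hHP hSym' ψ hψ z hzlev (by
      intro q
      by_cases hq : q ∈ T
      · right
        exact ⟨hℓT q hq, psi0_ne_zero_of_not_pow p ℓ ψ hψ _
          (hpow (q : ℕ) (Finset.mem_image_of_mem _ hq))⟩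
      · left
        exact resAt_mem_levelCoboundaries₂_of_notMem p T hpT q hq hzc hzT)
    -- local comparison
    have hloc : ∀ q : Nat.Primes,
        lam q (resAt p q z) = lam q (resAt p q (cupG p (chiAdd p ℓ ψ) c)) := by
      intro q
      have h1 := resAt_mem_levelCoboundaries₂ p q hdiff
      obtain ⟨y, hy, hd⟩ := (mem_levelCoboundaries₂_iff _ _ _).1 h1
      have h2 := hcob q y hy
      rw [hd, map_sub, map_sub, sub_eq_zero] at h2
      exact h2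
    have hformula : ∀ q : Nat.Primes, ℓ ≠ (q : ℕ) →
        lam q (resAt p q z) =
          (padicValRat (q : ℕ) b : ZMod p) * Core.psi0 ℓ ψ ((q : ℕ) : ZMod ℓ) := by
      intro q hq
      rw [hloc q, hsym q ℓ ψ b c hq hb hc]
    have hvanish : ∀ q : Nat.Primes, q ∉ T → lam q (resAt p q z) = 0 := by
      intro q hq
      obtain ⟨y, hy, hd⟩ := (mem_levelCoboundaries₂_iff _ _ _).1
        (resAt_mem_levelCoboundaries₂_of_notMem p T hpT q hq hzc hzT)
      rw [← hd, hcob q y hy]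
    -- the sum is `Ψ(b)`
    have hsum : ∑ q ∈ T, lam q (resAt p q z) = Core.Psi ℓ ψ b := by
      rw [Core.Psi]
      rw [finsum_eq_sum_of_support_subset (s := T)]
      · refine Finset.sum_congr rfl fun q hq => ?_
        rw [if_neg (fun h => hℓT q hq h.symm), hformula q (hℓT q hq)]
      · intro q hq
        rw [Function.mem_support] at hq
        by_contra hqT
        apply hq
        by_cases hqℓ : (q : ℕ) = ℓ
        · rw [if_pos hqℓ]
        · rw [if_neg hqℓ, ← hformula q (fun h => hqℓ h.symm), hvanish q hqT]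
    rw [hsum]
    -- `Ψ(b) = 0` by the tame norm theorem at `ℓ`
    have hℓnot : (⟨ℓ, Fact.out⟩ : Nat.Primes) ∉ T := fun h => hℓT _ h rfl
    refine hTame hp2 ℓ ψ hψ b c hb hc ?_
    have h1 := resAt_mem_levelCoboundaries₂_of_notMem p T hpT ⟨ℓ, Fact.out⟩ hℓnot hzc hzT
    have h2 := resAt_mem_levelCoboundaries₂ p ⟨ℓ, Fact.out⟩ hdiff
    have h3 := Submodule.sub_mem _ h1 h2
    rw [map_sub, sub_sub_cancel] at h3
    exact h3

end Fermat.Agent.CFT.Rec
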