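import Fermat.Agent.CFT.Rec.Defs
import Fermat.Agent.CFT.LocalBr.Cup

/-!
# REC-SYM, proofs: global Kummer cocycles and cup products on `G_ℚ`

The seven statements of `Rec/Sym.lean` (row REC-SYM), proved under the namespace `SymCup`.
Two of them (`mem_cocycles₁`, `isLevelConstant`) carry the extra hypothesis `b ≠ 0`: for `b = 0`
the predicate `IsKummerCocycle p 0 c` holds for every function `c` (take `β = 0`).

* `zeta_pow_*`              : powers `ζ ^ a.val`, `a ∈ 𝔽_p` (additivity, injectivity, Galois action).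
* `exists_isKummerCocycle`, `mem_cocycles₁`, `isLevelConstant`, `mul`, `exists_sub_eq`.
* `cupG_mem_levelCocycles₂`, `cupG_dZero_mem_levelCoboundaries₂`.
-/

set_option autoImplicit false

open CategoryTheory groupCohomology ExtCitation

namespace Fermat.Agent.CFT.Rec.SymCup

local notation "Qb" => AlgebraicClosure ℚ
local notation "GQ" => (AlgebraicClosure ℚ ≃ₐ[ℚ] AlgebraicClosure ℚ)

variable (p : ℕ) [Fact p.Prime]

/-! ### Powers of `ζ` indexed by `𝔽_p` -/

theorem zeta_pow_natCast (n : ℕ) :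
    LocalBr.zetaQb p ^ ((n : ZMod p)).val = LocalBr.zetaQb p ^ n := by
  rw [ZMod.val_natCast]
  exact (pow_eq_pow_mod n (LocalBr.isPrimitiveRoot_zetaQb p).pow_eq_one).symm

theorem zeta_pow_add (a b : ZMod p) :
    LocalBr.zetaQb p ^ (a + b).val = LocalBr.zetaQb p ^ a.val * LocalBr.zetaQb p ^ b.val := by
  have : NeZero p := ⟨(Fact.out : p.Prime).ne_zero⟩
  have h : a + b = ((a.val + b.val : ℕ) : ZMod p) := by
    rw [Nat.cast_add, ZMod.natCast_zmod_val, ZMod.natCast_zmod_val]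
  rw [h, zeta_pow_natCast, pow_add]

theorem zeta_pow_mul (a b : ZMod p) :
    LocalBr.zetaQb p ^ (a * b).val = (LocalBr.zetaQb p ^ a.val) ^ b.val := by
  have : NeZero p := ⟨(Fact.out : p.Prime).ne_zero⟩
  have h : a * b = ((a.val * b.val : ℕ) : ZMod p) := by
    rw [Nat.cast_mul, ZMod.natCast_zmod_val, ZMod.natCast_zmod_val]
  rw [h, zeta_pow_natCast, pow_mul]

theorem zeta_pow_injective {a b : ZMod p}
    (h : LocalBr.zetaQb p ^ a.val = LocalBr.zetaQb p ^ b.val) : a = b := by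
  have : NeZero p := ⟨(Fact.out : p.Prime).ne_zero⟩
  exact ZMod.val_injective p
    ((LocalBr.isPrimitiveRoot_zetaQb p).pow_inj (ZMod.val_lt a) (ZMod.val_lt b) h)

theorem exists_zeta_pow {u : Qb} (hu : u ^ p = 1) :
    ∃ a : ZMod p, LocalBr.zetaQb p ^ a.val = u := by
  have : NeZero p := ⟨(Fact.out : p.Prime).ne_zero⟩
  obtain ⟨i, hi, rfl⟩ := (LocalBr.isPrimitiveRoot_zetaQb p).eq_pow_of_pow_eq_one hu
  exact ⟨(i : ZMod p), by rw [ZMod.val_natCast_of_lt hi]⟩

theorem apply_zeta_pow (σ : GQ) (a : ZMod p) :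
    σ (LocalBr.zetaQb p ^ a.val) =
      LocalBr.zetaQb p ^ (((cycloChar p σ : (ZMod p)ˣ) : ZMod p) * a).val := by
  rw [map_pow, LocalBr.cycloChar_spec p σ (LocalBr.isPrimitiveRoot_zetaQb p).pow_eq_one,
    zeta_pow_mul]

/-! ### Kummer cocycles, `𝔽_p`-valued form -/

/-- The Kummer relation in `𝔽_p`-valued form. -/
def IsKum (β : Qb) (c : GQ → ZMod p) : Prop :=
  ∀ σ : GQ, σ β = LocalBr.zetaQb p ^ (c σ).val * β

variable {p}

theorem IsKum.apply_mul {β : Qb} (hβ0 : β ≠ 0) {c : GQ → ZMod p} (hc : IsKum p β c) (σ τ : GQ) :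
    c (σ * τ) = ((cycloChar p σ : (ZMod p)ˣ) : ZMod p) * c τ + c σ := by
  apply zeta_pow_injective p
  have h1 : (σ * τ) β = σ (τ β) := rfl
  have h2 := hc (σ * τ)
  rw [h1, hc τ, map_mul, apply_zeta_pow, hc σ, ← mul_assoc, ← zeta_pow_add] at h2
  exact (mul_right_cancel₀ hβ0 h2).symm

theorem IsKum.eq_zero_of_fixed {β : Qb} (hβ0 : β ≠ 0) {c : GQ → ZMod p} (hc : IsKum p β c)
    {s : GQ} (hs : s β = β) : c s = 0 := by
  apply zeta_pow_injective p
  have h2 := hc s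
  rw [hs] at h2
  rw [ZMod.val_zero, pow_zero]
  have h3 : LocalBr.zetaQb p ^ (c s).val * β = 1 * β := by rw [one_mul]; exact h2.symm
  exact mul_right_cancel₀ hβ0 h3

theorem ne_zero_of_pow_eq {b : ℚ} (hb : b ≠ 0) {β : Qb} (hβ : β ^ p = algebraMap ℚ Qb b) :
    β ≠ 0 := by
  have hp : p.Prime := Fact.out
  rintro rfl
  rw [zero_pow hp.ne_zero] at hβ
  exact hb ((map_eq_zero (algebraMap ℚ Qb)).1 hβ.symm)

variable (p)

/-- Kummer cocycles exist. -/
theorem exists_isKummerCocycle (b : ℚ) (hb : b ≠ 0) : ∃ c : GQ → mu p, IsKummerCocycle p b c := by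
  have hp : p.Prime := Fact.out
  obtain ⟨β, hβ⟩ := IsAlgClosed.exists_pow_nat_eq (algebraMap ℚ Qb b) hp.pos
  have hβ0 : β ≠ 0 := ne_zero_of_pow_eq hb hβ
  have hu : ∀ σ : GQ, (σ β / β) ^ p = 1 := by
    intro σ
    rw [div_pow, ← map_pow, hβ, AlgEquiv.commutes, div_self]
    rw [← hβ]
    exact pow_ne_zero _ hβ0
  choose c hc using fun σ => exists_zeta_pow p (hu σ)
  refine ⟨c, β, hβ, fun σ => ?_⟩
  have h := hc σ
  show σ β = LocalBr.zetaQb p ^ (c σ).val * β
  rw [h, div_mul_cancel₀ _ hβ0]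

variable {p}

/-- A Kummer cocycle of `b ≠ 0` is a `1`-cocycle with values in `μ_p`. -/
theorem mem_cocycles₁ {b : ℚ} (hb : b ≠ 0) {c : GQ → mu p} (h : IsKummerCocycle p b c) :
    c ∈ cocycles₁ (mu p) := by
  obtain ⟨β, hβ, hc⟩ := h
  have hβ0 : β ≠ 0 := ne_zero_of_pow_eq hb hβ
  rw [mem_cocycles₁_iff]
  intro σ τ
  exact IsKum.apply_mul (c := c) hβ0 hc σ τ

/-- A Kummer cocycle of `b ≠ 0` is level-constant. -/
theorem isLevelConstant {b : ℚ} (hb : b ≠ 0) {c : GQ → mu p} (h : IsKummerCocycle p b c) :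
    IsLevelConstant₁ (MonoidHom.id GQ) c := by
  obtain ⟨β, hβ, hc⟩ := h
  have hβ0 : β ≠ 0 := ne_zero_of_pow_eq hb hβ
  have hint : IsIntegral ℚ β := ((AlgebraicClosure.isAlgebraic ℚ).isAlgebraic β).isIntegral
  refine ⟨IntermediateField.adjoin ℚ {β}, IntermediateField.adjoin.finiteDimensional hint,
    fun g s hs => ?_⟩
  have hsβ : s β = β :=
    (IntermediateField.mem_fixingSubgroup_iff _ _).1 hs β
      (IntermediateField.mem_adjoin_simple_self ℚ β)
  have h0 : (c s : ZMod p) = 0 := IsKum.eq_zero_of_fixed (c := c) hβ0 hc hsβ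
  have h1 := IsKum.apply_mul (c := c) hβ0 hc g s
  rw [h0, mul_zero, zero_add] at h1
  exact h1

/-- Kummer cocycles are additive in `b`. -/
theorem mul {b b' : ℚ} {c c' : GQ → mu p} (h : IsKummerCocycle p b c)
    (h' : IsKummerCocycle p b' c') : IsKummerCocycle p (b * b') (c + c') := by
  obtain ⟨β, hβ, hc⟩ := h
  obtain ⟨β', hβ', hc'⟩ := h'
  refine ⟨β * β', by rw [mul_pow, hβ, hβ', map_mul], fun σ => ?_⟩
  have h1 := hc σ
  have h2 := hc' σ
  show σ (β * β') = LocalBr.zetaQb p ^ ((c σ : ZMod p) + (c' σ : ZMod p)).val * (β * β')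
  rw [map_mul, h1, h2, zeta_pow_add]
  ring

/-- Two Kummer cocycles of the same `b ≠ 0` differ by a coboundary. -/
theorem exists_sub_eq {b : ℚ} (hb : b ≠ 0) {c c' : GQ → mu p}
    (h : IsKummerCocycle p b c) (h' : IsKummerCocycle p b c') :
    ∃ m : mu p, ∀ σ : GQ, c' σ - c σ = (mu p).ρ σ m - m := by
  obtain ⟨β, hβ, hc⟩ := h
  obtain ⟨β', hβ', hc'⟩ := h'
  have hβ0 : β ≠ 0 := ne_zero_of_pow_eq hb hβ
  have hu : (β' / β) ^ p = 1 := by
    rw [div_pow, hβ, hβ', div_self]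
    rw [← hβ]
    exact pow_ne_zero _ hβ0
  obtain ⟨a, ha⟩ := exists_zeta_pow p hu
  have hβ' : β' = LocalBr.zetaQb p ^ a.val * β := by rw [ha, div_mul_cancel₀ _ hβ0]
  refine ⟨a, fun σ => ?_⟩
  have h1 := hc σ
  have h2 := hc' σ
  have key : (c' σ : ZMod p) + a = ((cycloChar p σ : (ZMod p)ˣ) : ZMod p) * a + (c σ : ZMod p) := by
    apply zeta_pow_injective p
    rw [hβ', map_mul, apply_zeta_pow, h1, ← mul_assoc, ← mul_assoc, ← zeta_pow_add,
      ← zeta_pow_add] at h2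
    exact (mul_right_cancel₀ hβ0 h2).symm
  show (c' σ : ZMod p) - (c σ : ZMod p) = ((cycloChar p σ : (ZMod p)ˣ) : ZMod p) * a - a
  linear_combination key

variable (p)

/-! ### Cup products -/

/-- Elements of `G_ℚ` fixing `ℚ(μ_p)` act trivially on `μ_p`. -/
theorem mu_ρ_eq_of_mem {s : GQ} (hs : s ∈ (LocalBr.Cup.muField p).fixingSubgroup) (x : mu p) :
    (mu p).ρ s x = x := by
  rw [mu_ρ_apply, LocalBr.Cup.cycloChar_eq_one_of_mem_fixingSubgroup p hs, Units.val_one, one_smul]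

/-- `cupG p χ c` is a `2`-cocycle for an additive `χ` and a `1`-cocycle `c`. -/
theorem cupG_mem_cocycles₂ (χ : GQ → ZMod p) (hχ : ∀ s t, χ (s * t) = χ s + χ t)
    (c : GQ → mu p) (hc : c ∈ cocycles₁ (mu p)) : cupG p χ c ∈ cocycles₂ (mu p) := by
  rw [mem_cocycles₂_iff]
  intro g h j
  have hc' := (mem_cocycles₁_iff c).1 hc h j
  simp only [cupG_apply]
  rw [hχ, hc', map_smul, map_add, map_mul, Module.End.mul_apply, add_smul, smul_add]
  abel

/-- `cupG p χ c` is level-constant when `χ` and `c` are. -/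
theorem cupG_isLevelConstant₂ (χ : GQ → ZMod p) (hχl : IsLevelConstant₁ (MonoidHom.id GQ) χ)
    (c : GQ → mu p) (hcl : IsLevelConstant₁ (MonoidHom.id GQ) c) :
    IsLevelConstant₂ (MonoidHom.id GQ) (cupG p χ c) := by
  obtain ⟨F₁, hF₁, h₁⟩ := hχl
  obtain ⟨F₂, hF₂, h₂⟩ := hcl
  have := hF₁; have := hF₂
  have := LocalBr.Cup.finiteDimensional_muField p
  refine ⟨F₁ ⊔ F₂ ⊔ LocalBr.Cup.muField p, inferInstance, fun g g' s s' hs hs' => ?_⟩
  have hs₁ : s ∈ F₁.fixingSubgroup :=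
    IntermediateField.fixingSubgroup_antitone (le_sup_left.trans le_sup_left) hs
  have hs₂' : s' ∈ F₂.fixingSubgroup :=
    IntermediateField.fixingSubgroup_antitone (le_sup_right.trans le_sup_left) hs'
  have hs₃ : s ∈ (LocalBr.Cup.muField p).fixingSubgroup :=
    IntermediateField.fixingSubgroup_antitone le_sup_right hs
  simp only [cupG_apply]
  rw [h₁ g s hs₁, h₂ g' s' hs₂', map_mul, Module.End.mul_apply, mu_ρ_eq_of_mem p hs₃]

/-- The cup product of a level-constant character and a level-constant `1`-cocycle is a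
level-constant `2`-cocycle. -/
theorem cupG_mem_levelCocycles₂ (χ : GQ → ZMod p) (hχ : ∀ s t, χ (s * t) = χ s + χ t)
    (hχl : IsLevelConstant₁ (MonoidHom.id GQ) χ) (c : GQ → mu p) (hc : c ∈ cocycles₁ (mu p))
    (hcl : IsLevelConstant₁ (MonoidHom.id GQ) c) :
    cupG p χ c ∈ levelCocycles₂ (MonoidHom.id GQ) (mu p) :=
  (mem_levelCocycles₂_iff _ _ _).2
    ⟨cupG_mem_cocycles₂ p χ hχ c hc, cupG_isLevelConstant₂ p χ hχl c hcl⟩

/-- The cup product of a level-constant character with a `1`-coboundary is a level-constant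
`2`-coboundary. -/
theorem cupG_dZero_mem_levelCoboundaries₂ (χ : GQ → ZMod p) (hχ : ∀ s t, χ (s * t) = χ s + χ t)
    (hχl : IsLevelConstant₁ (MonoidHom.id GQ) χ) (m : mu p) :
    cupG p χ (fun σ => (mu p).ρ σ m - m) ∈ levelCoboundaries₂ (MonoidHom.id GQ) (mu p) := by
  rw [mem_levelCoboundaries₂_iff]
  refine ⟨fun s => -(χ s • (mu p).ρ s m), ?_, ?_⟩
  · obtain ⟨F₁, hF₁, h₁⟩ := hχl
    have := hF₁
    have := LocalBr.Cup.finiteDimensional_muField p
    refine ⟨F₁ ⊔ LocalBr.Cup.muField p, inferInstance, fun g s hs => ?_⟩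
    have hs₁ : s ∈ F₁.fixingSubgroup :=
      IntermediateField.fixingSubgroup_antitone le_sup_left hs
    have hs₃ : s ∈ (LocalBr.Cup.muField p).fixingSubgroup :=
      IntermediateField.fixingSubgroup_antitone le_sup_right hs
    show -(χ (g * s) • (mu p).ρ (g * s) m) = -(χ g • (mu p).ρ g m)
    rw [h₁ g s hs₁, map_mul, Module.End.mul_apply, mu_ρ_eq_of_mem p hs₃]
  · funext ⟨g, h⟩
    rw [d₁₂_hom_apply, cupG_apply]
    show (mu p).ρ g (-(χ h • (mu p).ρ h m)) - -(χ (g * h) • (mu p).ρ (g * h) m)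
      + -(χ g • (mu p).ρ g m) = χ g • (mu p).ρ g ((mu p).ρ h m - m)
    rw [hχ, map_neg, map_smul, map_sub, map_mul, Module.End.mul_apply, add_smul, smul_sub]
    abel

end Fermat.Agent.CFT.Rec.SymCup
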